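/-
JT3 / node E (place map): abstract carriers.

* `rp_Chart A FF k Ft` : one chart of a model over a valuation ring `A ⊆ Kb`: a subring `B ⊆ FF`
  (functions integral on the chart, over `A`), a reduction map `red : B → Ft`, compatible with a
  residue map `res : A → k`.
* `rp_Level C` : a noetherian level of the chart: a DVR-like subring `O ⊆ A` with uniformiser `ϖ`
  and a noetherian subring `Bl ⊆ B` such that `red` maps `Bl` ONTO `red B` with kernel `ϖ Bl`
  (= smoothness of the special fibre + q-expansion principle at that level).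
* `rp_Chart.Fin`, `rp_Chart.InChart`, `rp_Chart.CenterAt`, `rp_Level.Rational`: the dictionary
  between places of `FF / Kb` and points of the chart.
* `rp_FunField`: the three facts on the function field `FF / Kb` that are used.
-/
import Mathlib
import Fermat.Prelude.Def_AlgebraicCurve_DivisorClassGroup

set_option autoImplicit false

namespace Fermat.Agent.JT3

open AlgebraicCurve

variable {Kb : Type*} [Field Kb] (A : ValuationSubring Kb)
variable (FF : Type*) [Field FF] [Algebra Kb FF]
variable (k : Type*) [Field k] (Ft : Type*) [Field Ft] [Algebra k Ft]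

/-- One chart of a model over the valuation ring `A`. -/
structure rp_Chart where
  /-- the residue map of `A` -/
  res : A →+* k
  res_surj : Function.Surjective res
  /-- the functions that are integral on the chart -/
  B : Subring FF
  const_mem : ∀ a : A, algebraMap Kb FF (a : Kb) ∈ B
  /-- every function is a quotient of chart functions -/
  frac : ∀ f : FF, ∃ b c : FF, b ∈ B ∧ c ∈ B ∧ c ≠ 0 ∧ f = b / c
  /-- the reduction map -/
  red : B →+* Ft
  red_const : ∀ a : A, red ⟨algebraMap Kb FF (a : Kb), const_mem a⟩ = algebraMap k Ft (res a)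

variable {A FF k Ft}

namespace rp_Chart

variable (C : rp_Chart A FF k Ft)

/-- the place `P` is finite on the chart: every chart function is regular at `P`. -/
def Fin (P : Place Kb FF) : Prop := ∀ b ∈ C.B, b ∈ P.toValuationSubring

/-- the place `P` lies in the chart: every chart function is regular at `P` with value in `A`. -/
def InChart (P : Place Kb FF) : Prop :=
  ∀ b ∈ C.B, ∃ c : A, b - algebraMap Kb FF (c : Kb) ∈ P.toValuationSubring.nonunits

/-- the place `Q` of the reduced function field is finite on the reduced chart. -/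
def FinRed (Q : Place k Ft) : Prop := ∀ b : C.B, C.red b ∈ Q.toValuationSubring

/-- `Q` is the centre of `P`: a chart function vanishes at `Q` after reduction iff its value at
`P` lies in the maximal ideal of `A`. -/
def CenterAt (P : Place Kb FF) (Q : Place k Ft) : Prop :=
  ∀ (b : C.B) (c : A), (b : FF) - algebraMap Kb FF (c : Kb) ∈ P.toValuationSubring.nonunits →
    ((c : Kb) ∈ A.nonunits ↔ C.red b ∈ Q.toValuationSubring.nonunits)

end rp_Chart

/-- A noetherian level of a chart. -/
structure rp_Level (C : rp_Chart A FF k Ft) where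
  /-- the discrete valuation ring of the level -/
  O : Subring Kb
  O_le : ∀ o ∈ O, o ∈ A
  /-- its uniformiser -/
  ϖ : Kb
  ϖ_mem : ϖ ∈ O
  ϖ_ne : ϖ ≠ 0
  ϖ_nonunit : ϖ ∈ A.nonunits
  /-- every nonzero element of `O` is a power of `ϖ` times a unit of `O` -/
  O_str : ∀ o ∈ O, o ≠ 0 → ∃ (n : ℕ) (u : Kb), u ∈ O ∧ u⁻¹ ∈ O ∧ o = ϖ ^ n * u
  /-- `Kb` is algebraic over the fraction field of `O` -/
  alg : ∀ c : Kb, ∃ p : Polynomial Kb, p ≠ 0 ∧ (∀ i, p.coeff i ∈ O) ∧ p.eval c = 0
  /-- the chart ring of the level -/
  Bl : Subring FF
  Bl_le : Bl ≤ C.B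
  const_mem : ∀ o ∈ O, algebraMap Kb FF o ∈ Bl
  noeth : IsNoetherianRing Bl
  /-- the reduction of the level ring is the whole reduced chart ring -/
  red_surj : ∀ b : C.B, ∃ b' : Bl, C.red ⟨b', Bl_le b'.2⟩ = C.red b
  /-- q-expansion principle: the kernel of the reduction is generated by `ϖ` -/
  red_ker : ∀ b : Bl, C.red ⟨b, Bl_le b.2⟩ = 0 →
    ∃ b' : Bl, (b : FF) = algebraMap Kb FF ϖ * (b' : FF)
  /-- the chart ring is integral over the level ring and the constants (form 1) -/
  fin_of_level : ∀ P : Place Kb FF, (∀ b ∈ Bl, b ∈ P.toValuationSubring) → C.Fin P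
  /-- the chart ring is integral over the level ring and `A` (form 2) -/
  inChart_of_level : ∀ P : Place Kb FF,
    (∀ b ∈ Bl, ∃ c : A, b - algebraMap Kb FF (c : Kb) ∈ P.toValuationSubring.nonunits) →
      C.InChart P

namespace rp_Level

variable {C : rp_Chart A FF k Ft}

/-- `L ≤ L'`: the level `L'` refines `L`. -/
def Le (L L' : rp_Level C) : Prop := L.O ≤ L'.O ∧ L.Bl ≤ L'.Bl

/-- the place `P` is rational at the level `L`: every function of the level has its value at `P`
in the fraction field of `L.O`. -/
def Rational (L : rp_Level C) (P : Place Kb FF) : Prop :=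
  ∀ b ∈ L.Bl, ∃ o₁ o₂ : Kb, o₁ ∈ L.O ∧ o₂ ∈ L.O ∧ o₂ ≠ 0 ∧
    b - algebraMap Kb FF (o₁ / o₂) ∈ P.toValuationSubring.nonunits

end rp_Level

/-- The chart has enough levels: there is a level containing finitely many given chart functions
and making finitely many given finite places rational. -/
structure rp_Chart.HasLevels (C : rp_Chart A FF k Ft) : Prop where
  refine : ∀ (S : Finset FF) (T : Finset (Place Kb FF)),
    (∀ b ∈ S, b ∈ C.B) → (∀ P ∈ T, C.Fin P) →
      ∃ L : rp_Level C, (∀ b ∈ S, b ∈ L.Bl) ∧ ∀ P ∈ T, L.Rational P

theorem rp_Chart.HasLevels.nonempty {C : rp_Chart A FF k Ft} (hL : C.HasLevels) :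
    Nonempty (rp_Level C) := by
  obtain ⟨L, -, -⟩ := hL.refine ∅ ∅ (by simp) (by simp)
  exact ⟨L⟩

/-- The reduced chart ring is regular of dimension one: at every place `Q` finite on the reduced
chart the centre is locally principal, and the local ring at the centre is all of `O_Q`. -/
structure rp_Chart.RedRegular (C : rp_Chart A FF k Ft) : Prop where
  /-- every element of `O_Q` is a quotient of reduced chart functions with unit denominator -/
  local_eq : ∀ Q : Place k Ft, C.FinRed Q → ∀ f ∈ Q.toValuationSubring,
    ∃ b c : C.B, C.red c ∉ Q.toValuationSubring.nonunits ∧ f * C.red c = C.red b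
  /-- every maximal ideal of the reduced chart ring is the centre of a place -/
  exists_place : ∀ I : Ideal C.B, I.IsMaximal → RingHom.ker C.red ≤ I →
    ∃ Q : Place k Ft, C.FinRed Q ∧ ∀ b : C.B, b ∈ I ↔ C.red b ∈ Q.toValuationSubring.nonunits

variable (Kb FF) in
/-- The facts on the function field `FF / Kb` used by the place map. -/
structure rp_FunField : Prop where
  /-- every nontrivial valuation ring containing the constants is a place -/
  place_of_valuationSubring : ∀ V : ValuationSubring FF, (∀ c : Kb, algebraMap Kb FF c ∈ V) →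
    V ≠ ⊤ → ∃ P : Place Kb FF, P.toValuationSubring = V
  /-- a nonzero function has finitely many zeros -/
  finite_zeros : ∀ f : FF, f ≠ 0 → {P : Place Kb FF | 0 < P.ord f}.Finite
  /-- places are rational: every regular function has a value in `Kb` -/
  exists_value : ∀ (P : Place Kb FF) (f : FF), f ∈ P.toValuationSubring →
    ∃ c : Kb, f - algebraMap Kb FF c ∈ P.toValuationSubring.nonunits

end Fermat.Agent.JT3
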