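/-
JT3 / node E (place map), leaf (E-loc): sections of a two-dimensional local ring over a DVR.

`R` is a noetherian local ring, an algebra over a domain `O`, with maximal ideal `(ϖ, s)`.
A *section* is an `O`-algebra homomorphism `ε : R →ₐ[O] O`.  Its kernel is the principal ideal
generated by `sd_g s ε = s - ε s`, and every `a` not divisible by the (prime) element `ϖ`, all of
whose zero primes are kernels of sections, is a unit times a product of the `sd_g s ε`.
-/
import Mathlib

set_option autoImplicit false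

namespace Fermat.Agent.JT3

open IsLocalRing Ideal

section Basic

variable {O : Type*} [CommRing O]
variable {R : Type*} [CommRing R] [Algebra O R]

/-- The local equation of the section `ε` with respect to the parameter `s`. -/
def sd_g (s : R) (ε : R →ₐ[O] O) : R := s - algebraMap O R (ε s)

theorem sd_g_apply (s : R) (ε : R →ₐ[O] O) : ε (sd_g s ε) = 0 := by
  simp [sd_g]

theorem sd_g_mem_ker (s : R) (ε : R →ₐ[O] O) : sd_g s ε ∈ RingHom.ker (ε : R →+* O) := by
  rw [RingHom.mem_ker]; exact sd_g_apply s ε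

theorem sd_sub_mem_ker (ε : R →ₐ[O] O) (z : R) :
    z - algebraMap O R (ε z) ∈ RingHom.ker (ε : R →+* O) := by
  rw [RingHom.mem_ker]; simp

/-- Two sections with the same kernel are equal. -/
theorem sd_eq_of_ker_le {ε ε' : R →ₐ[O] O}
    (h : RingHom.ker (ε : R →+* O) ≤ RingHom.ker (ε' : R →+* O)) : ε' = ε := by
  ext z
  have h1 : z - algebraMap O R (ε z) ∈ RingHom.ker (ε' : R →+* O) := h (sd_sub_mem_ker ε z)
  rw [RingHom.mem_ker] at h1
  have h2 : ε' z - ε z = 0 := by simpa using h1
  exact sub_eq_zero.mp h2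

end Basic

section Local

variable {O : Type*} [CommRing O] [IsDomain O]
variable {R : Type*} [CommRing R] [IsLocalRing R] [Algebra O R]

/-- A section maps the maximal ideal into the non-units. -/
theorem sd_not_isUnit_apply (ε : R →ₐ[O] O) {z : R} (hz : z ∈ maximalIdeal R) :
    ¬ IsUnit (ε z) := by
  intro hu
  obtain ⟨o, ho⟩ := hu.exists_right_inv
  -- `z * o - 1` is a unit of `R` killed by `ε`
  have h1 : IsUnit (z * algebraMap O R o - 1) := by
    have hmem : z * algebraMap O R o ∈ maximalIdeal R := Ideal.mul_mem_right _ _ hz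
    have : IsUnit (1 - z * algebraMap O R o) := by
      by_contra hnu
      have h2 : 1 - z * algebraMap O R o ∈ maximalIdeal R := (mem_maximalIdeal _).2 hnu
      have h3 : (1 : R) ∈ maximalIdeal R := by
        have := Ideal.add_mem _ h2 hmem
        simp at this
      exact (maximalIdeal.isMaximal R).ne_top ((Ideal.eq_top_iff_one _).2 h3)
    have h4 : z * algebraMap O R o - 1 = -(1 - z * algebraMap O R o) := by ring
    rw [h4]; exact this.neg
  have h2 : ε (z * algebraMap O R o - 1) = 0 := by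
    simp [ho]
  have h3 : IsUnit (ε (z * algebraMap O R o - 1)) := h1.map ε
  rw [h2] at h3
  exact not_isUnit_zero h3

end Local

section Kernel

variable {O : Type*} [CommRing O] [IsDomain O]
variable {R : Type*} [CommRing R] [IsLocalRing R] [IsNoetherianRing R] [Algebra O R]
variable {ϖ : O} {s : R}

omit [IsNoetherianRing R] in
/-- If the non-units of `O` are the multiples of `ϖ`, then `ε s` is a multiple of `ϖ`. -/
theorem sd_apply_param (hO : ∀ o : O, ¬ IsUnit o → ϖ ∣ o)
    (hm : maximalIdeal R = Ideal.span {algebraMap O R ϖ, s}) (ε : R →ₐ[O] O) : ϖ ∣ ε s := by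
  apply hO
  apply sd_not_isUnit_apply ε
  rw [hm]
  exact Ideal.subset_span (Set.mem_insert_of_mem _ rfl)

omit [IsNoetherianRing R] in
theorem sd_span_eq (hO : ∀ o : O, ¬ IsUnit o → ϖ ∣ o)
    (hm : maximalIdeal R = Ideal.span {algebraMap O R ϖ, s}) (ε : R →ₐ[O] O) :
    maximalIdeal R = Ideal.span {algebraMap O R ϖ, sd_g s ε} := by
  obtain ⟨o, ho⟩ := sd_apply_param hO hm ε
  have h1 : algebraMap O R ϖ ∈ Ideal.span {algebraMap O R ϖ, s} :=
    Ideal.subset_span (Set.mem_insert _ _)
  have h2 : s ∈ Ideal.span {algebraMap O R ϖ, s} :=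
    Ideal.subset_span (Set.mem_insert_of_mem _ rfl)
  have h3 : algebraMap O R ϖ ∈ Ideal.span {algebraMap O R ϖ, sd_g s ε} :=
    Ideal.subset_span (Set.mem_insert _ _)
  have h4 : sd_g s ε ∈ Ideal.span {algebraMap O R ϖ, sd_g s ε} :=
    Ideal.subset_span (Set.mem_insert_of_mem _ rfl)
  have hs : s = sd_g s ε + algebraMap O R ϖ * algebraMap O R o := by
    rw [sd_g, ← map_mul, ← ho]; ring
  rw [hm]
  apply le_antisymm
  · rw [Ideal.span_le]
    intro x hx
    rcases hx with hx | hx
    · rw [hx]; exact h3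
    · rw [Set.mem_singleton_iff] at hx
      have hx' : x = sd_g s ε + algebraMap O R ϖ * algebraMap O R o := hx.trans hs
      rw [hx']
      exact Ideal.add_mem _ h4 (Ideal.mul_mem_right _ _ h3)
  · rw [Ideal.span_le]
    intro x hx
    rcases hx with hx | hx
    · rw [hx]; exact h1
    · rw [Set.mem_singleton_iff] at hx
      rw [hx, sd_g, ho, map_mul]
      exact Ideal.sub_mem _ h2 (Ideal.mul_mem_right _ _ h1)

/-- **Kernel of a section.**  In a noetherian local ring with maximal ideal `(ϖ, s)` the kernel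
of a section `ε` is generated by `s - ε s`. -/
theorem sd_ker (hO : ∀ o : O, ¬ IsUnit o → ϖ ∣ o)
    (hm : maximalIdeal R = Ideal.span {algebraMap O R ϖ, s}) (ε : R →ₐ[O] O) :
    RingHom.ker (ε : R →+* O) = Ideal.span {sd_g s ε} := by
  set g := sd_g s ε with hg
  set I : Ideal R := Ideal.span {g} with hI
  have hgI : g ∈ I := Ideal.subset_span rfl
  have hm' := sd_span_eq hO hm ε
  have hgm : g ∈ maximalIdeal R := by
    rw [hm']; exact Ideal.subset_span (Set.mem_insert_of_mem _ rfl)
  have hIm : I ≤ maximalIdeal R := by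
    rw [hI, Ideal.span_le]; rintro x rfl; exact hgm
  apply le_antisymm
  · -- the hard inclusion
    -- step 1: every element of the kernel lies in `I + (ϖ^n)` for every `n`
    have key : ∀ n : ℕ, ∀ z ∈ RingHom.ker (ε : R →+* O),
        ∃ i ∈ I, ∃ w : R, z = i + algebraMap O R ϖ ^ n * w := by
      intro n
      induction n with
      | zero => intro z _; exact ⟨0, I.zero_mem, z, by simp⟩
      | succ n ih =>
        intro z hz
        obtain ⟨i, hi, w, hw⟩ := ih z hz
        by_cases hϖ0 : ϖ = 0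
        · -- degenerate case: then `ϖ ^ (n+1) = 0` and also the maximal ideal is `(g)`
          have hmax : maximalIdeal R = I := by
            rw [hm', hϖ0, map_zero]
            apply le_antisymm
            · rw [Ideal.span_le]; rintro x (rfl | rfl)
              · exact I.zero_mem
              · exact hgI
            · rw [hI]
              exact Ideal.span_mono (Set.singleton_subset_iff.2 (Set.mem_insert_of_mem _ rfl))
          refine ⟨z, ?_, 0, by simp⟩
          rw [← hmax]
          by_contra hzm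
          have hu : IsUnit z := by
            by_contra hnu; exact hzm ((mem_maximalIdeal _).2 hnu)
          have h3 : IsUnit (ε z) := hu.map ε
          rw [RingHom.mem_ker] at hz
          have hz' : ε z = 0 := hz
          rw [hz'] at h3
          exact not_isUnit_zero h3
        have hεw : ε w = 0 := by
          rw [RingHom.mem_ker] at hz
          have hz' : ε z = 0 := hz
          have hi' : ε i = 0 := by
            obtain ⟨c, rfl⟩ := Ideal.mem_span_singleton'.1 hi
            simp [hg, sd_g_apply]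
          rw [hw, map_add, hi', zero_add, map_mul, map_pow, AlgHom.commutes] at hz'
          have : (algebraMap O O ϖ) ^ n ≠ 0 := pow_ne_zero _ (by simpa using hϖ0)
          exact (mul_eq_zero.1 hz').resolve_left this
        have hwm : w ∈ maximalIdeal R := by
          by_contra hwm
          have hu : IsUnit w := by
            by_contra hnu; exact hwm ((mem_maximalIdeal _).2 hnu)
          have h3 : IsUnit (ε w) := hu.map ε
          rw [hεw] at h3
          exact not_isUnit_zero h3
        rw [hm', Ideal.mem_span_pair] at hwm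
        obtain ⟨a, b, hab⟩ := hwm
        refine ⟨i + algebraMap O R ϖ ^ n * b * g, I.add_mem hi (I.mul_mem_left _ hgI), a, ?_⟩
        rw [hw, ← hab]; ring
    intro z hz
    -- step 2: Krull intersection theorem in `R ⧸ I`
    by_contra hzI
    have hI_ne : I ≠ ⊤ := fun h => hzI (h ▸ Submodule.mem_top)
    have : Nontrivial (R ⧸ I) := Ideal.Quotient.nontrivial_iff.2 hI_ne
    have : IsLocalRing (R ⧸ I) :=
      IsLocalRing.of_surjective' (Ideal.Quotient.mk I) Ideal.Quotient.mk_surjective
    set q := Ideal.Quotient.mk I with hq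
    set J : Ideal (R ⧸ I) := Ideal.span {q (algebraMap O R ϖ)} with hJ
    have hJ_ne : J ≠ ⊤ := by
      intro hJt
      have h1 : (1 : R ⧸ I) ∈ J := hJt ▸ Submodule.mem_top
      rw [hJ, Ideal.mem_span_singleton'] at h1
      obtain ⟨c, hc⟩ := h1
      obtain ⟨c', rfl⟩ := Ideal.Quotient.mk_surjective c
      rw [← map_mul, ← map_one q, hq, Ideal.Quotient.eq] at hc
      have h2 : c' * algebraMap O R ϖ ∈ maximalIdeal R := by
        apply Ideal.mul_mem_left
        rw [hm]; exact Ideal.subset_span (Set.mem_insert _ _)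
      have h3 : (1 : R) ∈ maximalIdeal R := by
        have := Ideal.sub_mem _ h2 (hIm hc)
        simp at this
      exact (maximalIdeal.isMaximal R).ne_top ((Ideal.eq_top_iff_one _).2 h3)
    have hbot := Ideal.iInf_pow_eq_bot_of_isLocalRing J hJ_ne
    have hzq : q z ∈ (⨅ i : ℕ, J ^ i) := by
      rw [Ideal.mem_iInf]
      intro n
      obtain ⟨i, hi, w, hw⟩ := key n z hz
      have : q z = q (algebraMap O R ϖ) ^ n * q w := by
        rw [hw, map_add, map_mul, map_pow]
        have : q i = 0 := Ideal.Quotient.eq_zero_iff_mem.2 hi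
        rw [this, zero_add]
      rw [this]
      apply Ideal.mul_mem_right
      apply Ideal.pow_mem_pow
      exact Ideal.subset_span rfl
    rw [hbot, Ideal.mem_bot] at hzq
    exact hzI (Ideal.Quotient.eq_zero_iff_mem.1 hzq)
  · rw [hI, Ideal.span_le]
    rintro x rfl
    exact sd_g_mem_ker s ε

end Kernel

section Factor

variable {O : Type*} [CommRing O] [IsDomain O]
variable {R : Type*} [CommRing R] [IsDomain R] [IsLocalRing R] [IsNoetherianRing R] [Algebra O R]
variable {ϖ : O} {s : R}

omit [IsDomain O] [Algebra O R] in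
/-- A non-unit `a` not divisible by the prime `p ∈ m` lies in a prime different from `m`. -/
theorem sd_exists_prime {p : R} (hp : Prime p) (hpm : p ∈ maximalIdeal R) {a : R}
    (ha : ¬ p ∣ a) (hau : ¬ IsUnit a) :
    ∃ 𝔭 : Ideal R, 𝔭.IsPrime ∧ a ∈ 𝔭 ∧ 𝔭 ≠ maximalIdeal R := by
  by_contra hcon
  push Not at hcon
  have ham : a ∈ maximalIdeal R := (mem_maximalIdeal _).2 hau
  have hrad : (Ideal.span {a}).radical = maximalIdeal R := by
    rw [Ideal.radical_eq_sInf]
    apply le_antisymm
    · apply sInf_le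
      exact ⟨(Ideal.span_singleton_le_iff_mem _).2 ham, inferInstance⟩
    · apply le_sInf
      rintro J ⟨hJ, hJp⟩
      rw [hcon J hJp ((Ideal.span_singleton_le_iff_mem _).1 hJ)]
  obtain ⟨n, hn⟩ := Ideal.exists_radical_pow_le_of_fg (Ideal.span {a})
    (IsNoetherian.noetherian _)
  rw [hrad] at hn
  have h1 : p ^ n ∈ Ideal.span {a} := hn (Ideal.pow_mem_pow hpm n)
  rw [Ideal.mem_span_singleton] at h1
  obtain ⟨c, hc⟩ := h1
  have h2 : p ^ n ∣ c := hp.pow_dvd_of_dvd_mul_left n ha (hc ▸ dvd_refl _)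
  obtain ⟨c', rfl⟩ := h2
  have h3 : p ^ n * (1 - a * c') = 0 := by
    rw [mul_sub, mul_one]
    nth_rewrite 1 [hc]
    ring
  have hpn : p ^ n ≠ 0 := pow_ne_zero _ hp.ne_zero
  have h4 : 1 - a * c' = 0 := by
    rcases mul_eq_zero.1 h3 with h | h
    · exact absurd h hpn
    · exact h
  exact hau (IsUnit.of_mul_eq_one c' (sub_eq_zero.1 h4).symm)

/-- **Factorisation along sections.**  If `ϖ` is prime in `R`, does not divide `a`, and every
prime `𝔭 ≠ m` containing `a` is the kernel of a section, then `a` is a unit times a product of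
local equations of sections. -/
theorem sd_factor (hO : ∀ o : O, ¬ IsUnit o → ϖ ∣ o)
    (hm : maximalIdeal R = Ideal.span {algebraMap O R ϖ, s})
    (hϖ : Prime (algebraMap O R ϖ)) {a : R} (ha : ¬ algebraMap O R ϖ ∣ a)
    (H : ∀ 𝔭 : Ideal R, 𝔭.IsPrime → a ∈ 𝔭 → 𝔭 ≠ maximalIdeal R →
      ∃ ε : R →ₐ[O] O, RingHom.ker (ε : R →+* O) = 𝔭) :
    ∃ (M : Multiset (R →ₐ[O] O)) (u : Rˣ), a = u * (M.map (sd_g s)).prod := by
  have hϖm : algebraMap O R ϖ ∈ maximalIdeal R := by
    rw [hm]; exact Ideal.subset_span (Set.mem_insert _ _)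
  -- noetherian induction on the ideal `(a)`
  have main : ∀ I : Ideal R, ∀ a : R, Ideal.span {a} = I → ¬ algebraMap O R ϖ ∣ a →
      (∀ 𝔭 : Ideal R, 𝔭.IsPrime → a ∈ 𝔭 → 𝔭 ≠ maximalIdeal R →
        ∃ ε : R →ₐ[O] O, RingHom.ker (ε : R →+* O) = 𝔭) →
      ∃ (M : Multiset (R →ₐ[O] O)) (u : Rˣ), a = u * (M.map (sd_g s)).prod := by
    intro I
    induction I using IsNoetherian.induction with
    | hgt I ih =>
      intro a haI ha H
      by_cases hau : IsUnit a
      · exact ⟨0, hau.unit, by simp⟩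
      obtain ⟨𝔭, h𝔭, ha𝔭, hne⟩ := sd_exists_prime hϖ hϖm ha hau
      obtain ⟨ε, hε⟩ := H 𝔭 h𝔭 ha𝔭 hne
      have hker := sd_ker hO hm ε
      have hag : a ∈ Ideal.span {sd_g s ε} := by rw [← hker, hε]; exact ha𝔭
      rw [Ideal.mem_span_singleton] at hag
      obtain ⟨a', ha'⟩ := hag
      have ha0 : a ≠ 0 := fun h => ha (h ▸ dvd_zero _)
      have ha'0 : a' ≠ 0 := fun h => ha0 (by rw [ha', h, mul_zero])
      have hgnu : ¬ IsUnit (sd_g s ε) := by
        intro hu
        have h3 : IsUnit (ε (sd_g s ε)) := hu.map ε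
        rw [sd_g_apply] at h3
        exact not_isUnit_zero h3
      have hlt : I < Ideal.span {a'} := by
        rw [← haI]
        refine lt_of_le_of_ne ?_ ?_
        · rw [Ideal.span_singleton_le_iff_mem, Ideal.mem_span_singleton]
          exact ⟨sd_g s ε, by rw [ha']; ring⟩
        · intro heq
          have h1 : a' ∈ Ideal.span {a} := heq ▸ Ideal.subset_span rfl
          rw [Ideal.mem_span_singleton] at h1
          obtain ⟨c, hc⟩ := h1
          have h2 : a' * (1 - sd_g s ε * c) = 0 := by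
            rw [mul_sub, mul_one]
            nth_rewrite 1 [hc]
            rw [ha']; ring
          have h3 : 1 - sd_g s ε * c = 0 := (mul_eq_zero.1 h2).resolve_left ha'0
          exact hgnu (IsUnit.of_mul_eq_one c (sub_eq_zero.1 h3).symm)
      have ha'ϖ : ¬ algebraMap O R ϖ ∣ a' := fun h => ha (ha' ▸ Dvd.dvd.mul_left h _)
      have H' : ∀ 𝔮 : Ideal R, 𝔮.IsPrime → a' ∈ 𝔮 → 𝔮 ≠ maximalIdeal R →
          ∃ ε : R →ₐ[O] O, RingHom.ker (ε : R →+* O) = 𝔮 := by
        intro 𝔮 h𝔮 ha'𝔮 hne'
        exact H 𝔮 h𝔮 (ha' ▸ Ideal.mul_mem_left _ _ ha'𝔮) hne'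
      obtain ⟨M, u, hM⟩ := ih (Ideal.span {a'}) hlt a' rfl ha'ϖ H'
      refine ⟨ε ::ₘ M, u, ?_⟩
      rw [Multiset.map_cons, Multiset.prod_cons, ha', hM]; ring
  exact main _ a rfl ha H

omit [IsDomain O] [IsDomain R] [IsLocalRing R] [IsNoetherianRing R] in
/-- The reduction modulo `ϖ` of a product of local equations is a power of the parameter. -/
theorem sd_mk_prod (hs : ∀ ε : R →ₐ[O] O, ϖ ∣ ε s) (M : Multiset (R →ₐ[O] O)) :
    Ideal.Quotient.mk (Ideal.span {algebraMap O R ϖ}) (M.map (sd_g s)).prod =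
      Ideal.Quotient.mk (Ideal.span {algebraMap O R ϖ}) s ^ Multiset.card M := by
  induction M using Multiset.induction_on with
  | empty => simp
  | cons ε M ih =>
    rw [Multiset.map_cons, Multiset.prod_cons, map_mul, ih, Multiset.card_cons, pow_succ']
    congr 1
    rw [sd_g, map_sub, sub_eq_self, Ideal.Quotient.eq_zero_iff_mem, Ideal.mem_span_singleton]
    obtain ⟨o, ho⟩ := hs ε
    exact ⟨algebraMap O R o, by rw [ho, map_mul]⟩

omit [IsDomain R] [IsNoetherianRing R] in
/-- `sd_factor` read modulo `ϖ`: the reduction of `a` is a unit times `s̄ ^ |M|`. -/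
theorem sd_mk (hO : ∀ o : O, ¬ IsUnit o → ϖ ∣ o)
    (hm : maximalIdeal R = Ideal.span {algebraMap O R ϖ, s})
    {a : R} {M : Multiset (R →ₐ[O] O)} {u : Rˣ} (h : a = u * (M.map (sd_g s)).prod) :
    Ideal.Quotient.mk (Ideal.span {algebraMap O R ϖ}) a =
      Ideal.Quotient.mk (Ideal.span {algebraMap O R ϖ}) u *
        Ideal.Quotient.mk (Ideal.span {algebraMap O R ϖ}) s ^ Multiset.card M := by
  rw [h, map_mul, sd_mk_prod (fun ε => sd_apply_param hO hm ε)]

omit [IsDomain R] [IsNoetherianRing R] in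
theorem sd_g_ne_zero (hO : ∀ o : O, ¬ IsUnit o → ϖ ∣ o)
    (hm : maximalIdeal R = Ideal.span {algebraMap O R ϖ, s})
    (hs : ¬ algebraMap O R ϖ ∣ s) (ε : R →ₐ[O] O) : sd_g s ε ≠ 0 := by
  intro h0
  obtain ⟨o, ho⟩ := sd_apply_param hO hm ε
  apply hs
  refine ⟨algebraMap O R o, ?_⟩
  rw [sd_g, sub_eq_zero] at h0
  rw [h0, ho, map_mul]

omit [IsDomain R] [IsNoetherianRing R] [IsDomain O] [IsLocalRing R] in
theorem sd_g_not_isUnit [Nontrivial O] (ε : R →ₐ[O] O) : ¬ IsUnit (sd_g s ε) := by
  intro hu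
  have h3 : IsUnit (ε (sd_g s ε)) := hu.map ε
  rw [sd_g_apply] at h3
  exact not_isUnit_zero h3

omit [IsDomain R] in
/-- The local equation of a section is a prime element. -/
theorem sd_g_prime (hO : ∀ o : O, ¬ IsUnit o → ϖ ∣ o)
    (hm : maximalIdeal R = Ideal.span {algebraMap O R ϖ, s})
    (hs : ¬ algebraMap O R ϖ ∣ s) (ε : R →ₐ[O] O) : Prime (sd_g s ε) := by
  rw [← Ideal.span_singleton_prime (sd_g_ne_zero hO hm hs ε), ← sd_ker hO hm ε]
  exact RingHom.ker_isPrime _

omit [IsDomain R] in
/-- If the local equation of `ε₀` divides that of `ε`, the two sections agree. -/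
theorem sd_eq_of_dvd (hO : ∀ o : O, ¬ IsUnit o → ϖ ∣ o)
    (hm : maximalIdeal R = Ideal.span {algebraMap O R ϖ, s})
    {ε₀ ε : R →ₐ[O] O} (h : sd_g s ε₀ ∣ sd_g s ε) : ε = ε₀ := by
  have h1 : sd_g s ε ∈ RingHom.ker (ε₀ : R →+* O) := by
    rw [sd_ker hO hm ε₀, Ideal.mem_span_singleton]; exact h
  rw [RingHom.mem_ker] at h1
  have h2 : ε₀ s = ε s := by
    have : ε₀ (sd_g s ε) = ε₀ s - ε s := by simp [sd_g]
    have h3 : ε₀ (sd_g s ε) = 0 := h1
    rw [this] at h3
    exact sub_eq_zero.1 h3
  have h4 : sd_g s ε = sd_g s ε₀ := by rw [sd_g, sd_g, h2]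
  apply sd_eq_of_ker_le
  rw [sd_ker hO hm ε₀, sd_ker hO hm ε, h4]

open Classical in
/-- The multiplicity of a local equation in `a = u ∏ g_ε` is the number of occurrences of the
section. -/
theorem sd_count (hO : ∀ o : O, ¬ IsUnit o → ϖ ∣ o)
    (hm : maximalIdeal R = Ideal.span {algebraMap O R ϖ, s})
    (hs : ¬ algebraMap O R ϖ ∣ s)
    {a : R} {M : Multiset (R →ₐ[O] O)} {u : Rˣ} (h : a = u * (M.map (sd_g s)).prod)
    (ε₀ : R →ₐ[O] O) : emultiplicity (sd_g s ε₀) a = (M.count ε₀ : ℕ) := by
  have hp := sd_g_prime hO hm hs ε₀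
  have hnu : ¬ IsUnit (sd_g s ε₀) := sd_g_not_isUnit ε₀
  rw [h, emultiplicity_mul hp, emultiplicity_of_unit_right hnu, zero_add]
  clear h
  induction M using Multiset.induction_on with
  | empty =>
    simp only [Multiset.map_zero, Multiset.prod_zero, Multiset.count_zero, Nat.cast_zero]
    rw [emultiplicity_eq_zero]
    exact fun hd => hnu (isUnit_of_dvd_one hd)
  | cons ε M ih =>
    rw [Multiset.map_cons, Multiset.prod_cons, emultiplicity_mul hp, ih, Multiset.count_cons]
    by_cases hε : ε₀ = ε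
    · subst hε
      have hfin : FiniteMultiplicity (sd_g s ε₀) (sd_g s ε₀) := by
        refine ⟨1, ?_⟩
        rintro ⟨v, hv⟩
        have h2 : sd_g s ε₀ * (1 - sd_g s ε₀ * v) = 0 := by
          rw [mul_sub, mul_one]; nth_rewrite 1 [hv]; ring
        have h3 : 1 - sd_g s ε₀ * v = 0 :=
          (mul_eq_zero.1 h2).resolve_left (sd_g_ne_zero hO hm hs ε₀)
        exact hnu (IsUnit.of_mul_eq_one v (sub_eq_zero.1 h3).symm)
      rw [hfin.emultiplicity_self, if_pos rfl]
      push_cast
      rw [add_comm]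
    · have : emultiplicity (sd_g s ε₀) (sd_g s ε) = 0 := by
        rw [emultiplicity_eq_zero]
        intro hd
        exact hε (sd_eq_of_dvd hO hm hd).symm
      rw [this, if_neg hε, zero_add, add_zero]

end Factor

end Fermat.Agent.JT3
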