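/-
JT3 / node E (place map): the local ring of a level at the centre of a place `Q` of the reduced
function field, as a subring of `FF`, and its structure: maximal ideal `(ϖ, s)`, `ϖ` prime.
-/
import Fermat.Agent.JT3.PlaceMap.Defs
import Fermat.Agent.JT3.PlaceMap.SectionDiv

set_option autoImplicit false

namespace Fermat.Agent.JT3

open AlgebraicCurve IsLocalRing

variable {Kb : Type*} [Field Kb] {A : ValuationSubring Kb}
variable {FF : Type*} [Field FF] [Algebra Kb FF]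
variable {k : Type*} [Field k] {Ft : Type*} [Field Ft] [Algebra k Ft]
variable {C : rp_Chart A FF k Ft}

section Nonunits

variable {K : Type*} [Field K] (V : ValuationSubring K)

theorem rp_mul_mem_nonunits {x y : K} (hx : x ∈ V.nonunits) (hy : y ∈ V) : x * y ∈ V.nonunits := by
  rw [ValuationSubring.mem_nonunits_iff] at hx ⊢
  rw [map_mul]
  have hy' : V.valuation y ≤ 1 := (V.valuation_le_one_iff y).2 hy
  calc V.valuation x * V.valuation y ≤ V.valuation x * 1 := by gcongr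
    _ = V.valuation x := mul_one _
    _ < 1 := hx

theorem rp_one_notMem_nonunits : (1 : K) ∉ V.nonunits := by
  rw [ValuationSubring.mem_nonunits_iff, map_one]
  exact lt_irrefl _

theorem rp_nonunits_of_not_mem_inv {x : K} (hxi : x⁻¹ ∉ V) : x ∈ V.nonunits := by
  rw [ValuationSubring.mem_nonunits_iff_or]
  exact Or.inr hxi

/-- an element of `V` outside the nonunits has its inverse in `V` -/
theorem rp_inv_mem_of_notMem_nonunits {x : K} (hxn : x ∉ V.nonunits) : x⁻¹ ∈ V := by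
  by_contra h
  exact hxn (rp_nonunits_of_not_mem_inv V h)

end Nonunits

section ODVR

variable (L : rp_Level C)

/-- the uniformiser as an element of `L.O` -/
def rp_Level.pi : L.O := ⟨L.ϖ, L.ϖ_mem⟩

theorem rp_Level.pi_ne_zero : L.pi ≠ 0 := fun h => L.ϖ_ne (congrArg Subtype.val h)

/-- non-units of `L.O` are multiples of the uniformiser -/
theorem rp_Level.dvd_of_not_isUnit (o : L.O) (ho : ¬ IsUnit o) : L.pi ∣ o := by
  by_cases h0 : o = 0
  · rw [h0]; exact dvd_zero _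
  have h0' : (o : Kb) ≠ 0 := fun h => h0 (Subtype.ext h)
  obtain ⟨n, u, hu, hui, hou⟩ := L.O_str o o.2 h0'
  rcases Nat.eq_zero_or_pos n with hn | hn
  · exfalso
    apply ho
    rw [hn, pow_zero, one_mul] at hou
    refine IsUnit.of_mul_eq_one ⟨u⁻¹, hui⟩ ?_
    apply Subtype.ext
    have hu0 : u ≠ 0 := by rw [← hou]; exact h0'
    simp [hou, hu0]
  · refine ⟨⟨L.ϖ ^ (n - 1) * u, L.O.mul_mem (L.O.pow_mem L.ϖ_mem _) hu⟩, ?_⟩
    apply Subtype.ext
    simp only [rp_Level.pi, Subring.coe_mul]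
    rw [hou, ← mul_assoc, ← pow_succ', Nat.sub_add_cancel hn]

/-- a unit of `L.O` is a unit of `A` -/
theorem rp_Level.not_mem_nonunits_of_isUnit {o : L.O} (ho : IsUnit o) :
    (o : Kb) ∉ A.nonunits := by
  obtain ⟨o', ho'⟩ := ho.exists_right_inv
  have h1 : (o : Kb) * (o' : Kb) = 1 := congrArg Subtype.val ho'
  intro hmem
  have h2 : (o : Kb) * (o' : Kb) ∈ A.nonunits := rp_mul_mem_nonunits A hmem (L.O_le _ o'.2)
  rw [h1] at h2
  exact rp_one_notMem_nonunits A h2

/-- an element of `L.O` lies in the maximal ideal of `A` iff the uniformiser divides it -/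
theorem rp_Level.mem_nonunits_iff (o : L.O) : (o : Kb) ∈ A.nonunits ↔ L.pi ∣ o := by
  constructor
  · intro h
    apply L.dvd_of_not_isUnit
    intro hu
    exact L.not_mem_nonunits_of_isUnit hu h
  · rintro ⟨o', rfl⟩
    simp only [Subring.coe_mul]
    exact rp_mul_mem_nonunits A L.ϖ_nonunit (L.O_le _ o'.2)

/-- the fraction field of `L.O` meets `A` in `L.O` -/
theorem rp_Level.mem_of_div_mem {o₁ o₂ : Kb} (h1 : o₁ ∈ L.O) (h2 : o₂ ∈ L.O) (h20 : o₂ ≠ 0)
    (hA : o₁ / o₂ ∈ A) : o₁ / o₂ ∈ L.O := by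
  by_cases h10 : o₁ = 0
  · rw [h10, zero_div]; exact L.O.zero_mem
  obtain ⟨n₁, u₁, hu₁, hui₁, ho₁⟩ := L.O_str o₁ h1 h10
  obtain ⟨n₂, u₂, hu₂, hui₂, ho₂⟩ := L.O_str o₂ h2 h20
  have hu₂0 : u₂ ≠ 0 := by
    rintro rfl; apply h20; rw [ho₂, mul_zero]
  have hu₁0 : u₁ ≠ 0 := by
    rintro rfl; apply h10; rw [ho₁, mul_zero]
  by_cases hn : n₂ ≤ n₁
  · have : o₁ / o₂ = L.ϖ ^ (n₁ - n₂) * (u₁ * u₂⁻¹) := by
      rw [ho₁, ho₂]
      have : L.ϖ ^ n₁ = L.ϖ ^ (n₁ - n₂) * L.ϖ ^ n₂ := by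
        rw [← pow_add, Nat.sub_add_cancel hn]
      rw [this]
      have hpn : L.ϖ ^ n₂ ≠ 0 := pow_ne_zero _ L.ϖ_ne
      field_simp
    rw [this]
    exact L.O.mul_mem (L.O.pow_mem L.ϖ_mem _) (L.O.mul_mem hu₁ hui₂)
  · exfalso
    push Not at hn
    -- then the inverse lies in the maximal ideal of `A`
    have hinv : (o₁ / o₂)⁻¹ = L.ϖ ^ (n₂ - n₁) * (u₂ * u₁⁻¹) := by
      rw [ho₁, ho₂]
      have : L.ϖ ^ n₂ = L.ϖ ^ (n₂ - n₁) * L.ϖ ^ n₁ := by
        rw [← pow_add, Nat.sub_add_cancel hn.le]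
      rw [this]
      have hpn : L.ϖ ^ n₁ ≠ 0 := pow_ne_zero _ L.ϖ_ne
      field_simp
    have hpos : 0 < n₂ - n₁ := Nat.sub_pos_of_lt hn
    have h3 : (o₁ / o₂)⁻¹ ∈ A.nonunits := by
      rw [hinv]
      have hp : L.ϖ ^ (n₂ - n₁) ∈ A.nonunits := by
        obtain ⟨m, hm⟩ := Nat.exists_eq_succ_of_ne_zero hpos.ne'
        rw [hm, pow_succ]
        rw [mul_comm]; exact rp_mul_mem_nonunits A L.ϖ_nonunit (A.pow_mem (L.O_le _ L.ϖ_mem) _)
      exact rp_mul_mem_nonunits A hp (L.O_le _ (L.O.mul_mem hu₂ hui₁))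
    have h4 : (o₁ / o₂) * (o₁ / o₂)⁻¹ ∈ A.nonunits := by
      have := rp_mul_mem_nonunits A h3 hA
      rwa [mul_comm] at this
    have hne : o₁ / o₂ ≠ 0 := div_ne_zero h10 h20
    rw [mul_inv_cancel₀ hne] at h4
    exact rp_one_notMem_nonunits A h4

end ODVR

section LocalRing

variable (L : rp_Level C) {Q : Place k Ft} (hQ : C.FinRed Q)

/-- the reduction map on the level ring, with values in the valuation ring of `Q` -/
def rp_Level.redQ : L.Bl →+* Q.toValuationSubring :=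
  (C.red.comp (Subring.inclusion L.Bl_le)).codRestrict Q.toValuationSubring (fun _ => hQ _)

theorem rp_Level.coe_redQ (b : L.Bl) : ((L.redQ hQ b : Q.toValuationSubring) : Ft) =
    C.red ⟨b, L.Bl_le b.2⟩ := rfl

/-- the centre of `Q` on the level ring -/
def rp_Level.cen : Ideal L.Bl :=
  Ideal.comap (L.redQ hQ) (maximalIdeal Q.toValuationSubring)

instance rp_Level.cen_isPrime : (L.cen hQ).IsPrime := by
  unfold rp_Level.cen; infer_instance

theorem rp_Level.mem_cen_iff (b : L.Bl) :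
    b ∈ L.cen hQ ↔ C.red ⟨b, L.Bl_le b.2⟩ ∈ Q.toValuationSubring.nonunits := by
  rw [rp_Level.cen, Ideal.mem_comap, ← ValuationSubring.coe_mem_nonunits_iff, L.coe_redQ]

/-- the local ring of the level at the centre of `Q`, as a subring of `FF` -/
noncomputable def rp_Level.loc : Subring FF :=
  (LocalSubring.ofPrime L.Bl (L.cen hQ)).toSubring

noncomputable instance rp_Level.loc_algebra : Algebra L.Bl (L.loc hQ) := by
  unfold rp_Level.loc; infer_instance

instance rp_Level.loc_isLocalization : IsLocalization.AtPrime (L.loc hQ) (L.cen hQ) := by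
  unfold rp_Level.loc; infer_instance

instance rp_Level.loc_isLocalRing : IsLocalRing (L.loc hQ) := by
  unfold rp_Level.loc; exact (LocalSubring.ofPrime L.Bl (L.cen hQ)).isLocalRing

instance rp_Level.loc_isNoetherianRing : IsNoetherianRing (L.loc hQ) :=
  haveI := L.noeth
  IsLocalization.isNoetherianRing (L.cen hQ).primeCompl (L.loc hQ) inferInstance

theorem rp_Level.Bl_le_loc : L.Bl ≤ L.loc hQ := LocalSubring.le_ofPrime _ _

theorem rp_Level.coe_algebraMap_loc (b : L.Bl) :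
    ((algebraMap L.Bl (L.loc hQ) b : L.loc hQ) : FF) = b := rfl

theorem rp_Level.isUnit_redQ_of_notMem (y : (L.cen hQ).primeCompl) :
    IsUnit (L.redQ hQ y) := by
  have hy : (y : L.Bl) ∉ L.cen hQ := y.2
  change ¬ (L.redQ hQ y ∈ maximalIdeal _) at hy
  rw [mem_maximalIdeal, _root_.mem_nonunits_iff, not_not] at hy
  exact hy

/-- the reduction map on the local ring -/
noncomputable def rp_Level.redLoc : L.loc hQ →+* Q.toValuationSubring :=
  IsLocalization.lift (M := (L.cen hQ).primeCompl) (g := L.redQ hQ)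
    (L.isUnit_redQ_of_notMem hQ)

@[simp]
theorem rp_Level.redLoc_algebraMap (b : L.Bl) :
    L.redLoc hQ (algebraMap L.Bl (L.loc hQ) b) = L.redQ hQ b :=
  IsLocalization.lift_eq _ _

/-- every element of the local ring is a quotient `b / c` with `c` outside the centre -/
theorem rp_Level.exists_mul_eq (z : L.loc hQ) :
    ∃ (b c : L.Bl), c ∉ L.cen hQ ∧ z * algebraMap L.Bl (L.loc hQ) c = algebraMap L.Bl (L.loc hQ) b := by
  obtain ⟨⟨b, c⟩, h⟩ := IsLocalization.surj (L.cen hQ).primeCompl z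
  exact ⟨b, c, c.2, h⟩

theorem rp_Level.isUnit_algebraMap_of_notMem {c : L.Bl} (hc : c ∉ L.cen hQ) :
    IsUnit (algebraMap L.Bl (L.loc hQ) c) :=
  IsLocalization.map_units (L.loc hQ) (⟨c, hc⟩ : (L.cen hQ).primeCompl)

/-- an element of the local ring is a unit iff its reduction is -/
theorem rp_Level.isUnit_iff_redLoc (z : L.loc hQ) : IsUnit z ↔ IsUnit (L.redLoc hQ z) := by
  constructor
  · intro h; exact h.map _
  · intro h
    obtain ⟨b, c, hc, hz⟩ := L.exists_mul_eq hQ z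
    have hcu := L.isUnit_algebraMap_of_notMem hQ hc
    have h1 : L.redLoc hQ z * L.redQ hQ c = L.redQ hQ b := by
      have := congrArg (L.redLoc hQ) hz
      simpa using this
    have hb : b ∉ L.cen hQ := by
      intro hb
      change L.redQ hQ b ∈ maximalIdeal _ at hb
      rw [← h1] at hb
      have hcu' : IsUnit (L.redQ hQ c) := L.isUnit_redQ_of_notMem hQ ⟨c, hc⟩
      have : IsUnit (L.redLoc hQ z * L.redQ hQ c) := h.mul hcu'
      exact (mem_maximalIdeal _).1 hb this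
    have hbu := L.isUnit_algebraMap_of_notMem hQ hb
    rw [← hz] at hbu
    exact isUnit_of_mul_isUnit_left hbu

/-- the maximal ideal of the local ring is the preimage of the maximal ideal of `O_Q` -/
theorem rp_Level.mem_maximalIdeal_loc_iff (z : L.loc hQ) :
    z ∈ maximalIdeal (L.loc hQ) ↔ L.redLoc hQ z ∈ maximalIdeal Q.toValuationSubring := by
  rw [mem_maximalIdeal, mem_maximalIdeal, _root_.mem_nonunits_iff, _root_.mem_nonunits_iff,
    L.isUnit_iff_redLoc hQ]

/-- the uniformiser in the local ring -/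
noncomputable def rp_Level.piLoc : L.loc hQ :=
  algebraMap L.Bl (L.loc hQ) ⟨algebraMap Kb FF L.ϖ, L.const_mem _ L.ϖ_mem⟩

theorem rp_Level.coe_piLoc : ((L.piLoc hQ : L.loc hQ) : FF) = algebraMap Kb FF L.ϖ := rfl

theorem rp_Level.redLoc_piLoc : L.redLoc hQ (L.piLoc hQ) = 0 := by
  rw [rp_Level.piLoc, L.redLoc_algebraMap]
  apply Subtype.ext
  rw [L.coe_redQ]
  have h1 := C.red_const ⟨L.ϖ, L.O_le _ L.ϖ_mem⟩
  have h2 : C.res ⟨L.ϖ, L.O_le _ L.ϖ_mem⟩ = 0 := by
    by_contra hne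
    have hu : IsUnit (C.res ⟨L.ϖ, L.O_le _ L.ϖ_mem⟩) := isUnit_iff_ne_zero.2 hne
    obtain ⟨y, hy⟩ := C.res_surj (hu.unit⁻¹ : kˣ)
    have h3 : C.res (⟨L.ϖ, L.O_le _ L.ϖ_mem⟩ * y - 1) = 0 := by
      rw [map_sub, map_mul, hy, map_one, Units.val_inv_eq_inv_val, IsUnit.unit_spec,
        mul_inv_cancel₀ hne, sub_self]
    -- `ϖ y - 1` is a unit of `A`
    have h4 : IsUnit (⟨L.ϖ, L.O_le _ L.ϖ_mem⟩ * y - 1 : A) := by
      have hm : (⟨L.ϖ, L.O_le _ L.ϖ_mem⟩ * y : A) ∈ maximalIdeal A := by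
        apply Ideal.mul_mem_right
        rw [← ValuationSubring.coe_mem_nonunits_iff]
        exact L.ϖ_nonunit
      by_contra hnu
      have h5 : (⟨L.ϖ, L.O_le _ L.ϖ_mem⟩ * y - 1 : A) ∈ maximalIdeal A := (mem_maximalIdeal _).2 hnu
      have h6 : (1 : A) ∈ maximalIdeal A := by
        have := Ideal.sub_mem _ hm h5
        simp at this
      exact (maximalIdeal.isMaximal A).ne_top ((Ideal.eq_top_iff_one _).2 h6)
    have h7 := h4.map C.res
    rw [h3] at h7
    exact not_isUnit_zero h7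
  rw [h2, map_zero] at h1
  exact h1

/-- **q-expansion principle in the local ring**: the kernel of the reduction is generated by the
uniformiser. -/
theorem rp_Level.dvd_of_redLoc_eq_zero {z : L.loc hQ} (hz : L.redLoc hQ z = 0) :
    L.piLoc hQ ∣ z := by
  obtain ⟨b, c, hc, hzc⟩ := L.exists_mul_eq hQ z
  have hcu := L.isUnit_algebraMap_of_notMem hQ hc
  have h1 : L.redQ hQ b = 0 := by
    have := congrArg (L.redLoc hQ) hzc
    rw [map_mul, hz, zero_mul, L.redLoc_algebraMap] at this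
    exact this.symm
  have h2 : C.red ⟨b, L.Bl_le b.2⟩ = 0 := by
    rw [← L.coe_redQ hQ, h1]; rfl
  obtain ⟨b', hb'⟩ := L.red_ker b h2
  have h3 : algebraMap L.Bl (L.loc hQ) b = L.piLoc hQ * algebraMap L.Bl (L.loc hQ) b' := by
    apply Subtype.ext
    rw [Subring.coe_mul, L.coe_algebraMap_loc, L.coe_piLoc, L.coe_algebraMap_loc, hb']
  obtain ⟨cu, hcu'⟩ := hcu
  refine ⟨algebraMap L.Bl (L.loc hQ) b' * ((cu⁻¹ : (L.loc hQ)ˣ) : L.loc hQ), ?_⟩
  have : z = algebraMap L.Bl (L.loc hQ) b * ((cu⁻¹ : (L.loc hQ)ˣ) : L.loc hQ) := by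
    rw [← hzc, ← hcu', mul_assoc, Units.mul_inv, mul_one]
  rw [this, h3, mul_assoc]

theorem rp_Level.piLoc_dvd_iff (z : L.loc hQ) : L.piLoc hQ ∣ z ↔ L.redLoc hQ z = 0 := by
  constructor
  · rintro ⟨w, rfl⟩
    rw [map_mul, L.redLoc_piLoc, zero_mul]
  · exact L.dvd_of_redLoc_eq_zero hQ

theorem rp_Level.piLoc_ne_zero : L.piLoc hQ ≠ 0 := by
  intro h
  have h1 : ((L.piLoc hQ : L.loc hQ) : FF) = 0 := by rw [h]; rfl
  rw [L.coe_piLoc, map_eq_zero] at h1
  exact L.ϖ_ne h1

/-- the uniformiser is a prime element of the local ring -/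
theorem rp_Level.piLoc_prime : Prime (L.piLoc hQ) := by
  refine ⟨L.piLoc_ne_zero hQ, ?_, ?_⟩
  · intro hu
    have := hu.map (L.redLoc hQ)
    rw [L.redLoc_piLoc] at this
    exact not_isUnit_zero this
  · intro a b hab
    rw [L.piLoc_dvd_iff] at hab ⊢
    rw [L.piLoc_dvd_iff]
    rw [map_mul] at hab
    exact mul_eq_zero.1 hab

/-- the reduction of the local ring is all of `O_Q` -/
theorem rp_Level.redLoc_surjective (hR : C.RedRegular) :
    Function.Surjective (L.redLoc hQ) := by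
  intro w
  obtain ⟨b, c, hc, hw⟩ := hR.local_eq Q hQ w w.2
  obtain ⟨b', hb'⟩ := L.red_surj b
  obtain ⟨c', hc'⟩ := L.red_surj c
  have hc'n : c' ∉ L.cen hQ := by
    rw [L.mem_cen_iff, hc']; exact hc
  obtain ⟨cu, hcu⟩ := L.isUnit_algebraMap_of_notMem hQ hc'n
  refine ⟨algebraMap L.Bl (L.loc hQ) b' * ((cu⁻¹ : (L.loc hQ)ˣ) : L.loc hQ), ?_⟩
  have h1 : L.redLoc hQ ((cu : (L.loc hQ)ˣ) : L.loc hQ) = L.redQ hQ c' := by
    rw [hcu, L.redLoc_algebraMap]
  have h2 : L.redLoc hQ (((cu⁻¹ : (L.loc hQ)ˣ) : L.loc hQ)) * L.redQ hQ c' = 1 := by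
    rw [← h1, ← map_mul, Units.inv_mul, map_one]
  have h3 : w * L.redQ hQ c' = L.redQ hQ b' := by
    apply Subtype.ext
    rw [MulMemClass.coe_mul, L.coe_redQ, L.coe_redQ, hc', hb', hw]
  have hcunit : IsUnit (L.redQ hQ c') := L.isUnit_redQ_of_notMem hQ ⟨c', hc'n⟩
  rw [map_mul, L.redLoc_algebraMap, ← h3, mul_assoc, mul_comm (L.redQ hQ c'), h2, mul_one]

variable {L} in
/-- **Structure of the local ring**: the maximal ideal is generated by the uniformiser and any
lift `s` of a uniformiser of `Q`. -/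
theorem rp_Level.maximalIdeal_loc_eq (hR : C.RedRegular) {s : L.Bl}
    (hs : Irreducible (L.redQ hQ s)) :
    maximalIdeal (L.loc hQ) =
      Ideal.span {L.piLoc hQ, algebraMap L.Bl (L.loc hQ) s} := by
  apply le_antisymm
  · intro z hz
    rw [L.mem_maximalIdeal_loc_iff, hs.maximalIdeal_eq, Ideal.mem_span_singleton] at hz
    obtain ⟨w, hw⟩ := hz
    obtain ⟨w', rfl⟩ := L.redLoc_surjective hQ hR w
    have h0 : L.redLoc hQ (z - algebraMap L.Bl (L.loc hQ) s * w') = 0 := by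
      rw [map_sub, map_mul, L.redLoc_algebraMap, hw, sub_self]
    obtain ⟨v, hv⟩ := L.dvd_of_redLoc_eq_zero hQ h0
    rw [Ideal.mem_span_pair]
    refine ⟨v, w', ?_⟩
    rw [mul_comm v, ← hv]; ring
  · rw [Ideal.span_le]
    intro z hz
    rcases hz with hz | hz
    · rw [hz]
      show L.piLoc hQ ∈ maximalIdeal _
      rw [L.mem_maximalIdeal_loc_iff, L.redLoc_piLoc]
      exact Ideal.zero_mem _
    · rw [Set.mem_singleton_iff] at hz
      rw [hz]
      show algebraMap L.Bl (L.loc hQ) s ∈ maximalIdeal _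
      rw [L.mem_maximalIdeal_loc_iff, L.redLoc_algebraMap, mem_maximalIdeal]
      exact hs.not_isUnit

variable {L} in
theorem rp_Level.not_piLoc_dvd_param {s : L.Bl} (hs : Irreducible (L.redQ hQ s)) :
    ¬ L.piLoc hQ ∣ algebraMap L.Bl (L.loc hQ) s := by
  rw [L.piLoc_dvd_iff, L.redLoc_algebraMap]
  exact hs.ne_zero

/-- a uniformiser of `Q` lifts to the chart ring -/
theorem rp_exists_param (hQ : C.FinRed Q) (hR : C.RedRegular) :
    ∃ b : C.B, C.red b ∈ Q.toValuationSubring.nonunits ∧ Q.ord (C.red b) = 1 := by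
  obtain ⟨t, ht⟩ := IsDiscreteValuationRing.exists_irreducible Q.toValuationSubring
  obtain ⟨b, c, hc, hw⟩ := hR.local_eq Q hQ t t.2
  have hcV : C.red c ∈ Q.toValuationSubring := hQ c
  have hcu : IsUnit (⟨C.red c, hcV⟩ : Q.toValuationSubring) := by
    by_contra hnu
    apply hc
    have := (ValuationSubring.coe_mem_nonunits_iff (a := (⟨C.red c, hcV⟩ : Q.toValuationSubring))).2
      ((mem_maximalIdeal _).2 hnu)
    exact this
  refine ⟨b, ?_, ?_⟩
  · rw [← hw]
    have htn : (t : Ft) ∈ Q.toValuationSubring.nonunits := by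
      rw [ValuationSubring.coe_mem_nonunits_iff, mem_maximalIdeal]
      exact ht.not_isUnit
    exact rp_mul_mem_nonunits _ htn hcV
  · rw [← hw]
    have ht0 : (t : Ft) ≠ 0 := fun h => ht.ne_zero (Subtype.ext h)
    have hc0 : C.red c ≠ 0 := by
      intro h
      apply hc
      rw [h]
      exact Q.toValuationSubring.nonunits.zero_mem
    rw [Place.ord_mul _ ht0 hc0, Place.ord_coe_irreducible _ ht]
    have : Q.ord (C.red c) = 0 := by
      have := Q.ord_coe_unit hcu.unit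
      simpa using this
    rw [this, add_zero]

end LocalRing

end Fermat.Agent.JT3
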