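/-
JT3 / node E (place map): values of functions at places (`f - c ∈ m_P`), elementwise calculus.
-/
import Fermat.Agent.JT3.PlaceMap.Local

set_option autoImplicit false

namespace Fermat.Agent.JT3

open AlgebraicCurve IsLocalRing

section Value

variable {K : Type*} [Field K] {F : Type*} [Field F] [Algebra K F] (P : Place K F)

/-- `f` has the value `c` at `P`. -/
def rp_HasValue (f : F) (c : K) : Prop := f - algebraMap K F c ∈ P.toValuationSubring.nonunits

variable {P}

theorem rp_const_mem (c : K) : algebraMap K F c ∈ P.toValuationSubring := P.algebraMap_mem' c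

theorem rp_const_notMem_nonunits {c : K} (hc : c ≠ 0) :
    algebraMap K F c ∉ P.toValuationSubring.nonunits := by
  intro h
  have h1 := rp_mul_mem_nonunits _ h (rp_const_mem (P := P) c⁻¹)
  rw [← map_mul, mul_inv_cancel₀ hc, map_one] at h1
  exact rp_one_notMem_nonunits _ h1

theorem rp_hasValue_const (c : K) : rp_HasValue P (algebraMap K F c) c := by
  rw [rp_HasValue, sub_self]; exact P.toValuationSubring.nonunits.zero_mem

theorem rp_HasValue.mem {f : F} {c : K} (h : rp_HasValue P f c) : f ∈ P.toValuationSubring := by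
  have h1 : f = (f - algebraMap K F c) + algebraMap K F c := by ring
  rw [h1]
  exact P.toValuationSubring.add_mem _ _ (ValuationSubring.nonunits_subset h) (rp_const_mem c)

theorem rp_HasValue.unique {f : F} {c c' : K} (h : rp_HasValue P f c) (h' : rp_HasValue P f c') :
    c = c' := by
  by_contra hne
  have h1 : algebraMap K F (c' - c) ∈ P.toValuationSubring.nonunits := by
    have := P.toValuationSubring.nonunits.sub_mem h h'
    have h2 : f - algebraMap K F c - (f - algebraMap K F c') = algebraMap K F (c' - c) := by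
      rw [map_sub]; ring
    rwa [h2] at this
  exact rp_const_notMem_nonunits (sub_ne_zero.2 (Ne.symm hne)) h1

theorem rp_HasValue.add {f g : F} {c d : K} (hf : rp_HasValue P f c) (hg : rp_HasValue P g d) :
    rp_HasValue P (f + g) (c + d) := by
  have := P.toValuationSubring.nonunits.add_mem hf hg
  rw [rp_HasValue, map_add]
  have h2 : f + g - (algebraMap K F c + algebraMap K F d) =
      f - algebraMap K F c + (g - algebraMap K F d) := by ring
  rwa [h2]

theorem rp_HasValue.neg {f : F} {c : K} (hf : rp_HasValue P f c) : rp_HasValue P (-f) (-c) := by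
  have := P.toValuationSubring.nonunits.neg_mem hf
  rw [rp_HasValue, map_neg]
  have h2 : -f - -algebraMap K F c = -(f - algebraMap K F c) := by ring
  rwa [h2]

theorem rp_HasValue.sub {f g : F} {c d : K} (hf : rp_HasValue P f c) (hg : rp_HasValue P g d) :
    rp_HasValue P (f - g) (c - d) := by
  rw [sub_eq_add_neg, sub_eq_add_neg]; exact hf.add hg.neg

theorem rp_HasValue.mul {f g : F} {c d : K} (hf : rp_HasValue P f c) (hg : rp_HasValue P g d) :
    rp_HasValue P (f * g) (c * d) := by
  rw [rp_HasValue, map_mul]
  have h2 : f * g - algebraMap K F c * algebraMap K F d =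
      (f - algebraMap K F c) * g + (g - algebraMap K F d) * algebraMap K F c := by ring
  rw [h2]
  exact P.toValuationSubring.nonunits.add_mem (rp_mul_mem_nonunits _ hf hg.mem)
    (rp_mul_mem_nonunits _ hg (rp_const_mem c))

theorem rp_HasValue.zero_iff {f : F} {c : K} (hf : rp_HasValue P f c) :
    c = 0 ↔ f ∈ P.toValuationSubring.nonunits := by
  constructor
  · rintro rfl
    rw [rp_HasValue, map_zero, sub_zero] at hf
    exact hf
  · intro h
    by_contra hc
    have := P.toValuationSubring.nonunits.sub_mem h hf
    rw [sub_sub_cancel] at this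
    exact rp_const_notMem_nonunits hc this

theorem rp_HasValue.notMem_nonunits {f : F} {c : K} (hf : rp_HasValue P f c) (hc : c ≠ 0) :
    f ∉ P.toValuationSubring.nonunits := fun h => hc (hf.zero_iff.2 h)

theorem rp_HasValue.inv {f : F} {c : K} (hf : rp_HasValue P f c) (hc : c ≠ 0) :
    rp_HasValue P f⁻¹ c⁻¹ := by
  have hfn := hf.notMem_nonunits hc
  have hfi : f⁻¹ ∈ P.toValuationSubring := rp_inv_mem_of_notMem_nonunits _ hfn
  have hf0 : f ≠ 0 := by
    rintro rfl; exact hfn P.toValuationSubring.nonunits.zero_mem
  have hc0 : algebraMap K F c ≠ 0 := by rwa [Ne, map_eq_zero]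
  rw [rp_HasValue, map_inv₀]
  have h2 : f⁻¹ - (algebraMap K F c)⁻¹ =
      (-(f - algebraMap K F c)) * (f⁻¹ * algebraMap K F c⁻¹) := by
    rw [map_inv₀]; field_simp; ring
  rw [h2]
  exact rp_mul_mem_nonunits _ (P.toValuationSubring.nonunits.neg_mem hf)
    (P.toValuationSubring.mul_mem _ _ hfi (rp_const_mem _))

theorem rp_HasValue.div {f g : F} {c d : K} (hf : rp_HasValue P f c) (hg : rp_HasValue P g d)
    (hd : d ≠ 0) : rp_HasValue P (f / g) (c / d) := by
  rw [div_eq_mul_inv, div_eq_mul_inv]; exact hf.mul (hg.inv hd)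

/-- `ord_P f = 0` when the value is nonzero -/
theorem rp_HasValue.ord_eq_zero {f : F} {c : K} (hf : rp_HasValue P f c) (hc : c ≠ 0) :
    P.ord f = 0 := by
  have hfn := hf.notMem_nonunits hc
  have hfu : IsUnit (⟨f, hf.mem⟩ : P.toValuationSubring) := by
    by_contra hnu
    apply hfn
    exact (ValuationSubring.coe_mem_nonunits_iff (a := (⟨f, hf.mem⟩ : P.toValuationSubring))).2
      ((mem_maximalIdeal _).2 hnu)
  exact P.ord_coe_unit hfu.unit

end Value

end Fermat.Agent.JT3
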