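/-
JT3 / node E (place map): points of the chart.  Places of `FF / Kb` lying in the chart, centred at
`Q` and rational at a level `L` are the same as sections of the local ring `L.loc hQ`.
-/
import Fermat.Agent.JT3.PlaceMap.Value

set_option autoImplicit false

namespace Fermat.Agent.JT3

open AlgebraicCurve IsLocalRing

section HomOfValue

/-- a ring homomorphism defined by a functional, additive and multiplicative relation -/
noncomputable def rp_homOfValue {R T : Type*} [CommRing R] [CommRing T] (val : R → T → Prop)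
    (ex : ∀ r, ∃ t, val r t) (uniq : ∀ r t t', val r t → val r t' → t = t')
    (one : val 1 1) (add : ∀ r r' t t', val r t → val r' t' → val (r + r') (t + t'))
    (mul : ∀ r r' t t', val r t → val r' t' → val (r * r') (t * t')) : R →+* T where
  toFun r := (ex r).choose
  map_one' := uniq 1 _ _ (ex 1).choose_spec one
  map_mul' r r' := uniq _ _ _ (ex (r * r')).choose_spec
    (mul _ _ _ _ (ex r).choose_spec (ex r').choose_spec)
  map_zero' := by
    have h0 := (ex 0).choose_spec
    have h := add _ _ _ _ h0 h0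
    rw [add_zero] at h
    have := uniq _ _ _ h0 h
    -- t = t + t
    have h2 : (ex 0).choose + 0 = (ex 0).choose + (ex 0).choose := by rw [add_zero]; exact this
    exact (add_left_cancel h2).symm
  map_add' r r' := uniq _ _ _ (ex (r + r')).choose_spec
    (add _ _ _ _ (ex r).choose_spec (ex r').choose_spec)

theorem rp_homOfValue_spec {R T : Type*} [CommRing R] [CommRing T] (val : R → T → Prop)
    (ex : ∀ r, ∃ t, val r t) (uniq : ∀ r t t', val r t → val r t' → t = t')
    (one : val 1 1) (add : ∀ r r' t t', val r t → val r' t' → val (r + r') (t + t'))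
    (mul : ∀ r r' t t', val r t → val r' t' → val (r * r') (t * t')) (r : R) :
    val r (rp_homOfValue val ex uniq one add mul r) := (ex r).choose_spec

end HomOfValue

variable {Kb : Type*} [Field Kb] {A : ValuationSubring Kb}
variable {FF : Type*} [Field FF] [Algebra Kb FF]
variable {k : Type*} [Field k] {Ft : Type*} [Field Ft] [Algebra k Ft]
variable {C : rp_Chart A FF k Ft}

section ConstAlgebra

variable (L : rp_Level C) {Q : Place k Ft} (hQ : C.FinRed Q)

/-- the constants of the level, inside the level ring -/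
def rp_Level.constBl : L.O →+* L.Bl :=
  ((algebraMap Kb FF).comp L.O.subtype).codRestrict L.Bl (fun o => L.const_mem _ o.2)

/-- the constants of the level, inside the local ring -/
noncomputable def rp_Level.constHom : L.O →+* L.loc hQ :=
  (algebraMap L.Bl (L.loc hQ)).comp L.constBl

noncomputable instance rp_Level.loc_algebraO : Algebra L.O (L.loc hQ) :=
  (L.constHom hQ).toAlgebra

theorem rp_Level.coe_algebraMapO (o : L.O) :
    ((algebraMap L.O (L.loc hQ) o : L.loc hQ) : FF) = algebraMap Kb FF (o : Kb) := rfl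

theorem rp_Level.algebraMapO_pi : algebraMap L.O (L.loc hQ) L.pi = L.piLoc hQ := rfl

end ConstAlgebra

section SectionOfPlace

variable (L : rp_Level C) {Q : Place k Ft} (hQ : C.FinRed Q)
variable {P : Place Kb FF}

/-- at a rational place of the chart, level functions take values in `L.O` -/
theorem rp_Level.exists_value_Bl (hP : C.InChart P) (hrat : L.Rational P) (b : L.Bl) :
    ∃ o : L.O, rp_HasValue P (b : FF) (o : Kb) := by
  obtain ⟨c, hc⟩ := hP b (L.Bl_le b.2)
  obtain ⟨o₁, o₂, h1, h2, h20, hv⟩ := hrat b b.2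
  have hcv : rp_HasValue P (b : FF) (c : Kb) := hc
  have hov : rp_HasValue P (b : FF) (o₁ / o₂) := hv
  have heq : (c : Kb) = o₁ / o₂ := hcv.unique hov
  have hmem : o₁ / o₂ ∈ L.O := L.mem_of_div_mem h1 h2 h20 (heq ▸ c.2)
  exact ⟨⟨o₁ / o₂, hmem⟩, hov⟩

/-- a unit-valued element of `L.O` -/
theorem rp_Level.isUnit_of_notMem_nonunits {o : L.O} (ho : (o : Kb) ∉ A.nonunits) : IsUnit o := by
  by_contra hnu
  exact ho ((L.mem_nonunits_iff o).2 (L.dvd_of_not_isUnit o hnu))

theorem rp_Level.coe_inv_of_isUnit {o : L.O} (ho : IsUnit o) :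
    ∃ o' : L.O, (o' : Kb) = (o : Kb)⁻¹ := by
  obtain ⟨o', ho'⟩ := ho.exists_right_inv
  refine ⟨o', ?_⟩
  have h1 : (o : Kb) * (o' : Kb) = 1 := congrArg Subtype.val ho'
  exact eq_inv_of_mul_eq_one_right h1

/-- at a rational place of the chart centred at `Q`, the functions of the local ring take values
in `L.O` -/
theorem rp_Level.exists_value_loc (hP : C.InChart P) (hPQ : C.CenterAt P Q) (hrat : L.Rational P)
    (z : L.loc hQ) : ∃ o : L.O, rp_HasValue P (z : FF) (o : Kb) := by
  obtain ⟨b, c, hc, hzc⟩ := L.exists_mul_eq hQ z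
  obtain ⟨ob, hob⟩ := L.exists_value_Bl hP hrat b
  obtain ⟨oc, hoc⟩ := L.exists_value_Bl hP hrat c
  have hzc' : (z : FF) * (c : FF) = (b : FF) := congrArg Subtype.val hzc
  -- the value of `c` is a unit
  have hocn : (oc : Kb) ∉ A.nonunits := by
    intro h
    apply hc
    rw [L.mem_cen_iff]
    exact (hPQ ⟨c, L.Bl_le c.2⟩ ⟨oc, L.O_le _ oc.2⟩ hoc).1 h
  have hocu := L.isUnit_of_notMem_nonunits hocn
  obtain ⟨oc', hoc'⟩ := L.coe_inv_of_isUnit hocu
  have hoc0 : (oc : Kb) ≠ 0 := by
    intro h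
    apply hocn
    rw [h]
    exact A.nonunits.zero_mem
  have hc0 : (c : FF) ≠ 0 := by
    intro h
    have := hoc.zero_iff.2 (h ▸ P.toValuationSubring.nonunits.zero_mem)
    exact hoc0 this
  refine ⟨ob * oc', ?_⟩
  have hz : (z : FF) = (b : FF) / (c : FF) := by
    rw [eq_div_iff hc0]; exact hzc'
  rw [hz, Subring.coe_mul, hoc', ← div_eq_mul_inv]
  exact hob.div hoc hoc0

/-- the value relation between the local ring and `L.O` at the place `P` -/
def rp_Level.ValRel (P : Place Kb FF) (z : L.loc hQ) (o : L.O) : Prop :=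
  rp_HasValue P (z : FF) (o : Kb)

theorem rp_Level.valRel_uniq (z : L.loc hQ) (o o' : L.O) (h : L.ValRel hQ P z o)
    (h' : L.ValRel hQ P z o') : o = o' := Subtype.ext (rp_HasValue.unique h h')

theorem rp_Level.valRel_one : L.ValRel hQ P 1 1 := by
  have := rp_hasValue_const (P := P) (1 : Kb)
  rw [map_one] at this
  exact this

theorem rp_Level.valRel_add (z z' : L.loc hQ) (o o' : L.O) (h : L.ValRel hQ P z o)
    (h' : L.ValRel hQ P z' o') : L.ValRel hQ P (z + z') (o + o') :=
  rp_HasValue.add h h'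

theorem rp_Level.valRel_mul (z z' : L.loc hQ) (o o' : L.O) (h : L.ValRel hQ P z o)
    (h' : L.ValRel hQ P z' o') : L.ValRel hQ P (z * z') (o * o') :=
  rp_HasValue.mul h h'

/-- the ring homomorphism underlying `sectionOfPlace` -/
noncomputable def rp_Level.sectionRingHom (hP : C.InChart P) (hPQ : C.CenterAt P Q)
    (hrat : L.Rational P) : L.loc hQ →+* L.O :=
  rp_homOfValue (L.ValRel hQ P) (L.exists_value_loc hQ hP hPQ hrat) (L.valRel_uniq hQ)
    (L.valRel_one hQ) (L.valRel_add hQ) (L.valRel_mul hQ)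

theorem rp_Level.sectionRingHom_spec (hP : C.InChart P) (hPQ : C.CenterAt P Q)
    (hrat : L.Rational P) (z : L.loc hQ) :
    rp_HasValue P (z : FF) ((L.sectionRingHom hQ hP hPQ hrat z : L.O) : Kb) :=
  rp_homOfValue_spec (L.ValRel hQ P) (L.exists_value_loc hQ hP hPQ hrat) (L.valRel_uniq hQ)
    (L.valRel_one hQ) (L.valRel_add hQ) (L.valRel_mul hQ) z

/-- the section of the local ring attached to a rational place of the chart centred at `Q` -/
noncomputable def rp_Level.sectionOfPlace (hP : C.InChart P) (hPQ : C.CenterAt P Q)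
    (hrat : L.Rational P) : L.loc hQ →ₐ[L.O] L.O :=
  { L.sectionRingHom hQ hP hPQ hrat with
    commutes' := by
      intro o
      have h1 := L.sectionRingHom_spec hQ hP hPQ hrat (algebraMap L.O (L.loc hQ) o)
      have h2 : rp_HasValue P ((algebraMap L.O (L.loc hQ) o : L.loc hQ) : FF) (o : Kb) := by
        rw [L.coe_algebraMapO]; exact rp_hasValue_const _
      exact Subtype.ext (h1.unique h2) }

theorem rp_Level.sectionOfPlace_spec (hP : C.InChart P) (hPQ : C.CenterAt P Q)
    (hrat : L.Rational P) (z : L.loc hQ) :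
    rp_HasValue P (z : FF) ((L.sectionOfPlace hQ hP hPQ hrat z : L.O) : Kb) :=
  L.sectionRingHom_spec hQ hP hPQ hrat z

end SectionOfPlace

section PlaceOfSection

variable (L : rp_Level C) {Q : Place k Ft} (hQ : C.FinRed Q)

/-- a valuation ring containing `L.O`, the inverses of its nonzero elements, contains `Kb` -/
theorem rp_Level.const_mem_of_valuationSubring (V : ValuationSubring FF)
    (hO : ∀ o ∈ L.O, algebraMap Kb FF o ∈ V)
    (hOinv : ∀ o ∈ L.O, o ≠ 0 → (algebraMap Kb FF o)⁻¹ ∈ V) (c : Kb) :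
    algebraMap Kb FF c ∈ V := by
  by_contra hx
  set x := algebraMap Kb FF c with hxdef
  have hx0 : x ≠ 0 := fun h => hx (h ▸ V.zero_mem)
  have hxi : x⁻¹ ∈ V.nonunits := by
    rw [ValuationSubring.inv_mem_nonunits_iff]; exact Or.inr hx
  obtain ⟨p, hp0, hpO, hpc⟩ := L.alg c
  set n := p.natDegree with hn
  have han0 : p.coeff n ≠ 0 := by
    rw [hn]; exact Polynomial.leadingCoeff_ne_zero.2 hp0
  -- the relation in `FF`
  have h1 : ∑ i ∈ Finset.range (n + 1), algebraMap Kb FF (p.coeff i) * x ^ i = 0 := by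
    have := congrArg (algebraMap Kb FF) hpc
    rw [Polynomial.eval_eq_sum_range, map_sum, map_zero] at this
    simpa [map_mul, map_pow] using this
  -- multiply by `x⁻¹ ^ n`
  have h2 : ∑ i ∈ Finset.range (n + 1), algebraMap Kb FF (p.coeff i) * x⁻¹ ^ (n - i) = 0 := by
    have h3 : (∑ i ∈ Finset.range (n + 1), algebraMap Kb FF (p.coeff i) * x ^ i) * x⁻¹ ^ n = 0 := by
      rw [h1, zero_mul]
    rw [Finset.sum_mul] at h3
    rw [← h3]
    apply Finset.sum_congr rfl
    intro i hi
    have hin : i ≤ n := Nat.lt_succ_iff.1 (Finset.mem_range.1 hi)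
    have : x⁻¹ ^ n = x⁻¹ ^ (n - i) * x⁻¹ ^ i := by rw [← pow_add, Nat.sub_add_cancel hin]
    rw [this]
    have hxi0 : x ^ i ≠ 0 := pow_ne_zero _ hx0
    have hcancel : x ^ i * x⁻¹ ^ i = 1 := by
      rw [inv_pow, mul_inv_cancel₀ hxi0]
    calc algebraMap Kb FF (p.coeff i) * x⁻¹ ^ (n - i)
        = algebraMap Kb FF (p.coeff i) * x⁻¹ ^ (n - i) * (x ^ i * x⁻¹ ^ i) := by
          rw [hcancel, mul_one]
      _ = algebraMap Kb FF (p.coeff i) * x ^ i * (x⁻¹ ^ (n - i) * x⁻¹ ^ i) := by ring
  rw [Finset.sum_range_succ, Nat.sub_self, pow_zero, mul_one] at h2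
  have h4 : algebraMap Kb FF (p.coeff n) ∈ V.nonunits := by
    have h5 : algebraMap Kb FF (p.coeff n) =
        -∑ i ∈ Finset.range n, algebraMap Kb FF (p.coeff i) * x⁻¹ ^ (n - i) := by
      rw [eq_neg_iff_add_eq_zero, add_comm]; exact h2
    rw [h5]
    apply V.nonunits.neg_mem
    apply V.nonunits.sum_mem
    intro i hi
    have hin : i < n := Finset.mem_range.1 hi
    obtain ⟨m, hm⟩ := Nat.exists_eq_succ_of_ne_zero (Nat.sub_pos_of_lt hin).ne'
    rw [mul_comm, hm, pow_succ']
    have h6 : x⁻¹ ^ m ∈ V := V.pow_mem (ValuationSubring.nonunits_subset hxi) _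
    rw [mul_assoc]
    exact rp_mul_mem_nonunits V hxi (V.mul_mem _ _ h6 (hO _ (hpO i)))
  have h7 := rp_mul_mem_nonunits V h4 (hOinv _ (hpO n) han0)
  rw [mul_inv_cancel₀ (by rwa [Ne, map_eq_zero])] at h7
  exact rp_one_notMem_nonunits V h7

/-- **Every section comes from a place.** -/
theorem rp_Level.exists_place_of_section (hF : rp_FunField Kb FF)
    (ε : L.loc hQ →ₐ[L.O] L.O) (hε : ∃ a : L.loc hQ, a ≠ 0 ∧ ε a = 0) :
    ∃ P : Place Kb FF, ∀ z : L.loc hQ, rp_HasValue P (z : FF) ((ε z : L.O) : Kb) := by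
  classical
  set 𝔭 : Ideal (L.loc hQ) := RingHom.ker (ε : L.loc hQ →+* L.O) with h𝔭
  have : 𝔭.IsPrime := RingHom.ker_isPrime _
  obtain ⟨V, hle, hloc⟩ := (LocalSubring.ofPrime (L.loc hQ) 𝔭).exists_le_valuationSubring
  set S := LocalSubring.ofPrime (L.loc hQ) 𝔭 with hS
  -- (i) the local ring lies in `V`
  have hi : ∀ z : L.loc hQ, (z : FF) ∈ V := fun z =>
    hle (LocalSubring.le_ofPrime (L.loc hQ) 𝔭 z.2)
  -- (ii) the prime lies in the maximal ideal of `V`
  have hii : ∀ z : L.loc hQ, z ∈ 𝔭 → (z : FF) ∈ V.nonunits := by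
    intro z hz
    have h1 : algebraMap (L.loc hQ) S.toSubring z ∈ maximalIdeal S.toSubring :=
      (IsLocalization.AtPrime.to_map_mem_maximal_iff S.toSubring 𝔭 z).2 hz
    by_contra hzn
    have hzinv : (z : FF)⁻¹ ∈ V := rp_inv_mem_of_notMem_nonunits V hzn
    have hz0 : (z : FF) ≠ 0 := by
      intro h0; apply hzn; rw [h0]; exact V.nonunits.zero_mem
    have h2 : IsUnit (Subring.inclusion hle (algebraMap (L.loc hQ) S.toSubring z)) := by
      refine IsUnit.of_mul_eq_one ⟨(z : FF)⁻¹, hzinv⟩ ?_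
      apply Subtype.ext
      show (z : FF) * (z : FF)⁻¹ = 1
      exact mul_inv_cancel₀ hz0
    exact (mem_maximalIdeal _).1 h1 (hloc.map_nonunit _ h2)
  -- (iii) elements outside the prime are units of `V`
  have hiii : ∀ z : L.loc hQ, z ∉ 𝔭 → (z : FF)⁻¹ ∈ V := by
    intro z hz
    have h1 : IsUnit (algebraMap (L.loc hQ) S.toSubring z) :=
      IsLocalization.map_units S.toSubring (⟨z, hz⟩ : 𝔭.primeCompl)
    obtain ⟨u, hu⟩ := h1
    have h2 : ((u⁻¹ : S.toSubringˣ) : S.toSubring) * algebraMap (L.loc hQ) S.toSubring z = 1 := by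
      rw [← hu, Units.inv_mul]
    have h3 : (((u⁻¹ : S.toSubringˣ) : S.toSubring) : FF) * (z : FF) = 1 :=
      congrArg Subtype.val h2
    have h4 : (z : FF)⁻¹ = (((u⁻¹ : S.toSubringˣ) : S.toSubring) : FF) :=
      (eq_inv_of_mul_eq_one_left h3).symm
    rw [h4]
    exact hle (SetLike.coe_mem _)
  -- (iv) constants
  have hO : ∀ o ∈ L.O, algebraMap Kb FF o ∈ V := fun o ho =>
    hi (algebraMap L.O (L.loc hQ) ⟨o, ho⟩)
  have hOinv : ∀ o ∈ L.O, o ≠ 0 → (algebraMap Kb FF o)⁻¹ ∈ V := by
    intro o ho ho0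
    have h1 : algebraMap L.O (L.loc hQ) ⟨o, ho⟩ ∉ 𝔭 := by
      rw [h𝔭, RingHom.mem_ker]
      have : ε (algebraMap L.O (L.loc hQ) ⟨o, ho⟩) = ⟨o, ho⟩ := ε.commutes _
      intro h0
      have h00 : (⟨o, ho⟩ : L.O) = 0 := by rw [← this]; exact h0
      exact ho0 (congrArg Subtype.val h00)
    exact hiii _ h1
  have hconst := L.const_mem_of_valuationSubring V hO hOinv
  -- (v) nontrivial
  have hVtop : V ≠ ⊤ := by
    obtain ⟨a, ha0, haε⟩ := hε
    intro htop
    have h1 : (a : FF) ∈ V.nonunits := hii a (by rw [h𝔭, RingHom.mem_ker]; exact haε)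
    rw [ValuationSubring.mem_nonunits_iff_or, htop] at h1
    rcases h1 with h1 | h1
    · exact ha0 (Subtype.ext h1)
    · exact h1 (ValuationSubring.mem_top _)
  obtain ⟨P, hP⟩ := hF.place_of_valuationSubring V hconst hVtop
  refine ⟨P, fun z => ?_⟩
  have h1 := hii _ (sd_sub_mem_ker ε z)
  rw [rp_HasValue, hP]
  exact h1

end PlaceOfSection

end Fermat.Agent.JT3
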