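/-
JT3 / node E (place map): sections of the local ring and places.

* `rp_exists_valuationSubring_of_prime`: a valuation ring of `FF` dominating the localisation of a
  subring at a prime.
* `rp_Level.IsPlaceOf P ε`: the place `P` is the place of the section `ε` (every function of the
  local ring has the value prescribed by `ε` at `P`).
* `rp_Level.exists_section_of_prime`: a prime of the local ring, different from the maximal ideal,
  containing an element whose zeros are rational, is the kernel of a section.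
* `rp_Level.exists_pow_mul`: factoring out the local equation of a section.
-/
import Fermat.Agent.JT3.PlaceMap.Points
import Fermat.Agent.S24.Hurwitz.Places

set_option autoImplicit false

namespace Fermat.Agent.JT3

open AlgebraicCurve IsLocalRing Fermat.Agent.S24

section Generic

variable {FF : Type*} [Field FF]

/-- A valuation ring dominating the localisation of a subring of a field at a prime. -/
theorem rp_exists_valuationSubring_of_prime (R : Subring FF) (𝔭 : Ideal R) [𝔭.IsPrime] :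
    ∃ V : ValuationSubring FF, (∀ z : R, (z : FF) ∈ V) ∧
      (∀ z : R, z ∈ 𝔭 → (z : FF) ∈ V.nonunits) ∧ (∀ z : R, z ∉ 𝔭 → (z : FF)⁻¹ ∈ V) := by
  obtain ⟨V, hle, hloc⟩ := (LocalSubring.ofPrime R 𝔭).exists_le_valuationSubring
  set S := LocalSubring.ofPrime R 𝔭 with hS
  refine ⟨V, fun z => hle (LocalSubring.le_ofPrime R 𝔭 z.2), ?_, ?_⟩
  · intro z hz
    have h1 : algebraMap R S.toSubring z ∈ maximalIdeal S.toSubring :=
      (IsLocalization.AtPrime.to_map_mem_maximal_iff S.toSubring 𝔭 z).2 hz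
    by_contra hzn
    have hzinv : (z : FF)⁻¹ ∈ V := rp_inv_mem_of_notMem_nonunits V hzn
    have hz0 : (z : FF) ≠ 0 := by
      intro h0; apply hzn; rw [h0]; exact V.nonunits.zero_mem
    have h2 : IsUnit (Subring.inclusion hle (algebraMap R S.toSubring z)) := by
      refine IsUnit.of_mul_eq_one ⟨(z : FF)⁻¹, hzinv⟩ ?_
      apply Subtype.ext
      show (z : FF) * (z : FF)⁻¹ = 1
      exact mul_inv_cancel₀ hz0
    exact (mem_maximalIdeal _).1 h1 (hloc.map_nonunit _ h2)
  · intro z hz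
    have h1 : IsUnit (algebraMap R S.toSubring z) :=
      IsLocalization.map_units S.toSubring (⟨z, hz⟩ : 𝔭.primeCompl)
    obtain ⟨u, hu⟩ := h1
    have h2 : ((u⁻¹ : S.toSubringˣ) : S.toSubring) * algebraMap R S.toSubring z = 1 := by
      rw [← hu, Units.inv_mul]
    have h3 : (((u⁻¹ : S.toSubringˣ) : S.toSubring) : FF) * (z : FF) = 1 :=
      congrArg Subtype.val h2
    have h4 : (z : FF)⁻¹ = (((u⁻¹ : S.toSubringˣ) : S.toSubring) : FF) :=
      (eq_inv_of_mul_eq_one_left h3).symm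
    rw [h4]
    exact hle (SetLike.coe_mem _)

end Generic

section Ord

variable {K : Type*} [Field K] {F : Type*} [Field F] [Algebra K F] (P : Place K F)

theorem rp_ord_pos_of_mem_nonunits {f : F} (hf0 : f ≠ 0)
    (hf : f ∈ P.toValuationSubring.nonunits) : 0 < P.ord f := by
  rw [hw_ord_pos_iff P hf0]
  rw [ValuationSubring.mem_nonunits_iff_or] at hf
  exact hf.resolve_left hf0

theorem rp_mem_nonunits_of_ord_pos {f : F} (hf : 0 < P.ord f) :
    f ∈ P.toValuationSubring.nonunits := by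
  have hf0 : f ≠ 0 := by
    rintro rfl
    simp at hf
  rw [ValuationSubring.mem_nonunits_iff_or]
  exact Or.inr ((hw_ord_pos_iff P hf0).mp hf)

theorem rp_ord_nonneg_of_mem {f : F} (hf : f ∈ P.toValuationSubring) : 0 ≤ P.ord f := by
  rcases eq_or_ne f 0 with rfl | hf0
  · simp
  · exact (hw_mem_iff_ord_nonneg P hf0).1 hf

theorem rp_ord_pow (f : F) (n : ℕ) : P.ord (f ^ n) = n * P.ord f := by
  have := P.ord_zpow f (n : ℤ)
  rwa [zpow_natCast] at this

end Ord

section Levels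

variable {Kb : Type*} [Field Kb] {A : ValuationSubring Kb}
variable {FF : Type*} [Field FF] [Algebra Kb FF]
variable {k : Type*} [Field k] {Ft : Type*} [Field Ft] [Algebra k Ft]
variable {C : rp_Chart A FF k Ft}

/-- A chart function with zero reduction takes a value in the maximal ideal of `A`. -/
theorem rp_value_mem_nonunits_of_red_eq_zero (hL : C.HasLevels) {P : Place Kb FF}
    (hP : C.InChart P) (d : C.B) (hd : C.red d = 0) {c : Kb}
    (hc : rp_HasValue P (d : FF) c) : c ∈ A.nonunits := by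
  classical
  obtain ⟨L, hdL, -⟩ := hL.refine {(d : FF)} ∅
    (by intro b hb; rw [Finset.mem_singleton] at hb; rw [hb]; exact d.2) (by simp)
  have hdL' : (d : FF) ∈ L.Bl := hdL _ (Finset.mem_singleton_self _)
  obtain ⟨b', hb'⟩ := L.red_ker ⟨d, hdL'⟩ hd
  obtain ⟨c', hc'⟩ := hP b' (L.Bl_le b'.2)
  have h1 : rp_HasValue P (d : FF) (L.ϖ * c') := by
    rw [show (d : FF) = algebraMap Kb FF L.ϖ * (b' : FF) from hb']
    exact (rp_hasValue_const L.ϖ).mul hc'
  rw [hc.unique h1]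
  exact rp_mul_mem_nonunits A L.ϖ_nonunit c'.2

variable (L : rp_Level C) {Q : Place k Ft} (hQ : C.FinRed Q)

/-- `P` is the place of the section `ε`. -/
def rp_Level.IsPlaceOf (P : Place Kb FF) (ε : L.loc hQ →ₐ[L.O] L.O) : Prop :=
  ∀ z : L.loc hQ, rp_HasValue P (z : FF) ((ε z : L.O) : Kb)

variable {L hQ} {P : Place Kb FF} {ε : L.loc hQ →ₐ[L.O] L.O}

theorem rp_Level.IsPlaceOf.inChart (h : L.IsPlaceOf hQ P ε) : C.InChart P := by
  apply L.inChart_of_level
  intro b hb
  exact ⟨⟨_, L.O_le _ (ε (algebraMap L.Bl (L.loc hQ) ⟨b, hb⟩)).2⟩,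
    h (algebraMap L.Bl (L.loc hQ) ⟨b, hb⟩)⟩

theorem rp_Level.IsPlaceOf.rational (h : L.IsPlaceOf hQ P ε) : L.Rational P := by
  intro b hb
  refine ⟨_, 1, (ε (algebraMap L.Bl (L.loc hQ) ⟨b, hb⟩)).2, L.O.one_mem, one_ne_zero, ?_⟩
  rw [div_one]
  exact h (algebraMap L.Bl (L.loc hQ) ⟨b, hb⟩)

theorem rp_Level.IsPlaceOf.unique {ε' : L.loc hQ →ₐ[L.O] L.O} (h : L.IsPlaceOf hQ P ε)
    (h' : L.IsPlaceOf hQ P ε') : ε = ε' := by
  apply AlgHom.ext
  intro z
  exact Subtype.ext ((h z).unique (h' z))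

theorem rp_Level.IsPlaceOf.mem_nonunits_iff (h : L.IsPlaceOf hQ P ε) (z : L.loc hQ) :
    (z : FF) ∈ P.toValuationSubring.nonunits ↔ ε z = 0 := by
  rw [← (h z).zero_iff]
  constructor
  · intro h0; exact Subtype.ext h0
  · intro h0; rw [h0]; rfl

theorem rp_Level.IsPlaceOf.mem (h : L.IsPlaceOf hQ P ε) (z : L.loc hQ) :
    (z : FF) ∈ P.toValuationSubring := (h z).mem

theorem rp_Level.IsPlaceOf.ord_nonneg (h : L.IsPlaceOf hQ P ε) (z : L.loc hQ) :
    0 ≤ P.ord (z : FF) := rp_ord_nonneg_of_mem P (h.mem z)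

theorem rp_Level.IsPlaceOf.ord_eq_zero (h : L.IsPlaceOf hQ P ε) {z : L.loc hQ} (hz : ε z ≠ 0) :
    P.ord (z : FF) = 0 := by
  apply (h z).ord_eq_zero
  intro h0
  exact hz (Subtype.ext h0)

theorem rp_Level.IsPlaceOf.ord_unit (h : L.IsPlaceOf hQ P ε) (u : (L.loc hQ)ˣ) :
    P.ord ((u : L.loc hQ) : FF) = 0 := by
  apply h.ord_eq_zero
  have := (u.isUnit.map ε)
  exact this.ne_zero

/-- the section of a place of the chart centred at `Q` and rational at the level -/
theorem rp_Level.isPlaceOf_sectionOfPlace (hP : C.InChart P) (hPQ : C.CenterAt P Q)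
    (hrat : L.Rational P) : L.IsPlaceOf hQ P (L.sectionOfPlace hQ hP hPQ hrat) :=
  L.sectionOfPlace_spec hQ hP hPQ hrat

/-- the value of a section lies in the maximal ideal of `A` iff the function lies in the
maximal ideal of the local ring -/
theorem rp_Level.section_mem_nonunits_iff (ε : L.loc hQ →ₐ[L.O] L.O) (z : L.loc hQ) :
    ((ε z : L.O) : Kb) ∈ A.nonunits ↔ z ∈ maximalIdeal (L.loc hQ) := by
  constructor
  · intro h
    by_contra hz
    have hu : IsUnit z := by
      by_contra hnu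
      exact hz ((mem_maximalIdeal _).2 hnu)
    exact L.not_mem_nonunits_of_isUnit (hu.map ε) h
  · intro hz
    rw [L.mem_nonunits_iff]
    exact L.dvd_of_not_isUnit _ (sd_not_isUnit_apply ε hz)

theorem rp_Level.IsPlaceOf.centerAt (hL : C.HasLevels) (h : L.IsPlaceOf hQ P ε) :
    C.CenterAt P Q := by
  intro b c hbc
  obtain ⟨b', hb'⟩ := L.red_surj b
  set d : C.B := b - ⟨b', L.Bl_le b'.2⟩ with hd_def
  have hd : C.red d = 0 := by rw [hd_def, map_sub, hb', sub_self]
  set z := algebraMap L.Bl (L.loc hQ) b' with hz_def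
  have hz : rp_HasValue P (b' : FF) ((ε z : L.O) : Kb) := h z
  have hbc' : rp_HasValue P (b : FF) (c : Kb) := hbc
  have hdv : rp_HasValue P (d : FF) ((c : Kb) - ((ε z : L.O) : Kb)) := hbc'.sub hz
  have hdm := rp_value_mem_nonunits_of_red_eq_zero hL h.inChart d hd hdv
  have h1 : (c : Kb) ∈ A.nonunits ↔ ((ε z : L.O) : Kb) ∈ A.nonunits := by
    constructor
    · intro hc
      have := A.nonunits.sub_mem hc hdm
      rwa [sub_sub_cancel] at this
    · intro hc
      have := A.nonunits.add_mem hdm hc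
      rwa [sub_add_cancel] at this
  rw [h1, L.section_mem_nonunits_iff, ← hb', ← L.mem_cen_iff hQ, hz_def]
  exact IsLocalization.AtPrime.to_map_mem_maximal_iff (L.loc hQ) (L.cen hQ) b'

/-- a place at which every function of the local ring has a value in `L.O` is the place of a
section -/
theorem rp_Level.exists_section_of_values
    (hv : ∀ z : L.loc hQ, ∃ o : L.O, rp_HasValue P (z : FF) (o : Kb)) :
    ∃ ε : L.loc hQ →ₐ[L.O] L.O, L.IsPlaceOf hQ P ε := by
  set φ : L.loc hQ →+* L.O := rp_homOfValue (L.ValRel hQ P) hv (L.valRel_uniq hQ)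
    (L.valRel_one hQ) (L.valRel_add hQ) (L.valRel_mul hQ) with hφ
  have hspec : ∀ z : L.loc hQ, rp_HasValue P (z : FF) ((φ z : L.O) : Kb) := fun z =>
    rp_homOfValue_spec (L.ValRel hQ P) hv (L.valRel_uniq hQ)
      (L.valRel_one hQ) (L.valRel_add hQ) (L.valRel_mul hQ) z
  refine ⟨{ φ with
    commutes' := by
      intro o
      have h1 := hspec (algebraMap L.O (L.loc hQ) o)
      have h2 : rp_HasValue P ((algebraMap L.O (L.loc hQ) o : L.loc hQ) : FF) (o : Kb) := by
        rw [L.coe_algebraMapO]; exact rp_hasValue_const _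
      exact Subtype.ext (h1.unique h2) }, ?_⟩
  intro z
  exact hspec z

variable (L hQ) in
/-- a prime of the local ring containing the uniformiser and an element with nonzero reduction is
the maximal ideal -/
theorem rp_Level.eq_maximalIdeal_of_piLoc_mem (hR : C.RedRegular) {a : L.loc hQ}
    (ha : L.redLoc hQ a ≠ 0) (𝔭 : Ideal (L.loc hQ)) (h𝔭 : 𝔭.IsPrime) (ha𝔭 : a ∈ 𝔭)
    (hpi : L.piLoc hQ ∈ 𝔭) : 𝔭 = maximalIdeal (L.loc hQ) := by
  have hsurj := L.redLoc_surjective hQ hR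
  have hker : RingHom.ker (L.redLoc hQ) ≤ 𝔭 := by
    intro z hz
    rw [RingHom.mem_ker, ← L.piLoc_dvd_iff] at hz
    obtain ⟨w, rfl⟩ := hz
    exact 𝔭.mul_mem_right _ hpi
  have hprime : (𝔭.map (L.redLoc hQ)).IsPrime := Ideal.map_isPrime_of_surjective hsurj hker
  have hnebot : 𝔭.map (L.redLoc hQ) ≠ ⊥ := by
    intro h
    have : L.redLoc hQ a ∈ 𝔭.map (L.redLoc hQ) := Ideal.mem_map_of_mem _ ha𝔭
    rw [h] at this
    exact ha this
  have hmax := hprime.isMaximal hnebot
  have heq := IsLocalRing.eq_maximalIdeal hmax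
  have h1 : Ideal.comap (L.redLoc hQ) (𝔭.map (L.redLoc hQ)) = 𝔭 := by
    rw [Ideal.comap_map_of_surjective _ hsurj]
    apply le_antisymm
    · exact sup_le le_rfl hker
    · exact le_sup_left
  rw [← h1, heq]
  ext z
  rw [Ideal.mem_comap, L.mem_maximalIdeal_loc_iff]

variable (L hQ) in
/-- **Primes are kernels of sections.**  A prime of the local ring, different from the maximal
ideal, containing an element `a` with nonzero reduction all of whose zeros are rational at the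
level, is the kernel of a section. -/
theorem rp_Level.exists_section_of_prime (hF : rp_FunField Kb FF) (hR : C.RedRegular)
    {a : L.loc hQ} (ha : L.redLoc hQ a ≠ 0)
    (hrat : ∀ P : Place Kb FF, C.Fin P → 0 < P.ord (a : FF) → L.Rational P)
    (𝔭 : Ideal (L.loc hQ)) (h𝔭 : 𝔭.IsPrime) (ha𝔭 : a ∈ 𝔭)
    (hne : 𝔭 ≠ maximalIdeal (L.loc hQ)) :
    ∃ ε : L.loc hQ →ₐ[L.O] L.O, RingHom.ker (ε : L.loc hQ →+* L.O) = 𝔭 := by
  have hpi : L.piLoc hQ ∉ 𝔭 := fun hpi =>
    hne (L.eq_maximalIdeal_of_piLoc_mem hQ hR ha 𝔭 h𝔭 ha𝔭 hpi)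
  obtain ⟨V, hi, hii, hiii⟩ := rp_exists_valuationSubring_of_prime (L.loc hQ) 𝔭
  -- constants
  have hO : ∀ o ∈ L.O, algebraMap Kb FF o ∈ V := fun o ho =>
    hi (algebraMap L.O (L.loc hQ) ⟨o, ho⟩)
  have hpiinv : (algebraMap Kb FF L.ϖ)⁻¹ ∈ V := hiii _ hpi
  have hOinv : ∀ o ∈ L.O, o ≠ 0 → (algebraMap Kb FF o)⁻¹ ∈ V := by
    intro o ho ho0
    obtain ⟨n, u, hu, hui, rfl⟩ := L.O_str o ho ho0
    have hu0 : u ≠ 0 := by
      rintro rfl; exact ho0 (mul_zero _)
    have hui' : (algebraMap Kb FF u)⁻¹ = algebraMap Kb FF u⁻¹ := (map_inv₀ _ _).symm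
    rw [map_mul, map_pow, mul_inv, ← inv_pow, hui']
    exact V.mul_mem _ _ (V.pow_mem hpiinv _) (hO _ hui)
  have hconst := L.const_mem_of_valuationSubring V hO hOinv
  have ha0 : a ≠ 0 := by
    rintro rfl; exact ha (map_zero _)
  have ha0' : (a : FF) ≠ 0 := fun h => ha0 (Subtype.ext h)
  have hVtop : V ≠ ⊤ := by
    intro htop
    have h1 : (a : FF) ∈ V.nonunits := hii a ha𝔭
    rw [ValuationSubring.mem_nonunits_iff_or, htop] at h1
    rcases h1 with h1 | h1
    · exact ha0' h1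
    · exact h1 (ValuationSubring.mem_top _)
  obtain ⟨P, hP⟩ := hF.place_of_valuationSubring V hconst hVtop
  -- the prime is the trace of the maximal ideal of `P`
  have hmem𝔭 : ∀ z : L.loc hQ, (z : FF) ∈ P.toValuationSubring.nonunits ↔ z ∈ 𝔭 := by
    intro z
    rw [hP]
    constructor
    · intro hz
      by_contra hzn
      have := rp_mul_mem_nonunits V hz (hiii z hzn)
      have hz0 : (z : FF) ≠ 0 := by
        intro h0
        apply hzn
        have : z = 0 := Subtype.ext h0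
        rw [this]; exact 𝔭.zero_mem
      rw [mul_inv_cancel₀ hz0] at this
      exact rp_one_notMem_nonunits V this
    · exact hii z
  have hposa : 0 < P.ord (a : FF) := rp_ord_pos_of_mem_nonunits P ha0' ((hmem𝔭 a).2 ha𝔭)
  have hfin : C.Fin P := L.fin_of_level P (fun b hb => by
    rw [hP]; exact hi (algebraMap L.Bl (L.loc hQ) ⟨b, hb⟩))
  have hratP : L.Rational P := hrat P hfin hposa
  -- a function of the local ring with value `1` is a unit
  have hG : ∀ w : L.loc hQ, rp_HasValue P (w : FF) 1 → w ∉ maximalIdeal (L.loc hQ) := by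
    intro w hw hwm
    have h1 : w - 1 ∈ 𝔭 := by
      rw [← hmem𝔭]
      have : ((w - 1 : L.loc hQ) : FF) = (w : FF) - algebraMap Kb FF 1 := by
        rw [map_one]; rfl
      rw [this]; exact hw
    have h2 : w - 1 ∈ maximalIdeal (L.loc hQ) := le_maximalIdeal h𝔭.ne_top h1
    have h3 : (1 : L.loc hQ) ∈ maximalIdeal (L.loc hQ) := by
      have := Ideal.sub_mem _ hwm h2
      rwa [sub_sub_cancel] at this
    exact (maximalIdeal.isMaximal (L.loc hQ)).ne_top ((Ideal.eq_top_iff_one _).2 h3)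
  -- values of level functions are fractions
  have hfrac : ∀ z : L.loc hQ, ∃ o₁ o₂ : Kb, o₁ ∈ L.O ∧ o₂ ∈ L.O ∧ o₂ ≠ 0 ∧
      rp_HasValue P (z : FF) (o₁ / o₂) := by
    intro z
    obtain ⟨b, c, hc, hzc⟩ := L.exists_mul_eq hQ z
    obtain ⟨p₁, p₂, hp₁, hp₂, hp₂0, hbv⟩ := hratP b b.2
    obtain ⟨q₁, q₂, hq₁, hq₂, hq₂0, hcv⟩ := hratP c c.2
    have hbv' : rp_HasValue P (b : FF) (p₁ / p₂) := hbv
    have hcv' : rp_HasValue P (c : FF) (q₁ / q₂) := hcv
    have hcu := L.isUnit_algebraMap_of_notMem hQ hc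
    have hc𝔭 : algebraMap L.Bl (L.loc hQ) c ∉ 𝔭 := fun h =>
      h𝔭.ne_top (Ideal.eq_top_of_isUnit_mem _ h hcu)
    have hcn : (c : FF) ∉ P.toValuationSubring.nonunits := fun h =>
      hc𝔭 ((hmem𝔭 (algebraMap L.Bl (L.loc hQ) c)).1 h)
    have hq0 : q₁ / q₂ ≠ 0 := fun h => hcn (hcv'.zero_iff.1 h)
    have hq₁0 : q₁ ≠ 0 := by
      rintro rfl; exact hq0 (zero_div _)
    have hc0 : (c : FF) ≠ 0 := by
      intro h; apply hcn; rw [h]; exact P.toValuationSubring.nonunits.zero_mem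
    have hzc' : (z : FF) * (c : FF) = (b : FF) := congrArg Subtype.val hzc
    have hz : (z : FF) = (b : FF) / (c : FF) := by
      rw [eq_div_iff hc0]; exact hzc'
    refine ⟨p₁ * q₂, p₂ * q₁, L.O.mul_mem hp₁ hq₂, L.O.mul_mem hp₂ hq₁,
      mul_ne_zero hp₂0 hq₁0, ?_⟩
    have : p₁ * q₂ / (p₂ * q₁) = (p₁ / p₂) / (q₁ / q₂) := by
      field_simp
    rw [this, hz]
    exact hbv'.div hcv' hq0
  -- values lie in `L.O`
  have hv : ∀ z : L.loc hQ, ∃ o : L.O, rp_HasValue P (z : FF) (o : Kb) := by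
    intro z
    obtain ⟨o₁, o₂, ho₁, ho₂, ho₂0, hzv⟩ := hfrac z
    by_cases hA : o₁ / o₂ ∈ A
    · exact ⟨⟨o₁ / o₂, L.mem_of_div_mem ho₁ ho₂ ho₂0 hA⟩, hzv⟩
    · exfalso
      have ho₁0 : o₁ ≠ 0 := by
        rintro rfl; apply hA; rw [zero_div]; exact A.zero_mem
      have hinv : (o₁ / o₂)⁻¹ ∈ A.nonunits := by
        rw [ValuationSubring.inv_mem_nonunits_iff]; exact Or.inr hA
      have hinv' : o₂ / o₁ ∈ A.nonunits := by rwa [inv_div] at hinv
      have hmemO : o₂ / o₁ ∈ L.O :=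
        L.mem_of_div_mem ho₂ ho₁ ho₁0 (ValuationSubring.nonunits_subset hinv')
      obtain ⟨o', ho'⟩ := (L.mem_nonunits_iff ⟨o₂ / o₁, hmemO⟩).1 hinv'
      set w : L.loc hQ := z * (L.piLoc hQ * algebraMap L.O (L.loc hQ) o') with hw
      have hwv : rp_HasValue P (w : FF) 1 := by
        have h1 : rp_HasValue P ((L.piLoc hQ * algebraMap L.O (L.loc hQ) o' : L.loc hQ) : FF)
            (L.ϖ * (o' : Kb)) := by
          rw [Subring.coe_mul, L.coe_piLoc, L.coe_algebraMapO]
          exact (rp_hasValue_const _).mul (rp_hasValue_const _)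
        have h2 := hzv.mul h1
        have h3 : o₁ / o₂ * (L.ϖ * (o' : Kb)) = 1 := by
          have h4 : (o₂ / o₁ : Kb) = L.ϖ * (o' : Kb) := by
            have := congrArg Subtype.val ho'
            simpa [rp_Level.pi] using this
          rw [← h4]
          field_simp
        rw [h3] at h2
        exact h2
      apply hG w hwv
      rw [hw]
      apply Ideal.mul_mem_left
      apply Ideal.mul_mem_right
      rw [L.mem_maximalIdeal_loc_iff, L.redLoc_piLoc]
      exact Ideal.zero_mem _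
  obtain ⟨ε, hε⟩ := L.exists_section_of_values hv
  refine ⟨ε, ?_⟩
  ext z
  rw [RingHom.mem_ker, ← hmem𝔭]
  exact (hε.mem_nonunits_iff z).symm

section Param

variable (L hQ)
variable (hR : C.RedRegular) {s : L.Bl} (hs : Irreducible (L.redQ hQ s))

theorem rp_Level.sd_hO : ∀ o : L.O, ¬ IsUnit o → L.pi ∣ o := L.dvd_of_not_isUnit

include hR hs in
theorem rp_Level.sd_hm : maximalIdeal (L.loc hQ) =
    Ideal.span {algebraMap L.O (L.loc hQ) L.pi, algebraMap L.Bl (L.loc hQ) s} := by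
  rw [L.algebraMapO_pi]; exact rp_Level.maximalIdeal_loc_eq hQ hR hs

theorem rp_Level.sd_hpi : Prime (algebraMap L.O (L.loc hQ) L.pi) := by
  rw [L.algebraMapO_pi]; exact L.piLoc_prime hQ

include hs in
theorem rp_Level.sd_hs : ¬ algebraMap L.O (L.loc hQ) L.pi ∣ algebraMap L.Bl (L.loc hQ) s := by
  rw [L.algebraMapO_pi]; exact rp_Level.not_piLoc_dvd_param hQ hs

/-- the local equation of a section, as an element of `FF` -/
theorem rp_Level.coe_sd_g (ε : L.loc hQ →ₐ[L.O] L.O) :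
    ((sd_g (algebraMap L.Bl (L.loc hQ) s) ε : L.loc hQ) : FF) =
      (s : FF) - algebraMap Kb FF ((ε (algebraMap L.Bl (L.loc hQ) s) : L.O) : Kb) := rfl

include hR hs in
/-- **Factoring out the local equation of a section.** -/
theorem rp_Level.exists_pow_mul (ε : L.loc hQ →ₐ[L.O] L.O) {z : L.loc hQ} (hz : z ≠ 0) :
    ∃ (i : ℕ) (z₀ : L.loc hQ), z = sd_g (algebraMap L.Bl (L.loc hQ) s) ε ^ i * z₀ ∧ ε z₀ ≠ 0 := by
  have hg := sd_g_prime L.sd_hO (L.sd_hm hQ hR hs) (L.sd_hs hQ hs) ε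
  obtain ⟨i, z₀, hz₀, hzz⟩ := WfDvdMonoid.max_power_factor hz hg.irreducible
  refine ⟨i, z₀, hzz, ?_⟩
  intro h0
  apply hz₀
  have : z₀ ∈ RingHom.ker (ε : L.loc hQ →+* L.O) := h0
  rw [sd_ker L.sd_hO (L.sd_hm hQ hR hs) ε, Ideal.mem_span_singleton] at this
  exact this

include hR hs in
/-- the order of a function of the local ring at a place of the section `ε` is a multiple of the
order of the local equation, with a multiplier that does not depend on the place -/
theorem rp_Level.exists_ord_eq (ε : L.loc hQ →ₐ[L.O] L.O) {z : L.loc hQ} (hz : z ≠ 0) :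
    ∃ i : ℕ, ∀ P : Place Kb FF, L.IsPlaceOf hQ P ε →
      P.ord (z : FF) = i * P.ord ((sd_g (algebraMap L.Bl (L.loc hQ) s) ε : L.loc hQ) : FF) := by
  obtain ⟨i, z₀, hzz, hz₀⟩ := L.exists_pow_mul hQ hR hs ε hz
  refine ⟨i, fun P hP => ?_⟩
  have hg0 : sd_g (algebraMap L.Bl (L.loc hQ) s) ε ≠ 0 :=
    sd_g_ne_zero L.sd_hO (L.sd_hm hQ hR hs) (L.sd_hs hQ hs) ε
  have hg0' : ((sd_g (algebraMap L.Bl (L.loc hQ) s) ε : L.loc hQ) : FF) ≠ 0 :=
    fun h => hg0 (Subtype.ext h)
  have hz₀0 : (z₀ : FF) ≠ 0 := by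
    intro h
    apply hz₀
    have : z₀ = 0 := Subtype.ext h
    rw [this, map_zero]
  have h1 : (z : FF) =
      ((sd_g (algebraMap L.Bl (L.loc hQ) s) ε : L.loc hQ) : FF) ^ i * (z₀ : FF) := by
    conv_lhs => rw [hzz]
    rfl
  rw [h1, P.ord_mul (pow_ne_zero _ hg0') hz₀0, rp_ord_pow, hP.ord_eq_zero hz₀, add_zero]

end Param

end Levels

end Fermat.Agent.JT3
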