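/-
JT3 / node E (place map): the chart formula.

For a chart function `a` with nonzero reduction and a place `Q` of the reduced function field that
is finite on the reduced chart, `ord_Q (red a)` is the sum of the `ord_P a` over the places `P` of
the chart centred at `Q`.
-/
import Fermat.Agent.JT3.PlaceMap.Sections

set_option autoImplicit false

namespace Fermat.Agent.JT3

open AlgebraicCurve IsLocalRing Fermat.Agent.S24

variable {Kb : Type*} [Field Kb] {A : ValuationSubring Kb}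
variable {FF : Type*} [Field FF] [Algebra Kb FF]
variable {k : Type*} [Field k] {Ft : Type*} [Field Ft] [Algebra k Ft]
variable {C : rp_Chart A FF k Ft}

theorem rp_Chart.InChart.fin {P : Place Kb FF} (hP : C.InChart P) : C.Fin P := fun b hb => by
  obtain ⟨c, hc⟩ := hP b hb
  exact rp_HasValue.mem hc

section LevelFree

variable (hL : C.HasLevels) (hR : C.RedRegular) {Q : Place k Ft} (hQ : C.FinRed Q)

include hL hR in
/-- **(e)** at a place of the chart centred at `Q`, the function `s₀ - s₀(P)` is a uniformiser,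
for any chart function `s₀` whose reduction is a uniformiser at `Q`. -/
theorem rp_ord_param_sub {P : Place Kb FF} (hP : C.InChart P) (hPQ : C.CenterAt P Q)
    (s₀ : C.B) (hs₀ : Irreducible (⟨C.red s₀, hQ s₀⟩ : Q.toValuationSubring)) {c₀ : Kb}
    (hc₀ : rp_HasValue P (s₀ : FF) c₀) : P.ord ((s₀ : FF) - algebraMap Kb FF c₀) = 1 := by
  classical
  obtain ⟨t, ht⟩ := IsDiscreteValuationRing.exists_irreducible P.toValuationSubring
  have ht1 : P.ord (t : FF) = 1 := P.ord_coe_irreducible ht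
  have ht0 : (t : FF) ≠ 0 := fun h => ht.ne_zero (Subtype.ext h)
  obtain ⟨b, c, hb, hc, hc0, htbc⟩ := C.frac (t : FF)
  have hb0 : b ≠ 0 := by
    rintro rfl; rw [zero_div] at htbc; exact ht0 htbc
  obtain ⟨L, hS, hT⟩ := hL.refine {(s₀ : FF), b, c} {P}
    (by
      intro x hx
      simp only [Finset.mem_insert, Finset.mem_singleton] at hx
      rcases hx with rfl | rfl | rfl
      · exact s₀.2
      · exact hb
      · exact hc)
    (by
      intro P' hP'
      rw [Finset.mem_singleton] at hP'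
      rw [hP']; exact hP.fin)
  have hsL : (s₀ : FF) ∈ L.Bl := hS _ (by simp)
  have hbL : b ∈ L.Bl := hS _ (by simp)
  have hcL : c ∈ L.Bl := hS _ (by simp)
  have hrat : L.Rational P := hT P (Finset.mem_singleton_self _)
  set ε := L.sectionOfPlace hQ hP hPQ hrat with hεdef
  have hε : L.IsPlaceOf hQ P ε := L.isPlaceOf_sectionOfPlace hP hPQ hrat
  set s : L.Bl := ⟨s₀, hsL⟩ with hsdef
  have hs : Irreducible (L.redQ hQ s) := hs₀
  have hval : ((ε (algebraMap L.Bl (L.loc hQ) s) : L.O) : Kb) = c₀ :=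
    (hε (algebraMap L.Bl (L.loc hQ) s)).unique hc₀
  set g := sd_g (algebraMap L.Bl (L.loc hQ) s) ε with hgdef
  have hgcoe : (g : FF) = (s₀ : FF) - algebraMap Kb FF c₀ := by
    rw [hgdef, L.coe_sd_g, hval]
  have hg0 : g ≠ 0 := sd_g_ne_zero L.sd_hO (L.sd_hm hQ hR hs) (L.sd_hs hQ hs) ε
  have hg0' : (g : FF) ≠ 0 := fun h => hg0 (Subtype.ext h)
  have hgpos : 0 < P.ord (g : FF) := by
    apply rp_ord_pos_of_mem_nonunits P hg0'
    rw [hgcoe]; exact hc₀
  have hb'0 : algebraMap L.Bl (L.loc hQ) ⟨b, hbL⟩ ≠ 0 := by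
    intro h; exact hb0 (congrArg Subtype.val h)
  have hc'0 : algebraMap L.Bl (L.loc hQ) ⟨c, hcL⟩ ≠ 0 := by
    intro h; exact hc0 (congrArg Subtype.val h)
  obtain ⟨i, hi⟩ := L.exists_ord_eq hQ hR hs ε hb'0
  obtain ⟨j, hj⟩ := L.exists_ord_eq hQ hR hs ε hc'0
  have hib : P.ord b = i * P.ord (g : FF) := hi P hε
  have hjc : P.ord c = j * P.ord (g : FF) := hj P hε
  have h1 : ((i : ℤ) - j) * P.ord (g : FF) = 1 := by
    rw [← ht1, htbc, div_eq_mul_inv, P.ord_mul hb0 (inv_ne_zero hc0), P.ord_inv, hib, hjc]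
    ring
  rw [← hgcoe]
  exact Int.eq_one_of_mul_eq_one_left hgpos.le h1

include hL hR in
/-- **(f)**, one inclusion: two places of the chart centred at `Q` at which the parameter `s₀`
takes the same value have comparable valuation rings. -/
theorem rp_le_of_value_eq {P P' : Place Kb FF} (hP : C.InChart P) (hPQ : C.CenterAt P Q)
    (hP' : C.InChart P') (hPQ' : C.CenterAt P' Q)
    (s₀ : C.B) (hs₀ : Irreducible (⟨C.red s₀, hQ s₀⟩ : Q.toValuationSubring)) {c₀ : Kb}
    (hc₀ : rp_HasValue P (s₀ : FF) c₀) (hc₀' : rp_HasValue P' (s₀ : FF) c₀)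
    {f : FF} (hf : f ∈ P.toValuationSubring) : f ∈ P'.toValuationSubring := by
  classical
  rcases eq_or_ne f 0 with rfl | hf0
  · exact P'.toValuationSubring.zero_mem
  obtain ⟨b, c, hb, hc, hc0, hfbc⟩ := C.frac f
  have hb0 : b ≠ 0 := by
    rintro rfl; rw [zero_div] at hfbc; exact hf0 hfbc
  obtain ⟨L, hS, hT⟩ := hL.refine {(s₀ : FF), b, c} {P, P'}
    (by
      intro x hx
      simp only [Finset.mem_insert, Finset.mem_singleton] at hx
      rcases hx with rfl | rfl | rfl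
      · exact s₀.2
      · exact hb
      · exact hc)
    (by
      intro P'' hP''
      simp only [Finset.mem_insert, Finset.mem_singleton] at hP''
      rcases hP'' with rfl | rfl
      · exact hP.fin
      · exact hP'.fin)
  have hsL : (s₀ : FF) ∈ L.Bl := hS _ (by simp)
  have hbL : b ∈ L.Bl := hS _ (by simp)
  have hcL : c ∈ L.Bl := hS _ (by simp)
  have hrat : L.Rational P := hT P (by simp)
  have hrat' : L.Rational P' := hT P' (by simp)
  set ε := L.sectionOfPlace hQ hP hPQ hrat with hεdef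
  have hε : L.IsPlaceOf hQ P ε := L.isPlaceOf_sectionOfPlace hP hPQ hrat
  set ε' := L.sectionOfPlace hQ hP' hPQ' hrat' with hεdef'
  have hε' : L.IsPlaceOf hQ P' ε' := L.isPlaceOf_sectionOfPlace hP' hPQ' hrat'
  set s : L.Bl := ⟨s₀, hsL⟩ with hsdef
  have hs : Irreducible (L.redQ hQ s) := hs₀
  have hval : ((ε (algebraMap L.Bl (L.loc hQ) s) : L.O) : Kb) = c₀ :=
    (hε (algebraMap L.Bl (L.loc hQ) s)).unique hc₀
  have hval' : ((ε' (algebraMap L.Bl (L.loc hQ) s) : L.O) : Kb) = c₀ :=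
    (hε' (algebraMap L.Bl (L.loc hQ) s)).unique hc₀'
  set g := sd_g (algebraMap L.Bl (L.loc hQ) s) ε with hgdef
  have hgg' : g = sd_g (algebraMap L.Bl (L.loc hQ) s) ε' := by
    apply Subtype.ext
    rw [hgdef, L.coe_sd_g, L.coe_sd_g, hval, hval']
  have hεε' : ε' = ε :=
    sd_eq_of_dvd L.sd_hO (L.sd_hm hQ hR hs) (dvd_of_eq hgg')
  rw [hεε'] at hε'
  have hgcoe : (g : FF) = (s₀ : FF) - algebraMap Kb FF c₀ := by
    rw [hgdef, L.coe_sd_g, hval]
  have hg0 : g ≠ 0 := sd_g_ne_zero L.sd_hO (L.sd_hm hQ hR hs) (L.sd_hs hQ hs) ε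
  have hg0' : (g : FF) ≠ 0 := fun h => hg0 (Subtype.ext h)
  have hgpos : 0 < P.ord (g : FF) := by
    apply rp_ord_pos_of_mem_nonunits P hg0'
    rw [hgcoe]; exact hc₀
  have hgnn : 0 ≤ P'.ord (g : FF) := hε'.ord_nonneg g
  have hb'0 : algebraMap L.Bl (L.loc hQ) ⟨b, hbL⟩ ≠ 0 := by
    intro h; exact hb0 (congrArg Subtype.val h)
  have hc'0 : algebraMap L.Bl (L.loc hQ) ⟨c, hcL⟩ ≠ 0 := by
    intro h; exact hc0 (congrArg Subtype.val h)
  obtain ⟨i, hi⟩ := L.exists_ord_eq hQ hR hs ε hb'0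
  obtain ⟨j, hj⟩ := L.exists_ord_eq hQ hR hs ε hc'0
  have hib : P.ord b = i * P.ord (g : FF) := hi P hε
  have hjc : P.ord c = j * P.ord (g : FF) := hj P hε
  have hib' : P'.ord b = i * P'.ord (g : FF) := hi P' hε'
  have hjc' : P'.ord c = j * P'.ord (g : FF) := hj P' hε'
  have h1 : P.ord f = ((i : ℤ) - j) * P.ord (g : FF) := by
    rw [hfbc, div_eq_mul_inv, P.ord_mul hb0 (inv_ne_zero hc0), P.ord_inv, hib, hjc]
    ring
  have h1' : P'.ord f = ((i : ℤ) - j) * P'.ord (g : FF) := by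
    rw [hfbc, div_eq_mul_inv, P'.ord_mul hb0 (inv_ne_zero hc0), P'.ord_inv, hib', hjc']
    ring
  have h2 : 0 ≤ P.ord f := (hw_mem_iff_ord_nonneg P hf0).1 hf
  have hij : (0 : ℤ) ≤ (i : ℤ) - j := by
    by_contra hneg
    push Not at hneg
    have := mul_neg_of_neg_of_pos hneg hgpos
    rw [← h1] at this
    exact absurd h2 (not_le.2 this)
  rw [hw_mem_iff_ord_nonneg P' hf0, h1']
  exact mul_nonneg hij hgnn

include hL hR in
/-- **(f)** two places of the chart centred at `Q` at which the parameter `s₀` takes the same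
value are equal. -/
theorem rp_place_eq_of_value_eq {P P' : Place Kb FF} (hP : C.InChart P) (hPQ : C.CenterAt P Q)
    (hP' : C.InChart P') (hPQ' : C.CenterAt P' Q)
    (s₀ : C.B) (hs₀ : Irreducible (⟨C.red s₀, hQ s₀⟩ : Q.toValuationSubring)) {c₀ : Kb}
    (hc₀ : rp_HasValue P (s₀ : FF) c₀) (hc₀' : rp_HasValue P' (s₀ : FF) c₀) : P = P' := by
  apply Place.ext
  apply SetLike.ext
  intro f
  exact ⟨fun hf => rp_le_of_value_eq hL hR hQ hP hPQ hP' hPQ' s₀ hs₀ hc₀ hc₀' hf,
    fun hf => rp_le_of_value_eq hL hR hQ hP' hPQ' hP hPQ s₀ hs₀ hc₀' hc₀ hf⟩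

end LevelFree

section Count

variable (hL : C.HasLevels) (hR : C.RedRegular) (L : rp_Level C) {Q : Place k Ft}
variable (hQ : C.FinRed Q) {s : L.Bl} (hs : Irreducible (L.redQ hQ s))

include hL hR hs in
/-- among the places of `T'`, the local equation of a section vanishes exactly at the place of
the section, to the first order -/
theorem rp_Level.sum_ord_sd_g (T' : Finset (Place Kb FF))
    (hT' : ∀ P ∈ T', C.InChart P ∧ C.CenterAt P Q ∧ L.Rational P)
    (ε : L.loc hQ →ₐ[L.O] L.O) (hε : ∃ P ∈ T', L.IsPlaceOf hQ P ε) :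
    ∑ P ∈ T', P.ord ((sd_g (algebraMap L.Bl (L.loc hQ) s) ε : L.loc hQ) : FF) = 1 := by
  obtain ⟨P₀, hP₀, hP₀ε⟩ := hε
  have hs' : Irreducible (⟨C.red ⟨s, L.Bl_le s.2⟩, hQ _⟩ : Q.toValuationSubring) := hs
  rw [Finset.sum_eq_single P₀]
  · rw [L.coe_sd_g]
    exact rp_ord_param_sub hL hR hQ (hT' P₀ hP₀).1 (hT' P₀ hP₀).2.1 ⟨s, L.Bl_le s.2⟩ hs'
      (hP₀ε (algebraMap L.Bl (L.loc hQ) s))
  · intro P hP hne
    obtain ⟨hPin, hPQ, hPrat⟩ := hT' P hP
    set εP := L.sectionOfPlace hQ hPin hPQ hPrat with hεPdef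
    have hεP : L.IsPlaceOf hQ P εP := L.isPlaceOf_sectionOfPlace hPin hPQ hPrat
    set g := sd_g (algebraMap L.Bl (L.loc hQ) s) ε with hgdef
    by_contra hord
    have hpos : 0 < P.ord (g : FF) := lt_of_le_of_ne (hεP.ord_nonneg g) (Ne.symm hord)
    have hmem := rp_mem_nonunits_of_ord_pos P hpos
    have h0 : εP g = 0 := (hεP.mem_nonunits_iff g).1 hmem
    have hdvd : sd_g (algebraMap L.Bl (L.loc hQ) s) εP ∣ g := by
      have : g ∈ RingHom.ker (εP : L.loc hQ →+* L.O) := h0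
      rwa [sd_ker L.sd_hO (L.sd_hm hQ hR hs) εP, Ideal.mem_span_singleton] at this
    have heq : ε = εP := sd_eq_of_dvd L.sd_hO (L.sd_hm hQ hR hs) hdvd
    apply hne
    have hPε : L.IsPlaceOf hQ P ε := heq ▸ hεP
    exact rp_place_eq_of_value_eq hL hR hQ hPin hPQ (hT' P₀ hP₀).1 (hT' P₀ hP₀).2.1
      ⟨s, L.Bl_le s.2⟩ hs' (hPε (algebraMap L.Bl (L.loc hQ) s))
      (hP₀ε (algebraMap L.Bl (L.loc hQ) s))
  · intro h; exact absurd hP₀ h

include hR hs in
theorem rp_Level.prod_sd_g_ne_zero (M : Multiset (L.loc hQ →ₐ[L.O] L.O)) :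
    (M.map (sd_g (algebraMap L.Bl (L.loc hQ) s))).prod ≠ 0 := by
  apply Multiset.prod_ne_zero
  intro h
  rw [Multiset.mem_map] at h
  obtain ⟨ε, -, hε⟩ := h
  exact sd_g_ne_zero L.sd_hO (L.sd_hm hQ hR hs) (L.sd_hs hQ hs) ε hε

include hL hR hs in
/-- **The count.**  The total order, over the places of `T'`, of a product of local equations of
sections whose places lie in `T'`, is the number of factors. -/
theorem rp_Level.sum_ord_prod (T' : Finset (Place Kb FF))
    (hT' : ∀ P ∈ T', C.InChart P ∧ C.CenterAt P Q ∧ L.Rational P)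
    (M : Multiset (L.loc hQ →ₐ[L.O] L.O)) (hM : ∀ ε ∈ M, ∃ P ∈ T', L.IsPlaceOf hQ P ε)
    (u : (L.loc hQ)ˣ) :
    ∑ P ∈ T', P.ord ((((u : L.loc hQ) *
      (M.map (sd_g (algebraMap L.Bl (L.loc hQ) s))).prod : L.loc hQ)) : FF) =
        (Multiset.card M : ℤ) := by
  induction M using Multiset.induction_on with
  | empty =>
    rw [Multiset.map_zero, Multiset.prod_zero, mul_one, Multiset.card_zero, Nat.cast_zero]
    apply Finset.sum_eq_zero
    intro P hP
    obtain ⟨hPin, hPQ, hPrat⟩ := hT' P hP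
    exact (L.isPlaceOf_sectionOfPlace (hQ := hQ) hPin hPQ hPrat).ord_unit u
  | cons ε M ih =>
    have ih' := ih (fun ε' hε' => hM ε' (Multiset.mem_cons_of_mem hε'))
    have hε := hM ε (Multiset.mem_cons_self ε M)
    rw [Multiset.map_cons, Multiset.prod_cons, Multiset.card_cons]
    set g := sd_g (algebraMap L.Bl (L.loc hQ) s) ε with hgdef
    set p := (M.map (sd_g (algebraMap L.Bl (L.loc hQ) s))).prod with hpdef
    have hg0 : g ≠ 0 := sd_g_ne_zero L.sd_hO (L.sd_hm hQ hR hs) (L.sd_hs hQ hs) ε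
    have hg0' : (g : FF) ≠ 0 := fun h => hg0 (Subtype.ext h)
    have hp0 : p ≠ 0 := L.prod_sd_g_ne_zero hR hQ hs M
    have hup0 : ((u : L.loc hQ) * p : L.loc hQ) ≠ 0 := mul_ne_zero u.ne_zero hp0
    have hup0' : (((u : L.loc hQ) * p : L.loc hQ) : FF) ≠ 0 := fun h => hup0 (Subtype.ext h)
    have hsplit : ∀ P ∈ T', P.ord ((((u : L.loc hQ) * (g * p) : L.loc hQ)) : FF) =
        P.ord (g : FF) + P.ord ((((u : L.loc hQ) * p : L.loc hQ)) : FF) := by
      intro P _
      have : (((u : L.loc hQ) * (g * p) : L.loc hQ) : FF) =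
          (g : FF) * ((((u : L.loc hQ) * p : L.loc hQ)) : FF) := by
        push_cast; ring
      rw [this, P.ord_mul hg0' hup0']
    rw [Finset.sum_congr rfl hsplit, Finset.sum_add_distrib,
      L.sum_ord_sd_g hL hR hQ hs T' hT' ε hε, ih']
    push_cast; ring

include hR hs in
theorem rp_Level.redLoc_sd_g (ε : L.loc hQ →ₐ[L.O] L.O) :
    L.redLoc hQ (sd_g (algebraMap L.Bl (L.loc hQ) s) ε) = L.redQ hQ s := by
  obtain ⟨o, ho⟩ := sd_apply_param L.sd_hO (L.sd_hm hQ hR hs) ε
  rw [sd_g, map_sub, L.redLoc_algebraMap, ho, map_mul, L.algebraMapO_pi, map_mul,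
    L.redLoc_piLoc, zero_mul, sub_zero]

include hR hs in
theorem rp_Level.redLoc_prod_sd_g (M : Multiset (L.loc hQ →ₐ[L.O] L.O)) :
    L.redLoc hQ (M.map (sd_g (algebraMap L.Bl (L.loc hQ) s))).prod =
      L.redQ hQ s ^ Multiset.card M := by
  induction M using Multiset.induction_on with
  | empty => simp
  | cons ε M ih =>
    rw [Multiset.map_cons, Multiset.prod_cons, map_mul, ih, L.redLoc_sd_g hR hQ hs,
      Multiset.card_cons, pow_succ']

end Count

/-- a uniformiser of `Q` lifts to the chart ring (irreducible form) -/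
theorem rp_exists_param_irreducible {Q : Place k Ft} (hQ : C.FinRed Q) (hR : C.RedRegular) :
    ∃ b : C.B, Irreducible (⟨C.red b, hQ b⟩ : Q.toValuationSubring) := by
  obtain ⟨t, ht⟩ := IsDiscreteValuationRing.exists_irreducible Q.toValuationSubring
  obtain ⟨b, c, hc, hw⟩ := hR.local_eq Q hQ t t.2
  have hcu : IsUnit (⟨C.red c, hQ c⟩ : Q.toValuationSubring) := by
    by_contra hnu
    apply hc
    exact (ValuationSubring.coe_mem_nonunits_iff
      (a := (⟨C.red c, hQ c⟩ : Q.toValuationSubring))).2 ((mem_maximalIdeal _).2 hnu)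
  refine ⟨b, ?_⟩
  have : (⟨C.red b, hQ b⟩ : Q.toValuationSubring) = t * ⟨C.red c, hQ c⟩ := by
    apply Subtype.ext
    rw [MulMemClass.coe_mul]
    exact hw.symm
  rw [this, irreducible_mul_isUnit hcu]
  exact ht

/-- **The chart formula.**  For a chart function `a` with nonzero reduction and a place `Q` finite
on the reduced chart, `ord_Q (red a)` is the sum of `ord_P a` over the places `P` of the chart
centred at `Q` (the sum runs over any finite set `T` containing all zeros of `a` among them). -/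
theorem rp_chart_formula (hF : rp_FunField Kb FF) (hL : C.HasLevels) (hR : C.RedRegular)
    (a : C.B) (ha : C.red a ≠ 0) (Q : Place k Ft) (hQ : C.FinRed Q)
    (T : Finset (Place Kb FF))
    (hT : ∀ P : Place Kb FF, C.InChart P → C.CenterAt P Q → 0 < P.ord (a : FF) → P ∈ T)
    [DecidablePred fun P : Place Kb FF => C.InChart P ∧ C.CenterAt P Q] :
    Q.ord (C.red a) = ∑ P ∈ T with (C.InChart P ∧ C.CenterAt P Q), P.ord (a : FF) := by
  have ha0 : (a : FF) ≠ 0 := by
    intro h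
    apply ha
    have : a = 0 := Subtype.ext h
    rw [this, map_zero]
  -- the parameter
  obtain ⟨s₀, hs₀⟩ := rp_exists_param_irreducible hQ hR
  -- the zeros of `a`
  have hZfin := hF.finite_zeros (a : FF) ha0
  -- the level
  obtain ⟨L, hS, hTL⟩ := by
    classical
    exact hL.refine {(s₀ : FF), (a : FF)} (hZfin.toFinset.filter (fun P => C.Fin P))
      (by
        intro x hx
        simp only [Finset.mem_insert, Finset.mem_singleton] at hx
        rcases hx with rfl | rfl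
        · exact s₀.2
        · exact a.2)
      (by
        intro P hP
        exact (Finset.mem_filter.1 hP).2)
  have hsL : (s₀ : FF) ∈ L.Bl := hS _ (by simp)
  have haL : (a : FF) ∈ L.Bl := hS _ (by simp)
  have hrat : ∀ P : Place Kb FF, C.Fin P → 0 < P.ord (a : FF) → L.Rational P := by
    intro P hfin hpos
    apply hTL
    classical
    rw [Finset.mem_filter, Set.Finite.mem_toFinset]
    exact ⟨hpos, hfin⟩
  set s : L.Bl := ⟨s₀, hsL⟩ with hsdef
  have hs : Irreducible (L.redQ hQ s) := hs₀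
  set a' : L.loc hQ := algebraMap L.Bl (L.loc hQ) ⟨a, haL⟩ with ha'def
  have ha'coe : (a' : FF) = (a : FF) := rfl
  have hreda' : L.redLoc hQ a' = L.redQ hQ ⟨a, haL⟩ := L.redLoc_algebraMap hQ _
  have hredcoe : ((L.redQ hQ ⟨a, haL⟩ : Q.toValuationSubring) : Ft) = C.red a := rfl
  have ha' : L.redLoc hQ a' ≠ 0 := by
    rw [hreda']
    intro h
    apply ha
    rw [← hredcoe, h]; rfl
  -- the factorisation
  have hndvd : ¬ algebraMap L.O (L.loc hQ) L.pi ∣ a' := by
    rw [L.algebraMapO_pi, L.piLoc_dvd_iff]; exact ha'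
  obtain ⟨M, u, hfac⟩ := sd_factor L.sd_hO (L.sd_hm hQ hR hs) (L.sd_hpi hQ) hndvd
    (fun 𝔭 h𝔭 ha𝔭 hne => L.exists_section_of_prime hQ hF hR ha' hrat 𝔭 h𝔭 ha𝔭 hne)
  -- the left-hand side
  have hleft : Q.ord (C.red a) = (Multiset.card M : ℤ) := by
    have h1 : L.redQ hQ ⟨a, haL⟩ =
        L.redLoc hQ (u : L.loc hQ) * L.redQ hQ s ^ Multiset.card M := by
      rw [← hreda', hfac, map_mul, L.redLoc_prod_sd_g hR hQ hs]
    have hu : IsUnit (L.redLoc hQ (u : L.loc hQ)) := u.isUnit.map _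
    have h2 : C.red a = ((hu.unit : Q.toValuationSubringˣ) : Q.toValuationSubring) *
        ((L.redQ hQ s : Q.toValuationSubring) : Ft) ^ ((Multiset.card M : ℕ) : ℤ) := by
      rw [← hredcoe, h1, zpow_natCast]
      rfl
    rw [h2]
    exact Q.ord_unit_smul_zpow hu.unit hs _
  -- the right-hand side
  set T' := (T.filter (fun P => C.InChart P ∧ C.CenterAt P Q)).filter
    (fun P => 0 < P.ord (a : FF)) with hT'def
  have hT' : ∀ P ∈ T', C.InChart P ∧ C.CenterAt P Q ∧ L.Rational P := by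
    intro P hP
    rw [hT'def, Finset.mem_filter, Finset.mem_filter] at hP
    obtain ⟨⟨-, hPin, hPQ⟩, hpos⟩ := hP
    exact ⟨hPin, hPQ, hrat P hPin.fin hpos⟩
  have hM : ∀ ε ∈ M, ∃ P ∈ T', L.IsPlaceOf hQ P ε := by
    intro ε hε
    have hg0 : sd_g (algebraMap L.Bl (L.loc hQ) s) ε ≠ 0 :=
      sd_g_ne_zero L.sd_hO (L.sd_hm hQ hR hs) (L.sd_hs hQ hs) ε
    obtain ⟨P, hP⟩ := L.exists_place_of_section hQ hF ε ⟨_, hg0, sd_g_apply _ ε⟩
    have hPε : L.IsPlaceOf hQ P ε := hP
    refine ⟨P, ?_, hPε⟩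
    have hPin := hPε.inChart
    have hPQ := hPε.centerAt hL
    have hεa : ε a' = 0 := by
      have hdvd : sd_g (algebraMap L.Bl (L.loc hQ) s) ε ∣ a' := by
        rw [hfac]
        apply Dvd.dvd.mul_left
        exact Multiset.dvd_prod (Multiset.mem_map_of_mem _ hε)
      obtain ⟨w, hw⟩ := hdvd
      rw [hw, map_mul, sd_g_apply, zero_mul]
    have hpos : 0 < P.ord (a : FF) := by
      rw [← ha'coe]
      apply rp_ord_pos_of_mem_nonunits P (by rw [ha'coe]; exact ha0)
      exact (hPε.mem_nonunits_iff a').2 hεa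
    rw [hT'def, Finset.mem_filter, Finset.mem_filter]
    exact ⟨⟨hT P hPin hPQ hpos, hPin, hPQ⟩, hpos⟩
  have hcount := L.sum_ord_prod hL hR hQ hs T' hT' M hM u
  rw [← hfac] at hcount
  have hcount' : ∑ P ∈ T', P.ord (a : FF) = (Multiset.card M : ℤ) := hcount
  rw [hleft, ← hcount', hT'def]
  apply Finset.sum_filter_of_ne
  intro P hP hne
  rw [Finset.mem_filter] at hP
  obtain ⟨c, hc⟩ := hP.2.1 (a : FF) a.2
  have hmem : (a : FF) ∈ P.toValuationSubring := rp_HasValue.mem hc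
  exact lt_of_le_of_ne (rp_ord_nonneg_of_mem P hmem) (Ne.symm hne)

end Fermat.Agent.JT3
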