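/-
JT3 / node E (place map), leaf (E-glob) + (E-gen): two charts glued by ONE reduction map give the
place map of the prelude (`ModularCurve.IsPlaceReductionAlong`), and Gauss quotients give
`ModularCurve.PrincipalGeneratedByIntegral`.

The place map is defined ASYMMETRICALLY: `r P` is the `C1`-centre of `P` if `P` lies in the first
chart and the `C2`-centre otherwise; a place `Q` of the reduction is analysed through `C1` if it
is finite on the first reduced chart and through `C2` otherwise.  No comparison of the two centres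
on the overlap is needed.
-/
import Mathlib
import Fermat.Prelude.Def_ModularCurve_ReductionModL
import Fermat.Agent.JT3.PlaceMap.Defs
import Fermat.Agent.S24.Hurwitz.Places

set_option autoImplicit false
set_option linter.unusedSectionVars false
set_option linter.style.haveILetI false

namespace Fermat.Agent.JT3

open AlgebraicCurve Fermat.Agent.S24

/-! ### valuation subrings -/

section VS

variable {F : Type*} [Field F] (V : ValuationSubring F)

theorem rpg_mul_mem_nonunits {a b : F} (ha : a ∈ V.nonunits) (hb : b ∈ V) :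
    a * b ∈ V.nonunits := by
  rw [ValuationSubring.mem_nonunits_iff] at ha ⊢
  rw [map_mul]
  have hb' := (V.valuation_le_one_iff b).mpr hb
  calc V.valuation a * V.valuation b ≤ V.valuation a * 1 := by gcongr
    _ = V.valuation a := mul_one _
    _ < 1 := ha

theorem rpg_inv_mem_nonunits {a : F} (ha : a ∉ V) : a⁻¹ ∈ V.nonunits :=
  V.inv_mem_nonunits_iff.mpr (Or.inr ha)

theorem rpg_one_notMem_nonunits : (1 : F) ∉ V.nonunits := by
  rw [ValuationSubring.mem_nonunits_iff]
  simp

/-- a "unit plus nonunit" is a unit: if `a - c ∈ 𝔪`, `c⁻¹ ∈ V`, `c ≠ 0` then `a⁻¹ - c⁻¹ ∈ 𝔪`. -/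
theorem rpg_inv_sub_inv_mem {a c : F} (hc0 : c ≠ 0) (hc : c ∈ V) (hci : c⁻¹ ∈ V)
    (h : a - c ∈ V.nonunits) : a ≠ 0 ∧ a⁻¹ ∈ V ∧ a⁻¹ - c⁻¹ ∈ V.nonunits := by
  have hcn : c ∉ V.nonunits := by
    rw [ValuationSubring.mem_nonunits_iff_or]
    push Not
    exact ⟨hc0, hci⟩
  have ha0 : a ≠ 0 := by
    rintro rfl
    apply hcn
    have := V.nonunits.neg_mem h
    simpa using this
  have haV : a ∈ V := by
    have : a = (a - c) + c := by ring
    rw [this]
    exact V.add_mem _ _ (V.nonunits_subset h) hc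
  have han : a ∉ V.nonunits := by
    intro h1
    apply hcn
    have : c = a - (a - c) := by ring
    rw [this]
    exact V.nonunits.sub_mem h1 h
  have hai : a⁻¹ ∈ V := by
    rw [ValuationSubring.mem_nonunits_iff_or] at han
    push Not at han
    exact han.2
  refine ⟨ha0, hai, ?_⟩
  have : a⁻¹ - c⁻¹ = (-(a - c)) * (a⁻¹ * c⁻¹) := by
    field_simp
    ring
  rw [this]
  exact rpg_mul_mem_nonunits V (V.nonunits.neg_mem h) (V.mul_mem _ _ hai hci)

/-- if `a - c ∈ 𝔪` and `c ∈ V` then `a ∈ V`. -/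
theorem rpg_mem_of_sub_mem {a c : F} (hc : c ∈ V) (h : a - c ∈ V.nonunits) : a ∈ V := by
  have : a = (a - c) + c := by ring
  rw [this]
  exact V.add_mem _ _ (V.nonunits_subset h) hc

end VS

section PlaceConst

variable {Kb : Type*} [Field Kb] {FF : Type*} [Field FF] [Algebra Kb FF]

theorem rpg_const_notMem_nonunits (P : Place Kb FF) {c : Kb} (hc : c ≠ 0) :
    algebraMap Kb FF c ∉ P.toValuationSubring.nonunits := by
  rw [ValuationSubring.mem_nonunits_iff_or]
  push Not
  refine ⟨by simpa using hc, ?_⟩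
  rw [← map_inv₀]
  exact P.algebraMap_mem' _

theorem rpg_const_eq_zero (P : Place Kb FF) {c : Kb}
    (hc : algebraMap Kb FF c ∈ P.toValuationSubring.nonunits) : c = 0 := by
  by_contra h
  exact rpg_const_notMem_nonunits P h hc

end PlaceConst

/-! ### finitely supported functions -/

theorem rpg_mapDomain_apply {α β : Type*} [DecidableEq β] (r : α → β) (D : α →₀ ℤ) (Q : β) :
    Finsupp.mapDomain r D Q = ∑ P ∈ D.support, if r P = Q then D P else 0 := by
  rw [Finsupp.mapDomain, Finsupp.sum_apply, Finsupp.sum]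
  refine Finset.sum_congr rfl fun P _ => ?_
  rw [Finsupp.single_apply]

variable {Kb : Type*} [Field Kb] {A : ValuationSubring Kb}
variable {FF : Type*} [Field FF] [Algebra Kb FF]
variable {k : Type*} [Field k] {Ft : Type*} [Field Ft] [Algebra k Ft]

/-- The three per-chart theorems of node E (`rp_exists_center`, `rp_center_unique`,
`rp_chart_formula`), bundled as a hypothesis. -/
structure rpg_ChartOK (C : rp_Chart A FF k Ft) : Prop where
  exists_center : ∀ P : Place Kb FF, C.InChart P → ∃ Q : Place k Ft, C.FinRed Q ∧ C.CenterAt P Q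
  center_unique : ∀ (P : Place Kb FF) (Q Q' : Place k Ft), C.InChart P → C.FinRed Q → C.FinRed Q' →
    C.CenterAt P Q → C.CenterAt P Q' → Q = Q'
  formula : ∀ (a : C.B), C.red a ≠ 0 → ∀ Q : Place k Ft, C.FinRed Q →
    ∀ T : Finset (Place Kb FF),
      (∀ P : Place Kb FF, C.InChart P → C.CenterAt P Q → 0 < P.ord (a : FF) → P ∈ T) →
      ∀ [DecidablePred fun P : Place Kb FF => C.InChart P ∧ C.CenterAt P Q],
        Q.ord (C.red a) = ∑ P ∈ T with (C.InChart P ∧ C.CenterAt P Q), P.ord (a : FF)

/-- One chart: if the fibre of `r` over `Q` is the set of places of the chart centred at `Q`, the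
push-forward of the divisor of `a / b` has multiplicity `ord_Q ã - ord_Q b̃` at `Q`. -/
theorem rpg_chart_sum (C : rp_Chart A FF k Ft) (ok : rpg_ChartOK C) (hF : rp_FunField Kb FF)
    (Q : Place k Ft) (hQ : C.FinRed Q) (a b : C.B) (ha : C.red a ≠ 0) (hb : C.red b ≠ 0)
    (y : FF) (hy : y * (b : FF) = (a : FF)) (D : Place Kb FF →₀ ℤ) (hD : ∀ P, D P = P.ord y)
    (r : Place Kb FF → Place k Ft) (hr : ∀ P, r P = Q ↔ C.InChart P ∧ C.CenterAt P Q) :
    Finsupp.mapDomain r D Q = Q.ord (C.red a) - Q.ord (C.red b) := by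
  classical
  have ha0 : (a : FF) ≠ 0 := by
    intro h
    apply ha
    have : a = 0 := Subtype.ext h
    rw [this, map_zero]
  have hb0 : (b : FF) ≠ 0 := by
    intro h
    apply hb
    have : b = 0 := Subtype.ext h
    rw [this, map_zero]
  have hy0 : y ≠ 0 := by
    rintro rfl
    rw [zero_mul] at hy
    exact ha0 hy.symm
  set T : Finset (Place Kb FF) :=
    (hF.finite_zeros (a : FF) ha0).toFinset ∪ (hF.finite_zeros (b : FF) hb0).toFinset ∪ D.support
    with hT
  have hfa := ok.formula a ha Q hQ T (fun P _ _ h => by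
    rw [hT]
    exact Finset.mem_union_left _ (Finset.mem_union_left _ ((Set.Finite.mem_toFinset _).mpr h)))
  have hfb := ok.formula b hb Q hQ T (fun P _ _ h => by
    rw [hT]
    exact Finset.mem_union_left _ (Finset.mem_union_right _ ((Set.Finite.mem_toFinset _).mpr h)))
  rw [hfa, hfb, ← Finset.sum_sub_distrib, rpg_mapDomain_apply]
  have h1 : ∑ P ∈ D.support, (if r P = Q then D P else 0) =
      ∑ P ∈ T, (if r P = Q then D P else 0) := by
    refine Finset.sum_subset (by rw [hT]; exact Finset.subset_union_right) fun P _ hP => ?_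
    rw [Finsupp.notMem_support_iff.mp hP]
    simp
  rw [h1, Finset.sum_filter]
  refine Finset.sum_congr rfl fun P _ => ?_
  have h2 : P.ord (a : FF) = P.ord y + P.ord (b : FF) := by
    rw [← hy, P.ord_mul hy0 hb0]
  by_cases h : C.InChart P ∧ C.CenterAt P Q
  · rw [if_pos h, if_pos ((hr P).mpr h), hD P, h2]
    ring
  · rw [if_neg h, if_neg (fun h' => h ((hr P).mp h'))]

/-- Two charts `C1` (where `x` is finite) and `C2` (where `x⁻¹` is finite) glued by ONE reduction
map on a common ring of integral functions. -/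
structure rpg_Glue (C1 C2 : rp_Chart A FF k Ft) where
  /-- the integral functions -/
  Int : Subring FF
  /-- the reduction map -/
  red : Int →+* Ft
  /-- the coordinate -/
  x : FF
  le1 : C1.B ≤ Int
  le2 : C2.B ≤ Int
  red1 : ∀ b : C1.B, C1.red b = red ⟨b, le1 b.2⟩
  red2 : ∀ b : C2.B, C2.red b = red ⟨b, le2 b.2⟩
  x_mem : x ∈ C1.B
  inv_mem : x⁻¹ ∈ C2.B
  x_ne : x ≠ 0
  /-- a place where `x` has a value in `A` lies in the first chart -/
  covP1 : ∀ P : Place Kb FF,
    (∃ c : A, x - algebraMap Kb FF (c : Kb) ∈ P.toValuationSubring.nonunits) → C1.InChart P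
  /-- a place where `x⁻¹` has a value in `A` lies in the second chart -/
  covP2 : ∀ P : Place Kb FF,
    (∃ c : A, x⁻¹ - algebraMap Kb FF (c : Kb) ∈ P.toValuationSubring.nonunits) → C2.InChart P
  /-- a place of the reduction where `x̃` is finite is finite on the first reduced chart -/
  covQ1 : ∀ Q : Place k Ft, red ⟨x, le1 x_mem⟩ ∈ Q.toValuationSubring → C1.FinRed Q
  /-- a place of the reduction where `x̃⁻¹` is finite is finite on the second reduced chart -/
  covQ2 : ∀ Q : Place k Ft, red ⟨x⁻¹, le2 inv_mem⟩ ∈ Q.toValuationSubring → C2.FinRed Q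
  /-- every integral function with nonzero reduction is a quotient of such functions on `C1` -/
  quot1 : ∀ y : Int, red y ≠ 0 → ∃ a b : C1.B, C1.red a ≠ 0 ∧ C1.red b ≠ 0 ∧
    (y : FF) * (b : FF) = (a : FF)
  /-- the same on `C2` -/
  quot2 : ∀ y : Int, red y ≠ 0 → ∃ a b : C2.B, C2.red a ≠ 0 ∧ C2.red b ≠ 0 ∧
    (y : FF) * (b : FF) = (a : FF)

/-- the defining property of the place map. -/
def rpg_Spec (C1 C2 : rp_Chart A FF k Ft) (P : Place Kb FF) (Q : Place k Ft) : Prop :=
  (C1.InChart P → C1.FinRed Q ∧ C1.CenterAt P Q) ∧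
    (¬ C1.InChart P → C2.InChart P ∧ C2.FinRed Q ∧ C2.CenterAt P Q)

namespace rpg_Glue

variable {C1 C2 : rp_Chart A FF k Ft}

/-- `x̃` -/
noncomputable def xt (G : rpg_Glue C1 C2) : Ft := G.red ⟨G.x, G.le1 G.x_mem⟩

/-- `x̃⁻¹` -/
noncomputable def xit (G : rpg_Glue C1 C2) : Ft := G.red ⟨G.x⁻¹, G.le2 G.inv_mem⟩

theorem xt_mul_xit (G : rpg_Glue C1 C2) : G.xt * G.xit = 1 := by
  rw [xt, xit, ← map_mul]
  have : (⟨G.x, G.le1 G.x_mem⟩ : G.Int) * ⟨G.x⁻¹, G.le2 G.inv_mem⟩ = 1 := by
    apply Subtype.ext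
    change G.x * G.x⁻¹ = 1
    exact mul_inv_cancel₀ G.x_ne
  rw [this, map_one]

theorem red1_x (G : rpg_Glue C1 C2) : C1.red ⟨G.x, G.x_mem⟩ = G.xt := G.red1 ⟨G.x, G.x_mem⟩

theorem red2_inv (G : rpg_Glue C1 C2) : C2.red ⟨G.x⁻¹, G.inv_mem⟩ = G.xit :=
  G.red2 ⟨G.x⁻¹, G.inv_mem⟩

/-- Every place lies in one of the two charts. -/
theorem inChart_or (G : rpg_Glue C1 C2) (hF : rp_FunField Kb FF) (P : Place Kb FF) :
    C1.InChart P ∨ C2.InChart P := by
  by_cases hxV : G.x ∈ P.toValuationSubring
  · obtain ⟨c, hc⟩ := hF.exists_value P G.x hxV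
    rcases A.mem_or_inv_mem c with hcA | hcA
    · exact Or.inl (G.covP1 P ⟨⟨c, hcA⟩, hc⟩)
    · by_cases hc0 : c = 0
      · subst hc0
        exact Or.inl (G.covP1 P ⟨⟨0, A.zero_mem⟩, hc⟩)
      right
      refine G.covP2 P ⟨⟨c⁻¹, hcA⟩, ?_⟩
      have h1 := rpg_inv_sub_inv_mem P.toValuationSubring
        (a := G.x) (c := algebraMap Kb FF c) (by simpa using hc0) (P.algebraMap_mem' c)
        (by rw [← map_inv₀]; exact P.algebraMap_mem' _) hc
      rw [map_inv₀]
      exact h1.2.2
  · right
    refine G.covP2 P ⟨⟨0, A.zero_mem⟩, ?_⟩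
    have := rpg_inv_mem_nonunits P.toValuationSubring hxV
    simpa using this

theorem exists_spec (G : rpg_Glue C1 C2) (hF : rp_FunField Kb FF) (ok1 : rpg_ChartOK C1)
    (ok2 : rpg_ChartOK C2) (P : Place Kb FF) : ∃ Q : Place k Ft, rpg_Spec C1 C2 P Q := by
  by_cases h : C1.InChart P
  · obtain ⟨Q, hQ⟩ := ok1.exists_center P h
    exact ⟨Q, fun _ => hQ, fun h' => absurd h h'⟩
  · have h2 : C2.InChart P := (G.inChart_or hF P).resolve_left h
    obtain ⟨Q, hQ⟩ := ok2.exists_center P h2
    exact ⟨Q, fun h' => absurd h' h, fun _ => ⟨h2, hQ⟩⟩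

/-- The place map. -/
noncomputable def placeMap (G : rpg_Glue C1 C2) (hF : rp_FunField Kb FF) (ok1 : rpg_ChartOK C1)
    (ok2 : rpg_ChartOK C2) (P : Place Kb FF) : Place k Ft :=
  (G.exists_spec hF ok1 ok2 P).choose

theorem placeMap_spec (G : rpg_Glue C1 C2) (hF : rp_FunField Kb FF) (ok1 : rpg_ChartOK C1)
    (ok2 : rpg_ChartOK C2) (P : Place Kb FF) : rpg_Spec C1 C2 P (G.placeMap hF ok1 ok2 P) :=
  (G.exists_spec hF ok1 ok2 P).choose_spec

/-- a place of the second chart outside the first: the value of `x⁻¹` lies in `𝔪_A`. -/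
theorem inv_value_nonunit (G : rpg_Glue C1 C2) (P : Place Kb FF) (h1 : ¬ C1.InChart P) (c' : A)
    (hc' : G.x⁻¹ - algebraMap Kb FF (c' : Kb) ∈ P.toValuationSubring.nonunits) :
    (c' : Kb) ∈ A.nonunits := by
  by_contra hcn
  rw [ValuationSubring.mem_nonunits_iff_or] at hcn
  push Not at hcn
  apply h1
  refine G.covP1 P ⟨⟨(c' : Kb)⁻¹, hcn.2⟩, ?_⟩
  have h := rpg_inv_sub_inv_mem P.toValuationSubring
    (a := G.x⁻¹) (c := algebraMap Kb FF (c' : Kb)) (by simpa using hcn.1) (P.algebraMap_mem' _)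
    (by rw [← map_inv₀]; exact P.algebraMap_mem' _) hc'
  have h2 := h.2.2
  rw [inv_inv] at h2
  rw [map_inv₀]
  exact h2

/-- fibre of the place map over a place finite on the first reduced chart. -/
theorem placeMap_eq_iff_of_finRed (G : rpg_Glue C1 C2) (hF : rp_FunField Kb FF)
    (ok1 : rpg_ChartOK C1) (ok2 : rpg_ChartOK C2) (P : Place Kb FF) (Q : Place k Ft)
    (hQ : C1.FinRed Q) :
    G.placeMap hF ok1 ok2 P = Q ↔ C1.InChart P ∧ C1.CenterAt P Q := by
  have hs := G.placeMap_spec hF ok1 ok2 P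
  constructor
  · intro h
    rw [h] at hs
    by_cases h1 : C1.InChart P
    · exact ⟨h1, (hs.1 h1).2⟩
    · exfalso
      obtain ⟨h2, h2Q, h2c⟩ := hs.2 h1
      obtain ⟨c', hc'⟩ := h2 G.x⁻¹ G.inv_mem
      have hcn := G.inv_value_nonunit P h1 c' hc'
      have hx := (h2c ⟨G.x⁻¹, G.inv_mem⟩ c' hc').mp hcn
      rw [G.red2_inv] at hx
      have hxt : G.xt ∈ Q.toValuationSubring := by
        rw [← G.red1_x]
        exact hQ _
      have := rpg_mul_mem_nonunits Q.toValuationSubring hx hxt
      rw [mul_comm, G.xt_mul_xit] at this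
      exact rpg_one_notMem_nonunits _ this
  · rintro ⟨h1, h1c⟩
    have := hs.1 h1
    exact ok1.center_unique P _ Q h1 this.1 hQ this.2 h1c

/-- fibre of the place map over a place not finite on the first reduced chart. -/
theorem placeMap_eq_iff_of_not_finRed (G : rpg_Glue C1 C2) (hF : rp_FunField Kb FF)
    (ok1 : rpg_ChartOK C1) (ok2 : rpg_ChartOK C2) (Q : Place k Ft) (hQ : ¬ C1.FinRed Q) :
    C2.FinRed Q ∧ ∀ P : Place Kb FF,
      (G.placeMap hF ok1 ok2 P = Q ↔ C2.InChart P ∧ C2.CenterAt P Q) := by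
  have hxt : G.xt ∉ Q.toValuationSubring := fun h => hQ (G.covQ1 Q h)
  have hxit : G.xit ∈ Q.toValuationSubring.nonunits := by
    have h := rpg_inv_mem_nonunits Q.toValuationSubring hxt
    have h2 : G.xit = G.xt⁻¹ := eq_inv_of_mul_eq_one_right G.xt_mul_xit
    rwa [h2]
  have hQ2 : C2.FinRed Q := G.covQ2 Q (Q.toValuationSubring.nonunits_subset hxit)
  refine ⟨hQ2, fun P => ?_⟩
  have hs := G.placeMap_spec hF ok1 ok2 P
  constructor
  · intro h
    rw [h] at hs
    by_cases h1 : C1.InChart P
    · exact absurd (hs.1 h1).1 hQ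
    · obtain ⟨h2, _, h2c⟩ := hs.2 h1
      exact ⟨h2, h2c⟩
  · rintro ⟨h2, h2c⟩
    by_cases h1 : C1.InChart P
    · exfalso
      obtain ⟨c, hc⟩ := h1 G.x G.x_mem
      obtain ⟨c', hc'⟩ := h2 G.x⁻¹ G.inv_mem
      have hxiV : G.x⁻¹ ∈ P.toValuationSubring :=
        rpg_mem_of_sub_mem _ (P.algebraMap_mem' _) hc'
      -- `1 - c c' ∈ 𝔪_P`
      have hcc : algebraMap Kb FF (1 - (c : Kb) * (c' : Kb)) ∈ P.toValuationSubring.nonunits := by
        have e : algebraMap Kb FF (1 - (c : Kb) * (c' : Kb)) =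
            (G.x - algebraMap Kb FF (c : Kb)) * G.x⁻¹ +
              (G.x⁻¹ - algebraMap Kb FF (c' : Kb)) * algebraMap Kb FF (c : Kb) := by
          rw [map_sub, map_one, map_mul]
          have := mul_inv_cancel₀ G.x_ne
          linear_combination -this
        rw [e]
        exact P.toValuationSubring.nonunits.add_mem
          (rpg_mul_mem_nonunits _ hc hxiV)
          (rpg_mul_mem_nonunits _ hc' (P.algebraMap_mem' _))
      have h0 := rpg_const_eq_zero P hcc
      have hcn : (c' : Kb) ∈ A.nonunits := by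
        have := (h2c ⟨G.x⁻¹, G.inv_mem⟩ c' hc').mpr (by rw [G.red2_inv]; exact hxit)
        exact this
      have h1' : (c' : Kb) * (c : Kb) ∈ A.nonunits := rpg_mul_mem_nonunits A hcn c.2
      have h1'' : (c' : Kb) * (c : Kb) = 1 := by
        linear_combination -h0
      rw [h1''] at h1'
      exact rpg_one_notMem_nonunits _ h1'
    · have := hs.2 h1
      exact ok2.center_unique P _ Q h2 this.2.1 hQ2 this.2.2 h2c

/-- **The place map formula.** -/
theorem placeMap_formula (G : rpg_Glue C1 C2) (hF : rp_FunField Kb FF)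
    (ok1 : rpg_ChartOK C1) (ok2 : rpg_ChartOK C2) (y : G.Int) (hy : G.red y ≠ 0)
    (D : Place Kb FF →₀ ℤ) (hD : ∀ P, D P = P.ord (y : FF)) (Q : Place k Ft) :
    Finsupp.mapDomain (G.placeMap hF ok1 ok2) D Q = Q.ord (G.red y) := by
  by_cases hQ : C1.FinRed Q
  · obtain ⟨a, b, ha, hb, hab⟩ := G.quot1 y hy
    rw [rpg_chart_sum C1 ok1 hF Q hQ a b ha hb (y : FF) hab D hD _
      (fun P => G.placeMap_eq_iff_of_finRed hF ok1 ok2 P Q hQ)]
    have e : G.red y * C1.red b = C1.red a := by
      rw [G.red1, G.red1, ← map_mul]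
      congr 1
      exact Subtype.ext hab
    rw [← e, Q.ord_mul hy hb]
    ring
  · obtain ⟨hQ2, hfib⟩ := G.placeMap_eq_iff_of_not_finRed hF ok1 ok2 Q hQ
    obtain ⟨a, b, ha, hb, hab⟩ := G.quot2 y hy
    rw [rpg_chart_sum C2 ok2 hF Q hQ2 a b ha hb (y : FF) hab D hD _ hfib]
    have e : G.red y * C2.red b = C2.red a := by
      rw [G.red2, G.red2, ← map_mul]
      congr 1
      exact Subtype.ext hab
    rw [← e, Q.ord_mul hy hb]
    ring

end rpg_Glue

/-- **(E-glob)**: two glued charts give a place map with the prelude's properties. -/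
theorem rpg_exists_placeMap {C1 C2 : rp_Chart A FF k Ft} (G : rpg_Glue C1 C2)
    (hF : rp_FunField Kb FF) (ok1 : rpg_ChartOK C1) (ok2 : rpg_ChartOK C2)
    (hdegP : ∀ P : Place Kb FF, P.deg = 1) (hdegQ : ∀ Q : Place k Ft, Q.deg = 1) :
    ∃ r : Place Kb FF → Place k Ft, (∀ P, (r P).deg = P.deg) ∧
      ∀ y : G.Int, G.red y ≠ 0 → ∀ D : Divisor Kb FF, (∀ P, D P = P.ord (y : FF)) →
        ∀ Q, Finsupp.mapDomain r D Q = Q.ord (G.red y) :=
  ⟨G.placeMap hF ok1 ok2, fun P => by rw [hdegP, hdegQ],
    fun y hy D hD Q => G.placeMap_formula hF ok1 ok2 y hy D hD Q⟩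

/-! ### degree one from rational values -/

section Deg

variable {K : Type*} [Field K] {F : Type*} [Field F] [Algebra K F]

/-- if every function regular at `P` has a value in `K`, the place has degree one. -/
theorem rpg_deg_eq_one (P : Place K F)
    (h : ∀ f ∈ P.toValuationSubring, ∃ c : K,
      f - algebraMap K F c ∈ P.toValuationSubring.nonunits) : P.deg = 1 := by
  have hs : Function.Surjective (algebraMap K P.ResidueField) := by
    intro r
    obtain ⟨a, rfl⟩ := IsLocalRing.residue_surjective r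
    obtain ⟨c, hc⟩ := h (a : F) a.2
    refine ⟨c, ?_⟩
    have e : algebraMap K P.ResidueField c =
        IsLocalRing.residue P.toValuationSubring (algebraMap K P.toValuationSubring c) := rfl
    rw [e, eq_comm, ← sub_eq_zero, ← map_sub, IsLocalRing.residue_eq_zero_iff,
      IsLocalRing.mem_maximalIdeal, mem_nonunits_iff]
    intro hu
    rw [ValuationSubring.mem_nonunits_iff_exists_mem_maximalIdeal] at hc
    obtain ⟨ha, hm⟩ := hc
    rw [IsLocalRing.mem_maximalIdeal, mem_nonunits_iff] at hm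
    apply hm
    convert hu using 1
    exact Subtype.ext rfl
  have hb : Function.Bijective (Algebra.ofId K P.ResidueField) :=
    ⟨(algebraMap K P.ResidueField).injective, hs⟩
  have e := (AlgEquiv.ofBijective (Algebra.ofId K P.ResidueField) hb).toLinearEquiv
  rw [Place.deg, ← e.finrank_eq, Module.finrank_self]

theorem rpg_deg_eq_one_of_funField (hF : rp_FunField K F) (P : Place K F) : P.deg = 1 :=
  rpg_deg_eq_one P (hF.exists_value P)

/-- the divisor of a nonzero function. -/
theorem rpg_exists_divisor (hF : rp_FunField K F) (f : F) (hf : f ≠ 0) :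
    ∃ D : Divisor K F, ∀ P, D P = P.ord f := by
  have hfin : (Function.support fun P : Place K F => P.ord f).Finite := by
    refine ((hF.finite_zeros f hf).union (hF.finite_zeros f⁻¹ (inv_ne_zero hf))).subset ?_
    intro P hP
    rw [Function.mem_support] at hP
    rcases lt_or_gt_of_ne hP with h | h
    · right
      change 0 < P.ord f⁻¹
      rw [P.ord_inv]
      omega
    · left
      exact h
  exact ⟨Finsupp.ofSupportFinite _ hfin, fun P => rfl⟩

end Deg

/-! ### the instantiation: `ModularCurve.ReductionInputsAlong` -/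

section Inst

open ModularCurve

variable {L : Type*} [Field L] [Algebra ℚ L] (A : ValuationSubring L)
variable {k : Type*} [Field k] (π : A →+* k) (N : ℕ)

theorem rpg_coeffMap_subtype_injective : Function.Injective (coeffMap A.subtype) := by
  intro y z h
  ext n
  have := congrArg (fun s : LaurentSeries L => s.coeff n) h
  simp only [coeffMap_coeff] at this
  exact this

theorem rpg_coeffMap_subtype_ne_zero {y : LaurentSeries A} (hy : coeffMap π y ≠ 0) :
    coeffMap A.subtype y ≠ 0 := by
  intro h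
  apply hy
  have : y = 0 := rpg_coeffMap_subtype_injective A (by rw [h, map_zero])
  rw [this, map_zero]

/-- the integral functions whose reduction lies in the reduced function field. -/
def rpg_intSubring : Subring ↥(laurentBaseChange L (modularFunctionFieldFull N)) where
  carrier := {f | ∃ y : LaurentSeries A, coeffMap A.subtype y = (f : LaurentSeries L) ∧
      coeffMap π y ∈ modularFunctionFieldFullC k N}
  mul_mem' := by
    rintro f g ⟨y, hy, hyk⟩ ⟨z, hz, hzk⟩
    exact ⟨y * z, by rw [map_mul, hy, hz]; rfl, by rw [map_mul]; exact mul_mem hyk hzk⟩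
  one_mem' := ⟨1, by rw [map_one]; rfl, by rw [map_one]; exact one_mem _⟩
  add_mem' := by
    rintro f g ⟨y, hy, hyk⟩ ⟨z, hz, hzk⟩
    exact ⟨y + z, by rw [map_add, hy, hz]; rfl, by rw [map_add]; exact add_mem hyk hzk⟩
  zero_mem' := ⟨0, by rw [map_zero]; rfl, by rw [map_zero]; exact zero_mem _⟩
  neg_mem' := by
    rintro f ⟨y, hy, hyk⟩
    exact ⟨-y, by rw [map_neg, hy]; rfl, by rw [map_neg]; exact neg_mem hyk⟩

/-- the integral lift of an integral function -/
noncomputable def rpg_intLift (f : rpg_intSubring A π N) : LaurentSeries A :=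
  (f.2 : ∃ y : LaurentSeries A, coeffMap A.subtype y =
    ((f : ↥(laurentBaseChange L (modularFunctionFieldFull N))) : LaurentSeries L) ∧
      coeffMap π y ∈ modularFunctionFieldFullC k N).choose

theorem rpg_intLift_spec (f : rpg_intSubring A π N) :
    coeffMap A.subtype (rpg_intLift A π N f) =
      ((f : ↥(laurentBaseChange L (modularFunctionFieldFull N))) : LaurentSeries L) ∧
      coeffMap π (rpg_intLift A π N f) ∈ modularFunctionFieldFullC k N :=
  (f.2 : ∃ y : LaurentSeries A, coeffMap A.subtype y =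
    ((f : ↥(laurentBaseChange L (modularFunctionFieldFull N))) : LaurentSeries L) ∧
      coeffMap π y ∈ modularFunctionFieldFullC k N).choose_spec

theorem rpg_intLift_eq (f : rpg_intSubring A π N) (y : LaurentSeries A)
    (hy : coeffMap A.subtype y =
      ((f : ↥(laurentBaseChange L (modularFunctionFieldFull N))) : LaurentSeries L)) :
    rpg_intLift A π N f = y :=
  rpg_coeffMap_subtype_injective A (by rw [(rpg_intLift_spec A π N f).1, hy])

/-- the reduction map on the integral functions -/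
noncomputable def rpg_intRed : rpg_intSubring A π N →+* ↥(modularFunctionFieldFullC k N) where
  toFun f := ⟨coeffMap π (rpg_intLift A π N f), (rpg_intLift_spec A π N f).2⟩
  map_one' := by
    apply Subtype.ext
    change coeffMap π (rpg_intLift A π N 1) = 1
    rw [rpg_intLift_eq A π N 1 1 (by rw [map_one]; rfl), map_one]
  map_mul' f g := by
    apply Subtype.ext
    change coeffMap π (rpg_intLift A π N (f * g)) =
      coeffMap π (rpg_intLift A π N f) * coeffMap π (rpg_intLift A π N g)
    rw [rpg_intLift_eq A π N (f * g) (rpg_intLift A π N f * rpg_intLift A π N g)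
      (by rw [map_mul, (rpg_intLift_spec A π N f).1, (rpg_intLift_spec A π N g).1]; rfl), map_mul]
  map_zero' := by
    apply Subtype.ext
    change coeffMap π (rpg_intLift A π N 0) = 0
    rw [rpg_intLift_eq A π N 0 0 (by rw [map_zero]; rfl), map_zero]
  map_add' f g := by
    apply Subtype.ext
    change coeffMap π (rpg_intLift A π N (f + g)) =
      coeffMap π (rpg_intLift A π N f) + coeffMap π (rpg_intLift A π N g)
    rw [rpg_intLift_eq A π N (f + g) (rpg_intLift A π N f + rpg_intLift A π N g)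
      (by rw [map_add, (rpg_intLift_spec A π N f).1, (rpg_intLift_spec A π N g).1]; rfl), map_add]

/-- the canonical pair `(rpg_intSubring, rpg_intRed)` satisfies the compatibility hypothesis of
`rpg_reductionInputsAlong`. -/
theorem rpg_intRed_spec (y : LaurentSeries A)
    (hy : coeffMap A.subtype y ∈ laurentBaseChange L (modularFunctionFieldFull N))
    (hyk : coeffMap π y ∈ modularFunctionFieldFullC k N) :
    ∃ h : (⟨coeffMap A.subtype y, hy⟩ : ↥(laurentBaseChange L (modularFunctionFieldFull N))) ∈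
        rpg_intSubring A π N,
      rpg_intRed A π N ⟨_, h⟩ = ⟨coeffMap π y, hyk⟩ := by
  refine ⟨⟨y, rfl, hyk⟩, ?_⟩
  apply Subtype.ext
  change coeffMap π (rpg_intLift A π N _) = coeffMap π y
  rw [rpg_intLift_eq A π N _ y rfl]

variable {A π N}

/-- **(E-gen)**: Gauss quotients give `PrincipalGeneratedByIntegral`. -/
theorem rpg_principalGeneratedByIntegral
    (hF : rp_FunField L ↥(laurentBaseChange L (modularFunctionFieldFull N)))
    (hgen : ∀ f : ↥(laurentBaseChange L (modularFunctionFieldFull N)), f ≠ 0 →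
      ∃ (c : L) (y z : LaurentSeries A)
        (hy : coeffMap A.subtype y ∈ laurentBaseChange L (modularFunctionFieldFull N))
        (hz : coeffMap A.subtype z ∈ laurentBaseChange L (modularFunctionFieldFull N)),
        c ≠ 0 ∧ coeffMap π y ∈ modularFunctionFieldFullC k N ∧ coeffMap π y ≠ 0 ∧
          coeffMap π z ∈ modularFunctionFieldFullC k N ∧ coeffMap π z ≠ 0 ∧
          f * (⟨coeffMap A.subtype z, hz⟩ : ↥(laurentBaseChange L (modularFunctionFieldFull N))) =
            algebraMap L _ c * ⟨coeffMap A.subtype y, hy⟩) :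
    PrincipalGeneratedByIntegral A π N := by
  intro D hD
  obtain ⟨f, hf, hDf⟩ := hD
  obtain ⟨c, y, z, hy, hz, hc, hyk, hyne, hzk, hzne, hfz⟩ := hgen f hf
  set a : ↥(laurentBaseChange L (modularFunctionFieldFull N)) := ⟨coeffMap A.subtype y, hy⟩
    with ha
  set b : ↥(laurentBaseChange L (modularFunctionFieldFull N)) := ⟨coeffMap A.subtype z, hz⟩
    with hb
  have ha0 : a ≠ 0 := fun h => rpg_coeffMap_subtype_ne_zero A π hyne (congrArg Subtype.val h)
  have hb0 : b ≠ 0 := fun h => rpg_coeffMap_subtype_ne_zero A π hzne (congrArg Subtype.val h)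
  obtain ⟨Da, hDa⟩ := rpg_exists_divisor hF a ha0
  obtain ⟨Db, hDb⟩ := rpg_exists_divisor hF b hb0
  have hDa' : Da ∈ integralPrincipalDivisors A π N := ⟨y, hy, hyk, hyne, hDa⟩
  have hDb' : Db ∈ integralPrincipalDivisors A π N := ⟨z, hz, hzk, hzne, hDb⟩
  have hc0 : algebraMap L ↥(laurentBaseChange L (modularFunctionFieldFull N)) c ≠ 0 := by
    simpa using hc
  have e : D = Da - Db := by
    ext P
    rw [Finsupp.sub_apply, hDf, hDa, hDb]
    have h1 := congrArg P.ord hfz
    rw [P.ord_mul hf hb0, P.ord_mul hc0 ha0, hw_ord_algebraMap, zero_add] at h1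
    omega
  rw [e]
  exact AddSubgroup.sub_mem _ (AddSubgroup.subset_closure hDa') (AddSubgroup.subset_closure hDb')

/-- **(E-glob) for the prelude**: two glued charts of the model of `X(N)`-type function fields
give `ModularCurve.ReductionInputsAlong`. -/
theorem rpg_reductionInputsAlong
    {C1 C2 : rp_Chart A ↥(laurentBaseChange L (modularFunctionFieldFull N)) k
      ↥(modularFunctionFieldFullC k N)}
    (G : rpg_Glue C1 C2)
    (hF : rp_FunField L ↥(laurentBaseChange L (modularFunctionFieldFull N)))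
    (ok1 : rpg_ChartOK C1) (ok2 : rpg_ChartOK C2)
    (hdegQ : ∀ Q : Place k ↥(modularFunctionFieldFullC k N), Q.deg = 1)
    (hInt : ∀ (y : LaurentSeries A)
      (hy : coeffMap A.subtype y ∈ laurentBaseChange L (modularFunctionFieldFull N))
      (hyk : coeffMap π y ∈ modularFunctionFieldFullC k N),
      ∃ h : (⟨coeffMap A.subtype y, hy⟩ : ↥(laurentBaseChange L (modularFunctionFieldFull N))) ∈
          G.Int, G.red ⟨_, h⟩ = ⟨coeffMap π y, hyk⟩)
    (hgen : ∀ f : ↥(laurentBaseChange L (modularFunctionFieldFull N)), f ≠ 0 →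
      ∃ (c : L) (y z : LaurentSeries A)
        (hy : coeffMap A.subtype y ∈ laurentBaseChange L (modularFunctionFieldFull N))
        (hz : coeffMap A.subtype z ∈ laurentBaseChange L (modularFunctionFieldFull N)),
        c ≠ 0 ∧ coeffMap π y ∈ modularFunctionFieldFullC k N ∧ coeffMap π y ≠ 0 ∧
          coeffMap π z ∈ modularFunctionFieldFullC k N ∧ coeffMap π z ≠ 0 ∧
          f * (⟨coeffMap A.subtype z, hz⟩ : ↥(laurentBaseChange L (modularFunctionFieldFull N))) =
            algebraMap L _ c * ⟨coeffMap A.subtype y, hy⟩) :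
    ReductionInputsAlong A π N := by
  obtain ⟨r, hdeg, hr⟩ := rpg_exists_placeMap G hF ok1 ok2 (rpg_deg_eq_one_of_funField hF) hdegQ
  refine ⟨r, ⟨hdeg, ?_⟩, rpg_principalGeneratedByIntegral hF hgen⟩
  intro y hy hyk hne D hD Q
  obtain ⟨h, hred⟩ := hInt y hy hyk
  have h1 := hr ⟨_, h⟩ (by rw [hred]; exact fun h0 => hne (congrArg Subtype.val h0)) D hD Q
  rw [h1, hred]

end Inst

end Fermat.Agent.JT3
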