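/-
JT3 / node E (place map): assembly of the generic part.

* `rpe_chartOK`: a chart with enough levels whose reduction is regular satisfies the three chart
  statements (`rpg_ChartOK`: existence and uniqueness of centres, the chart formula).
* `rpe_glue`: the glueing datum `rpg_Glue` from its geometric fields (the two Gauss quotient
  fields are theorems).
* `rpe_reductionInputsAlong`: `ModularCurve.ReductionInputsAlong` from two charts.
-/
import Fermat.Agent.JT3.PlaceMap.ChartFormula
import Fermat.Agent.JT3.PlaceMap.Center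
import Fermat.Agent.JT3.PlaceMap.Global

set_option autoImplicit false

namespace Fermat.Agent.JT3

open AlgebraicCurve HahnSeries ModularCurve

section Generic

variable {Kb : Type*} [Field Kb] {A : ValuationSubring Kb}
variable {FF : Type*} [Field FF] [Algebra Kb FF]
variable {k : Type*} [Field k] {Ft : Type*} [Field Ft] [Algebra k Ft]

/-- A chart with enough levels and regular reduction satisfies the three chart statements. -/
theorem rpe_chartOK {C : rp_Chart A FF k Ft} (hF : rp_FunField Kb FF) (hL : C.HasLevels)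
    (hR : C.RedRegular) : rpg_ChartOK C where
  exists_center := fun _ hP => rpc_exists_center C hL hR hP
  center_unique := fun _ _ _ hP hQ hQ' h h' => rpc_center_unique C hR hP hQ hQ' h h'
  formula := fun a ha Q hQ T hT _ => rp_chart_formula hF hL hR a ha Q hQ T hT

/-- The glueing datum from its geometric fields. -/
noncomputable def rpe_glue {C1 C2 : rp_Chart A FF k Ft} (hL1 : C1.HasLevels) (hL2 : C2.HasLevels)
    (Int : Subring FF) (red : Int →+* Ft) (x : FF) (le1 : C1.B ≤ Int) (le2 : C2.B ≤ Int)
    (red1 : ∀ b : C1.B, C1.red b = red ⟨b, le1 b.2⟩)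
    (red2 : ∀ b : C2.B, C2.red b = red ⟨b, le2 b.2⟩)
    (x_mem : x ∈ C1.B) (inv_mem : x⁻¹ ∈ C2.B) (x_ne : x ≠ 0)
    (covP1 : ∀ P : Place Kb FF,
      (∃ c : A, x - algebraMap Kb FF (c : Kb) ∈ P.toValuationSubring.nonunits) → C1.InChart P)
    (covP2 : ∀ P : Place Kb FF,
      (∃ c : A, x⁻¹ - algebraMap Kb FF (c : Kb) ∈ P.toValuationSubring.nonunits) → C2.InChart P)
    (covQ1 : ∀ Q : Place k Ft, red ⟨x, le1 x_mem⟩ ∈ Q.toValuationSubring → C1.FinRed Q)
    (covQ2 : ∀ Q : Place k Ft, red ⟨x⁻¹, le2 inv_mem⟩ ∈ Q.toValuationSubring → C2.FinRed Q) :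
    rpg_Glue C1 C2 where
  Int := Int
  red := red
  x := x
  le1 := le1
  le2 := le2
  red1 := red1
  red2 := red2
  x_mem := x_mem
  inv_mem := inv_mem
  x_ne := x_ne
  covP1 := covP1
  covP2 := covP2
  covQ1 := covQ1
  covQ2 := covQ2
  quot1 := rpc_exists_gauss_quot C1 hL1 Int red le1 red1
  quot2 := rpc_exists_gauss_quot C2 hL2 Int red le2 red2

end Generic

section Inst

variable {L : Type*} [Field L] [Algebra ℚ L] {A : ValuationSubring L}
variable {k : Type*} [Field k] {π : A →+* k} {N : ℕ}

/-- **Node E, generic form**: two charts with enough levels and regular reductions, glued by one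
reduction map on a ring of integral functions containing all integral `q`-expansions, give the
prelude's `ReductionInputsAlong`. -/
theorem rpe_reductionInputsAlong
    {C1 C2 : rp_Chart A ↥(laurentBaseChange L (modularFunctionFieldFull N)) k
      ↥(modularFunctionFieldFullC k N)}
    (hF : rp_FunField L ↥(laurentBaseChange L (modularFunctionFieldFull N)))
    (hL1 : C1.HasLevels) (hR1 : C1.RedRegular) (hL2 : C2.HasLevels) (hR2 : C2.RedRegular)
    (G : rpg_Glue C1 C2)
    (hdegQ : ∀ Q : Place k ↥(modularFunctionFieldFullC k N), Q.deg = 1)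
    (hInt : ∀ (y : LaurentSeries A)
      (hy : coeffMap A.subtype y ∈ laurentBaseChange L (modularFunctionFieldFull N))
      (hyk : coeffMap π y ∈ modularFunctionFieldFullC k N),
      ∃ h : (⟨coeffMap A.subtype y, hy⟩ : ↥(laurentBaseChange L (modularFunctionFieldFull N))) ∈
          G.Int, G.red ⟨_, h⟩ = ⟨coeffMap π y, hyk⟩)
    (hgen : ∀ f : ↥(laurentBaseChange L (modularFunctionFieldFull N)), f ≠ 0 →
      ∃ (c : L) (y z : LaurentSeries A)
        (hy : coeffMap A.subtype y ∈ laurentBaseChange L (modularFunctionFieldFull N))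
        (hz : coeffMap A.subtype z ∈ laurentBaseChange L (modularFunctionFieldFull N)),
        c ≠ 0 ∧ coeffMap π y ∈ modularFunctionFieldFullC k N ∧ coeffMap π y ≠ 0 ∧
          coeffMap π z ∈ modularFunctionFieldFullC k N ∧ coeffMap π z ≠ 0 ∧
          f * (⟨coeffMap A.subtype z, hz⟩ : ↥(laurentBaseChange L (modularFunctionFieldFull N))) =
            algebraMap L _ c * ⟨coeffMap A.subtype y, hy⟩) :
    ReductionInputsAlong A π N :=
  rpg_reductionInputsAlong G hF (rpe_chartOK hF hL1 hR1) (rpe_chartOK hF hL2 hR2) hdegQ hInt hgen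

end Inst

end Fermat.Agent.JT3
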