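/-
JT3 / node E (place map), producer side: the base level of a chart.

A base level is a discrete valuation ring `O ⊆ A` with the SAME residue field as `A`, and a
finitely generated `O`-algebra `O[gens] ⊆ FF` such that the chart ring is `A[gens]` and the kernel
of the reduction on `O[gens]` is generated by the uniformiser.  `PlaceMap/LevelUp.lean` shows that
a chart with a base level has enough levels (`rp_Chart.HasLevels`): the levels are the rings
`O'[gens]`, `O' = A ∩ K'` for the finite extensions `K'` of the fraction field of `O`.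
-/
import Fermat.Agent.JT3.PlaceMap.Defs

set_option autoImplicit false

namespace Fermat.Agent.JT3

open AlgebraicCurve

variable {Kb : Type*} [Field Kb] {A : ValuationSubring Kb}
variable {FF : Type*} [Field FF] [Algebra Kb FF]
variable {k : Type*} [Field k] {Ft : Type*} [Field Ft] [Algebra k Ft]

/-- the subring of `FF` generated by a set `gens` of functions and the constants of a subring `O`
of `Kb`. -/
def rp_genRing (O : Subring Kb) (gens : Set FF) : Subring FF :=
  Subring.closure (gens ∪ (algebraMap Kb FF) '' (O : Set Kb))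

/-- A base level of a chart. -/
structure rp_Base (C : rp_Chart A FF k Ft) where
  /-- the discrete valuation ring of the base level -/
  O : Subring Kb
  O_le : ∀ o ∈ O, o ∈ A
  /-- its uniformiser -/
  ϖ : Kb
  ϖ_mem : ϖ ∈ O
  ϖ_ne : ϖ ≠ 0
  ϖ_nonunit : ϖ ∈ A.nonunits
  /-- every nonzero element of `O` is a power of `ϖ` times a unit of `O` -/
  O_str : ∀ o ∈ O, o ≠ 0 → ∃ (n : ℕ) (u : Kb), u ∈ O ∧ u⁻¹ ∈ O ∧ o = ϖ ^ n * u
  /-- `Kb` is algebraic over the fraction field of `O` -/
  alg : ∀ c : Kb, ∃ p : Polynomial Kb, p ≠ 0 ∧ (∀ i, p.coeff i ∈ O) ∧ p.eval c = 0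
  /-- `O` and `A` have the same residue field -/
  res_eq : ∀ a : A, ∃ o ∈ O, (a : Kb) - o ∈ A.nonunits
  /-- generators of the chart ring -/
  gens : Finset FF
  /-- the chart ring is generated by `gens` over the constants of `A` -/
  chart_eq : C.B = rp_genRing A.toSubring (gens : Set FF)
  /-- q-expansion principle at the base level: the kernel of the reduction on `O[gens]` is
  generated by `ϖ` -/
  red_ker : ∀ (b : FF) (hb : b ∈ C.B), b ∈ rp_genRing O (gens : Set FF) → C.red ⟨b, hb⟩ = 0 →
    ∃ b' ∈ rp_genRing O (gens : Set FF), b = algebraMap Kb FF ϖ * b'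

end Fermat.Agent.JT3
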