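/-
JT3 / node E (place map), leaf (E-ff): a function field `F / K` with a separating generator over
an algebraically closed field `K` satisfies `rp_FunField K F`:

* every proper valuation ring of `F` containing `K` is (the valuation ring of) a place;
* a nonzero function has finitely many zeros;
* every function regular at a place has a value in `K` there.

Prefix `rpf_`.
-/
import Mathlib
import Fermat.Agent.JT3.PlaceMap.Defs
import Fermat.Agent.JT3.Riemann.Degree
import Fermat.Agent.JT3.Descent.ConstDVR

set_option autoImplicit false
set_option linter.unusedSectionVars false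

namespace Fermat.Agent.JT3

open AlgebraicCurve IntermediateField Polynomial IsDedekindDomain Fermat.Agent.S24

universe u v
variable {K : Type u} {F : Type v} [Field K] [Field F] [Algebra K F]

/-- `K[y] ⊆ V` as soon as `K ⊆ V` and `y ∈ V`. -/
theorem rpf_adjoin_le (V : ValuationSubring F) (hK : ∀ c : K, algebraMap K F c ∈ V) {y : F}
    (hy : y ∈ V) (a : Algebra.adjoin K ({y} : Set F)) : (a : F) ∈ V := by
  have h : Algebra.adjoin K ({y} : Set F) ≤
      { V.toSubring with algebraMap_mem' := hK } := by
    refine Algebra.adjoin_le ?_
    rintro z rfl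
    exact hy
  exact h a.2

/-- The chart of `y` lies in every valuation ring containing `K` and `y`. -/
theorem rpf_chart_le (V : ValuationSubring F) (hK : ∀ c : K, algebraMap K F c ∈ V) {y : F}
    (hy : y ∈ V) (b : integralClosure (Algebra.adjoin K ({y} : Set F)) F) : (b : F) ∈ V :=
  dsc_mem_of_isIntegral_of_le V (O := Algebra.adjoin K ({y} : Set F))
    (fun a => rpf_adjoin_le V hK hy a) b.2

/-- A proper valuation ring of `F` containing `K` and a separating generator `y` is the valuation
ring of a place. -/
theorem rpf_exists_place_of_mem {y : F} (hy : rt_IsSepGen K y) (V : ValuationSubring F)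
    (hK : ∀ c : K, algebraMap K F c ∈ V) (hyV : y ∈ V) (hV : V ≠ ⊤) :
    ∃ P : Place K F, P.toValuationSubring = V := by
  have := rt_chart_isDedekindDomain hy
  have := rt_chart_isFractionRing hy
  set B := integralClosure (Algebra.adjoin K ({y} : Set F)) F with hB
  obtain ⟨Q, hQ⟩ := dsc_exists_eq_valuationSubring B F V
    (fun b => rpf_chart_le V hK hyV b) hV
  exact ⟨hw_placeOfPrime (K := K) (F := F) B Q, by
    rw [hw_placeOfPrime_toValuationSubring, hQ]⟩

/-- Every proper valuation ring of `F` containing `K` is the valuation ring of a place. -/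
theorem rpf_exists_place {x : F} (hx : rt_IsSepGen K x) (V : ValuationSubring F)
    (hK : ∀ c : K, algebraMap K F c ∈ V) (hV : V ≠ ⊤) :
    ∃ P : Place K F, P.toValuationSubring = V := by
  rcases V.mem_or_inv_mem x with h | h
  · exact rpf_exists_place_of_mem hx V hK h hV
  · exact rpf_exists_place_of_mem hx.inv V hK h hV

/-- positive order means membership in the maximal ideal. -/
theorem rpf_mem_nonunits_of_ord_pos (P : Place K F) {f : F} (hf : 0 < P.ord f) :
    f ∈ P.toValuationSubring.nonunits := by
  have hf0 : f ≠ 0 := by
    rintro rfl
    simp at hf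
  rw [ValuationSubring.mem_nonunits_iff_or]
  exact Or.inr ((hw_ord_pos_iff P hf0).mp hf)

/-- **(E-ff)** the function-field facts used by the place map. -/
theorem rpf_funField [IsAlgClosed K] {x : F} (hx : rt_IsSepGen K x) : rp_FunField K F where
  place_of_valuationSubring := fun V hK hV => rpf_exists_place hx V hK hV
  finite_zeros := fun f _ => rt_finite_zeros hx f
  exists_value := by
    intro P f hf
    have := hx.isAlgebraic
    obtain ⟨c, hc | hc⟩ := hw_exists_const x P hf
    · refine ⟨c, ?_⟩
      rw [hc, sub_self, ValuationSubring.mem_nonunits_iff_or]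
      exact Or.inl rfl
    · exact ⟨c, rpf_mem_nonunits_of_ord_pos P hc⟩

end Fermat.Agent.JT3
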