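/-
Node E, producer leaf [E-hgen]: the `hgen` input of `rpe_reductionInputsAlong` /
`rpg_principalGeneratedByIntegral` at the instance `(Q̄, A over ℓ ∤ N, residue A, N)`.

Every nonzero function of `Q̄(X₀(N))` is a constant times a quotient `y / z` of Laurent series with
coefficients in `A` whose reductions are NONZERO elements of the reduced function field.

Proof: `Q̄(X₀(N)) ≤ Q̄(j, j_N)` (`wr_HG'`), `j_N` is a root of the monic `Φ_N(j, Y)`
(`vx_isIntegral`), so every element is `(Σ_{i<n} r_i(j) j_N^i) / s(j)`; scale numerator and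
denominator by Gauss content in the valuation ring `A` so that one coefficient becomes `1`; the
reductions are nonzero by the linear independence of `1, j_N, …, j_N^{n-1}` over `k[j]`
(`vx_polyIndep`).
-/
import Mathlib
import Fermat.Agent.JT3.PlaceMap.Global
import Fermat.Agent.JT3.Export.S28Sep
import Fermat.Agent.S28.Wiring.Generation

set_option autoImplicit false
set_option linter.unusedSectionVars false

noncomputable section

namespace Fermat.Agent.JT3

open Polynomial ModularCurve IntermediateField Fermat.Agent.S28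

section Gen

variable (L : Type*) [Field L] [Algebra ℚ L] (N : ℕ) [NeZero N]

theorem rpi_coeffEmb_jqd (d : ℕ) [NeZero d] :
    coeffEmb L (qExpand ℚ d jq) = qExpand L d (jqModC L) := by
  rw [coeffEmb, coeffMap_qExpand, ← jqModC_rat, coeffMap_jqModC]

theorem rpi_coeffEmb_jq : coeffEmb L jq = jqModC L := by
  rw [coeffEmb, ← jqModC_rat, coeffMap_jqModC]

/-- the base-changed function field is generated by `j` and `j_N`. -/
theorem rpi_le_adjoin :
    laurentBaseChange L (modularFunctionFieldFull N) ≤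
      IntermediateField.adjoin L {jqModC L, qExpand L N (jqModC L)} := by
  rw [laurentBaseChange, adjoin_le_iff]
  rintro _ ⟨x, hx, rfl⟩
  have h1 : modularFunctionFieldFull N ≤ IntermediateField.adjoin ℚ {jq, qExpand ℚ N jq} := by
    rw [modularFunctionFieldFull, adjoin_le_iff]
    rintro y ⟨d, hd, hdN, rfl⟩
    exact wr_HG' N d hdN hd
  have h2 : ∀ y ∈ IntermediateField.adjoin ℚ {jq, qExpand ℚ N jq},
      coeffEmb L y ∈ IntermediateField.adjoin L {jqModC L, qExpand L N (jqModC L)} := by
    intro y hy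
    induction hy using IntermediateField.adjoin_induction with
    | mem y hy =>
      rcases hy with rfl | rfl
      · rw [rpi_coeffEmb_jq]
        exact subset_adjoin L _ (Set.mem_insert _ _)
      · rw [rpi_coeffEmb_jqd]
        exact subset_adjoin L _ (Set.mem_insert_of_mem _ rfl)
    | algebraMap r =>
      have : coeffEmb L (algebraMap ℚ (LaurentSeries ℚ) r)
          = algebraMap L (LaurentSeries L) (algebraMap ℚ L r) := by
        rw [algebraMap_laurentSeries_eq_single, algebraMap_laurentSeries_eq_single, coeffEmb,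
          coeffMap_single]
      rw [this]
      exact IntermediateField.algebraMap_mem _ _
    | add y z _ _ hy hz => rw [map_add]; exact add_mem hy hz
    | inv y _ hy => rw [map_inv₀]; exact inv_mem hy
    | mul y z _ _ hy hz => rw [map_mul]; exact mul_mem hy hz
  exact h2 x (h1 hx)

end Gen

section Expr

variable {L : Type*} [Field L] (N ℓ : ℕ) [NeZero N] [Fact ℓ.Prime] (hℓN : ¬ ℓ ∣ N)
  (ρ : ↥(GaloisRep.ratLocalizedAt ℓ) →+* L)

include ρ in
/-- every element of `L(j, j_N)` is `(Σ_{i<n} r_i(j) j_N^i) / s(j)` with `n = deg_Y Φ_N`. -/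
theorem rpi_exists_expr (x : LaurentSeries L)
    (hx : x ∈ IntermediateField.adjoin L {jqModC L, qExpand L N (jqModC L)}) :
    ∃ (s : L[X]) (r : Fin (vx_Phi N ℓ hℓN).natDegree → L[X]), s ≠ 0 ∧
      aeval (jqModC L) s * x =
        ∑ i, aeval (jqModC L) (r i) * qExpand L N (jqModC L) ^ (i : ℕ) := by
  classical
  set j := jqModC L with hj
  set jN := qExpand L N (jqModC L) with hjN
  set n := (vx_Phi N ℓ hℓN).natDegree with hn
  have hint : IsIntegral ↥(L⟮j⟯) jN := vx_isIntegral N ℓ hℓN ρ
  have h1 : x ∈ (L⟮j⟯)⟮jN⟯ := by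
    have := adjoin_simple_adjoin_simple L j jN
    rw [← this] at hx
    exact hx
  have h2 : x ∈ Algebra.adjoin ↥(L⟮j⟯) {jN} := by
    rw [← adjoin_simple_toSubalgebra_of_isAlgebraic hint.isAlgebraic]
    exact h1
  rw [Algebra.adjoin_singleton_eq_range_aeval] at h2
  obtain ⟨p, rfl⟩ := h2
  set Φ := vx_PhiK N ℓ hℓN ρ with hΦ
  have hΦm : Φ.Monic := vx_PhiK_monic N ℓ hℓN ρ
  have hΦ0 : aeval jN Φ = 0 := vx_PhiK_aeval N ℓ hℓN ρ
  have hΦ1 : Φ ≠ 1 := by
    intro h
    rw [h, map_one] at hΦ0
    exact one_ne_zero hΦ0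
  have hdeg : (p %ₘ Φ).natDegree < n := by
    have := natDegree_modByMonic_lt p hΦm hΦ1
    rwa [hΦ, vx_PhiK_natDegree] at this
  have hp : aeval jN p = ∑ i : Fin n, (((p %ₘ Φ).coeff i : ↥(L⟮j⟯)) : LaurentSeries L) * jN ^ (i : ℕ) := by
    rw [← aeval_modByMonic_eq_self_of_root hΦ0 (p := p), aeval_eq_sum_range' hdeg,
      ← Fin.sum_univ_eq_sum_range (fun i => (p %ₘ Φ).coeff i • jN ^ i) n]
    refine Finset.sum_congr rfl fun i _ => ?_
    rw [Algebra.smul_def]
    rfl
  obtain ⟨s, r, hs, hr⟩ := vx_exists_common_denom j vx_transcendental_jq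
    (fun i : Fin n => (p %ₘ Φ).coeff i)
  refine ⟨s, r, hs, ?_⟩
  change aeval j s * aeval jN p = _
  rw [hp, Finset.mul_sum]
  refine Finset.sum_congr rfl fun i _ => ?_
  rw [← hr i, mul_assoc]

end Expr

section Content

variable {K : Type*} [Field K] (A : ValuationSubring K)

/-- Gauss content in a valuation ring: a finite family of polynomials, not all zero, can be scaled
into `A[X]` so that one coefficient becomes `1`. -/
theorem rpi_exists_scale {ι : Type*} [Fintype ι] (p : ι → K[X]) (hp : p ≠ 0) :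
    ∃ (α : K) (P : ι → Polynomial ↥A), α ≠ 0 ∧ (∀ i, (P i).map A.subtype = C α * p i) ∧
      ∃ i m, (P i).coeff m = 1 := by
  classical
  set S : Finset (Σ _ : ι, ℕ) := (Finset.univ : Finset ι).sigma (fun i => (p i).support) with hS
  have hSne : S.Nonempty := by
    obtain ⟨i, hi⟩ : ∃ i, p i ≠ 0 := by
      by_contra h
      push Not at h
      exact hp (funext h)
    obtain ⟨m, hm⟩ := (Polynomial.support_nonempty.mpr hi)
    exact ⟨⟨i, m⟩, Finset.mem_sigma.mpr ⟨Finset.mem_univ _, hm⟩⟩
  obtain ⟨x₀, hx₀, hmax⟩ := Finset.exists_max_image S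
    (fun x => A.valuation ((p x.1).coeff x.2)) hSne
  set c := (p x₀.1).coeff x₀.2 with hc
  have hc0 : c ≠ 0 := by
    have := (Finset.mem_sigma.mp hx₀).2
    exact Polynomial.mem_support_iff.mp this
  have hmem : ∀ i m, c⁻¹ * (p i).coeff m ∈ A := by
    intro i m
    by_cases h0 : (p i).coeff m = 0
    · rw [h0, mul_zero]; exact A.zero_mem
    have hin : (⟨i, m⟩ : Σ _ : ι, ℕ) ∈ S :=
      Finset.mem_sigma.mpr ⟨Finset.mem_univ _, Polynomial.mem_support_iff.mpr h0⟩
    have hle := hmax ⟨i, m⟩ hin
    rw [← A.valuation_le_one_iff, map_mul, map_inv₀]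
    have hvc : A.valuation c ≠ 0 := (Valuation.ne_zero_iff _).mpr hc0
    rw [inv_mul_le_iff₀ (lt_of_le_of_ne zero_le hvc.symm), mul_one]
    exact hle
  have hlift : ∀ i, ∃ P : Polynomial ↥A, P.map A.subtype = C c⁻¹ * p i := by
    intro i
    have : C c⁻¹ * p i ∈ Polynomial.lifts A.subtype := by
      rw [Polynomial.lifts_iff_coeff_lifts]
      intro m
      rw [coeff_C_mul]
      exact ⟨⟨_, hmem i m⟩, rfl⟩
    exact (Polynomial.mem_lifts _).mp this
  choose P hP using hlift
  refine ⟨c⁻¹, P, inv_ne_zero hc0, hP, x₀.1, x₀.2, ?_⟩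
  apply Subtype.ext
  have := congrArg (fun q => q.coeff x₀.2) (hP x₀.1)
  simp only [coeff_map, coeff_C_mul] at this
  rw [ValuationSubring.subtype_apply] at this
  rw [this, ← hc, inv_mul_cancel₀ hc0]
  rfl

end Content

section Lift

variable {R S : Type*} [CommRing R] [CommRing S] (f : R →+* S) (N : ℕ) [NeZero N]

/-- the Laurent series `Σ_i P_i(j) j_N^i` over a commutative ring -/
def rpi_series {n : ℕ} (P : Fin n → R[X]) : LaurentSeries R :=
  ∑ i, (P i).eval₂ (HahnSeries.C : R →+* LaurentSeries R) (jqModC R) *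
    qExpand R N (jqModC R) ^ (i : ℕ)

theorem rpi_coeffMap_eval₂ (p : R[X]) (x : LaurentSeries R) :
    coeffMap f (p.eval₂ (HahnSeries.C : R →+* LaurentSeries R) x) =
      (p.map f).eval₂ (HahnSeries.C : S →+* LaurentSeries S) (coeffMap f x) := by
  rw [Polynomial.hom_eval₂, Polynomial.eval₂_map]
  congr 1
  ext r : 1
  simp only [RingHom.comp_apply]
  rw [HahnSeries.C_apply, coeffMap_single, HahnSeries.C_apply]

theorem rpi_coeffMap_series {n : ℕ} (P : Fin n → R[X]) :
    coeffMap f (rpi_series N P) = rpi_series N (fun i => (P i).map f) := by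
  rw [rpi_series, rpi_series, map_sum]
  refine Finset.sum_congr rfl fun i _ => ?_
  rw [map_mul, map_pow, rpi_coeffMap_eval₂, coeffMap_qExpand, coeffMap_jqModC]

end Lift

section Field

variable {k : Type*} [Field k] (N : ℕ) [NeZero N]

theorem rpi_eval₂_eq_aeval (p : k[X]) (x : LaurentSeries k) :
    p.eval₂ (HahnSeries.C : k →+* LaurentSeries k) x = aeval x p := by
  rw [aeval_def]
  congr 1
  ext r : 1
  rw [HahnSeries.C_apply, algebraMap_laurentSeries_eq_single]

theorem rpi_series_eq {n : ℕ} (P : Fin n → k[X]) :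
    rpi_series N P = ∑ i, aeval (jqModC k) (P i) * qExpand k N (jqModC k) ^ (i : ℕ) := by
  rw [rpi_series]
  refine Finset.sum_congr rfl fun i _ => ?_
  rw [rpi_eval₂_eq_aeval]

theorem rpi_aeval_mem_full (p : k[X]) : aeval (jqModC k) p ∈ modularFunctionFieldFullC k N := by
  have h := Polynomial.aeval_algebraMap_apply (LaurentSeries k) (jcr_j (k := k) N) p
  have e : algebraMap ↥(modularFunctionFieldFullC k N) (LaurentSeries k) (jcr_j (k := k) N)
      = jqModC k := rfl
  rw [e] at h
  rw [h]
  exact (aeval (jcr_j (k := k) N) p).2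

theorem rpi_series_mem_full {n : ℕ} (P : Fin n → k[X]) :
    rpi_series N P ∈ modularFunctionFieldFullC k N := by
  rw [rpi_series_eq]
  refine sum_mem fun i _ => mul_mem (rpi_aeval_mem_full N _) (pow_mem ?_ _)
  exact jqModCd_mem_full k N dvd_rfl

end Field

section Main

variable (N : ℕ) [NeZero N] {ℓ : ℕ} [Fact ℓ.Prime] (hℓN : ¬ ℓ ∣ N)
  (A : ValuationSubring (AlgebraicClosure ℚ)) (hA : A.LiesOverPrime ℓ)

include hℓN hA in
/-- **the `hgen` input of node E at the instance**: every nonzero function of `Q̄(X₀(N))` is a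
constant times a quotient of `q`-integral functions whose reductions are nonzero elements of the
reduced function field. -/
theorem rpi_hgen : ∀ f : ↥(modularFunctionFieldBar N), f ≠ 0 →
    ∃ (c : AlgebraicClosure ℚ) (y z : LaurentSeries A)
      (hy : coeffMap A.subtype y ∈ modularFunctionFieldBar N)
      (hz : coeffMap A.subtype z ∈ modularFunctionFieldBar N),
      c ≠ 0 ∧
        coeffMap (IsLocalRing.residue A) y ∈
          modularFunctionFieldFullC (IsLocalRing.ResidueField A) N ∧
        coeffMap (IsLocalRing.residue A) y ≠ 0 ∧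
        coeffMap (IsLocalRing.residue A) z ∈
          modularFunctionFieldFullC (IsLocalRing.ResidueField A) N ∧
        coeffMap (IsLocalRing.residue A) z ≠ 0 ∧
        f * (⟨coeffMap A.subtype z, hz⟩ : ↥(modularFunctionFieldBar N)) =
          algebraMap (AlgebraicClosure ℚ) _ c * ⟨coeffMap A.subtype y, hy⟩ := by
  classical
  intro f hf
  set Kb := AlgebraicClosure ℚ with hKb
  set kA := IsLocalRing.ResidueField A with hkA
  have hchar : CharP kA ℓ := jcr_charP A hA
  set ρ₀ : ↥(GaloisRep.ratLocalizedAt ℓ) →+* Kb :=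
    (algebraMap ℚ Kb).comp (algebraMap ↥(GaloisRep.ratLocalizedAt ℓ) ℚ) with hρ₀
  set n := (vx_Phi N ℓ hℓN).natDegree with hn
  -- the expression of `f`
  have hfmem : (f : LaurentSeries Kb) ∈
      IntermediateField.adjoin Kb {jqModC Kb, qExpand Kb N (jqModC Kb)} :=
    rpi_le_adjoin Kb N f.2
  obtain ⟨s, r, hs, hexpr⟩ := rpi_exists_expr N ℓ hℓN ρ₀ (f : LaurentSeries Kb) hfmem
  have hf0 : (f : LaurentSeries Kb) ≠ 0 := fun h => hf (Subtype.ext h)
  have hs0 : aeval (jqModC Kb) s ≠ 0 := fun h0 =>
    hs ((transcendental_iff.mp vx_transcendental_jq) s h0)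
  have hr0 : r ≠ 0 := by
    intro h
    rw [h] at hexpr
    simp only [Pi.zero_apply, map_zero, zero_mul, Finset.sum_const_zero] at hexpr
    exact mul_ne_zero hs0 hf0 hexpr
  -- Gauss content
  obtain ⟨α, P, hα, hP, i₀, m₀, hPu⟩ := rpi_exists_scale A r hr0
  obtain ⟨β, Q, hβ, hQ, i₁, m₁, hQu⟩ := rpi_exists_scale A (fun _ : Fin 1 => s)
    (fun h => hs (congrFun h 0))
  have hi₁ : i₁ = 0 := Subsingleton.elim _ _
  subst hi₁
  set y : LaurentSeries A := rpi_series N P with hy
  set z : LaurentSeries A :=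
    (Q 0).eval₂ (HahnSeries.C : A →+* LaurentSeries A) (jqModC A) with hz
  -- characteristic zero side
  have hyι : coeffMap A.subtype y = HahnSeries.C α * (aeval (jqModC Kb) s * (f : LaurentSeries Kb)) := by
    rw [hy, rpi_coeffMap_series, rpi_series_eq, hexpr, Finset.mul_sum]
    refine Finset.sum_congr rfl fun i _ => ?_
    rw [hP i, map_mul, aeval_C, ← mul_assoc, algebraMap_laurentSeries_eq_single,
      HahnSeries.C_apply]
  have hzι : coeffMap A.subtype z = HahnSeries.C β * aeval (jqModC Kb) s := by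
    rw [hz, rpi_coeffMap_eval₂, coeffMap_jqModC, rpi_eval₂_eq_aeval, hQ 0, map_mul, aeval_C,
      algebraMap_laurentSeries_eq_single, HahnSeries.C_apply]
  have hCmem : ∀ c : Kb, (HahnSeries.C c : LaurentSeries Kb) ∈ modularFunctionFieldBar N := by
    intro c
    rw [HahnSeries.C_apply, ← algebraMap_laurentSeries_eq_single]
    exact IntermediateField.algebraMap_mem _ _
  have hjmem : jqModC Kb ∈ modularFunctionFieldBar N := by
    have := coeffEmb_mem_laurentBaseChange Kb (jqd_mem_full N (one_dvd N))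
    rwa [rpi_coeffEmb_jqd, qExpand_one_apply] at this
  have hsmem : aeval (jqModC Kb) s ∈ modularFunctionFieldBar N := by
    have h := Polynomial.aeval_algebraMap_apply (LaurentSeries Kb)
      (⟨jqModC Kb, hjmem⟩ : ↥(modularFunctionFieldBar N)) s
    have e : algebraMap ↥(modularFunctionFieldBar N) (LaurentSeries Kb)
        (⟨jqModC Kb, hjmem⟩ : ↥(modularFunctionFieldBar N)) = jqModC Kb := rfl
    rw [e] at h
    rw [h]
    exact (aeval (⟨jqModC Kb, hjmem⟩ : ↥(modularFunctionFieldBar N)) s).2
  have hymem : coeffMap A.subtype y ∈ modularFunctionFieldBar N := by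
    rw [hyι]
    exact mul_mem (hCmem α) (mul_mem hsmem f.2)
  have hzmem : coeffMap A.subtype z ∈ modularFunctionFieldBar N := by
    rw [hzι]
    exact mul_mem (hCmem β) hsmem
  -- characteristic `ℓ` side
  have hyred : coeffMap (IsLocalRing.residue A) y =
      rpi_series N (fun i => (P i).map (IsLocalRing.residue A)) := by
    rw [hy, rpi_coeffMap_series]
  have hzred : coeffMap (IsLocalRing.residue A) z =
      aeval (jqModC kA) ((Q 0).map (IsLocalRing.residue A)) := by
    rw [hz, rpi_coeffMap_eval₂, coeffMap_jqModC, rpi_eval₂_eq_aeval]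
  have hind := vx_polyIndep N ℓ hℓN kA
  have hyne : coeffMap (IsLocalRing.residue A) y ≠ 0 := by
    rw [hyred, rpi_series_eq]
    intro h0
    have h1 := hind _ h0
    have h2 := congrArg (fun q : kA[X] => q.coeff m₀) (congrFun h1 i₀)
    simp only [coeff_map, Pi.zero_apply, coeff_zero] at h2
    rw [hPu, map_one] at h2
    exact one_ne_zero h2
  have hzne : coeffMap (IsLocalRing.residue A) z ≠ 0 := by
    rw [hzred]
    intro h0
    have h1 := (transcendental_iff.mp (vx_transcendental_jq (k := kA))) _ h0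
    have h2 := congrArg (fun q : kA[X] => q.coeff m₁) h1
    simp only [coeff_map, coeff_zero] at h2
    rw [hQu, map_one] at h2
    exact one_ne_zero h2
  refine ⟨β / α, y, z, hymem, hzmem, div_ne_zero hβ hα, ?_, hyne, ?_, hzne, ?_⟩
  · rw [hyred]
    exact rpi_series_mem_full N _
  · rw [hzred]
    exact rpi_aeval_mem_full N _
  · apply Subtype.ext
    change (f : LaurentSeries Kb) * coeffMap A.subtype z =
      algebraMap Kb (LaurentSeries Kb) (β / α) * coeffMap A.subtype y
    rw [hyι, hzι, algebraMap_laurentSeries_eq_single, ← HahnSeries.C_apply]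
    have e : (HahnSeries.C (β / α) : LaurentSeries Kb) * HahnSeries.C α = HahnSeries.C β := by
      rw [← map_mul, div_mul_cancel₀ β hα]
    rw [← mul_assoc (HahnSeries.C (β / α)), e]
    ring

end Main

section Cor

variable (N : ℕ) [NeZero N] {ℓ : ℕ} [Fact ℓ.Prime] (hℓN : ¬ ℓ ∣ N)
  (A : ValuationSubring (AlgebraicClosure ℚ)) (hA : A.LiesOverPrime ℓ)

include hℓN hA in
/-- `PrincipalGeneratedByIntegral` at the instance, modulo the function-field facts `hF`. -/
theorem rpi_principalGeneratedByIntegral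
    (hF : rp_FunField (AlgebraicClosure ℚ) ↥(modularFunctionFieldBar N)) :
    PrincipalGeneratedByIntegral A (IsLocalRing.residue A) N :=
  rpg_principalGeneratedByIntegral hF (rpi_hgen N hℓN A hA)

end Cor

end Fermat.Agent.JT3
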