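/-
JT3 / node E (place map), leaf `Center` (helper23): the centre of a place in a chart.

For a chart `C` over the valuation ring `A` and a place `P` of `FF / Kb` lying in the chart:
* `rpc_value_mem_nonunits`: a chart function with zero reduction has its value in `m_A`;
* `rpc_exists_center`     : `P` has a centre `Q` (a place of the reduced function field);
* `rpc_center_unique`     : the centre is unique;
* `rpc_exists_gauss_quot` : every function with nonzero reduction is a quotient of two chart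
  functions with nonzero reduction.
Prefix `rpc_`.
-/
import Fermat.Agent.JT3.PlaceMap.Value

set_option autoImplicit false
set_option linter.unusedSectionVars false
set_option linter.style.haveILetI false

namespace Fermat.Agent.JT3

open AlgebraicCurve IsLocalRing

variable {Kb : Type*} [Field Kb] {A : ValuationSubring Kb}
variable {FF : Type*} [Field FF] [Algebra Kb FF]
variable {k : Type*} [Field k] {Ft : Type*} [Field Ft] [Algebra k Ft]

/-! ### The residue map kills exactly the maximal ideal -/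

theorem rpc_res_eq_zero_iff (C : rp_Chart A FF k Ft) (a : A) :
    C.res a = 0 ↔ (a : Kb) ∈ A.nonunits := by
  have hmax : (RingHom.ker C.res).IsMaximal := RingHom.ker_isMaximal_of_surjective C.res C.res_surj
  have hker : RingHom.ker C.res = maximalIdeal A := eq_maximalIdeal hmax
  rw [ValuationSubring.coe_mem_nonunits_iff, ← hker, RingHom.mem_ker]

/-- the reduction of the uniformiser of a level is zero -/
theorem rpc_red_pi (C : rp_Chart A FF k Ft) (L : rp_Level C) :
    C.red ⟨algebraMap Kb FF L.ϖ, C.const_mem ⟨L.ϖ, L.O_le _ L.ϖ_mem⟩⟩ = 0 := by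
  rw [C.red_const ⟨L.ϖ, L.O_le _ L.ϖ_mem⟩,
    (rpc_res_eq_zero_iff C ⟨L.ϖ, L.O_le _ L.ϖ_mem⟩).2 L.ϖ_nonunit, map_zero]

/-! ### (1) functions with zero reduction have values in the maximal ideal -/

theorem rpc_value_mem_nonunits (C : rp_Chart A FF k Ft) (hL : C.HasLevels) {P : Place Kb FF}
    (hP : C.InChart P) (d : C.B) (hd : C.red d = 0) (c : A)
    (hc : rp_HasValue P (d : FF) (c : Kb)) : (c : Kb) ∈ A.nonunits := by
  classical
  obtain ⟨L, hdL, -⟩ := hL.refine {(d : FF)} ∅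
    (fun b hb => by rw [Finset.mem_singleton.1 hb]; exact d.2) (fun P hP => by simp at hP)
  have hdL' : (d : FF) ∈ L.Bl := hdL _ (Finset.mem_singleton_self _)
  obtain ⟨d', hd'⟩ := L.red_ker ⟨(d : FF), hdL'⟩ hd
  obtain ⟨c', hc'⟩ := hP (d' : FF) (L.Bl_le d'.2)
  have h1 : rp_HasValue P (d : FF) (L.ϖ * (c' : Kb)) := by
    have h2 : (d : FF) = algebraMap Kb FF L.ϖ * (d' : FF) := hd'
    rw [h2]
    exact (rp_hasValue_const L.ϖ).mul hc'
  rw [hc.unique h1]
  exact rp_mul_mem_nonunits A L.ϖ_nonunit c'.2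

/-! ### The value homomorphism of a place in the chart -/

section value

variable (C : rp_Chart A FF k Ft) {P : Place Kb FF} (hP : C.InChart P)

/-- the value at `P` of a chart function, an element of `A` -/
noncomputable def rpc_val (b : C.B) : A := (hP (b : FF) b.2).choose

theorem rpc_val_spec (b : C.B) : rp_HasValue P (b : FF) (rpc_val C hP b : Kb) :=
  (hP (b : FF) b.2).choose_spec

theorem rpc_val_eq {b : C.B} {c : A} (h : rp_HasValue P (b : FF) (c : Kb)) :
    rpc_val C hP b = c :=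
  Subtype.ext ((rpc_val_spec C hP b).unique h)

/-- the value map as a ring homomorphism -/
noncomputable def rpc_valHom : C.B →+* A where
  toFun := rpc_val C hP
  map_one' := rpc_val_eq C hP (by
    have := rp_hasValue_const (P := P) (1 : Kb)
    rwa [map_one] at this)
  map_mul' x y := rpc_val_eq C hP (by
    exact (rpc_val_spec C hP x).mul (rpc_val_spec C hP y))
  map_zero' := rpc_val_eq C hP (by
    have := rp_hasValue_const (P := P) (0 : Kb)
    rwa [map_zero] at this)
  map_add' x y := rpc_val_eq C hP (by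
    exact (rpc_val_spec C hP x).add (rpc_val_spec C hP y))

theorem rpc_valHom_apply (b : C.B) : rpc_valHom C hP b = rpc_val C hP b := rfl

theorem rpc_valHom_const (a : A) :
    rpc_valHom C hP ⟨algebraMap Kb FF (a : Kb), C.const_mem a⟩ = a :=
  rpc_val_eq C hP (rp_hasValue_const (a : Kb))

theorem rpc_resVal_surjective : Function.Surjective (C.res.comp (rpc_valHom C hP)) := by
  intro x
  obtain ⟨a, rfl⟩ := C.res_surj x
  exact ⟨⟨algebraMap Kb FF (a : Kb), C.const_mem a⟩, by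
    rw [RingHom.comp_apply, rpc_valHom_const]⟩

theorem rpc_mem_ker_iff (b : C.B) :
    b ∈ RingHom.ker (C.res.comp (rpc_valHom C hP)) ↔ (rpc_val C hP b : Kb) ∈ A.nonunits := by
  rw [RingHom.mem_ker, RingHom.comp_apply, rpc_res_eq_zero_iff]
  rfl

end value

/-! ### (2) existence of the centre -/

theorem rpc_exists_center (C : rp_Chart A FF k Ft) (hL : C.HasLevels) (hR : C.RedRegular)
    {P : Place Kb FF} (hP : C.InChart P) : ∃ Q : Place k Ft, C.FinRed Q ∧ C.CenterAt P Q := by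
  set I : Ideal C.B := RingHom.ker (C.res.comp (rpc_valHom C hP)) with hI
  have hmax : I.IsMaximal :=
    RingHom.ker_isMaximal_of_surjective _ (rpc_resVal_surjective C hP)
  have hle : RingHom.ker C.red ≤ I := by
    intro d hd
    rw [hI, rpc_mem_ker_iff]
    exact rpc_value_mem_nonunits C hL hP d ((RingHom.mem_ker).1 hd) _ (rpc_val_spec C hP d)
  obtain ⟨Q, hQ, hQI⟩ := hR.exists_place I hmax hle
  refine ⟨Q, hQ, ?_⟩
  intro b c hbc
  have hc : rpc_val C hP b = c := rpc_val_eq C hP hbc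
  rw [← hQI b, hI, rpc_mem_ker_iff, hc]

/-! ### (3) uniqueness of the centre -/

theorem rpc_le_of_centerAt (C : rp_Chart A FF k Ft) (hR : C.RedRegular) {P : Place Kb FF}
    (hP : C.InChart P) {Q Q' : Place k Ft} (hQ : C.FinRed Q) (hQ' : C.FinRed Q')
    (h : C.CenterAt P Q) (h' : C.CenterAt P Q') :
    Q.toValuationSubring ≤ Q'.toValuationSubring := by
  intro f hf
  obtain ⟨b, c, hc, hfc⟩ := hR.local_eq Q hQ f hf
  have hc' : C.red c ∉ Q'.toValuationSubring.nonunits := by
    intro hmem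
    apply hc
    have hv := rpc_val_spec C hP c
    exact (h c _ hv).1 ((h' c _ hv).2 hmem)
  have hc0 : C.red c ≠ 0 := by
    intro h0
    apply hc
    rw [h0]
    exact Q.toValuationSubring.nonunits.zero_mem
  have hinv : (C.red c)⁻¹ ∈ Q'.toValuationSubring := rp_inv_mem_of_notMem_nonunits _ hc'
  have hf' : f = C.red b * (C.red c)⁻¹ := by
    rw [← hfc, mul_assoc, mul_inv_cancel₀ hc0, mul_one]
  rw [hf']
  exact Q'.toValuationSubring.mul_mem _ _ (hQ' b) hinv

theorem rpc_center_unique (C : rp_Chart A FF k Ft) (hR : C.RedRegular) {P : Place Kb FF}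
    (hP : C.InChart P) {Q Q' : Place k Ft} (hQ : C.FinRed Q) (hQ' : C.FinRed Q')
    (h : C.CenterAt P Q) (h' : C.CenterAt P Q') : Q = Q' :=
  Place.ext (le_antisymm (rpc_le_of_centerAt C hR hP hQ hQ' h h')
    (rpc_le_of_centerAt C hR hP hQ' hQ h' h))

/-! ### (4) Gauss quotients -/

section gauss

variable (C : rp_Chart A FF k Ft) (L : rp_Level C)

/-- the uniformiser as an element of the level ring -/
def rpc_piBl : L.Bl := ⟨algebraMap Kb FF L.ϖ, L.const_mem _ L.ϖ_mem⟩

theorem rpc_piBl_ne_zero : rpc_piBl C L ≠ 0 := by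
  intro h
  have h1 : algebraMap Kb FF L.ϖ = 0 := congrArg Subtype.val h
  rw [map_eq_zero] at h1
  exact L.ϖ_ne h1

theorem rpc_red_piBl : C.red ⟨(rpc_piBl C L : FF), L.Bl_le (rpc_piBl C L).2⟩ = 0 :=
  rpc_red_pi C L

/-- the restriction of the reduction to the level ring -/
def rpc_redBl : L.Bl →+* Ft := C.red.comp (Subring.inclusion L.Bl_le)

theorem rpc_redBl_apply (b : L.Bl) : rpc_redBl C L b = C.red ⟨(b : FF), L.Bl_le b.2⟩ := rfl

theorem rpc_redBl_piBl : rpc_redBl C L (rpc_piBl C L) = 0 := rpc_red_piBl C L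

theorem rpc_piBl_not_isUnit : ¬ IsUnit (rpc_piBl C L) := by
  intro hu
  have h1 := hu.map (rpc_redBl C L)
  rw [rpc_redBl_piBl] at h1
  exact not_isUnit_zero h1

theorem rpc_redBl_ne_zero_of_not_dvd {b : L.Bl} (hb : ¬ rpc_piBl C L ∣ b) :
    rpc_redBl C L b ≠ 0 := by
  intro h0
  apply hb
  obtain ⟨b', hb'⟩ := L.red_ker b h0
  exact ⟨b', Subtype.ext hb'⟩

end gauss

theorem rpc_exists_gauss_quot (C : rp_Chart A FF k Ft) (hL : C.HasLevels) (Int : Subring FF)
    (red : Int →+* Ft) (h : C.B ≤ Int) (hred : ∀ b : C.B, C.red b = red ⟨b, h b.2⟩) (y : Int)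
    (hy : red y ≠ 0) :
    ∃ a b : C.B, C.red a ≠ 0 ∧ C.red b ≠ 0 ∧ (y : FF) * b = a := by
  classical
  obtain ⟨b, c, hb, hc, hc0, hyb⟩ := C.frac (y : FF)
  obtain ⟨L, hSL, -⟩ := hL.refine {b, c} ∅
    (fun z hz => by
      rcases Finset.mem_insert.1 hz with rfl | hz
      · exact hb
      · rw [Finset.mem_singleton.1 hz]; exact hc)
    (fun P hP => by simp at hP)
  have hbL : b ∈ L.Bl := hSL b (Finset.mem_insert_self _ _)
  have hcL : c ∈ L.Bl := hSL c (Finset.mem_insert_of_mem (Finset.mem_singleton_self _))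
  haveI : IsNoetherianRing L.Bl := L.noeth
  haveI : WfDvdMonoid L.Bl := IsNoetherianRing.wfDvdMonoid
  have hy0 : (y : FF) ≠ 0 := by
    intro h0
    apply hy
    have : y = 0 := Subtype.ext h0
    rw [this, map_zero]
  have hb0 : b ≠ 0 := by
    rintro rfl
    rw [zero_div] at hyb
    exact hy0 hyb
  have hbL0 : (⟨b, hbL⟩ : L.Bl) ≠ 0 := fun h0 => hb0 (congrArg Subtype.val h0)
  have hcL0 : (⟨c, hcL⟩ : L.Bl) ≠ 0 := fun h0 => hc0 (congrArg Subtype.val h0)
  obtain ⟨m, b₀, hb₀, hbm⟩ :=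
    WfDvdMonoid.max_power_factor' hbL0 (rpc_piBl_not_isUnit C L)
  obtain ⟨n, c₀, hc₀, hcn⟩ :=
    WfDvdMonoid.max_power_factor' hcL0 (rpc_piBl_not_isUnit C L)
  have hrb := rpc_redBl_ne_zero_of_not_dvd C L hb₀
  have hrc := rpc_redBl_ne_zero_of_not_dvd C L hc₀
  set π : FF := algebraMap Kb FF L.ϖ with hπ
  have hπ0 : π ≠ 0 := by
    rw [hπ, Ne, map_eq_zero]; exact L.ϖ_ne
  have hbm' : b = π ^ m * (b₀ : FF) := by
    have := congrArg Subtype.val hbm
    simpa [rpc_piBl] using this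
  have hcn' : c = π ^ n * (c₀ : FF) := by
    have := congrArg Subtype.val hcn
    simpa [rpc_piBl] using this
  -- the basic relation `y * (π ^ n * c₀) = π ^ m * b₀`
  have hrel : (y : FF) * (π ^ n * (c₀ : FF)) = π ^ m * (b₀ : FF) := by
    rw [← hcn', ← hbm', hyb, div_mul_cancel₀ _ hc0]
  -- chart elements
  have hb₀B : (b₀ : FF) ∈ C.B := L.Bl_le b₀.2
  have hc₀B : (c₀ : FF) ∈ C.B := L.Bl_le c₀.2
  have hπB : π ∈ C.B := C.const_mem ⟨L.ϖ, L.O_le _ L.ϖ_mem⟩
  have hredπ : red ⟨π, h hπB⟩ = 0 := by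
    rw [← hred ⟨π, hπB⟩]
    exact rpc_red_pi C L
  have hredb : red ⟨(b₀ : FF), h hb₀B⟩ ≠ 0 := by
    rw [← hred ⟨(b₀ : FF), hb₀B⟩]; exact hrb
  have hredc : red ⟨(c₀ : FF), h hc₀B⟩ ≠ 0 := by
    rw [← hred ⟨(c₀ : FF), hc₀B⟩]; exact hrc
  rcases lt_trichotomy m n with hmn | hmn | hmn
  · -- `m < n`: `y * π ^ (n - m) * c₀ = b₀`, reduction gives `0 = red b₀`
    exfalso
    have h1 : (y : FF) * (π ^ (n - m) * (c₀ : FF)) = (b₀ : FF) := by
      have h2 : π ^ n = π ^ m * π ^ (n - m) := by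
        rw [← pow_add, Nat.add_sub_cancel' hmn.le]
      rw [h2] at hrel
      have h3 : π ^ m * ((y : FF) * (π ^ (n - m) * (c₀ : FF))) = π ^ m * (b₀ : FF) := by
        rw [← hrel]; ring
      exact mul_left_cancel₀ (pow_ne_zero m hπ0) h3
    have h4 : y * (⟨π, h hπB⟩ ^ (n - m) * ⟨(c₀ : FF), h hc₀B⟩) = ⟨(b₀ : FF), h hb₀B⟩ :=
      Subtype.ext h1
    have h5 := congrArg red h4
    rw [map_mul, map_mul, map_pow, hredπ, zero_pow (Nat.sub_ne_zero_of_lt hmn), zero_mul,
      mul_zero] at h5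
    exact hredb h5.symm
  · -- `m = n`
    subst hmn
    have h1 : (y : FF) * (c₀ : FF) = (b₀ : FF) := by
      have h3 : π ^ m * ((y : FF) * (c₀ : FF)) = π ^ m * (b₀ : FF) := by
        rw [← hrel]; ring
      exact mul_left_cancel₀ (pow_ne_zero m hπ0) h3
    exact ⟨⟨(b₀ : FF), hb₀B⟩, ⟨(c₀ : FF), hc₀B⟩, hrb, hrc, h1⟩
  · -- `n < m`: `y * c₀ = π ^ (m - n) * b₀`, reduction gives `red y * red c₀ = 0`
    exfalso
    have h1 : (y : FF) * (c₀ : FF) = π ^ (m - n) * (b₀ : FF) := by
      have h2 : π ^ m = π ^ n * π ^ (m - n) := by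
        rw [← pow_add, Nat.add_sub_cancel' hmn.le]
      rw [h2] at hrel
      have h3 : π ^ n * ((y : FF) * (c₀ : FF)) = π ^ n * (π ^ (m - n) * (b₀ : FF)) := by
        linear_combination hrel
      exact mul_left_cancel₀ (pow_ne_zero n hπ0) h3
    have h4 : y * ⟨(c₀ : FF), h hc₀B⟩ = ⟨π, h hπB⟩ ^ (m - n) * ⟨(b₀ : FF), h hb₀B⟩ :=
      Subtype.ext h1
    have h5 := congrArg red h4
    rw [map_mul, map_mul, map_pow, hredπ, zero_pow (Nat.sub_ne_zero_of_lt hmn), zero_mul] at h5
    exact (mul_ne_zero hy hredc) h5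

end Fermat.Agent.JT3
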