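/-
JT3 / node E (place map), producer side: discrete valuation rings `A ∩ K'` inside a valuation ring
`A` of a field `Kb`, for finite extensions `K'` of the fraction field of a discrete valuation ring
`O ⊆ A`.
-/
import Fermat.Agent.JT3.PlaceMap.Local
import Fermat.Agent.JT3.Descent.ConstDVR

set_option autoImplicit false

namespace Fermat.Agent.JT3

open IsLocalRing

variable {Kb : Type*} [Field Kb]

/-- `O ⊆ A` is a discrete valuation ring with uniformiser `ϖ`, a non-unit of `A`. -/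
structure rpu_DVRData (A : ValuationSubring Kb) (O : Subring Kb) (ϖ : Kb) : Prop where
  O_le : ∀ o ∈ O, o ∈ A
  ϖ_mem : ϖ ∈ O
  ϖ_ne : ϖ ≠ 0
  ϖ_nonunit : ϖ ∈ A.nonunits
  O_str : ∀ o ∈ O, o ≠ 0 → ∃ (n : ℕ) (u : Kb), u ∈ O ∧ u⁻¹ ∈ O ∧ o = ϖ ^ n * u

namespace rpu_DVRData

variable {A : ValuationSubring Kb} {O : Subring Kb} {ϖ : Kb} (h : rpu_DVRData A O ϖ)

include h

theorem inv_notMem : ϖ⁻¹ ∉ A := by
  intro hi
  have := rp_mul_mem_nonunits A h.ϖ_nonunit hi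
  rw [mul_inv_cancel₀ h.ϖ_ne] at this
  exact rp_one_notMem_nonunits A this

theorem pow_mem_nonunits {n : ℕ} (hn : 0 < n) : ϖ ^ n ∈ A.nonunits := by
  obtain ⟨m, rfl⟩ := Nat.exists_eq_succ_of_ne_zero hn.ne'
  rw [pow_succ, mul_comm]
  exact rp_mul_mem_nonunits A h.ϖ_nonunit (A.pow_mem (h.O_le _ h.ϖ_mem) _)

/-- a quotient of elements of `O` lying in `A` lies in `O` -/
theorem mem_of_div_mem {o₁ o₂ : Kb} (h1 : o₁ ∈ O) (h2 : o₂ ∈ O) (h20 : o₂ ≠ 0)
    (hA : o₁ / o₂ ∈ A) : o₁ / o₂ ∈ O := by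
  rcases eq_or_ne o₁ 0 with rfl | h10
  · rw [zero_div]; exact O.zero_mem
  obtain ⟨n₁, u₁, hu₁, hui₁, ho₁⟩ := h.O_str o₁ h1 h10
  obtain ⟨n₂, u₂, hu₂, hui₂, ho₂⟩ := h.O_str o₂ h2 h20
  have hu₂0 : u₂ ≠ 0 := by
    rintro rfl; apply h20; rw [ho₂, mul_zero]
  have hu₁0 : u₁ ≠ 0 := by
    rintro rfl; apply h10; rw [ho₁, mul_zero]
  by_cases hn : n₂ ≤ n₁
  · have : o₁ / o₂ = ϖ ^ (n₁ - n₂) * (u₁ * u₂⁻¹) := by
      rw [ho₁, ho₂]
      have : ϖ ^ n₁ = ϖ ^ (n₁ - n₂) * ϖ ^ n₂ := by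
        rw [← pow_add, Nat.sub_add_cancel hn]
      rw [this]
      have hpn : ϖ ^ n₂ ≠ 0 := pow_ne_zero _ h.ϖ_ne
      field_simp
    rw [this]
    exact O.mul_mem (O.pow_mem h.ϖ_mem _) (O.mul_mem hu₁ hui₂)
  · exfalso
    push Not at hn
    have hinv : (o₁ / o₂)⁻¹ = ϖ ^ (n₂ - n₁) * (u₂ * u₁⁻¹) := by
      rw [ho₁, ho₂]
      have : ϖ ^ n₂ = ϖ ^ (n₂ - n₁) * ϖ ^ n₁ := by
        rw [← pow_add, Nat.sub_add_cancel hn.le]
      rw [this]
      have hpn : ϖ ^ n₁ ≠ 0 := pow_ne_zero _ h.ϖ_ne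
      field_simp
    have hpos : 0 < n₂ - n₁ := Nat.sub_pos_of_lt hn
    have h3 : (o₁ / o₂)⁻¹ ∈ A.nonunits := by
      rw [hinv]
      exact rp_mul_mem_nonunits A (h.pow_mem_nonunits hpos) (h.O_le _ (O.mul_mem hu₂ hui₁))
    have h4 : (o₁ / o₂) * (o₁ / o₂)⁻¹ ∈ A.nonunits := by
      have := rp_mul_mem_nonunits A h3 hA
      rwa [mul_comm] at this
    have hne : o₁ / o₂ ≠ 0 := div_ne_zero h10 h20
    rw [mul_inv_cancel₀ hne] at h4
    exact rp_one_notMem_nonunits A h4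

/-- the trace of `A` on the fraction field of `O` is `O` -/
theorem mem_of_mem_closure {x : Kb} (hx : x ∈ Subfield.closure (O : Set Kb)) (hA : x ∈ A) :
    x ∈ O := by
  rw [Subfield.mem_closure_iff] at hx
  obtain ⟨y, hy, z, hz, rfl⟩ := hx
  rw [Subring.closure_eq] at hy hz
  rcases eq_or_ne z 0 with rfl | hz0
  · rw [div_zero]; exact O.zero_mem
  exact h.mem_of_div_mem hy hz hz0 hA

/-- a domain identified with `O` is a discrete valuation ring -/
theorem isDVR_of_image {R : Type*} [CommRing R] [IsDomain R] (ι : R →+* Kb)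
    (hι : Function.Injective ι) (himg : ∀ x : Kb, x ∈ O ↔ ∃ r : R, ι r = x) :
    IsDiscreteValuationRing R := by
  apply IsDiscreteValuationRing.ofHasUnitMulPowIrreducibleFactorization
  obtain ⟨p, hp⟩ := (himg ϖ).1 h.ϖ_mem
  have hunit : ∀ r : R, (ι r)⁻¹ ∈ O → ι r ≠ 0 → IsUnit r := by
    intro r hr hr0
    obtain ⟨r', hr'⟩ := (himg _).1 hr
    refine IsUnit.of_mul_eq_one r' ?_
    apply hι
    rw [map_mul, hr', map_one, mul_inv_cancel₀ hr0]
  have hpnu : ¬ IsUnit p := by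
    intro hu
    obtain ⟨q, hq⟩ := hu.exists_right_inv
    have h1 : ϖ * ι q = 1 := by rw [← hp, ← map_mul, hq, map_one]
    have h2 : ϖ⁻¹ = ι q := (eq_inv_of_mul_eq_one_right h1).symm ▸ rfl
    apply h.inv_notMem
    rw [h2]
    exact h.O_le _ ((himg _).2 ⟨q, rfl⟩)
  have hfac : ∀ x : R, x ≠ 0 → ∃ (n : ℕ) (w : R), IsUnit w ∧ x = p ^ n * w := by
    intro x hx
    have hx0 : ι x ≠ 0 := fun h0 => hx (hι (by rw [h0, map_zero]))
    obtain ⟨n, u, hu, hui, hxu⟩ := h.O_str (ι x) ((himg _).2 ⟨x, rfl⟩) hx0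
    obtain ⟨w, hw⟩ := (himg u).1 hu
    have hu0 : u ≠ 0 := by
      rintro rfl; apply hx0; rw [hxu, mul_zero]
    refine ⟨n, w, hunit w (by rw [hw]; exact hui) (by rw [hw]; exact hu0), ?_⟩
    apply hι
    rw [map_mul, map_pow, hp, hw, hxu]
  refine ⟨p, ⟨hpnu, ?_⟩, ?_⟩
  · intro a b hab
    have hp0 : p ≠ 0 := by
      intro h0; apply h.ϖ_ne; rw [← hp, h0, map_zero]
    have ha0 : a ≠ 0 := by
      rintro rfl; apply hp0; rw [hab, zero_mul]
    have hb0 : b ≠ 0 := by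
      rintro rfl; apply hp0; rw [hab, mul_zero]
    obtain ⟨n, wa, hwa, rfl⟩ := hfac a ha0
    obtain ⟨m, wb, hwb, rfl⟩ := hfac b hb0
    rcases Nat.eq_zero_or_pos n with rfl | hn
    · left; rw [pow_zero, one_mul]; exact hwa
    rcases Nat.eq_zero_or_pos m with rfl | hm
    · right; rw [pow_zero, one_mul]; exact hwb
    exfalso
    -- `p = p ^ (n + m) * (wa * wb)` with `n + m ≥ 2`
    obtain ⟨n', rfl⟩ : ∃ n', n = n' + 1 := ⟨n - 1, by omega⟩
    obtain ⟨m', rfl⟩ : ∃ m', m = m' + 1 := ⟨m - 1, by omega⟩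
    have h1 : p * 1 = p * (p * (p ^ n' * p ^ m' * (wa * wb))) := by
      rw [mul_one]
      conv_lhs => rw [hab]
      ring
    have h2 := mul_left_cancel₀ hp0 h1
    exact hpnu (IsUnit.of_mul_eq_one _ h2.symm)
  · intro x hx
    obtain ⟨n, w, hw, rfl⟩ := hfac x hx
    exact ⟨n, ⟨hw.unit, rfl⟩⟩

theorem isDVR : IsDiscreteValuationRing O :=
  h.isDVR_of_image O.subtype Subtype.coe_injective
    (fun x => ⟨fun hx => ⟨⟨x, hx⟩, rfl⟩, fun ⟨r, hr⟩ => hr ▸ r.2⟩)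

end rpu_DVRData

/-- **Levels are discrete valuation rings.**  If `O ⊆ A` is a discrete valuation ring over whose
fraction field `Kb` is algebraic (characteristic zero), then for every finite set `S₁` of constants
the ring `A ∩ K'`, `K' = Frac(O)(S₁)`, is a discrete valuation ring. -/
theorem rpu_exists_level_dvr [CharZero Kb] {A : ValuationSubring Kb} {O : Subring Kb} {ϖ : Kb}
    (h : rpu_DVRData A O ϖ)
    (halg : ∀ c : Kb, ∃ p : Polynomial Kb, p ≠ 0 ∧ (∀ i, p.coeff i ∈ O) ∧ p.eval c = 0)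
    (S₁ : Finset Kb) :
    ∃ (O' : Subring Kb) (ϖ' : Kb) (K' : Subfield Kb), rpu_DVRData A O' ϖ' ∧
      (∀ x, x ∈ O' ↔ x ∈ A ∧ x ∈ K') ∧ (∀ c ∈ S₁, c ∈ K') ∧ (∀ o ∈ O, o ∈ K') := by
  classical
  set K0 : Subfield Kb := Subfield.closure (O : Set Kb) with hK0
  have hOK0 : ∀ o ∈ O, o ∈ K0 := fun o ho => Subfield.subset_closure ho
  -- `Kb` is algebraic over `K0`
  have halg' : ∀ c : Kb, IsAlgebraic K0 c := by
    intro c
    obtain ⟨p, hp0, hpO, hpc⟩ := halg c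
    have hlift : p ∈ Polynomial.lifts (algebraMap K0 Kb) := by
      rw [Polynomial.lifts_iff_coeff_lifts]
      intro n
      exact ⟨⟨p.coeff n, hOK0 _ (hpO n)⟩, rfl⟩
    obtain ⟨q, hq⟩ := (Polynomial.mem_lifts p).1 hlift
    refine ⟨q, ?_, ?_⟩
    · rintro rfl
      apply hp0
      rw [← hq, Polynomial.map_zero]
    · rw [Polynomial.aeval_def, ← Polynomial.eval_map, hq, hpc]
  set K'' : IntermediateField K0 Kb := IntermediateField.adjoin K0 (S₁ : Set Kb) with hK''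
  have : FiniteDimensional K0 K'' :=
    IntermediateField.finiteDimensional_adjoin (fun x _ => (halg' x).isIntegral)
  have : CharZero K0 := (algebraMap K0 Kb).charZero
  -- the base is a discrete valuation ring
  have hK : IsDiscreteValuationRing ↥(A.comap (algebraMap K0 Kb)) := by
    refine h.isDVR_of_image ((algebraMap K0 Kb).comp (A.comap (algebraMap K0 Kb)).subtype) ?_ ?_
    · intro x y hxy
      apply Subtype.ext
      exact (algebraMap K0 Kb).injective hxy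
    · intro x
      constructor
      · intro hx
        exact ⟨⟨⟨x, hOK0 x hx⟩, h.O_le x hx⟩, rfl⟩
      · rintro ⟨r, rfl⟩
        exact h.mem_of_mem_closure (r : K0).2 r.2
  have hK' : IsDiscreteValuationRing ↥(A.comap (algebraMap K'' Kb)) :=
    dsc_isDVR_comap_of_finite A K0 K'' hK
  obtain ⟨ϖ'', hϖ''⟩ := IsDiscreteValuationRing.exists_irreducible ↥(A.comap (algebraMap K'' Kb))
  set O' : Subring Kb := A.toSubring ⊓ K''.toSubfield.toSubring with hO'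
  have hmemO' : ∀ x, x ∈ O' ↔ x ∈ A ∧ x ∈ K''.toSubfield := by
    intro x
    rw [hO', Subring.mem_inf]
    rfl
  -- elements of `O'` as elements of the valuation ring of `K''`
  have hmk : ∀ x (hx : x ∈ O'), ∃ v : ↥(A.comap (algebraMap K'' Kb)), ((v : K'') : Kb) = x := by
    intro x hx
    obtain ⟨hxA, hxK⟩ := (hmemO' x).1 hx
    exact ⟨⟨⟨x, hxK⟩, hxA⟩, rfl⟩
  have hcoe : ∀ v : ↥(A.comap (algebraMap K'' Kb)), ((v : K'') : Kb) ∈ O' := by
    intro v
    rw [hmemO']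
    exact ⟨v.2, (v : K'').2⟩
  refine ⟨O', ((ϖ'' : K'') : Kb), K''.toSubfield, ⟨?_, ?_, ?_, ?_, ?_⟩, hmemO', ?_, ?_⟩
  · intro o ho
    exact ((hmemO' o).1 ho).1
  · exact hcoe ϖ''
  · intro h0
    apply hϖ''.ne_zero
    apply Subtype.ext
    apply Subtype.ext
    exact h0
  · apply rp_nonunits_of_not_mem_inv
    intro hinv
    apply hϖ''.not_isUnit
    have hϖ0 : ((ϖ'' : K'') : Kb) ≠ 0 := by
      intro h0
      apply hϖ''.ne_zero
      apply Subtype.ext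
      apply Subtype.ext
      exact h0
    refine IsUnit.of_mul_eq_one ⟨⟨(((ϖ'' : K'') : Kb))⁻¹, K''.inv_mem (ϖ'' : K'').2⟩, hinv⟩ ?_
    apply Subtype.ext
    apply Subtype.ext
    show ((ϖ'' : K'') : Kb) * (((ϖ'' : K'') : Kb))⁻¹ = 1
    exact mul_inv_cancel₀ hϖ0
  · intro o ho ho0
    obtain ⟨v, hv⟩ := hmk o ho
    have hv0 : v ≠ 0 := by
      rintro rfl
      apply ho0
      rw [← hv]; rfl
    obtain ⟨n, hn⟩ := IsDiscreteValuationRing.associated_pow_irreducible hv0 hϖ''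
    obtain ⟨w, hw⟩ := hn.symm
    -- `ϖ'' ^ n * w = v`
    refine ⟨n, (((w : ↥(A.comap (algebraMap K'' Kb))) : K'') : Kb), hcoe _, ?_, ?_⟩
    · have h0 : ((w : ↥(A.comap (algebraMap K'' Kb))) *
          ((w⁻¹ : (↥(A.comap (algebraMap K'' Kb)))ˣ) : ↥(A.comap (algebraMap K'' Kb)))) = 1 :=
        Units.mul_inv w
      have h1 : (((w : ↥(A.comap (algebraMap K'' Kb))) : K'') : Kb) *
          ((((w⁻¹ : (↥(A.comap (algebraMap K'' Kb)))ˣ) : ↥(A.comap (algebraMap K'' Kb))) : K'') :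
            Kb) = 1 := by
        have h2 := congrArg (fun z : ↥(A.comap (algebraMap K'' Kb)) => ((z : K'') : Kb)) h0
        exact h2
      rw [← eq_inv_of_mul_eq_one_right h1]
      exact hcoe _
    · rw [← hv, ← hw]
      simp
  · intro c hc
    exact IntermediateField.subset_adjoin K0 _ hc
  · intro o ho
    exact K''.algebraMap_mem ⟨o, hOK0 o ho⟩

end Fermat.Agent.JT3
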