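/-
JT3 / node E (place map), producer side: a chart with a base level has enough levels.

The levels are the rings `O'[gens]`, `O' = A ∩ K'` for the finite extensions `K'` of the fraction
field of the base discrete valuation ring `O`.
-/
import Fermat.Agent.JT3.PlaceMap.BaseDefs
import Fermat.Agent.JT3.PlaceMap.LevelDVR
import Fermat.Agent.JT3.PlaceMap.Center

set_option autoImplicit false

namespace Fermat.Agent.JT3

open AlgebraicCurve IsLocalRing

variable {Kb : Type*} [Field Kb] {A : ValuationSubring Kb}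
variable {FF : Type*} [Field FF] [Algebra Kb FF]
variable {k : Type*} [Field k] {Ft : Type*} [Field Ft] [Algebra k Ft]

section GenRing

theorem rp_genRing_mono {O₁ O₂ : Subring Kb} (h : O₁ ≤ O₂) (gens : Set FF) :
    rp_genRing O₁ gens ≤ rp_genRing O₂ gens := by
  apply Subring.closure_mono
  apply Set.union_subset_union_right
  exact Set.image_mono h

theorem rp_gen_mem_genRing (O : Subring Kb) {gens : Set FF} {g : FF} (hg : g ∈ gens) :
    g ∈ rp_genRing O gens := Subring.subset_closure (Or.inl hg)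

theorem rp_const_mem_genRing {O : Subring Kb} (gens : Set FF) {o : Kb} (ho : o ∈ O) :
    algebraMap Kb FF o ∈ rp_genRing O gens :=
  Subring.subset_closure (Or.inr ⟨o, ho, rfl⟩)

theorem rp_genRing_le {O : Subring Kb} {gens : Set FF} {T : Subring FF}
    (hg : ∀ g ∈ gens, g ∈ T) (hc : ∀ o ∈ O, algebraMap Kb FF o ∈ T) : rp_genRing O gens ≤ T := by
  apply Subring.closure_le.2
  rintro x (hx | ⟨o, ho, rfl⟩)
  · exact hg x hx
  · exact hc o ho

end GenRing

section ValSub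

variable (P : Place Kb FF) (R : Subring Kb)

/-- the functions having at `P` a value in the subring `R` of `Kb` -/
def rpu_valSub : Subring FF where
  carrier := {b | ∃ c ∈ R, rp_HasValue P b c}
  mul_mem' := by
    rintro x y ⟨c, hc, hx⟩ ⟨d, hd, hy⟩
    exact ⟨c * d, R.mul_mem hc hd, hx.mul hy⟩
  one_mem' := ⟨1, R.one_mem, by
    have := rp_hasValue_const (P := P) (1 : Kb)
    rwa [map_one] at this⟩
  add_mem' := by
    rintro x y ⟨c, hc, hx⟩ ⟨d, hd, hy⟩
    exact ⟨c + d, R.add_mem hc hd, hx.add hy⟩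
  zero_mem' := ⟨0, R.zero_mem, by
    have := rp_hasValue_const (P := P) (0 : Kb)
    rwa [map_zero] at this⟩
  neg_mem' := by
    rintro x ⟨c, hc, hx⟩
    exact ⟨-c, R.neg_mem hc, hx.neg⟩

theorem rpu_mem_valSub {b : FF} : b ∈ rpu_valSub P R ↔ ∃ c ∈ R, rp_HasValue P b c := Iff.rfl

theorem rpu_const_mem_valSub {c : Kb} (hc : c ∈ R) : algebraMap Kb FF c ∈ rpu_valSub P R :=
  ⟨c, hc, rp_hasValue_const c⟩

end ValSub

section SumSub

/-- `B₀ + t · Bl` for subrings `B₀ ≤ Bl` and `t ∈ Bl` -/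
def rpu_sumSub (B₀ Bl : Subring FF) (h : B₀ ≤ Bl) (t : FF) (ht : t ∈ Bl) : Subring FF where
  carrier := {b | ∃ b₀ ∈ B₀, ∃ b' ∈ Bl, b = b₀ + t * b'}
  mul_mem' := by
    rintro x y ⟨b₀, hb₀, b', hb', rfl⟩ ⟨c₀, hc₀, c', hc', rfl⟩
    refine ⟨b₀ * c₀, B₀.mul_mem hb₀ hc₀, b₀ * c' + b' * c₀ + t * b' * c', ?_, by ring⟩
    exact Bl.add_mem (Bl.add_mem (Bl.mul_mem (h hb₀) hc') (Bl.mul_mem hb' (h hc₀)))
      (Bl.mul_mem (Bl.mul_mem ht hb') hc')
  one_mem' := ⟨1, B₀.one_mem, 0, Bl.zero_mem, by ring⟩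
  add_mem' := by
    rintro x y ⟨b₀, hb₀, b', hb', rfl⟩ ⟨c₀, hc₀, c', hc', rfl⟩
    exact ⟨b₀ + c₀, B₀.add_mem hb₀ hc₀, b' + c', Bl.add_mem hb' hc', by ring⟩
  zero_mem' := ⟨0, B₀.zero_mem, 0, Bl.zero_mem, by ring⟩
  neg_mem' := by
    rintro x ⟨b₀, hb₀, b', hb', rfl⟩
    exact ⟨-b₀, B₀.neg_mem hb₀, -b', Bl.neg_mem hb', by ring⟩

end SumSub

section Level

variable {C : rp_Chart A FF k Ft} (Bs : rp_Base C)

theorem rp_Base.dvrData : rpu_DVRData A Bs.O Bs.ϖ :=
  ⟨Bs.O_le, Bs.ϖ_mem, Bs.ϖ_ne, Bs.ϖ_nonunit, Bs.O_str⟩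

theorem rp_Base.gen_mem {g : FF} (hg : g ∈ Bs.gens) : g ∈ C.B := by
  rw [Bs.chart_eq]; exact rp_gen_mem_genRing _ (Finset.mem_coe.2 hg)

/-- the data of a level over the base -/
structure rpu_LevelData (Bs : rp_Base C) where
  O' : Subring Kb
  ϖ' : Kb
  K' : Subfield Kb
  dvr : rpu_DVRData A O' ϖ'
  mem_iff : ∀ x, x ∈ O' ↔ x ∈ A ∧ x ∈ K'
  O_le_K : ∀ o ∈ Bs.O, o ∈ K'

namespace rpu_LevelData

variable {Bs} (D : rpu_LevelData Bs)

theorem O_le_O' : Bs.O ≤ D.O' := fun o ho => (D.mem_iff o).2 ⟨Bs.O_le o ho, D.O_le_K o ho⟩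

theorem O'_le_A : D.O' ≤ A.toSubring := fun o ho => D.dvr.O_le o ho

/-- the ring of the level -/
def Bl : Subring FF := rp_genRing D.O' (Bs.gens : Set FF)

theorem Bl_le : D.Bl ≤ C.B := by
  rw [Bs.chart_eq]; exact rp_genRing_mono D.O'_le_A _

theorem B0_le_Bl : rp_genRing Bs.O (Bs.gens : Set FF) ≤ D.Bl := rp_genRing_mono D.O_le_O' _

/-- the base uniformiser is a multiple of the uniformiser of the level -/
theorem exists_pi_eq : ∃ w ∈ D.O', Bs.ϖ = D.ϖ' * w := by
  have hmem : Bs.ϖ ∈ D.O' := D.O_le_O' Bs.ϖ_mem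
  obtain ⟨n, u, hu, hui, hnu⟩ := D.dvr.O_str Bs.ϖ hmem Bs.ϖ_ne
  rcases Nat.eq_zero_or_pos n with rfl | hn
  · exfalso
    rw [pow_zero, one_mul] at hnu
    apply Bs.dvrData.inv_notMem
    rw [hnu]
    exact D.dvr.O_le _ hui
  · obtain ⟨m, rfl⟩ : ∃ m, n = m + 1 := ⟨n - 1, by omega⟩
    refine ⟨D.ϖ' ^ m * u, D.O'.mul_mem (D.O'.pow_mem D.dvr.ϖ_mem _) hu, ?_⟩
    rw [hnu]; ring

/-- every element of the level DVR is congruent to an element of the base DVR -/
theorem exists_O_add (o' : Kb) (ho' : o' ∈ D.O') :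
    ∃ o ∈ Bs.O, ∃ w ∈ D.O', o' = o + D.ϖ' * w := by
  obtain ⟨o, ho, hoo⟩ := Bs.res_eq ⟨o', D.dvr.O_le o' ho'⟩
  have hdiff : o' - o ∈ D.O' := D.O'.sub_mem ho' (D.O_le_O' ho)
  rcases eq_or_ne (o' - o) 0 with h0 | h0
  · exact ⟨o, ho, 0, D.O'.zero_mem, by rw [mul_zero, add_zero]; exact sub_eq_zero.1 h0⟩
  obtain ⟨n, u, hu, hui, hnu⟩ := D.dvr.O_str (o' - o) hdiff h0
  rcases Nat.eq_zero_or_pos n with rfl | hn
  · exfalso
    rw [pow_zero, one_mul] at hnu
    have h1 : (o' - o) * u⁻¹ ∈ A.nonunits := rp_mul_mem_nonunits A hoo (D.dvr.O_le _ hui)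
    have hu0 : u ≠ 0 := by
      rintro rfl; exact h0 hnu
    rw [hnu, mul_inv_cancel₀ hu0] at h1
    exact rp_one_notMem_nonunits A h1
  · obtain ⟨m, rfl⟩ : ∃ m, n = m + 1 := ⟨n - 1, by omega⟩
    refine ⟨o, ho, D.ϖ' ^ m * u, D.O'.mul_mem (D.O'.pow_mem D.dvr.ϖ_mem _) hu, ?_⟩
    have : o' = o + (o' - o) := by ring
    rw [this, hnu]; ring

/-- the reduction of the uniformiser of the level vanishes -/
theorem red_pi (h : algebraMap Kb FF D.ϖ' ∈ C.B) : C.red ⟨algebraMap Kb FF D.ϖ', h⟩ = 0 := by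
  have h1 := C.red_const ⟨D.ϖ', D.dvr.O_le _ D.dvr.ϖ_mem⟩
  have h2 : C.res ⟨D.ϖ', D.dvr.O_le _ D.dvr.ϖ_mem⟩ = 0 :=
    (rpc_res_eq_zero_iff C _).2 D.dvr.ϖ_nonunit
  rw [h2, map_zero] at h1
  exact h1

/-- every function of the level is a function of the base level plus a multiple of the
uniformiser -/
theorem exists_add (b : FF) (hb : b ∈ D.Bl) :
    ∃ b₀ ∈ rp_genRing Bs.O (Bs.gens : Set FF), ∃ b' ∈ D.Bl,
      b = b₀ + algebraMap Kb FF D.ϖ' * b' := by
  have hle : D.Bl ≤ rpu_sumSub (rp_genRing Bs.O (Bs.gens : Set FF)) D.Bl D.B0_le_Bl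
      (algebraMap Kb FF D.ϖ') (rp_const_mem_genRing _ D.dvr.ϖ_mem) := by
    apply rp_genRing_le
    · intro g hg
      exact ⟨g, rp_gen_mem_genRing _ hg, 0, D.Bl.zero_mem, by ring⟩
    · intro o' ho'
      obtain ⟨o, ho, w, hw, rfl⟩ := D.exists_O_add o' ho'
      refine ⟨algebraMap Kb FF o, rp_const_mem_genRing _ ho, algebraMap Kb FF w,
        rp_const_mem_genRing _ hw, ?_⟩
      rw [map_add, map_mul]
  exact hle hb

/-- **q-expansion principle at the level** -/
theorem red_ker (b : D.Bl) (hb : C.red ⟨b, D.Bl_le b.2⟩ = 0) :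
    ∃ b' : D.Bl, (b : FF) = algebraMap Kb FF D.ϖ' * (b' : FF) := by
  obtain ⟨b₀, hb₀, b', hb', hbb⟩ := D.exists_add b b.2
  have hπB : algebraMap Kb FF D.ϖ' ∈ C.B := D.Bl_le (rp_const_mem_genRing _ D.dvr.ϖ_mem)
  have hb₀B : b₀ ∈ C.B := D.Bl_le (D.B0_le_Bl hb₀)
  have hb'B : b' ∈ C.B := D.Bl_le hb'
  have h1 : (⟨b, D.Bl_le b.2⟩ : C.B) = ⟨b₀, hb₀B⟩ + ⟨algebraMap Kb FF D.ϖ', hπB⟩ * ⟨b', hb'B⟩ :=
    Subtype.ext hbb
  have h2 : C.red ⟨b₀, hb₀B⟩ = 0 := by
    rw [h1, map_add, map_mul, D.red_pi hπB, zero_mul, add_zero] at hb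
    exact hb
  obtain ⟨b₀', hb₀', hbb₀⟩ := Bs.red_ker b₀ hb₀B hb₀ h2
  obtain ⟨w, hw, hπw⟩ := D.exists_pi_eq
  refine ⟨⟨algebraMap Kb FF w * b₀' + b', D.Bl.add_mem
    (D.Bl.mul_mem (rp_const_mem_genRing _ hw) (D.B0_le_Bl hb₀')) hb'⟩, ?_⟩
  rw [hbb, hbb₀, hπw, map_mul]
  ring

/-- the reduction of the level is the whole reduced chart ring -/
theorem red_surj (b : C.B) : ∃ b' : D.Bl, C.red ⟨b', D.Bl_le b'.2⟩ = C.red b := by
  set ι : D.Bl →+* C.B := Subring.inclusion D.Bl_le with hι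
  set T' : Subring C.B := Subring.comap C.red (C.red.comp ι).range with hT'
  have hle : C.B ≤ T'.map C.B.subtype := by
    conv_lhs => rw [Bs.chart_eq]
    apply rp_genRing_le
    · intro g hg
      have hgB : g ∈ C.B := Bs.gen_mem (Finset.mem_coe.1 hg)
      refine ⟨⟨g, hgB⟩, ?_, rfl⟩
      show C.red ⟨g, hgB⟩ ∈ (C.red.comp ι).range
      exact ⟨⟨g, rp_gen_mem_genRing _ hg⟩, rfl⟩
    · intro a ha
      have haB : algebraMap Kb FF a ∈ C.B := C.const_mem ⟨a, ha⟩
      refine ⟨⟨algebraMap Kb FF a, haB⟩, ?_, rfl⟩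
      show C.red ⟨algebraMap Kb FF a, haB⟩ ∈ (C.red.comp ι).range
      obtain ⟨o, ho, hoo⟩ := Bs.res_eq ⟨a, ha⟩
      refine ⟨⟨algebraMap Kb FF o, rp_const_mem_genRing _ (D.O_le_O' ho)⟩, ?_⟩
      have h1 := C.red_const ⟨a, ha⟩
      have h2 := C.red_const ⟨o, Bs.O_le o ho⟩
      have h3 : C.res ⟨a, ha⟩ = C.res ⟨o, Bs.O_le o ho⟩ := by
        have h4 : C.res (⟨a, ha⟩ - ⟨o, Bs.O_le o ho⟩) = 0 :=
          (rpc_res_eq_zero_iff C _).2 hoo
        rw [map_sub, sub_eq_zero] at h4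
        exact h4
      show C.red (ι ⟨algebraMap Kb FF o, _⟩) = C.red ⟨algebraMap Kb FF a, haB⟩
      rw [h1, h3, ← h2]
      rfl
  obtain ⟨b₁, hb₁, hb₁b⟩ := hle b.2
  have hbb : b₁ = b := Subtype.ext hb₁b
  rw [hbb] at hb₁
  obtain ⟨b', hb'⟩ := hb₁
  exact ⟨b', hb'⟩

theorem fin_of_level (P : Place Kb FF) (h : ∀ b ∈ D.Bl, b ∈ P.toValuationSubring) :
    C.Fin P := by
  intro b hb
  have hle : C.B ≤ P.toValuationSubring.toSubring := by
    rw [Bs.chart_eq]
    apply rp_genRing_le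
    · intro g hg
      exact h g (rp_gen_mem_genRing _ hg)
    · intro a _
      exact P.algebraMap_mem' a
  exact hle hb

theorem inChart_of_level (P : Place Kb FF)
    (h : ∀ b ∈ D.Bl, ∃ c : A, b - algebraMap Kb FF (c : Kb) ∈ P.toValuationSubring.nonunits) :
    C.InChart P := by
  intro b hb
  have hle : C.B ≤ rpu_valSub P A.toSubring := by
    rw [Bs.chart_eq]
    apply rp_genRing_le
    · intro g hg
      obtain ⟨c, hc⟩ := h g (rp_gen_mem_genRing _ hg)
      exact ⟨c, c.2, hc⟩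
    · intro a ha
      exact rpu_const_mem_valSub P _ ha
  obtain ⟨c, hc, hbc⟩ := hle hb
  exact ⟨⟨c, hc⟩, hbc⟩

/-- the ring of the level is noetherian -/
theorem noeth : IsNoetherianRing D.Bl := by
  have : IsDiscreteValuationRing D.O' := D.dvr.isDVR
  let _ : Algebra D.O' FF := ((algebraMap Kb FF).comp D.O'.subtype).toAlgebra
  have hfg : (Algebra.adjoin D.O' ((Bs.gens : Finset FF) : Set FF)).FG :=
    Subalgebra.fg_adjoin_finset _
  have hnoeth : IsNoetherianRing (Algebra.adjoin D.O' ((Bs.gens : Finset FF) : Set FF)) :=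
    isNoetherianRing_of_fg hfg
  have heq : (Algebra.adjoin D.O' ((Bs.gens : Finset FF) : Set FF)).toSubring = D.Bl := by
    rw [Algebra.adjoin_eq_ring_closure, rpu_LevelData.Bl, rp_genRing, Set.union_comm]
    congr 2
    ext x
    constructor
    · rintro ⟨o, rfl⟩
      exact ⟨o, o.2, rfl⟩
    · rintro ⟨o, ho, rfl⟩
      exact ⟨⟨o, ho⟩, rfl⟩
  rw [← heq]
  exact hnoeth

/-- the level attached to level data -/
noncomputable def level : rp_Level C where
  O := D.O'
  O_le := D.dvr.O_le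
  ϖ := D.ϖ'
  ϖ_mem := D.dvr.ϖ_mem
  ϖ_ne := D.dvr.ϖ_ne
  ϖ_nonunit := D.dvr.ϖ_nonunit
  O_str := D.dvr.O_str
  alg := by
    intro c
    obtain ⟨p, hp0, hpO, hpc⟩ := Bs.alg c
    exact ⟨p, hp0, fun i => D.O_le_O' (hpO i), hpc⟩
  Bl := D.Bl
  Bl_le := D.Bl_le
  const_mem := fun o ho => rp_const_mem_genRing _ ho
  noeth := D.noeth
  red_surj := D.red_surj
  red_ker := D.red_ker
  fin_of_level := D.fin_of_level
  inChart_of_level := D.inChart_of_level

theorem level_Bl : D.level.Bl = D.Bl := rfl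

theorem level_O : D.level.O = D.O' := rfl

end rpu_LevelData

/-- finitely many constants suffice to generate a given chart function -/
theorem rp_Base.exists_finset_const (b : FF) (hb : b ∈ C.B) :
    ∃ S₁ : Finset Kb, (∀ c ∈ S₁, c ∈ A) ∧
      b ∈ Subring.closure ((Bs.gens : Set FF) ∪ algebraMap Kb FF '' (S₁ : Set Kb)) := by
  classical
  rw [Bs.chart_eq, rp_genRing] at hb
  induction hb using Subring.closure_induction with
  | mem x hx =>
    rcases hx with hx | ⟨a, ha, rfl⟩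
    · exact ⟨∅, by simp, Subring.subset_closure (Or.inl hx)⟩
    · refine ⟨{a}, ?_, Subring.subset_closure (Or.inr ⟨a, by simp, rfl⟩)⟩
      intro c hc
      rw [Finset.mem_singleton] at hc
      rw [hc]; exact ha
  | zero => exact ⟨∅, by simp, Subring.zero_mem _⟩
  | one => exact ⟨∅, by simp, Subring.one_mem _⟩
  | add x y _ _ hx hy =>
    obtain ⟨S₁, hS₁, hx'⟩ := hx
    obtain ⟨S₂, hS₂, hy'⟩ := hy
    refine ⟨S₁ ∪ S₂, ?_, ?_⟩
    · intro c hc
      rcases Finset.mem_union.1 hc with h | h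
      · exact hS₁ c h
      · exact hS₂ c h
    · apply Subring.add_mem
      · refine Subring.closure_mono ?_ hx'
        apply Set.union_subset_union_right
        apply Set.image_mono
        exact Finset.coe_subset.2 Finset.subset_union_left
      · refine Subring.closure_mono ?_ hy'
        apply Set.union_subset_union_right
        apply Set.image_mono
        exact Finset.coe_subset.2 Finset.subset_union_right
  | neg x _ hx =>
    obtain ⟨S₁, hS₁, hx'⟩ := hx
    exact ⟨S₁, hS₁, Subring.neg_mem _ hx'⟩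
  | mul x y _ _ hx hy =>
    obtain ⟨S₁, hS₁, hx'⟩ := hx
    obtain ⟨S₂, hS₂, hy'⟩ := hy
    refine ⟨S₁ ∪ S₂, ?_, ?_⟩
    · intro c hc
      rcases Finset.mem_union.1 hc with h | h
      · exact hS₁ c h
      · exact hS₂ c h
    · apply Subring.mul_mem
      · refine Subring.closure_mono ?_ hx'
        apply Set.union_subset_union_right
        apply Set.image_mono
        exact Finset.coe_subset.2 Finset.subset_union_left
      · refine Subring.closure_mono ?_ hy'
        apply Set.union_subset_union_right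
        apply Set.image_mono
        exact Finset.coe_subset.2 Finset.subset_union_right

/-- finitely many constants suffice to generate finitely many given chart functions -/
theorem rp_Base.exists_finset_const_finset (S : Finset FF) (hS : ∀ b ∈ S, b ∈ C.B) :
    ∃ S₁ : Finset Kb, (∀ c ∈ S₁, c ∈ A) ∧ ∀ b ∈ S,
      b ∈ Subring.closure ((Bs.gens : Set FF) ∪ algebraMap Kb FF '' (S₁ : Set Kb)) := by
  classical
  induction S using Finset.induction_on with
  | empty => exact ⟨∅, by simp, by simp⟩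
  | insert b S _ ih =>
    obtain ⟨S₁, hS₁, h1⟩ := ih (fun b' hb' => hS b' (Finset.mem_insert_of_mem hb'))
    obtain ⟨S₂, hS₂, h2⟩ := Bs.exists_finset_const b (hS b (Finset.mem_insert_self b S))
    refine ⟨S₁ ∪ S₂, ?_, ?_⟩
    · intro c hc
      rcases Finset.mem_union.1 hc with h | h
      · exact hS₁ c h
      · exact hS₂ c h
    · intro b' hb'
      rcases Finset.mem_insert.1 hb' with rfl | hb'
      · refine Subring.closure_mono ?_ h2
        apply Set.union_subset_union_right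
        apply Set.image_mono
        exact Finset.coe_subset.2 Finset.subset_union_right
      · refine Subring.closure_mono ?_ (h1 b' hb')
        apply Set.union_subset_union_right
        apply Set.image_mono
        exact Finset.coe_subset.2 Finset.subset_union_left

/-- **A chart with a base level has enough levels.** -/
theorem rpu_hasLevels [CharZero Kb] (hF : rp_FunField Kb FF) (Bs : rp_Base C) : C.HasLevels := by
  classical
  refine ⟨fun S T hS hT => ?_⟩
  obtain ⟨S₁, hS₁A, hS₁⟩ := Bs.exists_finset_const_finset S hS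
  -- the values of the generators at the places of `T`
  have hval : ∀ P ∈ T, ∀ g ∈ Bs.gens, ∃ c : Kb, rp_HasValue P g c := by
    intro P hP g hg
    exact hF.exists_value P g (hT P hP g (Bs.gen_mem hg))
  set val : Place Kb FF → FF → Kb := fun P g =>
    if h : P ∈ T ∧ g ∈ Bs.gens then (hval P h.1 g h.2).choose else 0 with hvaldef
  have hvalspec : ∀ P ∈ T, ∀ g ∈ Bs.gens, rp_HasValue P g (val P g) := by
    intro P hP g hg
    have : val P g = (hval P hP g hg).choose := by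
      rw [hvaldef]; simp only; rw [dif_pos ⟨hP, hg⟩]
    rw [this]
    exact (hval P hP g hg).choose_spec
  set S₂ : Finset Kb := (T ×ˢ Bs.gens).image (fun pg => val pg.1 pg.2) with hS₂
  obtain ⟨O', ϖ', K', hdvr, hmem, hSK, hOK⟩ :=
    rpu_exists_level_dvr Bs.dvrData Bs.alg (S₁ ∪ S₂)
  set D : rpu_LevelData Bs := ⟨O', ϖ', K', hdvr, hmem, hOK⟩ with hD
  refine ⟨D.level, ?_, ?_⟩
  · intro b hb
    show b ∈ D.Bl
    refine Subring.closure_mono ?_ (hS₁ b hb)
    apply Set.union_subset_union_right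
    rintro x ⟨c, hc, rfl⟩
    refine ⟨c, ?_, rfl⟩
    exact (hmem c).2 ⟨hS₁A c hc, hSK c (Finset.mem_union_left _ hc)⟩
  · intro P hP b hb
    -- every function of the level has a value in `K'`
    have hle : D.Bl ≤ rpu_valSub P K'.toSubring := by
      apply rp_genRing_le
      · intro g hg
        refine ⟨val P g, ?_, hvalspec P hP g (Finset.mem_coe.1 hg)⟩
        apply hSK
        apply Finset.mem_union_right
        rw [hS₂, Finset.mem_image]
        exact ⟨(P, g), Finset.mem_product.2 ⟨hP, Finset.mem_coe.1 hg⟩, rfl⟩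
      · intro o ho
        exact rpu_const_mem_valSub P _ ((hmem o).1 ho).2
    obtain ⟨c, hcK, hbc⟩ := hle hb
    by_cases hcA : c ∈ A
    · refine ⟨c, 1, (hmem c).2 ⟨hcA, hcK⟩, O'.one_mem, one_ne_zero, ?_⟩
      rw [div_one]; exact hbc
    · have hc0 : c ≠ 0 := by
        rintro rfl; exact hcA A.zero_mem
      have hinv : c⁻¹ ∈ A := (A.mem_or_inv_mem c).resolve_left hcA
      refine ⟨1, c⁻¹, O'.one_mem, (hmem _).2 ⟨hinv, K'.inv_mem hcK⟩, inv_ne_zero hc0, ?_⟩
      rw [one_div, inv_inv]; exact hbc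

end Level

end Fermat.Agent.JT3
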