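/-
JT3 / node E (place map), producer side: a chart whose reduced chart ring is a Dedekind domain
with fraction field `Ft` is `RedRegular`.

* `rpd_redRegular` : `C : rp_Chart A FF k Ft`, `ρ : C.B → D` onto a Dedekind domain `D` (not a
  field) with `Frac D = Ft` and `algebraMap D Ft ∘ ρ = C.red`  ⟹  `C.RedRegular`.
-/
import Mathlib
import Fermat.Agent.JT3.PlaceMap.Defs
import Fermat.Agent.S24.Hurwitz.IntegralClosure

set_option autoImplicit false

namespace Fermat.Agent.JT3

open AlgebraicCurve IsDedekindDomain Fermat.Agent.S24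

universe u v

variable {Kb : Type*} [Field Kb] {A : ValuationSubring Kb} {FF : Type*} [Field FF] [Algebra Kb FF]
  {k : Type u} [Field k] {Ft : Type v} [Field Ft] [Algebra k Ft]

/-- **Producer bridge.** If the reduction map of a chart factors through a surjection onto a
Dedekind domain `D` (not a field) whose fraction field is `Ft`, the chart is `RedRegular`. -/
theorem rpd_redRegular (C : rp_Chart A FF k Ft) (D : Type*) [CommRing D] [IsDedekindDomain D]
    [Algebra k D] [Algebra D Ft] [IsScalarTower k D Ft] [IsFractionRing D Ft]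
    (hD : ¬ IsField D) (ρ : C.B →+* D) (hρ : Function.Surjective ρ)
    (hred : ∀ b, algebraMap D Ft (ρ b) = C.red b) : C.RedRegular := by
  have hinj : Function.Injective (algebraMap D Ft) := IsFractionRing.injective D Ft
  refine ⟨?_, ?_⟩
  · -- local_eq
    intro Q hQ f hf
    have hB : ∀ d : D, algebraMap D Ft d ∈ Q.toValuationSubring := by
      intro d
      obtain ⟨b, rfl⟩ := hρ d
      rw [hred]; exact hQ b
    set P := hw_primeOfPlace Q hB with hP
    have hQP : hw_placeOfPrime D P = Q := hw_placeOfPrime_primeOfPlace Q hB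
    have hf' : P.valuation Ft f ≤ 1 := by
      have : f ∈ (hw_placeOfPrime (K := k) (F := Ft) D P).toValuationSubring := by rw [hQP]; exact hf
      rw [hw_placeOfPrime_toValuationSubring] at this
      exact (Valuation.mem_valuationSubring_iff _ _).mp this
    obtain ⟨n, d, hnd⟩ := P.exists_primeCompl_mul_eq_of_integer f hf'
    obtain ⟨b, hb⟩ := hρ n
    obtain ⟨c, hc⟩ := hρ (d : D)
    refine ⟨b, c, ?_, ?_⟩
    · rw [← hred, hc]
      intro hmem
      have hdP : (d : D) ∉ P.asIdeal := d.2
      apply hdP
      rw [hw_mem_primeOfPlace_iff Q hB]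
      intro hu
      rw [ValuationSubring.mem_nonunits_iff_exists_mem_maximalIdeal] at hmem
      obtain ⟨hmem', hmax⟩ := hmem
      exact (IsLocalRing.mem_maximalIdeal _).mp hmax hu
    · rw [← hred, ← hred, hc, hb]; exact hnd
  · -- exists_place
    intro I hI hker
    have hkerρ : RingHom.ker ρ ≤ I := by
      intro b hb
      apply hker
      rw [RingHom.mem_ker] at hb ⊢
      rw [← hred, hb, map_zero]
    have hpmax : (I.map ρ).IsMaximal := Ideal.IsMaximal.map_of_surjective_of_ker_le hρ hkerρ
    have hp0 : I.map ρ ≠ ⊥ := by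
      intro h0
      apply hD
      rw [Ring.isField_iff_maximal_bot, ← h0]
      exact hpmax
    let P : HeightOneSpectrum D := ⟨I.map ρ, hpmax.isPrime, hp0⟩
    have hmemI : ∀ b : C.B, b ∈ I ↔ ρ b ∈ P.asIdeal := by
      intro b
      constructor
      · intro hb; exact Ideal.mem_map_of_mem ρ hb
      · intro hb
        have : b ∈ (I.map ρ).comap ρ := hb
        rwa [Ideal.comap_map_of_surjective ρ hρ, ← RingHom.ker_eq_comap_bot,
          sup_eq_left.mpr hkerρ] at this
    refine ⟨hw_placeOfPrime D P, ?_, ?_⟩
    · intro b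
      rw [← hred]
      exact hw_placeOfPrime_algebraMap_mem D P (ρ b)
    · intro b
      rw [hmemI b, ← hred, hw_placeOfPrime_toValuationSubring, ValuationSubring.mem_nonunits_iff,
        ← HeightOneSpectrum.valuation_lt_one_iff_mem (K := Ft)]
      exact ((P.valuation Ft).isEquiv_valuation_valuationSubring).lt_one_iff_lt_one

/-- The reduction of a chart function that is integral over a subring `Bl` whose reduction is an
integrally closed domain `D` with fraction field `Ft` lies in `D`. -/
theorem rpd_red_mem (C : rp_Chart A FF k Ft) (Bl : Subring FF) (hle : Bl ≤ C.B)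
    (D : Type*) [CommRing D] [IsDomain D] [IsIntegrallyClosed D] [Algebra D Ft]
    [IsFractionRing D Ft] (ρl : Bl →+* D)
    (hredl : ∀ b : Bl, algebraMap D Ft (ρl b) = C.red ⟨b, hle b.2⟩)
    (b : C.B) (hb : IsIntegral Bl (b : FF)) : ∃ d : D, algebraMap D Ft d = C.red b := by
  apply IsIntegrallyClosed.algebraMap_eq_of_integral
  obtain ⟨p, hp, hpb⟩ := hb
  -- the inclusion `Bl → C.B`
  let incl : Bl →+* C.B := Subring.inclusion hle
  refine ⟨p.map ρl, hp.map _, ?_⟩
  rw [Polynomial.eval₂_map]
  have h1 : (algebraMap D Ft).comp ρl = C.red.comp incl := by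
    ext x
    simp only [RingHom.comp_apply]
    rw [hredl]
    rfl
  rw [h1, ← Polynomial.hom_eval₂]
  have h2 : Polynomial.eval₂ incl b p = 0 := by
    apply Subtype.ext
    have := Polynomial.hom_eval₂ p incl C.B.subtype b
    change C.B.subtype (Polynomial.eval₂ incl b p) = 0
    rw [this]
    exact hpb
  rw [h2, map_zero]

/-- **Producer bridge, level form.** A noetherian level `Bl ⊆ C.B` over which `C.B` is integral,
whose reduction is a Dedekind domain `D` (not a field) with fraction field `Ft`: then the chart is
`RedRegular` and the reduction of `Bl` is the whole reduced chart ring. -/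
theorem rpd_redRegular_of_level (C : rp_Chart A FF k Ft) (Bl : Subring FF) (hle : Bl ≤ C.B)
    (hint : ∀ b : C.B, IsIntegral Bl (b : FF))
    (D : Type*) [CommRing D] [IsDedekindDomain D] [Algebra k D] [Algebra D Ft]
    [IsScalarTower k D Ft] [IsFractionRing D Ft] (hD : ¬ IsField D)
    (ρl : Bl →+* D) (hρl : Function.Surjective ρl)
    (hredl : ∀ b : Bl, algebraMap D Ft (ρl b) = C.red ⟨b, hle b.2⟩) :
    C.RedRegular ∧ ∀ b : C.B, ∃ b' : Bl, C.red ⟨b', hle b'.2⟩ = C.red b := by
  have hinj : Function.Injective (algebraMap D Ft) := IsFractionRing.injective D Ft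
  have hmem : ∀ b : C.B, ∃ d : D, algebraMap D Ft d = C.red b :=
    fun b => rpd_red_mem C Bl hle D ρl hredl b (hint b)
  have hsurj : ∀ b : C.B, ∃ b' : Bl, C.red ⟨b', hle b'.2⟩ = C.red b := by
    intro b
    obtain ⟨d, hd⟩ := hmem b
    obtain ⟨b', rfl⟩ := hρl d
    exact ⟨b', by rw [← hredl, hd]⟩
  refine ⟨?_, hsurj⟩
  -- the map `ρ : C.B → D`
  let ρ : C.B →+* D :=
    { toFun := fun b => (hmem b).choose
      map_one' := hinj (by rw [(hmem 1).choose_spec, map_one, map_one])
      map_mul' := fun x y => hinj (by
        rw [(hmem (x * y)).choose_spec, map_mul, map_mul, (hmem x).choose_spec,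
          (hmem y).choose_spec])
      map_zero' := hinj (by rw [(hmem 0).choose_spec, map_zero, map_zero])
      map_add' := fun x y => hinj (by
        rw [(hmem (x + y)).choose_spec, map_add, map_add, (hmem x).choose_spec,
          (hmem y).choose_spec]) }
  have hρ : ∀ b, algebraMap D Ft (ρ b) = C.red b := fun b => (hmem b).choose_spec
  refine rpd_redRegular C D hD ρ ?_ hρ
  intro d
  obtain ⟨b', rfl⟩ := hρl d
  refine ⟨⟨b', hle b'.2⟩, hinj ?_⟩
  rw [hρ, hredl]

section Integral

/-- An element integral over a subring of a valuation subring lies in the valuation subring. -/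
theorem rpd_mem_of_isIntegral {F : Type*} [Field F] (V : ValuationSubring F) (S : Subring F)
    (hS : ∀ s ∈ S, s ∈ V) {b : F} (hb : IsIntegral S b) : b ∈ V := by
  obtain ⟨p, hp, hpb⟩ := hb
  let incl : S →+* V :=
    { toFun := fun s => ⟨s, hS s s.2⟩
      map_one' := rfl
      map_mul' := fun _ _ => rfl
      map_zero' := rfl
      map_add' := fun _ _ => rfl }
  have hint : IsIntegral V b := by
    refine ⟨p.map incl, hp.map _, ?_⟩
    rw [Polynomial.eval₂_map]
    exact hpb
  obtain ⟨y, hy⟩ := IsIntegrallyClosed.algebraMap_eq_of_integral hint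
  rw [← hy]
  exact y.2

/-- `fin_of_level`, generic form: if every chart function is integral over a subring `S` all of
whose elements are regular at `P`, then `P` is finite on the chart. -/
theorem rpd_fin_of_isIntegral (C : rp_Chart A FF k Ft) (S : Subring FF)
    (hint : ∀ b ∈ C.B, IsIntegral S b) (P : Place Kb FF)
    (hS : ∀ s ∈ S, s ∈ P.toValuationSubring) : C.Fin P :=
  fun b hb => rpd_mem_of_isIntegral P.toValuationSubring S hS (hint b hb)

/-- The "value at a rational place" ring homomorphism `O_P → Kb`. -/
theorem rpd_exists_value_hom (P : Place Kb FF)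
    (hval : ∀ f : FF, f ∈ P.toValuationSubring →
      ∃ c : Kb, f - algebraMap Kb FF c ∈ P.toValuationSubring.nonunits) :
    ∃ ψ : P.toValuationSubring →+* Kb, ∀ (f : P.toValuationSubring) (c : Kb),
      (f : FF) - algebraMap Kb FF c ∈ P.toValuationSubring.nonunits ↔ ψ f = c := by
  set V := P.toValuationSubring with hV
  have hconst : ∀ c : Kb, algebraMap Kb FF c ∈ V := P.algebraMap_mem'
  -- a constant in the maximal ideal is zero
  have hconst0 : ∀ c : Kb, algebraMap Kb FF c ∈ V.nonunits → c = 0 := by
    intro c hc
    by_contra hc0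
    rw [ValuationSubring.mem_nonunits_iff_or] at hc
    rcases hc with h | h
    · exact hc0 ((map_eq_zero _).mp h)
    · apply h
      rw [← map_inv₀]
      exact hconst _
  have huniq : ∀ (f : FF) (c c' : Kb), f - algebraMap Kb FF c ∈ V.nonunits →
      f - algebraMap Kb FF c' ∈ V.nonunits → c = c' := by
    intro f c c' h h'
    have h1 : algebraMap Kb FF (c' - c) ∈ V.nonunits := by
      have := V.nonunits.sub_mem h h'
      rw [map_sub]
      convert this using 1
      ring
    have := hconst0 _ h1
    exact (sub_eq_zero.mp this).symm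
  have hmulmem : ∀ (x y : FF), x ∈ V → y ∈ V.nonunits → x * y ∈ V.nonunits := by
    intro x y hx hy
    rw [ValuationSubring.mem_nonunits_iff] at hy ⊢
    rw [map_mul]
    have hx1 : V.valuation x ≤ 1 := (V.valuation_le_one_iff x).mpr hx
    exact mul_lt_one_of_nonneg_of_lt_one_right hx1 zero_le hy
  have hspec : ∀ f : V, (f : FF) - algebraMap Kb FF (hval f f.2).choose ∈ V.nonunits :=
    fun f => (hval f f.2).choose_spec
  have hψeq : ∀ (f : V) (c : Kb), (f : FF) - algebraMap Kb FF c ∈ V.nonunits →
      (hval f f.2).choose = c := fun f c h => huniq f _ _ (hspec f) h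
  refine ⟨{ toFun := fun f => (hval f f.2).choose
            map_one' := hψeq 1 1 (by simp [V.nonunits.zero_mem])
            map_mul' := fun f g => hψeq _ _ (by
              have h1 := hmulmem (f : FF) _ f.2 (hspec g)
              have h2 := hmulmem (algebraMap Kb FF (hval g g.2).choose) _ (hconst _) (hspec f)
              have := V.nonunits.add_mem h1 h2
              rw [map_mul]
              convert this using 1
              push_cast
              ring)
            map_zero' := hψeq 0 0 (by simp [V.nonunits.zero_mem])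
            map_add' := fun f g => hψeq _ _ (by
              have := V.nonunits.add_mem (hspec f) (hspec g)
              rw [map_add]
              convert this using 1
              push_cast
              ring) }, ?_⟩
  intro f c
  constructor
  · intro h; exact hψeq f c h
  · rintro rfl; exact hspec f

/-- `inChart_of_level`, generic form: if every chart function is integral over a subring `S` all
of whose elements have their value at `P` in `A`, and the place `P` is rational, then `P` lies in
the chart. -/
theorem rpd_inChart_of_isIntegral (C : rp_Chart A FF k Ft) (S : Subring FF)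
    (hint : ∀ b ∈ C.B, IsIntegral S b) (P : Place Kb FF)
    (hval : ∀ f : FF, f ∈ P.toValuationSubring →
      ∃ c : Kb, f - algebraMap Kb FF c ∈ P.toValuationSubring.nonunits)
    (hS : ∀ s ∈ S, ∃ c : A, s - algebraMap Kb FF (c : Kb) ∈ P.toValuationSubring.nonunits) :
    C.InChart P := by
  set V := P.toValuationSubring with hV
  obtain ⟨ψ, hψ⟩ := rpd_exists_value_hom P hval
  have hconst : ∀ c : Kb, algebraMap Kb FF c ∈ V := P.algebraMap_mem'
  have hSV : ∀ s ∈ S, s ∈ V := by
    intro s hs
    obtain ⟨c, hc⟩ := hS s hs
    have h1 : s - algebraMap Kb FF (c : Kb) ∈ V := V.nonunits_subset hc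
    have := V.add_mem _ _ h1 (hconst c)
    simpa using this
  intro b hb
  have hbV : b ∈ V := rpd_mem_of_isIntegral V S hSV (hint b hb)
  -- the inclusion `S → V` and the value map `S → A`
  let incl : S →+* V :=
    { toFun := fun s => ⟨s, hSV s s.2⟩
      map_one' := rfl
      map_mul' := fun _ _ => rfl
      map_zero' := rfl
      map_add' := fun _ _ => rfl }
  have hφmem : ∀ s : S, (ψ.comp incl) s ∈ A.toSubring := by
    intro s
    obtain ⟨c, hc⟩ := hS s s.2
    have : ψ (incl s) = (c : Kb) := (hψ (incl s) c).mp hc
    rw [RingHom.comp_apply, this]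
    exact c.2
  let φ : S →+* A := (ψ.comp incl).codRestrict A.toSubring hφmem
  -- `b` is integral over `S` inside `V`
  let _ : Algebra S V := incl.toAlgebra
  have hbint : IsIntegral S (⟨b, hbV⟩ : V) := by
    obtain ⟨p, hp, hpb⟩ := hint b hb
    refine ⟨p, hp, ?_⟩
    apply Subtype.ext
    have := Polynomial.hom_eval₂ p incl V.subtype ⟨b, hbV⟩
    change V.subtype (Polynomial.eval₂ incl ⟨b, hbV⟩ p) = 0
    rw [this]
    exact hpb
  have hcomp : (algebraMap A Kb).comp φ = ψ.comp (algebraMap S V) := by
    ext s
    rfl
  have hψint : IsIntegral A (ψ ⟨b, hbV⟩) := IsIntegral.map_of_comp_eq φ ψ hcomp hbint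
  obtain ⟨y, hy⟩ := IsIntegrallyClosed.algebraMap_eq_of_integral hψint
  refine ⟨y, ?_⟩
  have := (hψ ⟨b, hbV⟩ (y : Kb)).mpr hy.symm
  exact this

end Integral

end Fermat.Agent.JT3
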