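/-
JT3 / node E (place map), the INSTANTIATION END: concrete charts of the model of the prelude's
function field `F̄_N = Q̄(j(q^d) : d ∣ N)` over a valuation ring `A` of `Q̄` above `ℓ ∤ N`.

* `rpm_ChartData A N x` : a chart ring `B ⊆ F̄_N` with coordinate `x`: q-integral functions with
  reduction in the reduced function field (`B ≤ rpg_intSubring`), integral over `A[x] = rpm_ring`,
  containing the constants of `A` and `x`, with `Frac B = F̄_N`.  `D.chart : rp_Chart ..` has the
  reduction of q-expansions (`rpg_intRed`) as reduction map; `D.covP`, `D.covQ` are the covering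
  properties of `rpg_Glue`.
* instances: `rpm_dataGen A N x gens h` (`B = rp_genRing A.toSubring gens = A[gens]`, the carrier
  of `rp_Base`, for `h : rpm_GoodGens A N x gens`) and the maximal charts `rpm_D1` (`x = j`),
  `rpm_D2` (`x = j⁻¹`) with `B = rpm_B` = everything q-integral and integral over `A[x]`.
* `rpm_glue D1 D2 hL1 hL2 : rpg_Glue D1.chart D2.chart`, `rpm_hgen` ((E-gen) from the levels of a
  chart), `rpm_funField`, `rpm_funFieldRed`.
* **`rpm_reductionInputsModL_of`** : `ReductionInputsModL A N` from two chart data (coordinates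
  `j`, `j⁻¹`) whose charts have `HasLevels` and `RedRegular`; `_gens`, `_max` are the two instances.
* `rpm_mem_int_of_hgen` / `rpm_mem_int` : EVERY function with `A`-integral q-expansion lies in
  `rpg_intSubring` (the condition "reduction in `F̃_N`" is automatic, by (E-gen) = `rpi_hgen`);
  `rpm_goodGens_of_lifts`.
* **`rpm_reductionInputsModL_base`** (`_base_gens`) : the same from base levels `rp_Base` and
  `RedRegular` (via `rpu_hasLevels`).
* tools: `rpm_scale_isIntegral` (integral over `S₀[x]` ⟹ `x⁻¹ ^ M * b` integral over `S₀[x⁻¹]`),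
  `rpm_exists_clear` (clearing denominators in a valuation ring), `rpm_exists_gauss_factor`,
  `rpm_isIntegral_gen` (`j(q^d)` is integral over `A[j]`: the modular equation, S28),
  `rpm_frac_of_subfield`, `rpm_jinv` (the q-integral inverse of `j`).
Downstream files stating `IsIntegral (rpm_ring A N x) g` should activate the instance shortcuts
`attribute [local instance] rpm_instAlgSubring rpm_instAlgFt` (the generic searches are slow).
Prefix `rpm_`.
-/
import Mathlib
import Fermat.Agent.JT3.PlaceMap.NodeE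
import Fermat.Agent.JT3.PlaceMap.BaseDefs
import Fermat.Agent.JT3.PlaceMap.LevelUp
import Fermat.Agent.JT3.PlaceMap.GenInst
import Fermat.Agent.JT3.PlaceMap.RedDedekind
import Fermat.Agent.JT3.PlaceMap.FunField
import Fermat.Agent.JT3.Hecke.InputsBar
import Fermat.Agent.JT3.S18.ConstRed

set_option autoImplicit false
set_option linter.unusedSectionVars false
set_option linter.style.haveILetI false

namespace Fermat.Agent.JT3

open AlgebraicCurve Polynomial ModularCurve Fermat.Agent.S24

/-! ### generic algebra -/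

section Scale

variable {F : Type*} [Field F]

/-- `u ^ M' * s ∈ S₀[u]` for `s ∈ S₀[x]`, `u = x⁻¹`, `M'` large. -/
theorem rpm_scale_mem (S₀ : Set F) {x : F} (hx : x ≠ 0) {s : F}
    (hs : s ∈ Subring.closure (S₀ ∪ {x})) :
    ∃ M : ℕ, ∀ M', M ≤ M' → x⁻¹ ^ M' * s ∈ Subring.closure (S₀ ∪ {x⁻¹}) := by
  have hu : x⁻¹ ∈ Subring.closure (S₀ ∪ {x⁻¹}) :=
    Subring.subset_closure (Or.inr rfl)
  induction hs using Subring.closure_induction with
  | mem s hs =>
    rcases hs with hs | hs
    · exact ⟨0, fun M' _ => mul_mem (pow_mem hu _) (Subring.subset_closure (Or.inl hs))⟩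
    · rw [Set.mem_singleton_iff] at hs
      subst hs
      refine ⟨1, fun M' hM' => ?_⟩
      obtain ⟨m, rfl⟩ : ∃ m, M' = m + 1 := ⟨M' - 1, by omega⟩
      rw [pow_succ, mul_assoc, inv_mul_cancel₀ hx, mul_one]
      exact pow_mem hu _
  | zero => exact ⟨0, fun M' _ => by rw [mul_zero]; exact zero_mem _⟩
  | one => exact ⟨0, fun M' _ => by rw [mul_one]; exact pow_mem hu _⟩
  | add s t _ _ hs ht =>
    obtain ⟨M1, h1⟩ := hs
    obtain ⟨M2, h2⟩ := ht
    refine ⟨max M1 M2, fun M' hM' => ?_⟩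
    rw [mul_add]
    exact add_mem (h1 M' (le_trans (le_max_left _ _) hM')) (h2 M' (le_trans (le_max_right _ _) hM'))
  | neg s _ hs =>
    obtain ⟨M1, h1⟩ := hs
    refine ⟨M1, fun M' hM' => ?_⟩
    rw [mul_neg]
    exact neg_mem (h1 M' hM')
  | mul s t _ _ hs ht =>
    obtain ⟨M1, h1⟩ := hs
    obtain ⟨M2, h2⟩ := ht
    refine ⟨M1 + M2, fun M' hM' => ?_⟩
    obtain ⟨m, rfl⟩ : ∃ m, M' = M1 + m := ⟨M' - M1, by omega⟩
    have : x⁻¹ ^ (M1 + m) * (s * t) = (x⁻¹ ^ M1 * s) * (x⁻¹ ^ m * t) := by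
      rw [pow_add]; ring
    rw [this]
    exact mul_mem (h1 M1 le_rfl) (h2 m (by omega))

/-- **scaling**: if `b` is integral over `S₀[x]` then `x⁻¹ ^ M * b` is integral over `S₀[x⁻¹]`
for some `M`. -/
theorem rpm_scale_isIntegral (S₀ : Set F) {x : F} (hx : x ≠ 0) {b : F}
    (hb : IsIntegral (Subring.closure (S₀ ∪ {x})) b) :
    ∃ M : ℕ, IsIntegral (Subring.closure (S₀ ∪ {x⁻¹})) (x⁻¹ ^ M * b) := by
  classical
  set S₁ := Subring.closure (S₀ ∪ {x}) with hS₁
  set S₂ := Subring.closure (S₀ ∪ {x⁻¹}) with hS₂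
  obtain ⟨p, hp, hpb⟩ := hb
  set pF : F[X] := p.map (algebraMap S₁ F) with hpF
  have hmon : pF.Monic := hp.map _
  have hroot : eval₂ (RingHom.id F) b pF = 0 := by
    rw [hpF, eval₂_map]
    simpa using hpb
  have hcoefS : ∀ i, pF.coeff i ∈ S₁ := by
    intro i
    rw [hpF, coeff_map]
    exact (p.coeff i).2
  have hex : ∀ i, ∃ M : ℕ, ∀ M', M ≤ M' → x⁻¹ ^ M' * pF.coeff i ∈ S₂ :=
    fun i => rpm_scale_mem S₀ hx (hcoefS i)
  choose Mf hMf using hex
  set n := pF.natDegree with hn
  set M := (Finset.range (n + 1)).sup Mf with hM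
  have hMle : ∀ i, i ≤ n → Mf i ≤ M := fun i hi =>
    Finset.le_sup (f := Mf) (Finset.mem_range.mpr (by omega))
  set q' : F[X] := scaleRoots pF (x⁻¹ ^ M) with hq'
  have hq'mon : q'.Monic := (monic_scaleRoots_iff _).mpr hmon
  have hq'root : eval₂ (RingHom.id F) (x⁻¹ ^ M * b) q' = 0 :=
    scaleRoots_eval₂_eq_zero (RingHom.id F) hroot
  have hcoef : ∀ i, q'.coeff i ∈ S₂ := by
    intro i
    rw [hq', coeff_scaleRoots]
    rcases lt_trichotomy i n with hi | hi | hi
    · rw [← pow_mul, mul_comm]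
      refine hMf i _ ?_
      have h1 : 1 ≤ n - i := by omega
      calc Mf i ≤ M := hMle i hi.le
        _ = M * 1 := (mul_one _).symm
        _ ≤ M * (n - i) := Nat.mul_le_mul_left _ h1
    · rw [hi, Nat.sub_self, pow_zero, mul_one, hn, coeff_natDegree, hmon.leadingCoeff]
      exact one_mem _
    · rw [coeff_eq_zero_of_natDegree_lt hi, zero_mul]
      exact zero_mem _
  have hl : q' ∈ lifts (algebraMap S₂ F) :=
    (lifts_iff_coeff_lifts _).mpr fun i => ⟨⟨_, hcoef i⟩, rfl⟩
  obtain ⟨q, hq, -, hqm⟩ := lifts_and_natDegree_eq_and_monic hl hq'mon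
  refine ⟨M, q, hqm, ?_⟩
  rw [← hq, eval₂_map] at hq'root
  simpa using hq'root

end Scale

section Denoms

variable {K : Type*} [Field K] (A : ValuationSubring K) {R : Type*} [CommRing R] [Algebra K R]

theorem rpm_exists_scalar (c : K) : ∃ a : A, (a : K) ≠ 0 ∧ (a : K) * c ∈ A := by
  rcases A.mem_or_inv_mem c with h | h
  · exact ⟨1, by simp, by simpa using h⟩
  · by_cases hc : c = 0
    · subst hc
      exact ⟨1, by simp, by simp [A.zero_mem]⟩
    · exact ⟨⟨c⁻¹, h⟩, inv_ne_zero hc, by rw [inv_mul_cancel₀ hc]; exact A.one_mem⟩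

/-- the constants of `A` inside a `K`-algebra -/
def rpm_constSet (R : Type*) [CommRing R] [Algebra K R] : Set R :=
  Set.range fun a : A => algebraMap K R (a : K)

theorem rpm_const_mem_closure (S : Set R) (a : A) :
    algebraMap K R (a : K) ∈ Subring.closure (rpm_constSet A R ∪ S) :=
  Subring.subset_closure (Or.inl ⟨a, rfl⟩)

/-- clearing denominators: an element of `K[S]` times a nonzero constant of `A` lies in `A[S]`. -/
theorem rpm_exists_clear (S : Set R) {x : R} (hx : x ∈ Algebra.adjoin K S) :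
    ∃ a : A, (a : K) ≠ 0 ∧
      algebraMap K R (a : K) * x ∈ Subring.closure (rpm_constSet A R ∪ S) := by
  induction hx using Algebra.adjoin_induction with
  | mem x hx =>
    exact ⟨1, by simp, by
      rw [OneMemClass.coe_one, map_one, one_mul]
      exact Subring.subset_closure (Or.inr hx)⟩
  | algebraMap r =>
    obtain ⟨a, ha, har⟩ := rpm_exists_scalar A r
    refine ⟨a, ha, ?_⟩
    rw [← map_mul]
    exact rpm_const_mem_closure A S ⟨_, har⟩
  | add x y _ _ hx hy =>
    obtain ⟨a₁, h₁, hx⟩ := hx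
    obtain ⟨a₂, h₂, hy⟩ := hy
    refine ⟨a₁ * a₂, mul_ne_zero h₁ h₂, ?_⟩
    have e : algebraMap K R ((a₁ * a₂ : A) : K) * (x + y) =
        algebraMap K R (a₂ : K) * (algebraMap K R (a₁ : K) * x) +
          algebraMap K R (a₁ : K) * (algebraMap K R (a₂ : K) * y) := by
      have e0 : ((a₁ * a₂ : A) : K) = (a₁ : K) * (a₂ : K) := rfl
      rw [e0, map_mul]
      ring
    rw [e]
    exact add_mem (mul_mem (rpm_const_mem_closure A S a₂) hx)
      (mul_mem (rpm_const_mem_closure A S a₁) hy)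
  | mul x y _ _ hx hy =>
    obtain ⟨a₁, h₁, hx⟩ := hx
    obtain ⟨a₂, h₂, hy⟩ := hy
    refine ⟨a₁ * a₂, mul_ne_zero h₁ h₂, ?_⟩
    have e : algebraMap K R ((a₁ * a₂ : A) : K) * (x * y) =
        (algebraMap K R (a₁ : K) * x) * (algebraMap K R (a₂ : K) * y) := by
      have e0 : ((a₁ * a₂ : A) : K) = (a₁ : K) * (a₂ : K) := rfl
      rw [e0, map_mul]
      ring
    rw [e]
    exact mul_mem hx hy

end Denoms

section GaussFactor

variable {Kb : Type*} [Field Kb] {A : ValuationSubring Kb}
variable {FF : Type*} [Field FF] [Algebra Kb FF]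
variable {k : Type*} [Field k] {Ft : Type*} [Field Ft] [Algebra k Ft]

/-- **Gauss factorisation**: every nonzero function is a constant times a quotient of chart
functions with nonzero reduction. -/
theorem rpm_exists_gauss_factor (C : rp_Chart A FF k Ft) (hL : C.HasLevels) (f : FF)
    (hf : f ≠ 0) :
    ∃ (c : Kb) (a b : C.B), c ≠ 0 ∧ C.red a ≠ 0 ∧ C.red b ≠ 0 ∧
      f * (b : FF) = algebraMap Kb FF c * (a : FF) := by
  classical
  obtain ⟨b, c, hb, hc, hc0, hyb⟩ := C.frac f
  obtain ⟨L, hSL, -⟩ := hL.refine {b, c} ∅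
    (fun z hz => by
      rcases Finset.mem_insert.1 hz with rfl | hz
      · exact hb
      · rw [Finset.mem_singleton.1 hz]; exact hc)
    (fun P hP => by simp at hP)
  have hbL : b ∈ L.Bl := hSL b (Finset.mem_insert_self _ _)
  have hcL : c ∈ L.Bl := hSL c (Finset.mem_insert_of_mem (Finset.mem_singleton_self _))
  haveI : IsNoetherianRing L.Bl := L.noeth
  haveI : WfDvdMonoid L.Bl := IsNoetherianRing.wfDvdMonoid
  have hb0 : b ≠ 0 := by
    rintro rfl
    rw [zero_div] at hyb
    exact hf hyb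
  have hbL0 : (⟨b, hbL⟩ : L.Bl) ≠ 0 := fun h0 => hb0 (congrArg Subtype.val h0)
  have hcL0 : (⟨c, hcL⟩ : L.Bl) ≠ 0 := fun h0 => hc0 (congrArg Subtype.val h0)
  obtain ⟨m, b₀, hb₀, hbm⟩ :=
    WfDvdMonoid.max_power_factor' hbL0 (rpc_piBl_not_isUnit C L)
  obtain ⟨n, c₀, hc₀, hcn⟩ :=
    WfDvdMonoid.max_power_factor' hcL0 (rpc_piBl_not_isUnit C L)
  have hrb := rpc_redBl_ne_zero_of_not_dvd C L hb₀
  have hrc := rpc_redBl_ne_zero_of_not_dvd C L hc₀
  set π : FF := algebraMap Kb FF L.ϖ with hπ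
  have hπ0 : π ≠ 0 := by
    rw [hπ, Ne, map_eq_zero]; exact L.ϖ_ne
  have hbm' : b = π ^ m * (b₀ : FF) := by
    have := congrArg Subtype.val hbm
    simpa [rpc_piBl] using this
  have hcn' : c = π ^ n * (c₀ : FF) := by
    have := congrArg Subtype.val hcn
    simpa [rpc_piBl] using this
  have hrel : f * (π ^ n * (c₀ : FF)) = π ^ m * (b₀ : FF) := by
    rw [← hcn', ← hbm', hyb, div_mul_cancel₀ _ hc0]
  refine ⟨L.ϖ ^ m * (L.ϖ ^ n)⁻¹, ⟨(b₀ : FF), L.Bl_le b₀.2⟩, ⟨(c₀ : FF), L.Bl_le c₀.2⟩,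
    mul_ne_zero (pow_ne_zero _ L.ϖ_ne) (inv_ne_zero (pow_ne_zero _ L.ϖ_ne)), hrb, hrc, ?_⟩
  change f * (c₀ : FF) = algebraMap Kb FF (L.ϖ ^ m * (L.ϖ ^ n)⁻¹) * (b₀ : FF)
  rw [map_mul, map_inv₀, map_pow, map_pow, ← hπ]
  have hπn : π ^ n ≠ 0 := pow_ne_zero n hπ0
  field_simp
  linear_combination hrel

end GaussFactor

section Modular

variable (A : ValuationSubring Kbar) (N : ℕ) [NeZero N]

/-! ### q-expansions -/

theorem rpm_order_jq (R : Type*) [CommRing R] [Nontrivial R] : (jqModC R).order = -1 := by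
  apply le_antisymm
  · exact HahnSeries.order_le_of_coeff_ne_zero (by rw [coeff_jqModC_neg_one]; exact one_ne_zero)
  · by_contra h
    push Not at h
    have := coeff_jqModC_of_lt R h
    exact (jqModC_ne_zero_of_nontrivial R) (HahnSeries.coeff_order_eq_zero.mp this)

theorem rpm_isUnit_jq (R : Type*) [CommRing R] [IsDomain R] : IsUnit (jqModC R) := by
  rw [HahnSeries.isUnit_iff, HahnSeries.leadingCoeff_eq, rpm_order_jq, coeff_jqModC_neg_one]
  exact isUnit_one

/-- the q-integral inverse of `j` -/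
noncomputable def rpm_jinv (R : Type*) [CommRing R] [IsDomain R] : LaurentSeries R :=
  ((rpm_isUnit_jq R).unit⁻¹ : (LaurentSeries R)ˣ)

theorem rpm_jq_mul_jinv (R : Type*) [CommRing R] [IsDomain R] : jqModC R * rpm_jinv R = 1 :=
  (rpm_isUnit_jq R).mul_val_inv

theorem rpm_coeffMap_jinv {R S : Type*} [CommRing R] [IsDomain R] [Field S] (f : R →+* S) :
    coeffMap f (rpm_jinv R) = (jqModC S)⁻¹ := by
  have h := congrArg (coeffMap f) (rpm_jq_mul_jinv R)
  rw [map_mul, map_one, coeffMap_jqModC] at h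
  exact eq_inv_of_mul_eq_one_right h

theorem rpm_coe_algebraMap (c : Kbar) :
    ((algebraMap Kbar (Fbar N) c : Fbar N) : LaurentSeries Kbar) = HahnSeries.single 0 c := by
  rw [← algebraMap_laurentSeries_eq_single]
  rfl

theorem rpm_jqK_eq : br_jqK = jqModC Kbar := by
  rw [br_jqK, coeffEmb, ← jqModC_rat, coeffMap_jqModC]

theorem rpm_barGen_eq (d : ℕ) [NeZero d] : barGen d = qExpand Kbar d (jqModC Kbar) := by
  rw [barGen, coeffEmb, coeffMap_qExpand, ← jqModC_rat, coeffMap_jqModC]

/-! ### membership in the ring of integral functions -/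

theorem rpm_const_mem_int (a : A) :
    algebraMap Kbar (Fbar N) (a : Kbar) ∈ rpg_intSubring A (IsLocalRing.residue A) N := by
  refine ⟨HahnSeries.single 0 a, ?_, ?_⟩
  · rw [coeffMap_single, rpm_coe_algebraMap]
    rfl
  · rw [coeffMap_single, ← algebraMap_laurentSeries_eq_single]
    exact IntermediateField.algebraMap_mem _ _

theorem rpm_intRed_coe (f : rpg_intSubring A (IsLocalRing.residue A) N) (y : LaurentSeries A)
    (hy : coeffMap A.subtype y = ((f : Fbar N) : LaurentSeries Kbar)) :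
    ((rpg_intRed A (IsLocalRing.residue A) N f :
      ↥(modularFunctionFieldFullC (IsLocalRing.ResidueField A) N)) :
        LaurentSeries (IsLocalRing.ResidueField A)) = coeffMap (IsLocalRing.residue A) y := by
  change coeffMap (IsLocalRing.residue A) (rpg_intLift A (IsLocalRing.residue A) N f) = _
  rw [rpg_intLift_eq A (IsLocalRing.residue A) N f y hy]

theorem rpm_gen_mem_int {d : ℕ} [NeZero d] (hd : d ∣ N) {g : Fbar N}
    (hg : (g : LaurentSeries Kbar) = barGen d) :
    g ∈ rpg_intSubring A (IsLocalRing.residue A) N := by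
  refine ⟨qExpand A d (jqModC A), ?_, ?_⟩
  · rw [coeffMap_qExpand, coeffMap_jqModC, hg, rpm_barGen_eq]
  · rw [coeffMap_qExpand, coeffMap_jqModC]
    exact jqModCd_mem_full _ N hd

theorem rpm_j_mem_int : br_jBar N ∈ rpg_intSubring A (IsLocalRing.residue A) N := by
  refine ⟨jqModC A, ?_, ?_⟩
  · rw [coeffMap_jqModC, coe_br_jBar, rpm_jqK_eq]
  · rw [coeffMap_jqModC]
    exact jqModC_mem_full _ N

theorem rpm_jinv_mem_int : (br_jBar N)⁻¹ ∈ rpg_intSubring A (IsLocalRing.residue A) N := by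
  refine ⟨rpm_jinv A, ?_, ?_⟩
  · rw [rpm_coeffMap_jinv, ← rpm_jqK_eq]
    rfl
  · rw [rpm_coeffMap_jinv]
    exact inv_mem (jqModC_mem_full _ N)

theorem rpm_j_ne_zero : br_jBar N ≠ 0 := by
  intro h
  have := congrArg (fun f : Fbar N => (f : LaurentSeries Kbar)) h
  simp only [coe_br_jBar, rpm_jqK_eq] at this
  exact jqModC_ne_zero_of_nontrivial Kbar this

/-! ### instance shortcuts (the generic searches are very slow on these concrete types) -/

set_option synthInstance.maxHeartbeats 400000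

/-- the algebra structure of a field over a subring (generic search) -/
@[reducible] noncomputable def rpm_algSub {FF : Type*} [Field FF] (S : Subring FF) : Algebra S FF :=
  inferInstance

/-- the algebra structure of the reduced function field (generic search) -/
@[reducible] noncomputable def rpm_algFt (k : Type*) [Field k] (N : ℕ) :
    Algebra k ↥(modularFunctionFieldFullC k N) :=
  inferInstance

noncomputable local instance (priority := 10000) rpm_instAlgSubring (S : Subring (Fbar N)) :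
    Algebra S (Fbar N) := rpm_algSub S

noncomputable local instance (priority := 10000) rpm_instAlgFt :
    Algebra (IsLocalRing.ResidueField A)
      ↥(modularFunctionFieldFullC (IsLocalRing.ResidueField A) N) :=
  rpm_algFt _ N

/-! ### the rings `A[x]` and the chart data -/

/-- `A[x] ⊆ F̄_N` -/
noncomputable def rpm_ring (x : Fbar N) : Subring (Fbar N) :=
  Subring.closure (rpm_constSet A (Fbar N) ∪ {x})

theorem rpm_const_mem_ring (x : Fbar N) (a : A) :
    algebraMap Kbar (Fbar N) (a : Kbar) ∈ rpm_ring A N x :=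
  Subring.subset_closure (Or.inl ⟨a, rfl⟩)

theorem rpm_self_mem_ring (x : Fbar N) : x ∈ rpm_ring A N x :=
  Subring.subset_closure (Or.inr rfl)

theorem rpm_ring_le_int {x : Fbar N} (hx : x ∈ rpg_intSubring A (IsLocalRing.residue A) N) :
    rpm_ring A N x ≤ rpg_intSubring A (IsLocalRing.residue A) N := by
  rw [rpm_ring, Subring.closure_le]
  rintro _ (⟨a, rfl⟩ | h)
  · exact rpm_const_mem_int A N a
  · rw [Set.mem_singleton_iff] at h
    rw [h]
    exact hx

theorem rpm_isIntegral_of_mem_ring {x f : Fbar N} (hf : f ∈ rpm_ring A N x) :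
    IsIntegral (rpm_ring A N x) f :=
  isIntegral_algebraMap (R := rpm_ring A N x) (x := ⟨f, hf⟩)

theorem rpm_intRed_const (a : A) :
    rpg_intRed A (IsLocalRing.residue A) N
        ⟨algebraMap Kbar (Fbar N) (a : Kbar), rpm_const_mem_int A N a⟩ =
      algebraMap (IsLocalRing.ResidueField A)
        ↥(modularFunctionFieldFullC (IsLocalRing.ResidueField A) N) (IsLocalRing.residue A a) := by
  apply Subtype.ext
  rw [rpm_intRed_coe A N ⟨_, rpm_const_mem_int A N a⟩ (HahnSeries.single 0 a) (by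
    rw [coeffMap_single]
    exact (rpm_coe_algebraMap N _).symm), coeffMap_single, ← algebraMap_laurentSeries_eq_single]
  rfl

/-- **The data of a chart of the model with coordinate `x`**: a ring `B` of q-integral functions
(with reduction in the reduced function field), integral over `A[x]`, containing the constants of
`A` and `x`, with fraction field `F̄_N`. -/
structure rpm_ChartData (x : Fbar N) where
  /-- the chart ring -/
  B : Subring (Fbar N)
  const_mem : ∀ a : A, algebraMap Kbar (Fbar N) (a : Kbar) ∈ B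
  le_int : B ≤ rpg_intSubring A (IsLocalRing.residue A) N
  integral : ∀ b ∈ B, IsIntegral (rpm_ring A N x) b
  x_mem : x ∈ B
  frac : ∀ f : Fbar N, ∃ b c : Fbar N, b ∈ B ∧ c ∈ B ∧ c ≠ 0 ∧ f = b / c

variable {A N}

/-- **the chart** of a chart datum: reduction map = reduction of q-expansions. -/
noncomputable def rpm_ChartData.chart {x : Fbar N} (D : rpm_ChartData A N x) :
    rp_Chart A (Fbar N) (IsLocalRing.ResidueField A)
      ↥(modularFunctionFieldFullC (IsLocalRing.ResidueField A) N) where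
  res := IsLocalRing.residue A
  res_surj := IsLocalRing.residue_surjective
  B := D.B
  const_mem := D.const_mem
  frac := D.frac
  red := (rpg_intRed A (IsLocalRing.residue A) N).comp (Subring.inclusion D.le_int)
  red_const a := rpm_intRed_const A N a

theorem rpm_ChartData.chart_B {x : Fbar N} (D : rpm_ChartData A N x) : D.chart.B = D.B := rfl

theorem rpm_ChartData.chart_red {x : Fbar N} (D : rpm_ChartData A N x) (b : D.chart.B) :
    D.chart.red b = rpg_intRed A (IsLocalRing.residue A) N ⟨b, D.le_int b.2⟩ := rfl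

theorem rpm_ChartData.x_mem_int {x : Fbar N} (D : rpm_ChartData A N x) :
    x ∈ rpg_intSubring A (IsLocalRing.residue A) N := D.le_int D.x_mem

variable (A N)

/-- the maximal chart ring: q-integral functions with reduction in the reduced function field
which are integral over `A[x]`. -/
noncomputable def rpm_B (x : Fbar N) : Subring (Fbar N) :=
  rpg_intSubring A (IsLocalRing.residue A) N ⊓
    (integralClosure (rpm_ring A N x) (Fbar N)).toSubring

theorem rpm_mem_B {x f : Fbar N} :
    f ∈ rpm_B A N x ↔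
      f ∈ rpg_intSubring A (IsLocalRing.residue A) N ∧ IsIntegral (rpm_ring A N x) f :=
  Iff.rfl

theorem rpm_B_le_int (x : Fbar N) : rpm_B A N x ≤ rpg_intSubring A (IsLocalRing.residue A) N :=
  inf_le_left

theorem rpm_ring_le_B {x : Fbar N} (hx : x ∈ rpg_intSubring A (IsLocalRing.residue A) N) :
    rpm_ring A N x ≤ rpm_B A N x :=
  fun _ hf => ⟨rpm_ring_le_int A N hx hf, rpm_isIntegral_of_mem_ring A N hf⟩

theorem rpm_const_mem_B (x : Fbar N) (a : A) :
    algebraMap Kbar (Fbar N) (a : Kbar) ∈ rpm_B A N x :=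
  ⟨rpm_const_mem_int A N a, rpm_isIntegral_of_mem_ring A N (rpm_const_mem_ring A N x a)⟩

/-- the maximal chart datum of `x`, given `frac`. -/
noncomputable def rpm_dataMax (x : Fbar N)
    (hx : x ∈ rpg_intSubring A (IsLocalRing.residue A) N)
    (hfrac : ∀ f : Fbar N, ∃ b c : Fbar N, b ∈ rpm_B A N x ∧ c ∈ rpm_B A N x ∧ c ≠ 0 ∧ f = b / c) :
    rpm_ChartData A N x where
  B := rpm_B A N x
  const_mem := rpm_const_mem_B A N x
  le_int := rpm_B_le_int A N x
  integral := fun _ hb => hb.2
  x_mem := rpm_ring_le_B A N hx (rpm_self_mem_ring A N x)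
  frac := hfrac

/-! ### the modular equation: `j(q^d)` is integral over `A[j]` -/

section ModEq

variable {ℓ : ℕ} [Fact ℓ.Prime]

/-- `ℤ_(ℓ) → A[j]` -/
noncomputable def rpm_rho (hA : A.LiesOverPrime ℓ) :
    ↥(GaloisRep.ratLocalizedAt ℓ) →+* rpm_ring A N (br_jBar N) :=
  ((algebraMap Kbar (Fbar N)).comp
    ((algebraMap ℚ Kbar).comp (GaloisRep.ratLocalizedAt ℓ).subtype)).codRestrict
      (rpm_ring A N (br_jBar N))
      (fun r => rpm_const_mem_ring A N (br_jBar N) ⟨_, jcr_mem A hA r⟩)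

theorem rpm_isIntegral_gen (hA : A.LiesOverPrime ℓ) {d : ℕ} [NeZero d] (hℓd : ¬ ℓ ∣ d)
    {g : Fbar N} (hg : (g : LaurentSeries Kbar) = barGen d) :
    IsIntegral (rpm_ring A N (br_jBar N)) g := by
  obtain ⟨Φ, hm, h0, -⟩ := Fermat.Agent.S28.wr_inputs d ℓ hℓd
  let θ : Polynomial ↥(GaloisRep.ratLocalizedAt ℓ) →+* rpm_ring A N (br_jBar N) :=
    Polynomial.eval₂RingHom (rpm_rho A N hA) ⟨br_jBar N, rpm_self_mem_ring A N _⟩
  refine ⟨Φ.map θ, hm.map θ, ?_⟩
  rw [Polynomial.eval₂_map]
  have hinj : Function.Injective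
      ((modularFunctionFieldBar N).val : Fbar N →+* LaurentSeries Kbar) :=
    ((modularFunctionFieldBar N).val : Fbar N →+* LaurentSeries Kbar).injective
  apply hinj
  rw [map_zero]
  have h1 := Polynomial.hom_eval₂ Φ ((algebraMap (rpm_ring A N (br_jBar N)) (Fbar N)).comp θ)
    ((modularFunctionFieldBar N).val : Fbar N →+* LaurentSeries Kbar) g
  have h2 : ((modularFunctionFieldBar N).val : Fbar N →+* LaurentSeries Kbar).comp
      ((algebraMap (rpm_ring A N (br_jBar N)) (Fbar N)).comp θ)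
      = (coeffEmb Kbar).comp (Polynomial.eval₂RingHom
          ((HahnSeries.C : ℚ →+* LaurentSeries ℚ).comp
            (algebraMap ↥(GaloisRep.ratLocalizedAt ℓ) ℚ)) jq) := by
    refine Polynomial.ringHom_ext (fun r => ?_) ?_
    · simp only [θ, RingHom.comp_apply, Polynomial.coe_eval₂RingHom, Polynomial.eval₂_C]
      rw [HahnSeries.C_apply, coeffEmb, coeffMap_single]
      exact rpm_coe_algebraMap N _
    · simp only [θ, RingHom.comp_apply, Polynomial.coe_eval₂RingHom, Polynomial.eval₂_X]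
      rfl
  rw [h2] at h1
  rw [h1]
  have h3 : ((modularFunctionFieldBar N).val : Fbar N →+* LaurentSeries Kbar) g
      = coeffEmb Kbar (jqN d) := hg
  rw [h3, ← Polynomial.hom_eval₂, h0, map_zero]

end ModEq

/-! ### fractions -/

/-- the generators `j(q^d)`, `d ∣ N`, inside `F̄_N` -/
def rpm_gens : Set (Fbar N) := {g | (g : LaurentSeries Kbar) ∈ barGens N}

/-- `A[j(q^d) : d ∣ N]` -/
noncomputable def rpm_R1 : Subring (Fbar N) :=
  Subring.closure (rpm_constSet A (Fbar N) ∪ rpm_gens N)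

theorem rpm_transfer {x : LaurentSeries Kbar}
    (hx : x ∈ Subring.closure (rpm_constSet A (LaurentSeries Kbar) ∪ barGens N)) :
    ∃ h : x ∈ modularFunctionFieldBar N, (⟨x, h⟩ : Fbar N) ∈ rpm_R1 A N := by
  induction hx using Subring.closure_induction with
  | mem x hx =>
    rcases hx with ⟨a, rfl⟩ | hx
    · exact ⟨IntermediateField.algebraMap_mem _ _, Subring.subset_closure (Or.inl ⟨a, rfl⟩)⟩
    · have hmem : x ∈ modularFunctionFieldBar N := A0_le N (Algebra.subset_adjoin hx)
      exact ⟨hmem, Subring.subset_closure (Or.inr hx)⟩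
  | zero => exact ⟨zero_mem _, zero_mem _⟩
  | one => exact ⟨one_mem _, one_mem _⟩
  | add x y _ _ hx hy =>
    obtain ⟨h1, h1'⟩ := hx
    obtain ⟨h2, h2'⟩ := hy
    exact ⟨add_mem h1 h2, add_mem h1' h2'⟩
  | neg x _ hx =>
    obtain ⟨h1, h1'⟩ := hx
    exact ⟨neg_mem h1, neg_mem h1'⟩
  | mul x y _ _ hx hy =>
    obtain ⟨h1, h1'⟩ := hx
    obtain ⟨h2, h2'⟩ := hy
    refine ⟨mul_mem h1 h2, ?_⟩
    have e : (⟨x * y, mul_mem h1 h2⟩ : Fbar N) = ⟨x, h1⟩ * ⟨y, h2⟩ := Subtype.ext (by simp)
    rw [e]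
    exact mul_mem h1' h2'

/-- every function is a quotient of two elements of `A[j(q^d) : d ∣ N]`. -/
theorem rpm_exists_div_R1 (f : Fbar N) :
    ∃ b c : Fbar N, b ∈ rpm_R1 A N ∧ c ∈ rpm_R1 A N ∧ c ≠ 0 ∧ f = b / c := by
  obtain ⟨r, hr, s, hs, hs0, hf⟩ := br_exists_div N f.2
  obtain ⟨a₁, ha₁, hr'⟩ := rpm_exists_clear A (barGens N) hr
  obtain ⟨a₂, ha₂, hs'⟩ := rpm_exists_clear A (barGens N) hs
  obtain ⟨h1, h1'⟩ := rpm_transfer A N hr'
  obtain ⟨h2, h2'⟩ := rpm_transfer A N hs'
  have hc : ∀ a : A, algebraMap Kbar (Fbar N) (a : Kbar) ∈ rpm_R1 A N :=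
    fun a => Subring.subset_closure (Or.inl ⟨a, rfl⟩)
  refine ⟨algebraMap Kbar (Fbar N) (a₂ : Kbar) * ⟨_, h1⟩,
    algebraMap Kbar (Fbar N) (a₁ : Kbar) * ⟨_, h2⟩,
    mul_mem (hc a₂) h1', mul_mem (hc a₁) h2', ?_, ?_⟩
  · refine mul_ne_zero (by simpa using ha₁) ?_
    intro h
    have h3 := congrArg (fun z : Fbar N => (z : LaurentSeries Kbar)) h
    simp only [ZeroMemClass.coe_zero, mul_eq_zero] at h3
    rcases h3 with h3 | h3
    · exact ha₂ (by simpa using h3)
    · exact hs0 h3
  · apply Subtype.ext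
    have hn1 : algebraMap Kbar (LaurentSeries Kbar) (a₁ : Kbar) ≠ 0 := by simpa using ha₁
    have hn2 : algebraMap Kbar (LaurentSeries Kbar) (a₂ : Kbar) ≠ 0 := by simpa using ha₂
    rw [hf]
    push_cast
    field_simp

/-- **fractions**: a subring containing the constants of `A` whose fraction field contains the
generators `j(q^d)` has fraction field `F̄_N`. -/
theorem rpm_frac_of_subfield (B : Subring (Fbar N))
    (hconst : ∀ a : A, algebraMap Kbar (Fbar N) (a : Kbar) ∈ B)
    (hg : ∀ g ∈ rpm_gens N, g ∈ Subfield.closure (B : Set (Fbar N))) (f : Fbar N) :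
    ∃ b c : Fbar N, b ∈ B ∧ c ∈ B ∧ c ≠ 0 ∧ f = b / c := by
  have hle : rpm_R1 A N ≤ (Subfield.closure (B : Set (Fbar N))).toSubring := by
    rw [rpm_R1, Subring.closure_le]
    rintro _ (⟨a, rfl⟩ | h)
    · exact Subfield.subset_closure (hconst a)
    · exact hg _ h
  obtain ⟨b, c, hb, hc, hc0, hf⟩ := rpm_exists_div_R1 A N f
  have hfm : f ∈ Subfield.closure (B : Set (Fbar N)) := by
    rw [hf]
    exact div_mem (hle hb) (hle hc)
  rw [Subfield.mem_closure_iff, Subring.closure_eq] at hfm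
  obtain ⟨y, hy, z, hz, hyz⟩ := hfm
  by_cases hz0 : z = 0
  · refine ⟨0, 1, zero_mem _, one_mem _, one_ne_zero, ?_⟩
    rw [← hyz, hz0, div_zero, zero_div]
  · exact ⟨y, z, hy, hz, hz0, hyz.symm⟩

/-! ### the maximal charts -/

section Chart1

variable {ℓ : ℕ} [Fact ℓ.Prime]

theorem rpm_R1_le_B (hℓN : ¬ ℓ ∣ N) (hA : A.LiesOverPrime ℓ) :
    rpm_R1 A N ≤ rpm_B A N (br_jBar N) := by
  rw [rpm_R1, Subring.closure_le]
  rintro _ (⟨a, rfl⟩ | ⟨d, hd, hdN, hg⟩)
  · exact rpm_const_mem_B A N _ a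
  · haveI := hd
    exact ⟨rpm_gen_mem_int A N hdN hg,
      rpm_isIntegral_gen A N hA (fun h => hℓN (h.trans hdN)) hg⟩

theorem rpm_frac1 (hℓN : ¬ ℓ ∣ N) (hA : A.LiesOverPrime ℓ) (f : Fbar N) :
    ∃ b c : Fbar N, b ∈ rpm_B A N (br_jBar N) ∧ c ∈ rpm_B A N (br_jBar N) ∧ c ≠ 0 ∧
      f = b / c := by
  obtain ⟨b, c, hb, hc, hc0, hf⟩ := rpm_exists_div_R1 A N f
  have hle := rpm_R1_le_B A N hℓN hA
  exact ⟨b, c, hle hb, hle hc, hc0, hf⟩

/-- **the maximal first chart** (`x = j`, the affine `j`-line). -/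
noncomputable def rpm_D1 (hℓN : ¬ ℓ ∣ N) (hA : A.LiesOverPrime ℓ) :
    rpm_ChartData A N (br_jBar N) :=
  rpm_dataMax A N (br_jBar N) (rpm_j_mem_int A N) (rpm_frac1 A N hℓN hA)

end Chart1

section Chart2

variable {ℓ : ℕ} [Fact ℓ.Prime]

theorem rpm_frac2 (hℓN : ¬ ℓ ∣ N) (hA : A.LiesOverPrime ℓ) (f : Fbar N) :
    ∃ b c : Fbar N, b ∈ rpm_B A N (br_jBar N)⁻¹ ∧ c ∈ rpm_B A N (br_jBar N)⁻¹ ∧ c ≠ 0 ∧
      f = b / c := by
  obtain ⟨b, c, hb, hc, hc0, hf⟩ := rpm_frac1 A N hℓN hA f
  obtain ⟨M1, hM1⟩ := rpm_scale_isIntegral (rpm_constSet A (Fbar N)) (rpm_j_ne_zero N) hb.2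
  obtain ⟨M2, hM2⟩ := rpm_scale_isIntegral (rpm_constSet A (Fbar N)) (rpm_j_ne_zero N) hc.2
  have hu0 : (br_jBar N)⁻¹ ≠ 0 := inv_ne_zero (rpm_j_ne_zero N)
  have hu : (br_jBar N)⁻¹ ∈ rpm_B A N (br_jBar N)⁻¹ :=
    rpm_ring_le_B A N (rpm_jinv_mem_int A N) (rpm_self_mem_ring A N _)
  have hb' : (br_jBar N)⁻¹ ^ M1 * b ∈ rpm_B A N (br_jBar N)⁻¹ :=
    ⟨mul_mem (pow_mem hu.1 _) hb.1, hM1⟩
  have hc' : (br_jBar N)⁻¹ ^ M2 * c ∈ rpm_B A N (br_jBar N)⁻¹ :=
    ⟨mul_mem (pow_mem hu.1 _) hc.1, hM2⟩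
  refine ⟨(br_jBar N)⁻¹ ^ M2 * ((br_jBar N)⁻¹ ^ M1 * b),
    (br_jBar N)⁻¹ ^ M1 * ((br_jBar N)⁻¹ ^ M2 * c),
    mul_mem (pow_mem hu _) hb', mul_mem (pow_mem hu _) hc', ?_, ?_⟩
  · exact mul_ne_zero (pow_ne_zero _ hu0) (mul_ne_zero (pow_ne_zero _ hu0) hc0)
  · rw [hf]
    have h1 := pow_ne_zero M1 hu0
    have h2 := pow_ne_zero M2 hu0
    rw [show (br_jBar N)⁻¹ ^ M2 * ((br_jBar N)⁻¹ ^ M1 * b)
        = ((br_jBar N)⁻¹ ^ M2 * (br_jBar N)⁻¹ ^ M1) * b by ring,
      show (br_jBar N)⁻¹ ^ M1 * ((br_jBar N)⁻¹ ^ M2 * c)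
        = ((br_jBar N)⁻¹ ^ M2 * (br_jBar N)⁻¹ ^ M1) * c by ring,
      mul_div_mul_left _ _ (mul_ne_zero h2 h1)]

/-- **the maximal second chart** (`x = j⁻¹`, the neighbourhood of the cusps). -/
noncomputable def rpm_D2 (hℓN : ¬ ℓ ∣ N) (hA : A.LiesOverPrime ℓ) :
    rpm_ChartData A N (br_jBar N)⁻¹ :=
  rpm_dataMax A N (br_jBar N)⁻¹ (rpm_jinv_mem_int A N) (rpm_frac2 A N hℓN hA)

end Chart2

/-! ### the covering properties -/

variable {A N}

/-- a place where `x` has a value in `A` lies in the chart of `x`. -/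
theorem rpm_ChartData.covP {x : Fbar N} (D : rpm_ChartData A N x)
    (hF : rp_FunField Kbar (Fbar N)) (P : Place Kbar (Fbar N))
    (h : ∃ c : A, x - algebraMap Kbar (Fbar N) (c : Kbar) ∈ P.toValuationSubring.nonunits) :
    D.chart.InChart P := by
  refine rpd_inChart_of_isIntegral D.chart (rpm_ring A N x)
    (fun b hb => D.integral b hb) P (hF.exists_value P) ?_
  intro s hs
  change s ∈ Subring.closure (rpm_constSet A (Fbar N) ∪ {x}) at hs
  induction hs using Subring.closure_induction with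
  | mem s hs =>
    rcases hs with ⟨a, rfl⟩ | hs
    · exact ⟨a, rp_hasValue_const _⟩
    · rw [Set.mem_singleton_iff] at hs
      subst hs
      exact h
  | zero => exact ⟨0, by simp⟩
  | one => exact ⟨1, by simp⟩
  | add s t _ _ hs ht =>
    obtain ⟨c, hc⟩ := hs
    obtain ⟨d, hd⟩ := ht
    exact ⟨c + d, rp_HasValue.add hc hd⟩
  | neg s _ hs =>
    obtain ⟨c, hc⟩ := hs
    exact ⟨-c, rp_HasValue.neg hc⟩
  | mul s t _ _ hs ht =>
    obtain ⟨c, hc⟩ := hs
    obtain ⟨d, hd⟩ := ht
    exact ⟨c * d, rp_HasValue.mul hc hd⟩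

/-- a place of the reduction where `x̃` is finite is finite on the reduced chart of `x`. -/
theorem rpm_ChartData.covQ {x : Fbar N} (D : rpm_ChartData A N x)
    (Q : Place (IsLocalRing.ResidueField A)
      ↥(modularFunctionFieldFullC (IsLocalRing.ResidueField A) N))
    (h : rpg_intRed A (IsLocalRing.residue A) N ⟨x, D.x_mem_int⟩ ∈ Q.toValuationSubring) :
    D.chart.FinRed Q := by
  intro b
  rw [D.chart_red]
  have hx := D.x_mem_int
  set Int := rpg_intSubring A (IsLocalRing.residue A) N with hInt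
  set redI := rpg_intRed A (IsLocalRing.residue A) N with hredI
  -- the subring of functions whose reduction is regular at `Q`
  set T : Subring (Fbar N) := ((Q.toValuationSubring.toSubring).comap redI).map Int.subtype
    with hT
  have hle : rpm_ring A N x ≤ T := by
    rw [rpm_ring, Subring.closure_le]
    rintro _ (⟨a, rfl⟩ | hs)
    · refine ⟨⟨_, rpm_const_mem_int A N a⟩, ?_, rfl⟩
      change redI _ ∈ Q.toValuationSubring
      rw [hredI, rpm_intRed_const]
      exact Q.algebraMap_mem' _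
    · rw [Set.mem_singleton_iff] at hs
      rw [hs]
      exact ⟨⟨x, hx⟩, h, rfl⟩
  have hleI : rpm_ring A N x ≤ Int := rpm_ring_le_int A N hx
  have hmem : ∀ s : rpm_ring A N x,
      (redI.comp (Subring.inclusion hleI)) s ∈ Q.toValuationSubring := by
    intro s
    obtain ⟨y, hy, hys⟩ := hle s.2
    have : Subring.inclusion hleI s = y := Subtype.ext hys.symm
    rw [RingHom.comp_apply, this]
    exact hy
  let φ : rpm_ring A N x →+* Q.toValuationSubring :=
    (redI.comp (Subring.inclusion hleI)).codRestrict Q.toValuationSubring hmem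
  obtain ⟨p, hp, hpb⟩ := D.integral b b.2
  have hint : IsIntegral Q.toValuationSubring
      ((redI ⟨b, D.le_int b.2⟩ :
        ↥(modularFunctionFieldFullC (IsLocalRing.ResidueField A) N))) := by
    refine ⟨p.map φ, hp.map _, ?_⟩
    rw [Polynomial.eval₂_map]
    have h1 : (algebraMap Q.toValuationSubring
        ↥(modularFunctionFieldFullC (IsLocalRing.ResidueField A) N)).comp φ
        = redI.comp (Subring.inclusion hleI) := by
      ext s
      rfl
    rw [h1, ← Polynomial.hom_eval₂]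
    have h2 : Polynomial.eval₂ (Subring.inclusion hleI) ⟨b, D.le_int b.2⟩ p = 0 := by
      apply Subtype.ext
      have := Polynomial.hom_eval₂ p (Subring.inclusion hleI) Int.subtype
        ⟨b, D.le_int b.2⟩
      change Int.subtype (Polynomial.eval₂ (Subring.inclusion hleI) _ p) = 0
      rw [this]
      exact hpb
    rw [h2, map_zero]
  obtain ⟨y, hy⟩ := IsIntegrallyClosed.algebraMap_eq_of_integral hint
  rw [← hy]
  exact y.2

variable (A N)

/-! ### chart data from a set of generators: `B = A[gens]` -/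

/-- **good generators** of a chart with coordinate `x`: q-integral functions (with reduction in
the reduced function field), integral over `A[x]`, such that `x ∈ A[gens]` and the fraction field
of `A[gens]` contains the `j(q^d)`, `d ∣ N`. -/
structure rpm_GoodGens (x : Fbar N) (gens : Set (Fbar N)) : Prop where
  mem_int : ∀ g ∈ gens, g ∈ rpg_intSubring A (IsLocalRing.residue A) N
  integral : ∀ g ∈ gens, IsIntegral (rpm_ring A N x) g
  x_mem : x ∈ rp_genRing A.toSubring gens
  frac : ∀ g ∈ rpm_gens N, g ∈ Subfield.closure (rp_genRing A.toSubring gens : Set (Fbar N))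

theorem rpm_const_mem_genRing (gens : Set (Fbar N)) (a : A) :
    algebraMap Kbar (Fbar N) (a : Kbar) ∈ rp_genRing A.toSubring gens :=
  Subring.subset_closure (Or.inr ⟨(a : Kbar), a.2, rfl⟩)

/-- the chart datum with chart ring `A[gens]`. -/
noncomputable def rpm_dataGen (x : Fbar N) (gens : Set (Fbar N)) (h : rpm_GoodGens A N x gens) :
    rpm_ChartData A N x where
  B := rp_genRing A.toSubring gens
  const_mem := rpm_const_mem_genRing A N gens
  le_int := by
    rw [rp_genRing, Subring.closure_le]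
    rintro _ (hg | ⟨a, ha, rfl⟩)
    · exact h.mem_int _ hg
    · exact rpm_const_mem_int A N ⟨a, ha⟩
  integral := by
    have hle : rp_genRing A.toSubring gens ≤
        (integralClosure (rpm_ring A N x) (Fbar N)).toSubring := by
      rw [rp_genRing, Subring.closure_le]
      rintro _ (hg | ⟨a, ha, rfl⟩)
      · exact h.integral _ hg
      · exact rpm_isIntegral_of_mem_ring A N (rpm_const_mem_ring A N x ⟨a, ha⟩)
    exact fun b hb => hle hb
  x_mem := h.x_mem
  frac := rpm_frac_of_subfield A N _ (rpm_const_mem_genRing A N gens) h.frac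

theorem rpm_dataGen_chart_B (x : Fbar N) (gens : Set (Fbar N)) (h : rpm_GoodGens A N x gens) :
    (rpm_dataGen A N x gens h).chart.B = rp_genRing A.toSubring gens := rfl

/-! ### the glue and the final theorem -/

/-- the function-field facts for `F̄_N / Q̄`. -/
theorem rpm_funField : rp_FunField Kbar (Fbar N) := rpf_funField (hib_isSepGen N)

/-- **the glue of two charts** (coordinates `j` and `j⁻¹`) along the reduction of q-expansions. -/
noncomputable def rpm_glue (D1 : rpm_ChartData A N (br_jBar N))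
    (D2 : rpm_ChartData A N (br_jBar N)⁻¹)
    (hL1 : D1.chart.HasLevels) (hL2 : D2.chart.HasLevels) : rpg_Glue D1.chart D2.chart :=
  rpe_glue hL1 hL2 (rpg_intSubring A (IsLocalRing.residue A) N)
    (rpg_intRed A (IsLocalRing.residue A) N) (br_jBar N) D1.le_int D2.le_int
    (fun _ => rfl) (fun _ => rfl) D1.x_mem D2.x_mem (rpm_j_ne_zero N)
    (fun P h => D1.covP (rpm_funField N) P h) (fun P h => D2.covP (rpm_funField N) P h)
    (fun Q h => D1.covQ Q h) (fun Q h => D2.covQ Q h)

/-- **(E-gen)** for the modular function field, from the levels of a chart. -/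
theorem rpm_hgen {x : Fbar N} (D : rpm_ChartData A N x) (hL : D.chart.HasLevels) (f : Fbar N)
    (hf : f ≠ 0) :
    ∃ (c : Kbar) (y z : LaurentSeries A)
      (hy : coeffMap A.subtype y ∈ laurentBaseChange Kbar (modularFunctionFieldFull N))
      (hz : coeffMap A.subtype z ∈ laurentBaseChange Kbar (modularFunctionFieldFull N)),
      c ≠ 0 ∧ coeffMap (IsLocalRing.residue A) y ∈
          modularFunctionFieldFullC (IsLocalRing.ResidueField A) N ∧
        coeffMap (IsLocalRing.residue A) y ≠ 0 ∧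
        coeffMap (IsLocalRing.residue A) z ∈
          modularFunctionFieldFullC (IsLocalRing.ResidueField A) N ∧
        coeffMap (IsLocalRing.residue A) z ≠ 0 ∧
        f * (⟨coeffMap A.subtype z, hz⟩ : Fbar N) =
          algebraMap Kbar (Fbar N) c * ⟨coeffMap A.subtype y, hy⟩ := by
  obtain ⟨c, a, b, hc, ha, hb, hab⟩ := rpm_exists_gauss_factor D.chart hL f hf
  set aI : rpg_intSubring A (IsLocalRing.residue A) N := ⟨a, D.le_int a.2⟩ with haI
  set bI : rpg_intSubring A (IsLocalRing.residue A) N := ⟨b, D.le_int b.2⟩ with hbI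
  have hay := rpg_intLift_spec A (IsLocalRing.residue A) N aI
  have hby := rpg_intLift_spec A (IsLocalRing.residue A) N bI
  have hya : coeffMap A.subtype (rpg_intLift A (IsLocalRing.residue A) N aI) ∈
      laurentBaseChange Kbar (modularFunctionFieldFull N) := by
    rw [hay.1]; exact (a : Fbar N).2
  have hyb : coeffMap A.subtype (rpg_intLift A (IsLocalRing.residue A) N bI) ∈
      laurentBaseChange Kbar (modularFunctionFieldFull N) := by
    rw [hby.1]; exact (b : Fbar N).2
  refine ⟨c, rpg_intLift A (IsLocalRing.residue A) N aI,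
    rpg_intLift A (IsLocalRing.residue A) N bI, hya, hyb, hc, hay.2, ?_, hby.2, ?_, ?_⟩
  · intro h0
    apply ha
    rw [D.chart_red]
    exact Subtype.ext h0
  · intro h0
    apply hb
    rw [D.chart_red]
    exact Subtype.ext h0
  · have e1 : (⟨coeffMap A.subtype (rpg_intLift A (IsLocalRing.residue A) N bI), hyb⟩ : Fbar N)
        = (b : Fbar N) := Subtype.ext hby.1
    have e2 : (⟨coeffMap A.subtype (rpg_intLift A (IsLocalRing.residue A) N aI), hya⟩ : Fbar N)
        = (a : Fbar N) := Subtype.ext hay.1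
    rw [e1, e2]
    exact hab

section Final

variable {ℓ : ℕ} [Fact ℓ.Prime]

/-- the function-field facts for the reduced function field `F̃_N / k`. -/
theorem rpm_funFieldRed (hℓN : ¬ ℓ ∣ N) (hA : A.LiesOverPrime ℓ) :
    rp_FunField (IsLocalRing.ResidueField A)
      ↥(modularFunctionFieldFullC (IsLocalRing.ResidueField A) N) := by
  haveI := jcr_charP A hA
  haveI := jcr_isAlgClosed A
  exact rpf_funField (jcr_isSepGen (k := IsLocalRing.ResidueField A) N hℓN (jcr_rho A hA))

/-- **Node E, instantiation end.** `ReductionInputsModL A N` from two chart data (coordinates `j`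
and `j⁻¹`) whose charts have enough levels and regular reduction. -/
theorem rpm_reductionInputsModL_of (hℓN : ¬ ℓ ∣ N) (hA : A.LiesOverPrime ℓ)
    (D1 : rpm_ChartData A N (br_jBar N)) (D2 : rpm_ChartData A N (br_jBar N)⁻¹)
    (hL1 : D1.chart.HasLevels) (hR1 : D1.chart.RedRegular)
    (hL2 : D2.chart.HasLevels) (hR2 : D2.chart.RedRegular) :
    ReductionInputsModL A N :=
  rpe_reductionInputsAlong (rpm_funField N) hL1 hR1 hL2 hR2 (rpm_glue A N D1 D2 hL1 hL2)
    (rpg_deg_eq_one_of_funField (rpm_funFieldRed A N hℓN hA))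
    (fun y hy hyk => rpg_intRed_spec A (IsLocalRing.residue A) N y hy hyk)
    (rpm_hgen A N D1 hL1)

/-- the same for the charts `A[gens₁]`, `A[gens₂]`. -/
theorem rpm_reductionInputsModL_gens (hℓN : ¬ ℓ ∣ N) (hA : A.LiesOverPrime ℓ)
    (gens₁ gens₂ : Set (Fbar N)) (h₁ : rpm_GoodGens A N (br_jBar N) gens₁)
    (h₂ : rpm_GoodGens A N (br_jBar N)⁻¹ gens₂)
    (hL1 : (rpm_dataGen A N _ gens₁ h₁).chart.HasLevels)
    (hR1 : (rpm_dataGen A N _ gens₁ h₁).chart.RedRegular)
    (hL2 : (rpm_dataGen A N _ gens₂ h₂).chart.HasLevels)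
    (hR2 : (rpm_dataGen A N _ gens₂ h₂).chart.RedRegular) :
    ReductionInputsModL A N :=
  rpm_reductionInputsModL_of A N hℓN hA _ _ hL1 hR1 hL2 hR2

/-- the same for the maximal charts. -/
theorem rpm_reductionInputsModL_max (hℓN : ¬ ℓ ∣ N) (hA : A.LiesOverPrime ℓ)
    (hL1 : (rpm_D1 A N hℓN hA).chart.HasLevels) (hR1 : (rpm_D1 A N hℓN hA).chart.RedRegular)
    (hL2 : (rpm_D2 A N hℓN hA).chart.HasLevels) (hR2 : (rpm_D2 A N hℓN hA).chart.RedRegular) :
    ReductionInputsModL A N :=
  rpm_reductionInputsModL_of A N hℓN hA _ _ hL1 hR1 hL2 hR2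

end Final

/-! ### every q-integral function is an integral function (from (E-gen)) -/

/-- Given (E-gen) (`hgen`, e.g. `rpm_hgen` or an unconditional producer), every function of
`F̄_N` with `A`-integral q-expansion has its reduction in the reduced function field, i.e. lies in
`rpg_intSubring`: the condition "reduction in `F̃_N`" is automatic. -/
theorem rpm_mem_int_of_hgen
    (hgen : ∀ f : Fbar N, f ≠ 0 →
      ∃ (c : Kbar) (y z : LaurentSeries A)
        (hy : coeffMap A.subtype y ∈ laurentBaseChange Kbar (modularFunctionFieldFull N))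
        (hz : coeffMap A.subtype z ∈ laurentBaseChange Kbar (modularFunctionFieldFull N)),
        c ≠ 0 ∧ coeffMap (IsLocalRing.residue A) y ∈
            modularFunctionFieldFullC (IsLocalRing.ResidueField A) N ∧
          coeffMap (IsLocalRing.residue A) y ≠ 0 ∧
          coeffMap (IsLocalRing.residue A) z ∈
            modularFunctionFieldFullC (IsLocalRing.ResidueField A) N ∧
          coeffMap (IsLocalRing.residue A) z ≠ 0 ∧
          f * (⟨coeffMap A.subtype z, hz⟩ : Fbar N) =
            algebraMap Kbar (Fbar N) c * ⟨coeffMap A.subtype y, hy⟩)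
    (f : Fbar N) (w : LaurentSeries A)
    (hw : coeffMap A.subtype w = (f : LaurentSeries Kbar)) :
    f ∈ rpg_intSubring A (IsLocalRing.residue A) N := by
  by_cases hf : f = 0
  · rw [hf]; exact zero_mem _
  obtain ⟨c, y, z, hy, hz, hc, hyk, hy0, hzk, hz0, hfz⟩ := hgen f hf
  refine ⟨w, hw, ?_⟩
  -- the relation in `Q̄((q))`
  have h1 : coeffMap A.subtype (w * z) = HahnSeries.single 0 c * coeffMap A.subtype y := by
    have := congrArg (fun g : Fbar N => (g : LaurentSeries Kbar)) hfz
    simp only [MulMemClass.coe_mul, rpm_coe_algebraMap] at this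
    rw [map_mul, hw]
    exact this
  -- a unit coefficient of `y`
  obtain ⟨n, hn⟩ : ∃ n : ℤ, IsLocalRing.residue A (y.coeff n) ≠ 0 := by
    by_contra hcon
    push Not at hcon
    apply hy0
    ext n
    rw [coeffMap_coeff, hcon n]
    rfl
  have hun : IsUnit (y.coeff n) := by
    by_contra hnu
    exact hn ((IsLocalRing.residue_eq_zero_iff _).mpr ((IsLocalRing.mem_maximalIdeal _).mpr hnu))
  obtain ⟨v, hv⟩ := hun.exists_right_inv
  -- `c ∈ A`
  have hcA : c = (((w * z).coeff n * v : A) : Kbar) := by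
    have h2 := congrArg (fun s : LaurentSeries Kbar => s.coeff n) h1
    simp only [coeffMap_coeff, HahnSeries.coeff_single_mul, sub_zero] at h2
    have h3 : ((y.coeff n : A) : Kbar) * (v : Kbar) = 1 := by
      have := congrArg (fun t : A => (t : Kbar)) hv
      simpa using this
    have h4 : (A.subtype ((w * z).coeff n)) = c * A.subtype (y.coeff n) := h2
    push_cast
    change c = A.subtype ((w * z).coeff n) * (v : Kbar)
    rw [h4, mul_assoc]
    change c = c * (((y.coeff n : A) : Kbar) * (v : Kbar))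
    rw [h3, mul_one]
  set c' : A := (w * z).coeff n * v with hc'
  have h5 : w * z = HahnSeries.single 0 c' * y := by
    apply rpg_coeffMap_subtype_injective A
    rw [h1, map_mul, coeffMap_single, hcA]
    rfl
  have h6 := congrArg (coeffMap (IsLocalRing.residue A)) h5
  rw [map_mul, map_mul, coeffMap_single] at h6
  have h7 : coeffMap (IsLocalRing.residue A) w =
      HahnSeries.single 0 (IsLocalRing.residue A c') * coeffMap (IsLocalRing.residue A) y *
        (coeffMap (IsLocalRing.residue A) z)⁻¹ := by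
    rw [← h6, mul_assoc, mul_inv_cancel₀ hz0, mul_one]
  rw [h7, ← algebraMap_laurentSeries_eq_single]
  exact mul_mem (mul_mem (IntermediateField.algebraMap_mem _ _) hyk) (inv_mem hzk)

/-! ### final forms: base levels (`rpu_hasLevels`) and the unconditional (E-gen) (`rpi_hgen`) -/

section Uncond

variable {ℓ : ℕ} [Fact ℓ.Prime]

/-- **every function of `F̄_N` with `A`-integral q-expansion is an integral function**: its
reduction lies in the reduced function field. -/
theorem rpm_mem_int (hℓN : ¬ ℓ ∣ N) (hA : A.LiesOverPrime ℓ) (f : Fbar N) (w : LaurentSeries A)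
    (hw : coeffMap A.subtype w = (f : LaurentSeries Kbar)) :
    f ∈ rpg_intSubring A (IsLocalRing.residue A) N :=
  rpm_mem_int_of_hgen A N (rpi_hgen N hℓN A hA) f w hw

/-- good generators from q-integral lifts. -/
theorem rpm_goodGens_of_lifts (hℓN : ¬ ℓ ∣ N) (hA : A.LiesOverPrime ℓ) (x : Fbar N)
    (gens : Set (Fbar N))
    (hlift : ∀ g ∈ gens, ∃ w : LaurentSeries A, coeffMap A.subtype w = (g : LaurentSeries Kbar))
    (hint : ∀ g ∈ gens, IsIntegral (rpm_ring A N x) g)
    (hx : x ∈ rp_genRing A.toSubring gens)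
    (hfrac : ∀ g ∈ rpm_gens N, g ∈ Subfield.closure (rp_genRing A.toSubring gens : Set (Fbar N))) :
    rpm_GoodGens A N x gens where
  mem_int := fun g hg => by
    obtain ⟨w, hw⟩ := hlift g hg
    exact rpm_mem_int A N hℓN hA g w hw
  integral := hint
  x_mem := hx
  frac := hfrac

/-- **Node E from base levels.** `ReductionInputsModL A N` from two chart data (coordinates `j`,
`j⁻¹`) whose charts have a base level (`rp_Base`) and regular reduction. -/
theorem rpm_reductionInputsModL_base (hℓN : ¬ ℓ ∣ N) (hA : A.LiesOverPrime ℓ)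
    (D1 : rpm_ChartData A N (br_jBar N)) (D2 : rpm_ChartData A N (br_jBar N)⁻¹)
    (Bs1 : rp_Base D1.chart) (hR1 : D1.chart.RedRegular)
    (Bs2 : rp_Base D2.chart) (hR2 : D2.chart.RedRegular) :
    ReductionInputsModL A N :=
  rpm_reductionInputsModL_of A N hℓN hA D1 D2 (rpu_hasLevels (rpm_funField N) Bs1) hR1
    (rpu_hasLevels (rpm_funField N) Bs2) hR2

/-- the same for the charts `A[gens₁]`, `A[gens₂]` (the shape of `rp_Base.chart_eq`). -/
theorem rpm_reductionInputsModL_base_gens (hℓN : ¬ ℓ ∣ N) (hA : A.LiesOverPrime ℓ)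
    (gens₁ gens₂ : Set (Fbar N)) (h₁ : rpm_GoodGens A N (br_jBar N) gens₁)
    (h₂ : rpm_GoodGens A N (br_jBar N)⁻¹ gens₂)
    (Bs1 : rp_Base (rpm_dataGen A N _ gens₁ h₁).chart)
    (hR1 : (rpm_dataGen A N _ gens₁ h₁).chart.RedRegular)
    (Bs2 : rp_Base (rpm_dataGen A N _ gens₂ h₂).chart)
    (hR2 : (rpm_dataGen A N _ gens₂ h₂).chart.RedRegular) :
    ReductionInputsModL A N :=
  rpm_reductionInputsModL_base A N hℓN hA _ _ Bs1 hR1 Bs2 hR2

end Uncond

end Modular

end Fermat.Agent.JT3
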