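/-
JT3 / node E (place map), instantiation end, part 2 (Gauss form).

* generic (any `rp_Chart`): `rpm_inChart_of_isIntegral`, `rpm_finRed_of_isIntegral` — the covering
  properties `covP`, `covQ` of `rpg_Glue` for ANY chart containing `x` and integral over
  `A[x] = rpm_ringOf A x`.
* `rpm_gInt A N` : the Gauss-bounded functions of `F̄_N` (helper8's `gq_IsBdd A Q̄`), a VALUATION
  ring of `F̄_N` (`rpm_gInt_or_inv`, `rpm_gVal`); `rpm_gres_mem` : the Gauss residue of a bounded
  function lies in the reduced function field `F̃_N(k)`; `rpm_gRed : rpm_gInt →+* F̃_N(k)` and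
  `rpm_gRed_spec` (= `hInt`).  All from helper24's unconditional (E-gen) `rpi_hgen`.
  `rpm_mem_gInt_of_isIntegral` / `rpm_le_gInt_of_isIntegral` : integral over `A[x]`, `x` bounded
  ⟹ bounded (no q-expansion principle, no normality of `A((q))`).
* `rpm_GData A N x` : chart data in Gauss form (`B` integral over `A[x]`, constants, `x`, `frac`;
  NO condition on q-expansions); `D.chart hℓN hA` has the Gauss residue as reduction map;
  `rpm_gDataGen` (`B = rp_genRing A.toSubring gens`).
* **`rpm_reductionInputsModL_glue`** (two arbitrary charts, arbitrary `(Int, red)` with `hInt`),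
  **`rpm_reductionInputsModL_charts`** (arbitrary charts with Gauss reduction),
  **`rpm_reductionInputsModL_gauss`** / `_gauss_base` (Gauss chart data, levels resp. base levels).
Prefix `rpm_`.
-/
import Mathlib
import Fermat.Agent.JT3.PlaceMap.Modular
import Fermat.Agent.JT3.Bridge.GaussVal

set_option autoImplicit false
set_option linter.unusedSectionVars false
set_option linter.style.haveILetI false

namespace Fermat.Agent.JT3

open AlgebraicCurve Polynomial ModularCurve Fermat.Agent.S24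

/-! ### the covering properties, for an arbitrary chart -/

section Cover

variable {Kb : Type*} [Field Kb] {A : ValuationSubring Kb}
variable {FF : Type*} [Field FF] [Algebra Kb FF]
variable {k : Type*} [Field k] {Ft : Type*} [Field Ft] [Algebra k Ft]

/-- `A[x] ⊆ FF` -/
def rpm_ringOf (A : ValuationSubring Kb) (x : FF) : Subring FF :=
  Subring.closure (rpm_constSet A FF ∪ {x})

theorem rpm_ringOf_le (C : rp_Chart A FF k Ft) {x : FF} (hx : x ∈ C.B) :
    rpm_ringOf A x ≤ C.B := by
  rw [rpm_ringOf, Subring.closure_le]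
  rintro _ (⟨a, rfl⟩ | h)
  · exact C.const_mem a
  · rw [Set.mem_singleton_iff] at h
    rw [h]
    exact hx

/-- a place where `x` has a value in `A` lies in every chart which is integral over `A[x]`. -/
theorem rpm_inChart_of_isIntegral (C : rp_Chart A FF k Ft) (x : FF)
    (hint : ∀ b ∈ C.B, IsIntegral (rpm_ringOf A x) b)
    (hF : rp_FunField Kb FF) (P : Place Kb FF)
    (h : ∃ c : A, x - algebraMap Kb FF (c : Kb) ∈ P.toValuationSubring.nonunits) :
    C.InChart P := by
  refine rpd_inChart_of_isIntegral C (rpm_ringOf A x) hint P (hF.exists_value P) ?_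
  intro s hs
  change s ∈ Subring.closure (rpm_constSet A FF ∪ {x}) at hs
  induction hs using Subring.closure_induction with
  | mem s hs =>
    rcases hs with ⟨a, rfl⟩ | hs
    · exact ⟨a, rp_hasValue_const _⟩
    · rw [Set.mem_singleton_iff] at hs
      subst hs
      exact h
  | zero => exact ⟨0, by simp⟩
  | one => exact ⟨1, by simp⟩
  | add s t _ _ hs ht =>
    obtain ⟨c, hc⟩ := hs
    obtain ⟨d, hd⟩ := ht
    exact ⟨c + d, rp_HasValue.add hc hd⟩
  | neg s _ hs =>
    obtain ⟨c, hc⟩ := hs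
    exact ⟨-c, rp_HasValue.neg hc⟩
  | mul s t _ _ hs ht =>
    obtain ⟨c, hc⟩ := hs
    obtain ⟨d, hd⟩ := ht
    exact ⟨c * d, rp_HasValue.mul hc hd⟩

/-- a place of the reduction where `x̃` is finite is finite on the reduction of every chart which
contains `x` and is integral over `A[x]`. -/
theorem rpm_finRed_of_isIntegral (C : rp_Chart A FF k Ft) {x : FF} (hx : x ∈ C.B)
    (hint : ∀ b ∈ C.B, IsIntegral (rpm_ringOf A x) b) (Q : Place k Ft)
    (h : C.red ⟨x, hx⟩ ∈ Q.toValuationSubring) : C.FinRed Q := by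
  intro b
  have hle : rpm_ringOf A x ≤ C.B := rpm_ringOf_le C hx
  -- the subring of chart functions whose reduction is regular at `Q`
  set T : Subring FF := ((Q.toValuationSubring.toSubring).comap C.red).map C.B.subtype with hT
  have hleT : rpm_ringOf A x ≤ T := by
    rw [rpm_ringOf, Subring.closure_le]
    rintro _ (⟨a, rfl⟩ | hs)
    · refine ⟨⟨_, C.const_mem a⟩, ?_, rfl⟩
      change C.red _ ∈ Q.toValuationSubring
      rw [C.red_const]
      exact Q.algebraMap_mem' _
    · rw [Set.mem_singleton_iff] at hs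
      rw [hs]
      exact ⟨⟨x, hx⟩, h, rfl⟩
  have hmem : ∀ s : rpm_ringOf A x,
      (C.red.comp (Subring.inclusion hle)) s ∈ Q.toValuationSubring := by
    intro s
    obtain ⟨y, hy, hys⟩ := hleT s.2
    have : Subring.inclusion hle s = y := Subtype.ext hys.symm
    rw [RingHom.comp_apply, this]
    exact hy
  let φ : rpm_ringOf A x →+* Q.toValuationSubring :=
    (C.red.comp (Subring.inclusion hle)).codRestrict Q.toValuationSubring hmem
  obtain ⟨p, hp, hpb⟩ := hint b b.2
  have hint' : IsIntegral Q.toValuationSubring (C.red b) := by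
    refine ⟨p.map φ, hp.map _, ?_⟩
    rw [Polynomial.eval₂_map]
    have h1 : (algebraMap Q.toValuationSubring Ft).comp φ
        = C.red.comp (Subring.inclusion hle) := by
      ext s
      rfl
    rw [h1, ← Polynomial.hom_eval₂]
    have h2 : Polynomial.eval₂ (Subring.inclusion hle) b p = 0 := by
      apply Subtype.ext
      have := Polynomial.hom_eval₂ p (Subring.inclusion hle) C.B.subtype b
      change C.B.subtype (Polynomial.eval₂ (Subring.inclusion hle) _ p) = 0
      rw [this]
      exact hpb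
    rw [h2, map_zero]
  obtain ⟨y, hy⟩ := IsIntegrallyClosed.algebraMap_eq_of_integral hint'
  rw [← hy]
  exact y.2

end Cover

/-! ### Gauss-bounded functions of `F̄_N` and the Gauss residue -/

section Gauss

variable (A : ValuationSubring Kbar) (N : ℕ) [NeZero N]

set_option synthInstance.maxHeartbeats 400000

noncomputable local instance (priority := 10000) rpm_instAlgSubring' (S : Subring (Fbar N)) :
    Algebra S (Fbar N) := rpm_algSub S

noncomputable local instance (priority := 10000) rpm_instAlgFt' :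
    Algebra (IsLocalRing.ResidueField A)
      ↥(modularFunctionFieldFullC (IsLocalRing.ResidueField A) N) :=
  rpm_algFt _ N

/-- a constant `c ∈ Q̄` with `c • ι w = ι v`, `w` of Gauss norm one, lies in `A`. -/
theorem rpm_exists_const (c : Kbar) (w v : LaurentSeries A)
    (hw : coeffMap (IsLocalRing.residue A) w ≠ 0)
    (h : HahnSeries.single 0 c * coeffMap A.subtype w = coeffMap A.subtype v) :
    ∃ c' : A, (c' : Kbar) = c ∧ HahnSeries.single 0 c' * w = v := by
  obtain ⟨n, hn⟩ : ∃ n : ℤ, IsLocalRing.residue A (w.coeff n) ≠ 0 := by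
    by_contra hcon
    push Not at hcon
    apply hw
    ext n
    rw [coeffMap_coeff, hcon n]
    rfl
  have hun : IsUnit (w.coeff n) := by
    by_contra hnu
    exact hn ((IsLocalRing.residue_eq_zero_iff _).mpr ((IsLocalRing.mem_maximalIdeal _).mpr hnu))
  obtain ⟨u, hu⟩ := hun.exists_right_inv
  have h2 := congrArg (fun s : LaurentSeries Kbar => s.coeff n) h
  simp only [coeffMap_coeff, HahnSeries.coeff_single_mul, sub_zero] at h2
  have h3 : ((w.coeff n : A) : Kbar) * (u : Kbar) = 1 := by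
    have := congrArg (fun t : A => (t : Kbar)) hu
    simpa using this
  have h4 : c * A.subtype (w.coeff n) = A.subtype (v.coeff n) := h2
  have hc : ((v.coeff n * u : A) : Kbar) = c := by
    change A.subtype (v.coeff n) * (u : Kbar) = c
    rw [← h4, mul_assoc]
    change c * (((w.coeff n : A) : Kbar) * (u : Kbar)) = c
    rw [h3, mul_one]
  refine ⟨v.coeff n * u, hc, ?_⟩
  apply rpg_coeffMap_subtype_injective A
  rw [map_mul, coeffMap_single, ← h]
  congr 2

/-- the Gauss-bounded functions of `F̄_N` (quotients `ι z₁ / ι z₂` of `A`-integral series with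
`z₂` of Gauss norm one). -/
noncomputable def rpm_gInt : Subring (Fbar N) :=
  (gq_bddSubring A Kbar).comap ((modularFunctionFieldBar N).val : Fbar N →+* LaurentSeries Kbar)

theorem rpm_mem_gInt {f : Fbar N} :
    f ∈ rpm_gInt A N ↔ gq_IsBdd A Kbar (f : LaurentSeries Kbar) := Iff.rfl

theorem rpm_iota_mem_gInt (y : LaurentSeries A) (hy : coeffMap A.subtype y ∈ modularFunctionFieldBar N) :
    (⟨coeffMap A.subtype y, hy⟩ : Fbar N) ∈ rpm_gInt A N :=
  gq_isBdd_iota (K := Kbar) y

theorem rpm_int_le_gInt : rpg_intSubring A (IsLocalRing.residue A) N ≤ rpm_gInt A N := by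
  rintro f ⟨y, hy, -⟩
  rw [rpm_mem_gInt, ← hy]
  exact gq_isBdd_iota (K := Kbar) y

section Uncond

variable {ℓ : ℕ} [Fact ℓ.Prime]

/-- **(V)** the Gauss-bounded functions form a valuation ring of `F̄_N`. -/
theorem rpm_gInt_or_inv (hℓN : ¬ ℓ ∣ N) (hA : A.LiesOverPrime ℓ) (f : Fbar N) :
    f ∈ rpm_gInt A N ∨ f⁻¹ ∈ rpm_gInt A N := by
  by_cases hf : f = 0
  · left; rw [hf]; exact zero_mem _
  obtain ⟨c, y, z, hy, hz, hc, hyk, hy0, hzk, hz0, hfz⟩ := rpi_hgen N hℓN A hA f hf
  have h1 : (f : LaurentSeries Kbar) * coeffMap A.subtype z =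
      HahnSeries.single 0 c * coeffMap A.subtype y := by
    have := congrArg (fun g : Fbar N => (g : LaurentSeries Kbar)) hfz
    simp only [MulMemClass.coe_mul, rpm_coe_algebraMap] at this
    exact this
  rcases A.mem_or_inv_mem c with hcA | hcA
  · left
    refine ⟨HahnSeries.single 0 (⟨c, hcA⟩ : A) * y, z, hz0, ?_⟩
    rw [map_mul, coeffMap_single]
    exact h1
  · right
    refine ⟨HahnSeries.single 0 (⟨c⁻¹, hcA⟩ : A) * z, y, hy0, ?_⟩
    rw [map_mul, coeffMap_single]
    have hf0 : (f : LaurentSeries Kbar) ≠ 0 := fun h0 => hf (Subtype.ext h0)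
    have hcs : (HahnSeries.single 0 c⁻¹ : LaurentSeries Kbar) * HahnSeries.single 0 c = 1 := by
      rw [HahnSeries.single_mul_single, inv_mul_cancel₀ hc, add_zero]
      rfl
    change ((f⁻¹ : Fbar N) : LaurentSeries Kbar) * coeffMap (algebraMap A Kbar) y =
      HahnSeries.single 0 c⁻¹ * coeffMap (algebraMap A Kbar) z
    have e : ((f⁻¹ : Fbar N) : LaurentSeries Kbar) = (f : LaurentSeries Kbar)⁻¹ := rfl
    rw [e]
    have h1' : (f : LaurentSeries Kbar) * coeffMap (algebraMap A Kbar) z =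
      HahnSeries.single 0 c * coeffMap (algebraMap A Kbar) y := h1
    have : coeffMap (algebraMap A Kbar) y =
        HahnSeries.single 0 c⁻¹ * ((f : LaurentSeries Kbar) * coeffMap (algebraMap A Kbar) z) := by
      rw [h1', ← mul_assoc, hcs, one_mul]
    rw [this]
    field_simp

/-- **(R)** the Gauss residue of a bounded function of `F̄_N` lies in the reduced function field. -/
theorem rpm_gres_mem (hℓN : ¬ ℓ ∣ N) (hA : A.LiesOverPrime ℓ) (f : Fbar N)
    (hb : gq_IsBdd A Kbar (f : LaurentSeries Kbar)) :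
    gq_res A Kbar ⟨(f : LaurentSeries Kbar), hb⟩ ∈
      modularFunctionFieldFullC (IsLocalRing.ResidueField A) N := by
  by_cases hf : f = 0
  · subst hf
    have : (⟨((0 : Fbar N) : LaurentSeries Kbar), hb⟩ : ↥(gq_bddSubring A Kbar)) = 0 :=
      Subtype.ext rfl
    rw [this, map_zero]
    exact zero_mem _
  obtain ⟨c, y, z, hy, hz, hc, hyk, hy0, hzk, hz0, hfz⟩ := rpi_hgen N hℓN A hA f hf
  have h1 : (f : LaurentSeries Kbar) * coeffMap A.subtype z =
      HahnSeries.single 0 c * coeffMap A.subtype y := by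
    have := congrArg (fun g : Fbar N => (g : LaurentSeries Kbar)) hfz
    simp only [MulMemClass.coe_mul, rpm_coe_algebraMap] at this
    exact this
  obtain ⟨z1, z2, hz2, hfz12⟩ := hb
  have hfz12' : (f : LaurentSeries Kbar) * coeffMap A.subtype z2 = coeffMap A.subtype z1 := hfz12
  -- `c • ι (y z2) = ι (z1 z)`
  have h2 : HahnSeries.single 0 c * coeffMap A.subtype (y * z2) = coeffMap A.subtype (z1 * z) := by
    rw [map_mul, map_mul, ← hfz12']
    calc HahnSeries.single 0 c * (coeffMap A.subtype y * coeffMap A.subtype z2)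
        = (HahnSeries.single 0 c * coeffMap A.subtype y) * coeffMap A.subtype z2 := by ring
      _ = (f : LaurentSeries Kbar) * coeffMap A.subtype z * coeffMap A.subtype z2 := by rw [h1]
      _ = (f : LaurentSeries Kbar) * coeffMap A.subtype z2 * coeffMap A.subtype z := by ring
  have hyz2 : coeffMap (IsLocalRing.residue A) (y * z2) ≠ 0 := by
    rw [map_mul]
    exact mul_ne_zero hy0 hz2
  obtain ⟨c', -, hc'⟩ := rpm_exists_const A c (y * z2) (z1 * z) hyz2 h2
  have h3 := congrArg (coeffMap (IsLocalRing.residue A)) hc'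
  rw [map_mul, map_mul, map_mul, coeffMap_single] at h3
  have h5 := gq_res_eq (O := A) (K := Kbar)
    ⟨(f : LaurentSeries Kbar), ⟨z1, z2, hz2, hfz12⟩⟩ hz2 hfz12
  rw [h5]
  have h4 : coeffMap (IsLocalRing.residue A) z1 / coeffMap (IsLocalRing.residue A) z2 =
      HahnSeries.single 0 (IsLocalRing.residue A c') * coeffMap (IsLocalRing.residue A) y /
        coeffMap (IsLocalRing.residue A) z := by
    rw [div_eq_div_iff hz2 hz0, ← h3]
    ring
  rw [h4, ← algebraMap_laurentSeries_eq_single]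
  exact div_mem (mul_mem (IntermediateField.algebraMap_mem _ _) hyk) hzk

/-- **the Gauss residue** on the bounded functions of `F̄_N`, with values in the reduced function
field. -/
noncomputable def rpm_gRed (hℓN : ¬ ℓ ∣ N) (hA : A.LiesOverPrime ℓ) :
    rpm_gInt A N →+* ↥(modularFunctionFieldFullC (IsLocalRing.ResidueField A) N) :=
  ((gq_res A Kbar).comp
    (((modularFunctionFieldBar N).val : Fbar N →+* LaurentSeries Kbar).restrict (rpm_gInt A N)
      (gq_bddSubring A Kbar) (fun _ hx => hx))).codRestrict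
    (modularFunctionFieldFullC (IsLocalRing.ResidueField A) N)
    (fun f => rpm_gres_mem A N hℓN hA f f.2)

theorem rpm_gRed_coe (hℓN : ¬ ℓ ∣ N) (hA : A.LiesOverPrime ℓ) (f : rpm_gInt A N) :
    ((rpm_gRed A N hℓN hA f : ↥(modularFunctionFieldFullC (IsLocalRing.ResidueField A) N)) :
      LaurentSeries (IsLocalRing.ResidueField A)) =
      gq_res A Kbar ⟨((f : Fbar N) : LaurentSeries Kbar), f.2⟩ := rfl

/-- **`hInt`** for the pair `(rpm_gInt, rpm_gRed)`. -/
theorem rpm_gRed_spec (hℓN : ¬ ℓ ∣ N) (hA : A.LiesOverPrime ℓ) (y : LaurentSeries A)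
    (hy : coeffMap A.subtype y ∈ laurentBaseChange Kbar (modularFunctionFieldFull N))
    (hyk : coeffMap (IsLocalRing.residue A) y ∈
      modularFunctionFieldFullC (IsLocalRing.ResidueField A) N) :
    ∃ h : (⟨coeffMap A.subtype y, hy⟩ : Fbar N) ∈ rpm_gInt A N,
      rpm_gRed A N hℓN hA ⟨_, h⟩ = ⟨coeffMap (IsLocalRing.residue A) y, hyk⟩ := by
  refine ⟨rpm_iota_mem_gInt A N y hy, ?_⟩
  apply Subtype.ext
  rw [rpm_gRed_coe]
  exact gq_res_iota (K := Kbar) y

/-- the Gauss valuation ring of `F̄_N`. -/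
noncomputable def rpm_gVal (hℓN : ¬ ℓ ∣ N) (hA : A.LiesOverPrime ℓ) : ValuationSubring (Fbar N) :=
  { rpm_gInt A N with mem_or_inv_mem' := rpm_gInt_or_inv A N hℓN hA }

theorem rpm_mem_gVal (hℓN : ¬ ℓ ∣ N) (hA : A.LiesOverPrime ℓ) {f : Fbar N} :
    f ∈ rpm_gVal A N hℓN hA ↔ f ∈ rpm_gInt A N := Iff.rfl

/-- a function integral over a ring of Gauss-bounded functions is Gauss-bounded. -/
theorem rpm_mem_gInt_of_isIntegral (hℓN : ¬ ℓ ∣ N) (hA : A.LiesOverPrime ℓ)
    (S : Subring (Fbar N)) (hS : S ≤ rpm_gInt A N) {b : Fbar N} (hb : IsIntegral S b) :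
    b ∈ rpm_gInt A N :=
  rpd_mem_of_isIntegral (rpm_gVal A N hℓN hA) S hS hb

theorem rpm_ring_le_gInt {x : Fbar N} (hx : x ∈ rpm_gInt A N) :
    rpm_ring A N x ≤ rpm_gInt A N := by
  rw [rpm_ring, Subring.closure_le]
  rintro _ (⟨a, rfl⟩ | h)
  · exact rpm_int_le_gInt A N (rpm_const_mem_int A N a)
  · rw [Set.mem_singleton_iff] at h
    rw [h]
    exact hx

theorem rpm_j_bdd : br_jBar N ∈ rpm_gInt A N := rpm_int_le_gInt A N (rpm_j_mem_int A N)

theorem rpm_jinv_bdd : (br_jBar N)⁻¹ ∈ rpm_gInt A N :=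
  rpm_int_le_gInt A N (rpm_jinv_mem_int A N)

/-- a ring of functions integral over `A[x]`, `x` Gauss-bounded, consists of Gauss-bounded
functions. -/
theorem rpm_le_gInt_of_isIntegral (hℓN : ¬ ℓ ∣ N) (hA : A.LiesOverPrime ℓ) {x : Fbar N}
    (hx : x ∈ rpm_gInt A N) (B : Subring (Fbar N))
    (hint : ∀ b ∈ B, IsIntegral (rpm_ring A N x) b) : B ≤ rpm_gInt A N :=
  fun b hb => rpm_mem_gInt_of_isIntegral A N hℓN hA _ (rpm_ring_le_gInt A N hx) (hint b hb)

theorem rpm_gRed_const (hℓN : ¬ ℓ ∣ N) (hA : A.LiesOverPrime ℓ) (a : A)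
    (h : algebraMap Kbar (Fbar N) (a : Kbar) ∈ rpm_gInt A N) :
    rpm_gRed A N hℓN hA ⟨_, h⟩ =
      algebraMap (IsLocalRing.ResidueField A)
        ↥(modularFunctionFieldFullC (IsLocalRing.ResidueField A) N) (IsLocalRing.residue A a) := by
  have hy : coeffMap A.subtype (HahnSeries.single 0 a) ∈
      laurentBaseChange Kbar (modularFunctionFieldFull N) := by
    rw [coeffMap_single, ← rpm_coe_algebraMap N]
    exact (algebraMap Kbar (Fbar N) (a : Kbar)).2
  have hyk : coeffMap (IsLocalRing.residue A) (HahnSeries.single 0 a) ∈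
      modularFunctionFieldFullC (IsLocalRing.ResidueField A) N := by
    rw [coeffMap_single, ← algebraMap_laurentSeries_eq_single]
    exact IntermediateField.algebraMap_mem _ _
  obtain ⟨h', hh⟩ := rpm_gRed_spec A N hℓN hA (HahnSeries.single 0 a) hy hyk
  have e : (⟨algebraMap Kbar (Fbar N) (a : Kbar), h⟩ : rpm_gInt A N) =
      ⟨⟨coeffMap A.subtype (HahnSeries.single 0 a), hy⟩, h'⟩ := by
    apply Subtype.ext
    apply Subtype.ext
    change ((algebraMap Kbar (Fbar N) (a : Kbar) : Fbar N) : LaurentSeries Kbar) =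
      coeffMap A.subtype (HahnSeries.single 0 a)
    rw [coeffMap_single]
    exact rpm_coe_algebraMap N _
  rw [e, hh]
  apply Subtype.ext
  change coeffMap (IsLocalRing.residue A) (HahnSeries.single 0 a) = _
  rw [coeffMap_single, ← algebraMap_laurentSeries_eq_single]
  rfl

/-! ### charts with the Gauss residue as reduction map -/

/-- **The data of a chart with coordinate `x`, Gauss form**: a ring `B ⊆ F̄_N` integral over
`A[x]`, containing the constants of `A` and `x`, with fraction field `F̄_N` (`x` Gauss-bounded).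
No condition on q-expansions. -/
structure rpm_GData (x : Fbar N) where
  /-- the chart ring -/
  B : Subring (Fbar N)
  const_mem : ∀ a : A, algebraMap Kbar (Fbar N) (a : Kbar) ∈ B
  integral : ∀ b ∈ B, IsIntegral (rpm_ring A N x) b
  x_mem : x ∈ B
  x_bdd : x ∈ rpm_gInt A N
  frac : ∀ f : Fbar N, ∃ b c : Fbar N, b ∈ B ∧ c ∈ B ∧ c ≠ 0 ∧ f = b / c

variable {A N}

theorem rpm_GData.le_gInt {x : Fbar N} (D : rpm_GData A N x) (hℓN : ¬ ℓ ∣ N)
    (hA : A.LiesOverPrime ℓ) : D.B ≤ rpm_gInt A N :=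
  rpm_le_gInt_of_isIntegral A N hℓN hA D.x_bdd D.B D.integral

/-- **the chart** of a Gauss chart datum: reduction map = Gauss residue. -/
noncomputable def rpm_GData.chart {x : Fbar N} (D : rpm_GData A N x) (hℓN : ¬ ℓ ∣ N)
    (hA : A.LiesOverPrime ℓ) :
    rp_Chart A (Fbar N) (IsLocalRing.ResidueField A)
      ↥(modularFunctionFieldFullC (IsLocalRing.ResidueField A) N) where
  res := IsLocalRing.residue A
  res_surj := IsLocalRing.residue_surjective
  B := D.B
  const_mem := D.const_mem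
  frac := D.frac
  red := (rpm_gRed A N hℓN hA).comp (Subring.inclusion (D.le_gInt hℓN hA))
  red_const a := rpm_gRed_const A N hℓN hA a _

theorem rpm_GData.chart_B {x : Fbar N} (D : rpm_GData A N x) (hℓN : ¬ ℓ ∣ N)
    (hA : A.LiesOverPrime ℓ) : (D.chart hℓN hA).B = D.B := rfl

theorem rpm_GData.chart_red {x : Fbar N} (D : rpm_GData A N x) (hℓN : ¬ ℓ ∣ N)
    (hA : A.LiesOverPrime ℓ) (b : (D.chart hℓN hA).B) :
    (D.chart hℓN hA).red b = rpm_gRed A N hℓN hA ⟨b, D.le_gInt hℓN hA b.2⟩ := rfl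

variable (A N)

/-- the Gauss chart datum with chart ring `A[gens]` (the carrier of `rp_Base`). -/
noncomputable def rpm_gDataGen (x : Fbar N) (gens : Set (Fbar N))
    (hint : ∀ g ∈ gens, IsIntegral (rpm_ring A N x) g)
    (hx : x ∈ rp_genRing A.toSubring gens) (hbdd : x ∈ rpm_gInt A N)
    (hfrac : ∀ g ∈ rpm_gens N, g ∈ Subfield.closure (rp_genRing A.toSubring gens : Set (Fbar N))) :
    rpm_GData A N x where
  B := rp_genRing A.toSubring gens
  const_mem := rpm_const_mem_genRing A N gens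
  integral := by
    have hle : rp_genRing A.toSubring gens ≤
        (integralClosure (rpm_ring A N x) (Fbar N)).toSubring := by
      rw [rp_genRing, Subring.closure_le]
      rintro _ (hg | ⟨a, ha, rfl⟩)
      · exact hint _ hg
      · exact rpm_isIntegral_of_mem_ring A N (rpm_const_mem_ring A N x ⟨a, ha⟩)
    exact fun b hb => hle hb
  x_mem := hx
  x_bdd := hbdd
  frac := rpm_frac_of_subfield A N _ (rpm_const_mem_genRing A N gens) hfrac

theorem rpm_gDataGen_chart_B (hℓN : ¬ ℓ ∣ N) (hA : A.LiesOverPrime ℓ) (x : Fbar N)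
    (gens : Set (Fbar N)) (hint) (hx) (hbdd) (hfrac) :
    ((rpm_gDataGen A N x gens hint hx hbdd hfrac).chart hℓN hA).B =
      rp_genRing A.toSubring gens := rfl

/-! ### the final theorems -/

/-- **Node E for two arbitrary charts glued by an arbitrary `(Int, red)`**: the charts contain `j`
resp. `j⁻¹` and are integral over `A[j]` resp. `A[j⁻¹]`. -/
theorem rpm_reductionInputsModL_glue (hℓN : ¬ ℓ ∣ N) (hA : A.LiesOverPrime ℓ)
    (C1 C2 : rp_Chart A (Fbar N) (IsLocalRing.ResidueField A)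
      ↥(modularFunctionFieldFullC (IsLocalRing.ResidueField A) N))
    (hL1 : C1.HasLevels) (hR1 : C1.RedRegular) (hL2 : C2.HasLevels) (hR2 : C2.RedRegular)
    (hx : br_jBar N ∈ C1.B) (hxi : (br_jBar N)⁻¹ ∈ C2.B)
    (hint1 : ∀ b ∈ C1.B, IsIntegral (rpm_ring A N (br_jBar N)) b)
    (hint2 : ∀ b ∈ C2.B, IsIntegral (rpm_ring A N (br_jBar N)⁻¹) b)
    (Int : Subring (Fbar N))
    (red : Int →+* ↥(modularFunctionFieldFullC (IsLocalRing.ResidueField A) N))
    (le1 : C1.B ≤ Int) (le2 : C2.B ≤ Int)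
    (red1 : ∀ b : C1.B, C1.red b = red ⟨b, le1 b.2⟩)
    (red2 : ∀ b : C2.B, C2.red b = red ⟨b, le2 b.2⟩)
    (hInt : ∀ (y : LaurentSeries A)
      (hy : coeffMap A.subtype y ∈ laurentBaseChange Kbar (modularFunctionFieldFull N))
      (hyk : coeffMap (IsLocalRing.residue A) y ∈
        modularFunctionFieldFullC (IsLocalRing.ResidueField A) N),
      ∃ h : (⟨coeffMap A.subtype y, hy⟩ : Fbar N) ∈ Int,
        red ⟨_, h⟩ = ⟨coeffMap (IsLocalRing.residue A) y, hyk⟩) :
    ReductionInputsModL A N :=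
  rpe_reductionInputsAlong (rpm_funField N) hL1 hR1 hL2 hR2
    (rpe_glue hL1 hL2 Int red (br_jBar N) le1 le2 red1 red2 hx hxi (rpm_j_ne_zero N)
      (fun P h => rpm_inChart_of_isIntegral C1 _ hint1 (rpm_funField N) P h)
      (fun P h => rpm_inChart_of_isIntegral C2 _ hint2 (rpm_funField N) P h)
      (fun Q h => rpm_finRed_of_isIntegral C1 hx hint1 Q (by rw [red1]; exact h))
      (fun Q h => rpm_finRed_of_isIntegral C2 hxi hint2 Q (by rw [red2]; exact h)))
    (rpg_deg_eq_one_of_funField (rpm_funFieldRed A N hℓN hA)) hInt (rpi_hgen N hℓN A hA)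

/-- **Node E for two arbitrary charts whose reduction map is the Gauss residue.** -/
theorem rpm_reductionInputsModL_charts (hℓN : ¬ ℓ ∣ N) (hA : A.LiesOverPrime ℓ)
    (C1 C2 : rp_Chart A (Fbar N) (IsLocalRing.ResidueField A)
      ↥(modularFunctionFieldFullC (IsLocalRing.ResidueField A) N))
    (hL1 : C1.HasLevels) (hR1 : C1.RedRegular) (hL2 : C2.HasLevels) (hR2 : C2.RedRegular)
    (hx : br_jBar N ∈ C1.B) (hxi : (br_jBar N)⁻¹ ∈ C2.B)
    (hint1 : ∀ b ∈ C1.B, IsIntegral (rpm_ring A N (br_jBar N)) b)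
    (hint2 : ∀ b ∈ C2.B, IsIntegral (rpm_ring A N (br_jBar N)⁻¹) b)
    (red1 : ∀ b : C1.B, C1.red b = rpm_gRed A N hℓN hA
      ⟨b, rpm_le_gInt_of_isIntegral A N hℓN hA (rpm_j_bdd A N) C1.B hint1 b.2⟩)
    (red2 : ∀ b : C2.B, C2.red b = rpm_gRed A N hℓN hA
      ⟨b, rpm_le_gInt_of_isIntegral A N hℓN hA (rpm_jinv_bdd A N) C2.B hint2 b.2⟩) :
    ReductionInputsModL A N :=
  rpm_reductionInputsModL_glue A N hℓN hA C1 C2 hL1 hR1 hL2 hR2 hx hxi hint1 hint2
    (rpm_gInt A N) (rpm_gRed A N hℓN hA) _ _ red1 red2 (rpm_gRed_spec A N hℓN hA)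

/-- **Node E, Gauss form.** `ReductionInputsModL A N` from two Gauss chart data (coordinates `j`,
`j⁻¹`) whose charts have enough levels and regular reduction. -/
theorem rpm_reductionInputsModL_gauss (hℓN : ¬ ℓ ∣ N) (hA : A.LiesOverPrime ℓ)
    (D1 : rpm_GData A N (br_jBar N)) (D2 : rpm_GData A N (br_jBar N)⁻¹)
    (hL1 : (D1.chart hℓN hA).HasLevels) (hR1 : (D1.chart hℓN hA).RedRegular)
    (hL2 : (D2.chart hℓN hA).HasLevels) (hR2 : (D2.chart hℓN hA).RedRegular) :
    ReductionInputsModL A N :=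
  rpm_reductionInputsModL_glue A N hℓN hA _ _ hL1 hR1 hL2 hR2 D1.x_mem D2.x_mem
    D1.integral D2.integral (rpm_gInt A N) (rpm_gRed A N hℓN hA)
    (D1.le_gInt hℓN hA) (D2.le_gInt hℓN hA) (fun _ => rfl) (fun _ => rfl)
    (rpm_gRed_spec A N hℓN hA)

/-- the same from base levels. -/
theorem rpm_reductionInputsModL_gauss_base (hℓN : ¬ ℓ ∣ N) (hA : A.LiesOverPrime ℓ)
    (D1 : rpm_GData A N (br_jBar N)) (D2 : rpm_GData A N (br_jBar N)⁻¹)
    (Bs1 : rp_Base (D1.chart hℓN hA)) (hR1 : (D1.chart hℓN hA).RedRegular)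
    (Bs2 : rp_Base (D2.chart hℓN hA)) (hR2 : (D2.chart hℓN hA).RedRegular) :
    ReductionInputsModL A N :=
  rpm_reductionInputsModL_gauss A N hℓN hA D1 D2 (rpu_hasLevels (rpm_funField N) Bs1) hR1
    (rpu_hasLevels (rpm_funField N) Bs2) hR2

end Uncond

end Gauss

end Fermat.Agent.JT3
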