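/-
JT3 / node E, producer side, leaf [E-BASE] (helper6): the base level `(K₀, O₀ = A ∩ K₀)`.

`K₀ := ℚ(all roots of unity of order prime to ℓ) ⊂ ℚ̄`.  For a valuation subring `A` of `ℚ̄` over `ℓ`:
* `A ∩ K₀` is a discrete valuation ring (uniformiser `ℓ`: `ℓ` is unramified in `ℚ(ζ_m)`, `ℓ ∤ m`);
* every residue class of `A` is represented by an element of `A ∩ K₀` (a root of unity or `0`);
* `K₀` contains all roots of unity of order prime to `ℓ`.
Prefix `ebf_`.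
-/
import Mathlib
import Fermat.Prelude.Def_FLTPrelim_Ramification
import Fermat.Agent.JT3.Descent.ConstDVR

set_option autoImplicit false
set_option linter.unusedSectionVars false

noncomputable section

namespace Fermat.Agent.JT3

open IsDedekindDomain NumberField WithZero

local notation "Qb" => AlgebraicClosure ℚ

/-! ### `ℓ` is a uniformiser of `A ∩ ℚ(ζ_M)`, `ℓ ∤ M` -/

section Cyclo

variable (A : ValuationSubring Qb) (ℓ : ℕ) [hℓ : Fact ℓ.Prime] (hA : A.LiesOverPrime ℓ)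

include hA in
/-- **Number field level.**  In a cyclotomic field `L1 = ℚ(ζ_M) → ℚ̄` with `ℓ ∤ M`, every nonzero
element is `ℓ ^ n` times a unit of `A`. -/
theorem ebf_cyclo_unit_mul_pow (M : ℕ) [NeZero M] (hM : ¬ ℓ ∣ M) (L1 : Type*) [Field L1]
    [NumberField L1] [IsCyclotomicExtension {M} ℚ L1] [Algebra L1 Qb] (x : L1) (hx : x ≠ 0) :
    ∃ n : ℤ, algebraMap L1 Qb x * (ℓ : Qb) ^ n ∈ A ∧ (algebraMap L1 Qb x * (ℓ : Qb) ^ n)⁻¹ ∈ A := by
  classical
  have hℓ0 : ℓ ≠ 0 := hℓ.out.ne_zero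
  set V1 : ValuationSubring L1 := A.comap (algebraMap L1 Qb) with hV1
  have hℓV1 : (ℓ : L1) ∈ V1.nonunits := by
    rw [dsc_mem_comap_nonunits_iff, map_natCast]; exact hA
  have hV1top : V1 ≠ ⊤ :=
    dsc_ne_top_of_mem_nonunits V1 hℓV1 (by exact_mod_cast hℓ0)
  have hint : ∀ r : 𝓞 L1, algebraMap (𝓞 L1) L1 r ∈ V1 := fun r =>
    dsc_mem_of_isIntegral_of_le V1 (O := ℤ) (fun n => by
      rw [eq_intCast]; exact intCast_mem V1 n) r.2
  obtain ⟨w, hw⟩ := dsc_exists_eq_valuationSubring (𝓞 L1) L1 V1 hint hV1top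
  -- the prime `(ℓ)` of `ℤ`
  have hℓprime : Prime (ℓ : ℤ) := Nat.prime_iff_prime_int.mp hℓ.out
  let v : HeightOneSpectrum ℤ :=
    ⟨Ideal.span {(ℓ : ℤ)}, (Ideal.span_singleton_prime hℓprime.ne_zero).mpr hℓprime, by
      rw [Ne, Ideal.span_singleton_eq_bot]; exact hℓprime.ne_zero⟩
  -- `ℓ ∈ w`
  have hℓw : ((ℓ : ℤ) : 𝓞 L1) ∈ w.asIdeal := by
    rw [← HeightOneSpectrum.valuation_lt_one_iff_mem (K := L1)]
    have h1 : (ℓ : L1) ∈ (w.valuation L1).valuationSubring.nonunits := by rw [hw]; exact hℓV1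
    rw [ValuationSubring.mem_nonunits_iff_or] at h1
    have hℓL : (ℓ : L1) ≠ 0 := by exact_mod_cast hℓ0
    rcases h1 with h1 | h1
    · exact absurd h1 hℓL
    · rw [Valuation.mem_valuationSubring_iff, map_inv₀, not_le] at h1
      have h2 : w.valuation L1 (ℓ : L1) < 1 := by
        have hne : w.valuation L1 (ℓ : L1) ≠ 0 := (Valuation.ne_zero_iff _).mpr hℓL
        by_contra hcon
        rw [not_lt] at hcon
        exact absurd h1 (not_lt.mpr (inv_le_one_of_one_le₀ hcon))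
      have h3 : ((ℓ : ℤ) : 𝓞 L1) = ((ℓ : ℕ) : 𝓞 L1) := by push_cast; rfl
      rw [h3]
      simpa using h2
  have hunder : v.asIdeal = w.asIdeal.under ℤ := by
    have hmax : v.asIdeal.IsMaximal := v.isMaximal
    refine hmax.eq_of_le ?_ ?_
    · exact (Ideal.IsPrime.under ℤ w.asIdeal).ne_top
    · show Ideal.span {(ℓ : ℤ)} ≤ _
      rw [Ideal.span_singleton_le_iff_mem, Ideal.under_def, Ideal.mem_comap]
      simpa using hℓw
  have hLO : w.asIdeal.LiesOver v.asIdeal := ⟨hunder⟩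
  have hLO' : w.asIdeal.LiesOver (Ideal.span {(ℓ : ℤ)}) := hLO
  have he : v.asIdeal.ramificationIdx' w.asIdeal = 1 := by
    rw [Ideal.ramificationIdx'_eq_ramificationIdx v.asIdeal w.asIdeal v.ne_bot]
    exact IsCyclotomicExtension.Rat.ramificationIdx_eq_of_not_dvd (m := M) ℓ L1 w.asIdeal hM
  have hvalℓ : w.valuation L1 (ℓ : L1) = exp (-1 : ℤ) := by
    have h1 := HeightOneSpectrum.valuation_liesOver L1 v w ((ℓ : ℤ) : ℚ)
    rw [he, pow_one] at h1
    have h2 : v.valuation ℚ ((ℓ : ℤ) : ℚ) = exp (-1 : ℤ) := by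
      have : ((ℓ : ℤ) : ℚ) = algebraMap ℤ ℚ (ℓ : ℤ) := rfl
      rw [this, HeightOneSpectrum.valuation_of_algebraMap]
      exact HeightOneSpectrum.intValuation_singleton v hℓprime.ne_zero rfl
    rw [h2] at h1
    rw [h1]
    congr 1
    simp
  -- the valuation of `x`
  have hγ : w.valuation L1 x ≠ 0 := (Valuation.ne_zero_iff _).mpr hx
  set n : ℤ := log (w.valuation L1 x) with hn
  have hxn : w.valuation L1 x = exp n := (exp_log hγ).symm
  have hy : w.valuation L1 (x * (ℓ : L1) ^ n) = 1 := by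
    rw [map_mul, map_zpow₀, hvalℓ, hxn, ← exp_zsmul, ← exp_add]
    simp
  have hy1 : x * (ℓ : L1) ^ n ∈ V1 := by
    rw [← hw, Valuation.mem_valuationSubring_iff, hy]
  have hy2 : (x * (ℓ : L1) ^ n)⁻¹ ∈ V1 := by
    rw [← hw, Valuation.mem_valuationSubring_iff, map_inv₀, hy, inv_one]
  refine ⟨n, ?_, ?_⟩
  · have := (ValuationSubring.mem_comap).mp hy1
    simpa [map_mul, map_zpow₀] using this
  · have := (ValuationSubring.mem_comap).mp hy2
    simpa [map_mul, map_zpow₀, map_inv₀] using this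

end Cyclo

/-! ### a valuation subring with a uniformiser is a DVR -/

/-- a valuation subring `V` of a field `F` in which every nonzero element of `F` is a power of a
fixed nonunit `ϖ` times a unit of `V` is a discrete valuation ring. -/
theorem ebf_isDVR_and_irreducible {F : Type*} [Field F] (V : ValuationSubring F) (ϖ : F)
    (hϖ : ϖ ∈ V.nonunits) (hϖ0 : ϖ ≠ 0)
    (h : ∀ x : F, x ≠ 0 → ∃ n : ℤ, x * ϖ ^ n ∈ V ∧ (x * ϖ ^ n)⁻¹ ∈ V) :
    IsDiscreteValuationRing V ∧ Irreducible (⟨ϖ, V.nonunits_le hϖ⟩ : V) := by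
  have hϖV : ϖ ∈ V := V.nonunits_le hϖ
  have hvϖ : V.valuation ϖ < 1 := V.mem_nonunits_iff.mp hϖ
  have hvϖ0 : V.valuation ϖ ≠ 0 := (Valuation.ne_zero_iff _).mpr hϖ0
  set p : V := ⟨ϖ, hϖV⟩ with hp
  have hp0 : p ≠ 0 := fun h0 => hϖ0 (congrArg Subtype.val h0)
  -- factorisation
  have key : ∀ x : V, x ≠ 0 → ∃ (k : ℕ) (u : Vˣ), x = u * p ^ k := by
    intro x hx
    have hx0 : (x : F) ≠ 0 := fun h0 => hx (Subtype.ext h0)
    obtain ⟨n, h1, h2⟩ := h x hx0
    set y : F := x * ϖ ^ n with hy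
    have hy0 : y ≠ 0 := mul_ne_zero hx0 (zpow_ne_zero _ hϖ0)
    have hvy : V.valuation y = 1 := by
      have a1 := (V.valuation_le_one_iff y).mpr h1
      have a2 := (V.valuation_le_one_iff y⁻¹).mpr h2
      rw [map_inv₀] at a2
      have hne : V.valuation y ≠ 0 := (Valuation.ne_zero_iff _).mpr hy0
      exact le_antisymm a1 ((inv_le_one₀ (zero_lt_iff.mpr hne)).mp a2)
    have hn : n ≤ 0 := by
      by_contra hcon
      rw [not_le] at hcon
      obtain ⟨m, rfl⟩ := Int.eq_ofNat_of_zero_le hcon.le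
      have hm : m ≠ 0 := by rintro rfl; simp at hcon
      have : V.valuation y < 1 := by
        rw [hy, map_mul, zpow_natCast, map_pow]
        calc V.valuation x * V.valuation ϖ ^ m ≤ 1 * V.valuation ϖ ^ m :=
              mul_le_mul_left (V.valuation_le_one x) _
          _ = V.valuation ϖ ^ m := one_mul _
          _ < 1 := pow_lt_one₀ zero_le hvϖ hm
      exact absurd hvy this.ne
    obtain ⟨k, hk⟩ : ∃ k : ℕ, n = -(k : ℤ) := ⟨(-n).toNat, by omega⟩
    let u : Vˣ :=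
      { val := ⟨y, h1⟩
        inv := ⟨y⁻¹, h2⟩
        val_inv := Subtype.ext (mul_inv_cancel₀ hy0)
        inv_val := Subtype.ext (inv_mul_cancel₀ hy0) }
    refine ⟨k, u, Subtype.ext ?_⟩
    show (x : F) = y * ϖ ^ k
    rw [hy, hk, zpow_neg, zpow_natCast, mul_assoc, inv_mul_cancel₀ (pow_ne_zero _ hϖ0), mul_one]
  -- `p` generates the maximal ideal
  have hmax : IsLocalRing.maximalIdeal V = Ideal.span {p} := by
    apply le_antisymm
    · intro x hx
      by_cases hx0 : x = 0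
      · rw [hx0]; exact Ideal.zero_mem _
      obtain ⟨k, u, hxu⟩ := key x hx0
      rcases Nat.eq_zero_or_pos k with rfl | hk
      · rw [pow_zero, mul_one] at hxu
        exact absurd (hxu ▸ u.isUnit) ((IsLocalRing.mem_maximalIdeal _).mp hx)
      · rw [Ideal.mem_span_singleton]
        obtain ⟨j, rfl⟩ : ∃ j, k = j + 1 := ⟨k - 1, by omega⟩
        exact ⟨u * p ^ j, by rw [hxu, pow_succ]; ring⟩
    · rw [Ideal.span_singleton_le_iff_mem]
      exact (V.valuation_lt_one_iff p).mpr hvϖ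
  have hirr : Irreducible p := IsDiscreteValuationRing.irreducible_of_span_eq_maximalIdeal p hp0 hmax
  refine ⟨IsDiscreteValuationRing.ofHasUnitMulPowIrreducibleFactorization ⟨p, hirr, ?_⟩, hirr⟩
  intro x hx
  obtain ⟨k, u, hxu⟩ := key x hx
  exact ⟨k, u, by rw [hxu, mul_comm]⟩

theorem ebf_isDVR_of_uniformizer {F : Type*} [Field F] (V : ValuationSubring F) (ϖ : F)
    (hϖ : ϖ ∈ V.nonunits) (hϖ0 : ϖ ≠ 0)
    (h : ∀ x : F, x ≠ 0 → ∃ n : ℤ, x * ϖ ^ n ∈ V ∧ (x * ϖ ^ n)⁻¹ ∈ V) :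
    IsDiscreteValuationRing V :=
  (ebf_isDVR_and_irreducible V ϖ hϖ hϖ0 h).1

/-! ### the field `K₀` -/

/-- `K₀ = ℚ(ζ : ζ a root of unity of order prime to ℓ)`. -/
def ebf_K0 (ℓ : ℕ) : IntermediateField ℚ Qb :=
  IntermediateField.adjoin ℚ {ζ : Qb | ∃ m : ℕ, ¬ ℓ ∣ m ∧ ζ ^ m = 1}

theorem ebf_mem_K0 {ℓ m : ℕ} (hm : ¬ ℓ ∣ m) {ζ : Qb} (hζ : ζ ^ m = 1) : ζ ∈ ebf_K0 ℓ :=
  IntermediateField.subset_adjoin _ _ ⟨m, hm, hζ⟩

/-- every element of `K₀` lies in one cyclotomic field `ℚ(ζ_M)`, `ℓ ∤ M`. -/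
theorem ebf_exists_cyclo (ℓ : ℕ) [hℓ : Fact ℓ.Prime] {x : Qb} (hx : x ∈ ebf_K0 ℓ) :
    ∃ (M : ℕ) (ζ : Qb), M ≠ 0 ∧ ¬ ℓ ∣ M ∧ IsPrimitiveRoot ζ M ∧
      x ∈ IntermediateField.adjoin ℚ ({ζ} : Set Qb) := by
  classical
  obtain ⟨T, hTS, hxT⟩ := IntermediateField.exists_finset_of_mem_adjoin hx
  have hT : ∀ t ∈ T, ∃ m : ℕ, ¬ ℓ ∣ m ∧ t ^ m = 1 := fun t ht => hTS ht
  choose! f hf using hT
  set M : ℕ := ∏ t ∈ T, f t with hM
  have hℓM : ¬ ℓ ∣ M := by
    rw [hM, (Nat.Prime.prime hℓ.out).dvd_finsetProd_iff]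
    rintro ⟨t, ht, h⟩
    exact (hf t ht).1 h
  have hM0 : M ≠ 0 := by
    intro h
    rw [h] at hℓM
    exact hℓM (dvd_zero ℓ)
  have _ : NeZero M := ⟨hM0⟩
  have _ : NeZero ((M : ℕ) : ℚ) := ⟨by exact_mod_cast hM0⟩
  obtain ⟨ζ, hζ⟩ := HasEnoughRootsOfUnity.exists_primitiveRoot Qb M
  refine ⟨M, ζ, hM0, hℓM, hζ, ?_⟩
  have hle : IntermediateField.adjoin ℚ (T : Set Qb) ≤ IntermediateField.adjoin ℚ ({ζ} : Set Qb) := by
    rw [IntermediateField.adjoin_le_iff]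
    intro t ht
    have ht' : t ∈ T := ht
    have h1 : t ^ M = 1 := by
      obtain ⟨c, hc⟩ := Finset.dvd_prod_of_mem f ht'
      rw [hM, hc, pow_mul, (hf t ht').2, one_pow]
    obtain ⟨i, -, hi⟩ := hζ.eq_pow_of_pow_eq_one h1
    rw [← hi]
    exact pow_mem (IntermediateField.mem_adjoin_simple_self ℚ ζ) i
  exact hle hxT

section Main

variable (A : ValuationSubring Qb) (ℓ : ℕ) [hℓ : Fact ℓ.Prime] (hA : A.LiesOverPrime ℓ)

include hA in
/-- **(★)** every nonzero element of `K₀` is `ℓ ^ (-n)` times a unit of `A`. -/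
theorem ebf_unit_mul_pow {x : Qb} (hx : x ∈ ebf_K0 ℓ) (hx0 : x ≠ 0) :
    ∃ n : ℤ, x * (ℓ : Qb) ^ n ∈ A ∧ (x * (ℓ : Qb) ^ n)⁻¹ ∈ A := by
  obtain ⟨M, ζ, hM0, hℓM, hζ, hxζ⟩ := ebf_exists_cyclo ℓ hx
  have _ : NeZero M := ⟨hM0⟩
  have _ : Algebra.IsAlgebraic ℚ (AlgebraicClosure ℚ) := AlgebraicClosure.isAlgebraic ℚ
  have hcyc0 := hζ.intermediateField_adjoin_isCyclotomicExtension ℚ
  have hcyc : IsCyclotomicExtension {M} ℚ ↥(IntermediateField.adjoin ℚ ({ζ} : Set Qb)) := by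
    convert hcyc0
    · rfl
    · exact Subsingleton.elim _ _
  have _ : NumberField ↥(IntermediateField.adjoin ℚ ({ζ} : Set Qb)) :=
    IsCyclotomicExtension.numberField {M} ℚ _
  have hx' : (⟨x, hxζ⟩ : ↥(IntermediateField.adjoin ℚ ({ζ} : Set Qb))) ≠ 0 := by
    intro h
    exact hx0 (congrArg Subtype.val h)
  exact ebf_cyclo_unit_mul_pow A ℓ hA M hℓM ↥(IntermediateField.adjoin ℚ ({ζ} : Set Qb))
    ⟨x, hxζ⟩ hx'

include hA in
/-- **`A ∩ K₀` is a discrete valuation ring** (uniformiser `ℓ`). -/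
theorem ebf_isDVR : IsDiscreteValuationRing ↥(A.comap (algebraMap ↥(ebf_K0 ℓ) Qb)) := by
  refine ebf_isDVR_of_uniformizer _ ((ℓ : ℕ) : ↥(ebf_K0 ℓ)) ?_ ?_ ?_
  · rw [dsc_mem_comap_nonunits_iff, map_natCast]; exact hA
  · exact_mod_cast hℓ.out.ne_zero
  · intro x hx
    obtain ⟨n, h1, h2⟩ := ebf_unit_mul_pow A ℓ hA x.2 (fun h0 => hx (Subtype.ext h0))
    refine ⟨n, ?_, ?_⟩
    · rw [ValuationSubring.mem_comap, map_mul, map_zpow₀, map_natCast]; exact h1
    · rw [ValuationSubring.mem_comap, map_inv₀, map_mul, map_zpow₀, map_natCast]; exact h2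

/-! ### residues -/

include hA in
theorem ebf_charP : CharP (IsLocalRing.ResidueField A) ℓ := by
  have h0 : ((ℓ : ℕ) : IsLocalRing.ResidueField A) = 0 := by
    have h1 : ((ℓ : A) : Qb) ∈ A.nonunits := by
      have : ((ℓ : A) : Qb) = (ℓ : Qb) := by push_cast; rfl
      rw [this]; exact hA
    have h2 : (ℓ : A) ∈ IsLocalRing.maximalIdeal A :=
      ValuationSubring.coe_mem_nonunits_iff.mp h1
    have h3 := (IsLocalRing.residue_eq_zero_iff (ℓ : A)).mpr h2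
    rwa [map_natCast] at h3
  obtain ⟨c, hc⟩ := CharP.exists (IsLocalRing.ResidueField A)
  have hdvd : c ∣ ℓ := (CharP.cast_eq_zero_iff (IsLocalRing.ResidueField A) c ℓ).mp h0
  rcases (Nat.dvd_prime hℓ.out).mp hdvd with h1 | h1
  · exact absurd h1 (CharP.char_ne_one (IsLocalRing.ResidueField A) c)
  · rwa [h1] at hc

include hA in
/-- every nonzero residue class has finite multiplicative order prime to `ℓ`. -/
theorem ebf_residue_pow_eq_one (a : A) (ha : IsLocalRing.residue A a ≠ 0) :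
    ∃ m : ℕ, ¬ ℓ ∣ m ∧ (IsLocalRing.residue A a) ^ m = 1 := by
  classical
  have _ := ebf_charP A ℓ hA
  let _ : Algebra (ZMod ℓ) (IsLocalRing.ResidueField A) := ZMod.algebra _ ℓ
  have _ : Algebra.IsAlgebraic ℚ (AlgebraicClosure ℚ) := AlgebraicClosure.isAlgebraic ℚ
  have halg : IsAlgebraic ℤ (a : Qb) :=
    (IsFractionRing.isAlgebraic_iff ℤ ℚ Qb).mpr (Algebra.IsAlgebraic.isAlgebraic _)
  obtain ⟨p, hp0, hpa⟩ := halg
  set q := p.primPart with hq
  have hq0 : q ≠ 0 := Polynomial.primPart_ne_zero p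
  have hqa : Polynomial.aeval (a : Qb) q = 0 := Polynomial.aeval_primPart_eq_zero hp0 hpa
  have hqprim : q.IsPrimitive := p.isPrimitive_primPart
  have hqbar : q.map (Int.castRingHom (ZMod ℓ)) ≠ 0 := by
    intro h
    have hdvd : (Polynomial.C (ℓ : ℤ)) ∣ q := by
      rw [Polynomial.C_dvd_iff_dvd_coeff]
      intro i
      have := congrArg (fun r => r.coeff i) h
      simp only [Polynomial.coeff_map, Polynomial.coeff_zero] at this
      exact (ZMod.intCast_zmod_eq_zero_iff_dvd _ _).mp this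
    exact (Nat.prime_iff_prime_int.mp hℓ.out).not_isUnit (hqprim _ hdvd)
  -- `ā` is a root of the reduction
  have hA0 : Polynomial.eval₂ (Int.castRingHom A) a q = 0 := by
    apply A.subtype_injective
    rw [map_zero, Polynomial.hom_eval₂]
    have : (A.subtype.comp (Int.castRingHom A)) = algebraMap ℤ Qb := RingHom.ext_int _ _
    rw [this]
    exact hqa
  have hroot : Polynomial.aeval (IsLocalRing.residue A a) (q.map (Int.castRingHom (ZMod ℓ))) = 0 := by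
    rw [Polynomial.aeval_def, Polynomial.eval₂_map]
    have e : (algebraMap (ZMod ℓ) (IsLocalRing.ResidueField A)).comp (Int.castRingHom (ZMod ℓ)) =
        (IsLocalRing.residue A).comp (Int.castRingHom A) := RingHom.ext_int _ _
    rw [e, ← Polynomial.hom_eval₂, hA0, map_zero]
  have halg' : IsAlgebraic (ZMod ℓ) (IsLocalRing.residue A a) := ⟨_, hqbar, hroot⟩
  have hint : IsIntegral (ZMod ℓ) (IsLocalRing.residue A a) := halg'.isIntegral
  set F := IntermediateField.adjoin (ZMod ℓ) ({IsLocalRing.residue A a} : Set _) with hF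
  have _ : FiniteDimensional (ZMod ℓ) F := IntermediateField.adjoin.finiteDimensional hint
  have _ : Finite F := Module.finite_of_finite (ZMod ℓ)
  let _ : Fintype F := Fintype.ofFinite F
  have _ : CharP F ℓ := charP_of_injective_algebraMap (algebraMap (ZMod ℓ) F).injective ℓ
  let g : F := ⟨IsLocalRing.residue A a, IntermediateField.mem_adjoin_simple_self _ _⟩
  have hg : g ≠ 0 := fun h => ha (congrArg Subtype.val h)
  have hpow := FiniteField.pow_card_sub_one_eq_one g hg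
  obtain ⟨n, -, hcard⟩ := FiniteField.card F ℓ
  refine ⟨Fintype.card F - 1, ?_, ?_⟩
  · intro hdvd
    have h1 : ℓ ∣ Fintype.card F := by rw [hcard]; exact dvd_pow_self ℓ n.ne_zero
    have h2 : 1 ≤ Fintype.card F := Fintype.card_pos
    have h3 : ℓ ∣ 1 := by
      have := (Nat.dvd_sub h1 hdvd)
      rwa [Nat.sub_sub_self h2] at this
    exact hℓ.out.one_lt.ne' (Nat.dvd_one.mp h3)
  · have := congrArg Subtype.val hpow
    simpa [g] using this

include hA in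
/-- **every residue class of `A` is represented by an element of `A ∩ K₀`** (`0` or a root of
unity of order prime to `ℓ`). -/
theorem ebf_residue_repr (a : A) : ∃ (o : Qb) (h : o ∈ A), o ∈ ebf_K0 ℓ ∧
    IsLocalRing.residue A ⟨o, h⟩ = IsLocalRing.residue A a := by
  classical
  by_cases ha : IsLocalRing.residue A a = 0
  · refine ⟨0, A.zero_mem, zero_mem _, ?_⟩
    rw [ha]
    exact map_zero (IsLocalRing.residue A)
  obtain ⟨m, hm, hpow⟩ := ebf_residue_pow_eq_one A ℓ hA a ha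
  have hm0 : m ≠ 0 := fun h => hm (h ▸ dvd_zero ℓ)
  have hmpos : 0 < m := Nat.pos_of_ne_zero hm0
  have _ : NeZero m := ⟨hm0⟩
  have _ : NeZero ((m : ℕ) : ℚ) := ⟨by exact_mod_cast hm0⟩
  obtain ⟨ζ, hζ⟩ := HasEnoughRootsOfUnity.exists_primitiveRoot Qb m
  have hprod := Polynomial.X_pow_sub_one_eq_prod hmpos hζ
  have heval : (a : Qb) ^ m - 1 =
      ∏ ξ ∈ Polynomial.nthRootsFinset m (1 : Qb), ((a : Qb) - ξ) := by
    have := congrArg (Polynomial.eval (a : Qb)) hprod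
    simpa [Polynomial.eval_prod] using this
  have hroot1 : ∀ ξ ∈ Polynomial.nthRootsFinset m (1 : Qb), ξ ^ m = 1 := fun ξ hξ =>
    (Polynomial.mem_nthRootsFinset hmpos 1).mp hξ
  have hmemA : ∀ ξ ∈ Polynomial.nthRootsFinset m (1 : Qb), ξ ∈ A := by
    intro ξ hξ
    refine dsc_mem_of_isIntegral_of_le A (O := ℤ) (fun n => by
      rw [eq_intCast]; exact intCast_mem A n)
      ⟨Polynomial.X ^ m - Polynomial.C 1, Polynomial.monic_X_pow_sub_C 1 hm0, ?_⟩
    simp [hroot1 ξ hξ]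
  have h𝔪 : (a ^ m - 1 : A) ∈ IsLocalRing.maximalIdeal A := by
    rw [← IsLocalRing.residue_eq_zero_iff, map_sub, map_pow, hpow, map_one, sub_self]
  have hprodA : (a ^ m - 1 : A) =
      ∏ ξ ∈ (Polynomial.nthRootsFinset m (1 : Qb)).attach, (a - ⟨ξ.1, hmemA ξ.1 ξ.2⟩) := by
    apply Subtype.ext
    have h1 : ((a ^ m - 1 : A) : Qb) = (a : Qb) ^ m - 1 := by push_cast; rfl
    rw [h1, heval, ← Finset.prod_attach]
    have h2 : ((∏ ξ ∈ (Polynomial.nthRootsFinset m (1 : Qb)).attach,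
        (a - ⟨ξ.1, hmemA ξ.1 ξ.2⟩) : A) : Qb) =
        ∏ ξ ∈ (Polynomial.nthRootsFinset m (1 : Qb)).attach, ((a : Qb) - ξ.1) := by
      rw [← A.subtype_apply, map_prod]
      rfl
    rw [h2]
  rw [hprodA, Ideal.IsPrime.prod_mem_iff] at h𝔪
  obtain ⟨ξ, -, hξ⟩ := h𝔪
  refine ⟨ξ.1, hmemA ξ.1 ξ.2, ebf_mem_K0 hm (hroot1 ξ.1 ξ.2), ?_⟩
  have := (IsLocalRing.residue_eq_zero_iff _).mpr hξ
  rw [map_sub, sub_eq_zero] at this
  exact this.symm

include hA in
/-- **[E-BASE]** the base level. -/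
theorem ebf_main : ∃ K₀ : IntermediateField ℚ (AlgebraicClosure ℚ),
    IsDiscreteValuationRing ↥(A.comap (algebraMap ↥K₀ (AlgebraicClosure ℚ))) ∧
    (∀ a : A, ∃ (o : AlgebraicClosure ℚ) (h : o ∈ A), o ∈ K₀ ∧
      IsLocalRing.residue A ⟨o, h⟩ = IsLocalRing.residue A a) ∧
    (∀ m : ℕ, ¬ ℓ ∣ m → ∀ ζ : AlgebraicClosure ℚ, ζ ^ m = 1 → ζ ∈ K₀) :=
  ⟨ebf_K0 ℓ, ebf_isDVR A ℓ hA, ebf_residue_repr A ℓ hA, fun _ hm _ hζ => ebf_mem_K0 hm hζ⟩

include hA in
/-- `ℓ` is a uniformiser of `O₀ = A ∩ K₀`. -/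
theorem ebf_irreducible :
    Irreducible ((ℓ : ℕ) : ↥(A.comap (algebraMap ↥(ebf_K0 ℓ) Qb))) := by
  have h := (ebf_isDVR_and_irreducible (A.comap (algebraMap ↥(ebf_K0 ℓ) Qb))
    ((ℓ : ℕ) : ↥(ebf_K0 ℓ))
    (by rw [dsc_mem_comap_nonunits_iff, map_natCast]; exact hA)
    (by exact_mod_cast hℓ.out.ne_zero)
    (by
      intro x hx
      obtain ⟨n, h1, h2⟩ := ebf_unit_mul_pow A ℓ hA x.2 (fun h0 => hx (Subtype.ext h0))
      refine ⟨n, ?_, ?_⟩
      · rw [ValuationSubring.mem_comap, map_mul, map_zpow₀, map_natCast]; exact h1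
      · rw [ValuationSubring.mem_comap, map_inv₀, map_mul, map_zpow₀, map_natCast]; exact h2)).2
  convert h using 1
  apply Subtype.ext
  simp

end Main

end Fermat.Agent.JT3
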