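/-
JT3 / node E (place map), producer side, leaf [E-FIN], part 1: the base change of a DVR level
`(L, O₀ = A ∩ L)` to the valuation ring `A` of `Q̄`.

* `rpz_jF L N`, `rpz_finite`, `rpz_finite_inv` : `lg_F L N` is finite over `L(j)` (`L(j⁻¹)`).
* `rpz_beta N L : lg_F L N →+* F̄_N` : extension of constants along `L → Q̄`; `rpz_beta_jF`,
  `rpz_beta_gen`, `rpz_beta_algebraMap`.
* `rpz_O' A L` : the constants `A ∩ L` as a subring of `Q̄`; `rpz_genRing_image` :
  `O'[β G₀] = β (O₀[G₀])`.
* `rpz_Level0 O N π x` : the hypotheses on one chart at a DVR level; `rpz_fg_aux`.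
Prefix `rpz_`.
-/
import Mathlib
import Fermat.Agent.JT3.PlaceMap.Modular
import Fermat.Agent.JT3.PlaceMap.BaseField
import Fermat.Agent.JT3.Descent.FieldOfDef
import Fermat.Agent.JT3.Inst.Defs
import Fermat.Agent.JT3.Inst.FunFieldFacts
import Fermat.Agent.JT3.FCore.Charts
import Fermat.Agent.JT3.FCore.FunField

set_option autoImplicit false
set_option linter.unusedSectionVars false
set_option linter.style.haveILetI false

namespace Fermat.Agent.JT3

open AlgebraicCurve Polynomial ModularCurve Fermat.Agent.S24 IntermediateField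

/-! ### the function field `lg_F L N` over a field of characteristic zero is finite over `L(j)` -/

section Finite

variable (L : Type*) [Field L] (N : ℕ) [NeZero N]

/-- `j` as an element of `lg_F L N`. -/
noncomputable def rpz_jF : ↥(lg_F L N) := ⟨jqModC L, jqModC_mem_full L N⟩

theorem rpz_jF_coe : ((rpz_jF L N : ↥(lg_F L N)) : LaurentSeries L) = jqModC L := rfl

variable [CharZero L]

/-- **`lg_F L N` is finite over `L(j)`** (the modular equations). -/
theorem rpz_finite : FiniteDimensional L⟮(rpz_jF L N : ↥(lg_F L N))⟯ ↥(lg_F L N) := by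
  refine lgf_finite_of_gens (lg_F L N) (divisorExpansionsC L N) (jcr_finite_gens (k := L) N) rfl
    (rpz_jF L N) ?_
  rintro y ⟨d, hd, hdN, hy⟩
  haveI := hd
  obtain ⟨ℓ, hℓN, hℓ⟩ := Nat.exists_infinite_primes (N + 1)
  haveI : Fact ℓ.Prime := ⟨hℓ⟩
  have hℓd : ¬ ℓ ∣ d := fun h => by
    have := Nat.le_of_dvd (Nat.pos_of_ne_zero (NeZero.ne N)) (h.trans hdN)
    omega
  let ρ : ↥(GaloisRep.ratLocalizedAt ℓ) →+* L :=
    (algebraMap ℚ L).comp (GaloisRep.ratLocalizedAt ℓ).subtype
  obtain ⟨Φ, hm, h0⟩ := jcr_modEq d ℓ hℓd ρ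
  refine (lgf_isIntegral_of_modEq (lg_F L N).val ρ L⟮(rpz_jF L N : ↥(lg_F L N))⟯
    (x := rpz_jF L N) (y := y) (mem_adjoin_simple_self L _) Φ hm ?_).isAlgebraic
  have hy' : (lg_F L N).val y = qExpand L d (jqModC L) := hy
  rw [hy']
  exact h0

theorem rpz_finite_inv : FiniteDimensional L⟮(rpz_jF L N : ↥(lg_F L N))⁻¹⟯ ↥(lg_F L N) := by
  haveI := rpz_finite L N
  rw [rt_adjoin_inv]; infer_instance

end Finite

section Beta

variable (N : ℕ) [NeZero N] (L : Type*) [Field L] [Algebra ℚ L] [Algebra L Kbar]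
  [IsScalarTower ℚ L Kbar]

/-- base change of constants `lg_F L N → F̄_N` (coefficientwise along `L → Q̄`). -/
noncomputable def rpz_beta : ↥(lg_F L N) →+* Fbar N :=
  ((dsc_cm L Kbar).comp (lg_F L N).val.toRingHom).codRestrict
    (modularFunctionFieldBar N).toSubfield.toSubring (fun x => by
      have h : (x : LaurentSeries L) ∈ laurentBaseChange L (modularFunctionFieldFull N) := by
        rw [← lg_F_eq_laurentBaseChange]; exact x.2
      exact dsc_cm_mem Kbar h)

theorem rpz_beta_coe (y : ↥(lg_F L N)) :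
    ((rpz_beta N L y : Fbar N) : LaurentSeries Kbar) =
      coeffMap (algebraMap L Kbar) (y : LaurentSeries L) := rfl

theorem rpz_beta_injective : Function.Injective (rpz_beta N L) := (rpz_beta N L).injective

theorem rpz_beta_algebraMap (c : L) :
    rpz_beta N L (algebraMap L ↥(lg_F L N) c) = algebraMap Kbar (Fbar N) (algebraMap L Kbar c) := by
  apply Subtype.ext
  rw [rpz_beta_coe]
  exact dsc_cm_algebraMap L Kbar c

theorem rpz_beta_jF : rpz_beta N L (rpz_jF L N) = br_jBar N := by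
  apply Subtype.ext
  rw [rpz_beta_coe]
  change coeffMap _ (jqModC L) = br_jqK
  rw [coeffMap_jqModC, rpm_jqK_eq]

theorem rpz_beta_gen {d : ℕ} [NeZero d] (hd : d ∣ N) :
    ((rpz_beta N L ⟨qExpand L d (jqModC L), jqModCd_mem_full L N hd⟩ : Fbar N) :
      LaurentSeries Kbar) = barGen d := by
  rw [rpz_beta_coe, rpm_barGen_eq]
  change coeffMap _ (qExpand L d (jqModC L)) = _
  rw [coeffMap_qExpand, coeffMap_jqModC]

end Beta

section Image

variable (A : ValuationSubring Kbar) (N : ℕ) [NeZero N] (L : Type*) [Field L] [Algebra ℚ L]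
  [Algebra L Kbar] [IsScalarTower ℚ L Kbar]

/-- the constants of the base level, as a subring of `Q̄`. -/
noncomputable def rpz_O' : Subring Kbar :=
  (A.comap (algebraMap L Kbar)).toSubring.map (algebraMap L Kbar)

theorem rpz_mem_O' {o : Kbar} :
    o ∈ rpz_O' A L ↔ ∃ c : L, algebraMap L Kbar c ∈ A ∧ algebraMap L Kbar c = o := by
  rw [rpz_O', Subring.mem_map]
  rfl

theorem rpz_O'_le {o : Kbar} (ho : o ∈ rpz_O' A L) : o ∈ A := by
  obtain ⟨c, hc, rfl⟩ := (rpz_mem_O' A L).1 ho
  exact hc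

theorem rpz_const_image :
    (algebraMap Kbar (Fbar N)) '' (rpz_O' A L : Set Kbar) =
      (rpz_beta N L) '' Set.range (algebraMap ↥(A.comap (algebraMap L Kbar)) ↥(lg_F L N)) := by
  ext z
  constructor
  · rintro ⟨o, ho, rfl⟩
    obtain ⟨c, hc, rfl⟩ := (rpz_mem_O' A L).1 ho
    exact ⟨_, ⟨⟨c, hc⟩, rfl⟩, rpz_beta_algebraMap N L c⟩
  · rintro ⟨_, ⟨c, rfl⟩, rfl⟩
    exact ⟨algebraMap L Kbar (c : L), (rpz_mem_O' A L).2 ⟨c, c.2, rfl⟩,
      (rpz_beta_algebraMap N L (c : L)).symm⟩

/-- `O'[β G₀] = β (O₀[G₀])`. -/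
theorem rpz_genRing_image (G₀ : Set ↥(lg_F L N)) :
    rp_genRing (rpz_O' A L) ((rpz_beta N L) '' G₀) =
      (Algebra.adjoin ↥(A.comap (algebraMap L Kbar)) G₀).toSubring.map (rpz_beta N L) := by
  rw [rp_genRing, rpz_const_image, ← Set.image_union, Algebra.adjoin_eq_ring_closure,
    RingHom.map_closure, Set.union_comm]

end Image

/-! ### the interface: one chart at a DVR level -/

section Level0

/-- a chart which is a finite module over its coordinate ring is a finitely generated algebra. -/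
theorem rpz_fg_aux {R₀ F : Type*} [CommRing R₀] [Field F] [Algebra R₀ F] (x : F)
    (hfin : Module.Finite ↥(Algebra.adjoin R₀ ({x} : Set F))
      ↥(integralClosure ↥(Algebra.adjoin R₀ ({x} : Set F)) F)) :
    (fc_chart R₀ ({x} : Set F)).FG := by
  classical
  have h1 : (Subalgebra.toSubmodule (integralClosure ↥(Algebra.adjoin R₀ ({x} : Set F)) F)).FG :=
    Module.Finite.iff_fg.1 hfin
  obtain ⟨s, hs⟩ := Subalgebra.fg_of_fg_toSubmodule h1
  refine ⟨{x} ∪ s, ?_⟩
  rw [fc_chart, ← hs, Finset.coe_union, Finset.coe_singleton, Algebra.adjoin_union_eq_adjoin_adjoin]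

variable {L : Type*} [Field L] (O : ValuationSubring L) (N : ℕ) [NeZero N]

/-- the hypotheses on one chart `fc_chart O {x}` of the model of `lg_F L N` at a DVR level `(L, O)`
(the fields of the interface structure of `PlaceMap/Level0.lean`, with `fin` in the form
"finitely generated `O`-algebra"). -/
structure rpz_Level0 (π : O) (x : ↥(lg_F L N)) : Prop where
  qint : ∀ b ∈ fc_chart O ({x} : Set ↥(lg_F L N)), ∃ w : LaurentSeries O,
    coeffMap O.subtype w = ((b : ↥(lg_F L N)) : LaurentSeries L)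
  fg : (fc_chart O ({x} : Set ↥(lg_F L N))).FG
  ker : ∀ b ∈ fc_chart O ({x} : Set ↥(lg_F L N)), ∀ w : LaurentSeries O,
    coeffMap O.subtype w = ((b : ↥(lg_F L N)) : LaurentSeries L) →
    coeffMap (IsLocalRing.residue O) w = 0 →
    ∃ b' ∈ fc_chart O ({x} : Set ↥(lg_F L N)), b = algebraMap O ↥(lg_F L N) π * b'
  ded : IsDedekindDomain (↥(fc_chart O ({x} : Set ↥(lg_F L N))) ⧸
    Ideal.span {algebraMap O ↥(fc_chart O ({x} : Set ↥(lg_F L N))) π})

end Level0

end Fermat.Agent.JT3
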