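/-
JT3 / node E (place map), producer side, leaf [E-FIN], part 2: the chart `A[β(gens)]` over the
valuation ring `A` of `Q̄` obtained from a chart `fc_chart O₀ {x}` at a DVR level `(L, O₀ = A ∩ L)`.

* generic (any `rp_Chart`): `rpz_D C` (the reduced chart ring `red(B)` as a `k`-subalgebra),
  `rpz_rho`, `rpz_red_surj` (`red(A[gens]) = red(O[gens])` when `O ⊆ A` has the same residue
  field), `rpz_red_isIntegral`, `rpz_not_isField`.
* `rpz_O0 A L = A ∩ L`, `rpz_gens`, `rpz_genRing_eq` (`O'[gens] = β(chart)`), `rpz_lift`,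
  `rpz_isIntegral_beta`, `rpz_goodGens` (the images of generators of the base chart are
  `rpm_GoodGens`), `rpz_ker_of_red`, `rpz_base : rp_Base (chart)`.
Prefix `rpz_`.
-/
import Mathlib
import Fermat.Agent.JT3.PlaceMap.FinalBase
import Fermat.Agent.JT3.PlaceMap.ModularGauss
import Fermat.Agent.JT3.Algebra.NormQuotient

set_option autoImplicit false
set_option linter.unusedSectionVars false
set_option linter.style.haveILetI false

namespace Fermat.Agent.JT3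

open AlgebraicCurve Polynomial ModularCurve Fermat.Agent.S24 IntermediateField

attribute [local instance] Fermat.Agent.JT3.rpm_instAlgSubring Fermat.Agent.JT3.rpm_instAlgFt
set_option synthInstance.maxHeartbeats 400000

/-! ### generic: the range of the reduction map of a chart -/

section RedRange

variable {Kb : Type*} [Field Kb] {A : ValuationSubring Kb}
variable {FF : Type*} [Field FF] [Algebra Kb FF]
variable {k : Type*} [Field k] {Ft : Type*} [Field Ft] [Algebra k Ft]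

/-- the reduced chart ring `red(B) ⊆ Ft`, as a `k`-subalgebra. -/
def rpz_D (C : rp_Chart A FF k Ft) : Subalgebra k Ft :=
  { C.red.range.toSubsemiring with
    algebraMap_mem' := fun c => by
      obtain ⟨a, rfl⟩ := C.res_surj c
      exact ⟨⟨_, C.const_mem a⟩, C.red_const a⟩ }

theorem rpz_mem_D (C : rp_Chart A FF k Ft) {y : Ft} : y ∈ rpz_D C ↔ ∃ b : C.B, C.red b = y :=
  Iff.rfl

/-- the reduction map onto the reduced chart ring. -/
def rpz_rho (C : rp_Chart A FF k Ft) : C.B →+* ↥(rpz_D C) :=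
  C.red.codRestrict (rpz_D C) (fun b => ⟨b, rfl⟩)

theorem rpz_rho_surjective (C : rp_Chart A FF k Ft) : Function.Surjective (rpz_rho C) := by
  rintro ⟨y, b, rfl⟩
  exact ⟨b, rfl⟩

theorem rpz_rho_spec (C : rp_Chart A FF k Ft) (b : C.B) :
    algebraMap ↥(rpz_D C) Ft (rpz_rho C b) = C.red b := rfl

/-- the residue map of a chart kills the maximal ideal. -/
theorem rpz_res_eq_of_sub_mem (C : rp_Chart A FF k Ft) {a o : A}
    (h : ((a : Kb) - (o : Kb)) ∈ A.nonunits) : C.res a = C.res o := by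
  have hmax : (RingHom.ker C.res).IsMaximal := RingHom.ker_isMaximal_of_surjective _ C.res_surj
  have hker : RingHom.ker C.res = IsLocalRing.maximalIdeal A := IsLocalRing.eq_maximalIdeal hmax
  have hmem : a - o ∈ IsLocalRing.maximalIdeal A := by
    rw [ValuationSubring.mem_nonunits_iff_exists_mem_maximalIdeal] at h
    obtain ⟨h1, h2⟩ := h
    exact h2
  rw [← hker, RingHom.mem_ker, map_sub, sub_eq_zero] at hmem
  exact hmem

/-- **the reduction of `A[gens]` equals the reduction of `O[gens]`** when `O ⊆ A` has the same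
residue field. -/
theorem rpz_red_surj (C : rp_Chart A FF k Ft) (O : Subring Kb) (hO : ∀ o ∈ O, o ∈ A)
    (hres : ∀ a : A, ∃ o ∈ O, (a : Kb) - o ∈ A.nonunits) (gens : Set FF)
    (hB : C.B = rp_genRing A.toSubring gens) (b : C.B) :
    ∃ b' : C.B, (b' : FF) ∈ rp_genRing O gens ∧ C.red b' = C.red b := by
  have hle : rp_genRing O gens ≤ C.B := by
    rw [hB, rp_genRing, rp_genRing]
    exact Subring.closure_mono (Set.union_subset_union_right _ (Set.image_mono hO))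
  obtain ⟨b, hb⟩ := b
  have hb' : b ∈ rp_genRing A.toSubring gens := hB ▸ hb
  suffices h : ∃ (h1 : b ∈ C.B) (b' : FF) (h2 : b' ∈ rp_genRing O gens),
      C.red ⟨b', hle h2⟩ = C.red ⟨b, h1⟩ by
    obtain ⟨h1, b', h2, h3⟩ := h
    exact ⟨⟨b', hle h2⟩, h2, h3⟩
  rw [rp_genRing] at hb'
  clear hb
  induction hb' using Subring.closure_induction with
  | mem s hs =>
    rcases hs with hs | ⟨a, ha, rfl⟩
    · have h2 : s ∈ rp_genRing O gens := Subring.subset_closure (Or.inl hs)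
      exact ⟨hle h2, s, h2, rfl⟩
    · obtain ⟨o, ho, hao⟩ := hres ⟨a, ha⟩
      have h2 : algebraMap Kb FF o ∈ rp_genRing O gens :=
        Subring.subset_closure (Or.inr ⟨o, ho, rfl⟩)
      refine ⟨C.const_mem ⟨a, ha⟩, algebraMap Kb FF o, h2, ?_⟩
      have e1 := C.red_const ⟨a, ha⟩
      have e2 := C.red_const ⟨o, hO o ho⟩
      have e3 : C.res ⟨a, ha⟩ = C.res ⟨o, hO o ho⟩ := rpz_res_eq_of_sub_mem C hao
      exact e2.trans (e3 ▸ e1.symm)
  | zero => exact ⟨zero_mem _, 0, zero_mem _, rfl⟩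
  | one => exact ⟨one_mem _, 1, one_mem _, rfl⟩
  | add s t _ _ hs ht =>
    obtain ⟨h1, s', h2, h3⟩ := hs
    obtain ⟨g1, t', g2, g3⟩ := ht
    refine ⟨add_mem h1 g1, s' + t', add_mem h2 g2, ?_⟩
    have e1 : (⟨s' + t', hle (add_mem h2 g2)⟩ : C.B) = ⟨s', hle h2⟩ + ⟨t', hle g2⟩ := rfl
    have e2 : (⟨s + t, add_mem h1 g1⟩ : C.B) = ⟨s, h1⟩ + ⟨t, g1⟩ := rfl
    rw [e1, e2, map_add, map_add, h3, g3]
  | neg s _ hs =>
    obtain ⟨h1, s', h2, h3⟩ := hs
    refine ⟨neg_mem h1, -s', neg_mem h2, ?_⟩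
    have e1 : (⟨-s', hle (neg_mem h2)⟩ : C.B) = -⟨s', hle h2⟩ := rfl
    have e2 : (⟨-s, neg_mem h1⟩ : C.B) = -⟨s, h1⟩ := rfl
    rw [e1, e2, map_neg, map_neg, h3]
  | mul s t _ _ hs ht =>
    obtain ⟨h1, s', h2, h3⟩ := hs
    obtain ⟨g1, t', g2, g3⟩ := ht
    refine ⟨mul_mem h1 g1, s' * t', mul_mem h2 g2, ?_⟩
    have e1 : (⟨s' * t', hle (mul_mem h2 g2)⟩ : C.B) = ⟨s', hle h2⟩ * ⟨t', hle g2⟩ := rfl
    have e2 : (⟨s * t, mul_mem h1 g1⟩ : C.B) = ⟨s, h1⟩ * ⟨t, g1⟩ := rfl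
    rw [e1, e2, map_mul, map_mul, h3, g3]

end RedRange

section NotField

variable {Kb : Type*} [Field Kb] {A : ValuationSubring Kb}
variable {FF : Type*} [Field FF] [Algebra Kb FF]
variable {k : Type*} [Field k] {Ft : Type*} [Field Ft] [Algebra k Ft]

/-- the reduction of `A[x]` lies in `k[x̃]`. -/
theorem rpz_red_ringOf_mem (C : rp_Chart A FF k Ft) {x : FF} (hx : x ∈ C.B)
    (s : rpm_ringOf A x) :
    C.red (Subring.inclusion (rpm_ringOf_le C hx) s) ∈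
      Algebra.adjoin k ({C.red ⟨x, hx⟩} : Set Ft) := by
  obtain ⟨s, hs⟩ := s
  have hle := rpm_ringOf_le C hx
  suffices h : ∃ h1 : s ∈ C.B, C.red ⟨s, h1⟩ ∈ Algebra.adjoin k ({C.red ⟨x, hx⟩} : Set Ft) by
    obtain ⟨h1, h2⟩ := h
    exact h2
  change s ∈ Subring.closure (rpm_constSet A FF ∪ {x}) at hs
  induction hs using Subring.closure_induction with
  | mem s hs =>
    rcases hs with ⟨a, rfl⟩ | hs
    · refine ⟨C.const_mem a, ?_⟩
      rw [C.red_const]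
      exact Subalgebra.algebraMap_mem _ _
    · rw [Set.mem_singleton_iff] at hs
      subst hs
      exact ⟨hx, Algebra.subset_adjoin rfl⟩
  | zero => exact ⟨zero_mem _, by rw [show (⟨0, zero_mem _⟩ : C.B) = 0 from rfl, map_zero]; exact zero_mem _⟩
  | one => exact ⟨one_mem _, by rw [show (⟨1, one_mem _⟩ : C.B) = 1 from rfl, map_one]; exact one_mem _⟩
  | add s t _ _ hs ht =>
    obtain ⟨h1, h2⟩ := hs
    obtain ⟨g1, g2⟩ := ht
    refine ⟨add_mem h1 g1, ?_⟩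
    rw [show (⟨s + t, add_mem h1 g1⟩ : C.B) = ⟨s, h1⟩ + ⟨t, g1⟩ from rfl, map_add]
    exact add_mem h2 g2
  | neg s _ hs =>
    obtain ⟨h1, h2⟩ := hs
    refine ⟨neg_mem h1, ?_⟩
    rw [show (⟨-s, neg_mem h1⟩ : C.B) = -⟨s, h1⟩ from rfl, map_neg]
    exact neg_mem h2
  | mul s t _ _ hs ht =>
    obtain ⟨h1, h2⟩ := hs
    obtain ⟨g1, g2⟩ := ht
    refine ⟨mul_mem h1 g1, ?_⟩
    rw [show (⟨s * t, mul_mem h1 g1⟩ : C.B) = ⟨s, h1⟩ * ⟨t, g1⟩ from rfl, map_mul]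
    exact mul_mem h2 g2

/-- the reduction of a chart function is integral over `k[x̃]`. -/
theorem rpz_red_isIntegral (C : rp_Chart A FF k Ft) {x : FF} (hx : x ∈ C.B)
    (hint : ∀ b ∈ C.B, IsIntegral (rpm_ringOf A x) b) (b : C.B) :
    IsIntegral (Algebra.adjoin k ({C.red ⟨x, hx⟩} : Set Ft)) (C.red b) := by
  have hle : rpm_ringOf A x ≤ C.B := rpm_ringOf_le C hx
  let φ : rpm_ringOf A x →+* Algebra.adjoin k ({C.red ⟨x, hx⟩} : Set Ft) :=
    (C.red.comp (Subring.inclusion hle)).codRestrict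
      (Algebra.adjoin k ({C.red ⟨x, hx⟩} : Set Ft)) (rpz_red_ringOf_mem C hx)
  obtain ⟨p, hp, hpb⟩ := hint b b.2
  refine ⟨p.map φ, hp.map _, ?_⟩
  rw [Polynomial.eval₂_map]
  have h1 : (algebraMap (Algebra.adjoin k ({C.red ⟨x, hx⟩} : Set Ft)) Ft).comp φ
      = C.red.comp (Subring.inclusion hle) := by
    ext s
    rfl
  rw [h1, ← Polynomial.hom_eval₂]
  have h2 : Polynomial.eval₂ (Subring.inclusion hle) b p = 0 := by
    apply Subtype.ext
    have := Polynomial.hom_eval₂ p (Subring.inclusion hle) C.B.subtype b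
    change C.B.subtype (Polynomial.eval₂ (Subring.inclusion hle) _ p) = 0
    rw [this]
    exact hpb
  rw [h2, map_zero]

/-- **the reduced chart ring is not a field** when the reduction of the coordinate is
transcendental. -/
theorem rpz_not_isField (C : rp_Chart A FF k Ft) {x : FF} (hx : x ∈ C.B)
    (hint : ∀ b ∈ C.B, IsIntegral (rpm_ringOf A x) b)
    (htr : Transcendental k (C.red ⟨x, hx⟩)) : ¬ IsField ↥(rpz_D C) := by
  intro hF
  set t : Ft := C.red ⟨x, hx⟩ with ht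
  have hRD : Algebra.adjoin k ({t} : Set Ft) ≤ rpz_D C :=
    Algebra.adjoin_le (by
      intro y hy
      rw [Set.mem_singleton_iff] at hy
      rw [hy]
      exact ⟨⟨x, hx⟩, rfl⟩)
  letI : Algebra ↥(Algebra.adjoin k ({t} : Set Ft)) ↥(rpz_D C) :=
    (Subalgebra.inclusion hRD).toRingHom.toAlgebra
  haveI : Algebra.IsIntegral ↥(Algebra.adjoin k ({t} : Set Ft)) ↥(rpz_D C) := by
    refine ⟨fun d => ?_⟩
    obtain ⟨d, b, rfl⟩ := d
    obtain ⟨p, hp, hpb⟩ := rpz_red_isIntegral C hx hint b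
    refine ⟨p, hp, ?_⟩
    apply Subtype.ext
    have h1 := Polynomial.hom_eval₂ p
      (algebraMap ↥(Algebra.adjoin k ({t} : Set Ft)) ↥(rpz_D C)) (rpz_D C).val.toRingHom
      ⟨C.red b, b, rfl⟩
    change (rpz_D C).val.toRingHom (Polynomial.eval₂ _ _ p) = 0
    rw [h1]
    exact hpb
  have hinj : Function.Injective
      (algebraMap ↥(Algebra.adjoin k ({t} : Set Ft)) ↥(rpz_D C)) :=
    Subalgebra.inclusion_injective hRD
  have hR : IsField ↥(Algebra.adjoin k ({t} : Set Ft)) :=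
    isField_of_isIntegral_of_isField hinj hF
  have hinj' : Function.Injective (aeval t : k[X] →ₐ[k] Ft) := transcendental_iff_injective.1 htr
  have e1 : k[X] ≃ₐ[k] (aeval t : k[X] →ₐ[k] Ft).range := AlgEquiv.ofInjective (aeval t) hinj'
  have e2 : (aeval t : k[X] →ₐ[k] Ft).range ≃ₐ[k] Algebra.adjoin k ({t} : Set Ft) :=
    Subalgebra.equivOfEq _ _ (Algebra.adjoin_singleton_eq_range_aeval k t).symm
  exact Polynomial.not_isField k ((e1.trans e2).toMulEquiv.isField hR)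

end NotField

/-! ### the chart `A[β(gens)]` -/

section Chart

variable (A : ValuationSubring Kbar) (N : ℕ) [NeZero N]
  (L : Type*) [Field L] [Algebra ℚ L] [Algebra L Kbar] [IsScalarTower ℚ L Kbar]

/-- the base valuation ring `O₀ = A ∩ L`. -/
noncomputable abbrev rpz_O0 : ValuationSubring L := A.comap (algebraMap L Kbar)

/-- the image of a finite set of functions under the base change. -/
noncomputable def rpz_gens (G₀ : Finset ↥(lg_F L N)) : Finset (Fbar N) := by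
  classical exact G₀.image (rpz_beta N L)

theorem rpz_coe_gens (G₀ : Finset ↥(lg_F L N)) :
    (rpz_gens N L G₀ : Set (Fbar N)) = (rpz_beta N L) '' (G₀ : Set ↥(lg_F L N)) := by
  classical
  rw [rpz_gens, Finset.coe_image]

variable {N L}

/-- `O'[gens] = β (chart)`. -/
theorem rpz_genRing_eq {x : ↥(lg_F L N)} {G₀ : Finset ↥(lg_F L N)}
    (hG₀ : Algebra.adjoin ↥(rpz_O0 A L) (G₀ : Set ↥(lg_F L N)) =
      fc_chart ↥(rpz_O0 A L) ({x} : Set ↥(lg_F L N))) :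
    rp_genRing (rpz_O' A L) (rpz_gens N L G₀ : Set (Fbar N)) =
      (fc_chart ↥(rpz_O0 A L) ({x} : Set ↥(lg_F L N))).toSubring.map (rpz_beta N L) := by
  rw [rpz_coe_gens, rpz_genRing_image, hG₀]

theorem rpz_beta_mem_genRing {x : ↥(lg_F L N)} {G₀ : Finset ↥(lg_F L N)}
    (hG₀ : Algebra.adjoin ↥(rpz_O0 A L) (G₀ : Set ↥(lg_F L N)) =
      fc_chart ↥(rpz_O0 A L) ({x} : Set ↥(lg_F L N)))
    {b₀ : ↥(lg_F L N)} (hb₀ : b₀ ∈ fc_chart ↥(rpz_O0 A L) ({x} : Set ↥(lg_F L N))) :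
    rpz_beta N L b₀ ∈ rp_genRing (rpz_O' A L) (rpz_gens N L G₀ : Set (Fbar N)) := by
  rw [rpz_genRing_eq A hG₀]
  exact ⟨b₀, hb₀, rfl⟩

theorem rpz_exists_of_mem_genRing {x : ↥(lg_F L N)} {G₀ : Finset ↥(lg_F L N)}
    (hG₀ : Algebra.adjoin ↥(rpz_O0 A L) (G₀ : Set ↥(lg_F L N)) =
      fc_chart ↥(rpz_O0 A L) ({x} : Set ↥(lg_F L N)))
    {b : Fbar N} (hb : b ∈ rp_genRing (rpz_O' A L) (rpz_gens N L G₀ : Set (Fbar N))) :
    ∃ b₀ ∈ fc_chart ↥(rpz_O0 A L) ({x} : Set ↥(lg_F L N)), rpz_beta N L b₀ = b := by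
  rw [rpz_genRing_eq A hG₀] at hb
  exact hb

theorem rpz_genRing_le (gens : Set (Fbar N)) :
    rp_genRing (rpz_O' A L) gens ≤ rp_genRing A.toSubring gens := by
  rw [rp_genRing, rp_genRing]
  refine Subring.closure_mono (Set.union_subset_union_right _ (Set.image_mono ?_))
  exact fun o ho => rpz_O'_le A L ho

/-- q-integral lifts over `A` of the images of chart functions. -/
theorem rpz_lift {π : ↥(rpz_O0 A L)} {x : ↥(lg_F L N)} (H : rpz_Level0 (rpz_O0 A L) N π x)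
    {b₀ : ↥(lg_F L N)} (hb₀ : b₀ ∈ fc_chart ↥(rpz_O0 A L) ({x} : Set ↥(lg_F L N))) :
    ∃ w₀ : LaurentSeries ↥(rpz_O0 A L),
      coeffMap (rpz_O0 A L).subtype w₀ = (b₀ : LaurentSeries L) ∧
      coeffMap A.subtype (coeffMap (dsc_incl Kbar A L) w₀) =
        ((rpz_beta N L b₀ : Fbar N) : LaurentSeries Kbar) := by
  obtain ⟨w₀, hw₀⟩ := H.qint b₀ hb₀
  refine ⟨w₀, hw₀, ?_⟩
  rw [coeffMap_coeffMap, dsc_subtype_comp_incl, ← coeffMap_coeffMap, hw₀, rpz_beta_coe]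

/-- `β` maps `O₀[x]` into `A[β x]`. -/
theorem rpz_beta_mem_ring {x : ↥(lg_F L N)} {r : ↥(lg_F L N)}
    (hr : r ∈ Algebra.adjoin ↥(rpz_O0 A L) ({x} : Set ↥(lg_F L N))) :
    rpz_beta N L r ∈ rpm_ring A N (rpz_beta N L x) := by
  induction hr using Algebra.adjoin_induction with
  | mem y hy =>
    rw [Set.mem_singleton_iff] at hy
    rw [hy]
    exact rpm_self_mem_ring A N _
  | algebraMap c =>
    have h : algebraMap ↥(rpz_O0 A L) ↥(lg_F L N) c = algebraMap L ↥(lg_F L N) (c : L) := rfl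
    rw [h, rpz_beta_algebraMap]
    exact rpm_const_mem_ring A N _ ⟨algebraMap L Kbar (c : L), c.2⟩
  | add y z _ _ hy hz => rw [map_add]; exact add_mem hy hz
  | mul y z _ _ hy hz => rw [map_mul]; exact mul_mem hy hz

/-- the images of chart functions are integral over `A[β x]`. -/
theorem rpz_isIntegral_beta {x : ↥(lg_F L N)} {b₀ : ↥(lg_F L N)}
    (hb₀ : b₀ ∈ fc_chart ↥(rpz_O0 A L) ({x} : Set ↥(lg_F L N))) :
    IsIntegral (rpm_ring A N (rpz_beta N L x)) (rpz_beta N L b₀) := by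
  rw [fc_mem_chart] at hb₀
  let φ : ↥(Algebra.adjoin ↥(rpz_O0 A L) ({x} : Set ↥(lg_F L N))) →+*
      ↥(rpm_ring A N (rpz_beta N L x)) :=
    ((rpz_beta N L).comp
      (Algebra.adjoin ↥(rpz_O0 A L) ({x} : Set ↥(lg_F L N))).toSubring.subtype).codRestrict
      (rpm_ring A N (rpz_beta N L x)) (fun r => rpz_beta_mem_ring A r.2)
  exact IsIntegral.map_of_comp_eq φ (rpz_beta N L) (by ext r; rfl) hb₀

end Chart

section GoodGens

variable (A : ValuationSubring Kbar) {N : ℕ} [NeZero N]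
  {L : Type*} [Field L] [Algebra ℚ L] [Algebra L Kbar] [IsScalarTower ℚ L Kbar]
  {ℓ : ℕ} [Fact ℓ.Prime]

theorem rpz_subset_chart {x : ↥(lg_F L N)} {G₀ : Finset ↥(lg_F L N)}
    (hG₀ : Algebra.adjoin ↥(rpz_O0 A L) (G₀ : Set ↥(lg_F L N)) =
      fc_chart ↥(rpz_O0 A L) ({x} : Set ↥(lg_F L N))) {g₀ : ↥(lg_F L N)} (hg₀ : g₀ ∈ G₀) :
    g₀ ∈ fc_chart ↥(rpz_O0 A L) ({x} : Set ↥(lg_F L N)) := by
  rw [← hG₀]
  exact Algebra.subset_adjoin hg₀

theorem rpz_x_mem_chart (x : ↥(lg_F L N)) :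
    x ∈ fc_chart ↥(rpz_O0 A L) ({x} : Set ↥(lg_F L N)) :=
  fc_adjoin_le_chart _ (Algebra.subset_adjoin rfl)

/-- every function of `lg_F L N` is a quotient of chart functions. -/
theorem rpz_exists_div {x : ↥(lg_F L N)}
    (halg : Algebra.IsAlgebraic ↥(Algebra.adjoin ↥(rpz_O0 A L) ({x} : Set ↥(lg_F L N)))
      ↥(lg_F L N)) (f : ↥(lg_F L N)) :
    ∃ b c : ↥(lg_F L N), b ∈ fc_chart ↥(rpz_O0 A L) ({x} : Set ↥(lg_F L N)) ∧
      c ∈ fc_chart ↥(rpz_O0 A L) ({x} : Set ↥(lg_F L N)) ∧ c ≠ 0 ∧ f = b / c := by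
  haveI := halg
  obtain ⟨b, c, hc, hf⟩ := IsFractionRing.div_surjective
    (A := ↥(fc_chart ↥(rpz_O0 A L) ({x} : Set ↥(lg_F L N)))) f
  refine ⟨b, c, b.2, c.2, ?_, hf.symm⟩
  intro h0
  exact nonZeroDivisors.ne_zero hc (Subtype.ext h0)

/-- **the generators of the base level are good generators of a chart over `A`.** -/
theorem rpz_goodGens (hℓN : ¬ ℓ ∣ N) (hA : A.LiesOverPrime ℓ)
    {π : ↥(rpz_O0 A L)} {x : ↥(lg_F L N)} (H : rpz_Level0 (rpz_O0 A L) N π x)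
    {G₀ : Finset ↥(lg_F L N)}
    (hG₀ : Algebra.adjoin ↥(rpz_O0 A L) (G₀ : Set ↥(lg_F L N)) =
      fc_chart ↥(rpz_O0 A L) ({x} : Set ↥(lg_F L N)))
    (halg : Algebra.IsAlgebraic ↥(Algebra.adjoin ↥(rpz_O0 A L) ({x} : Set ↥(lg_F L N)))
      ↥(lg_F L N)) :
    rpm_GoodGens A N (rpz_beta N L x) (rpz_gens N L G₀ : Set (Fbar N)) := by
  refine rpm_goodGens_of_lifts A N hℓN hA _ _ ?_ ?_ ?_ ?_
  · intro g hg
    rw [rpz_coe_gens] at hg
    obtain ⟨g₀, hg₀, rfl⟩ := hg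
    obtain ⟨w₀, -, hw⟩ := rpz_lift A H (rpz_subset_chart A hG₀ hg₀)
    exact ⟨_, hw⟩
  · intro g hg
    rw [rpz_coe_gens] at hg
    obtain ⟨g₀, hg₀, rfl⟩ := hg
    exact rpz_isIntegral_beta A (rpz_subset_chart A hG₀ hg₀)
  · exact rpz_genRing_le A _ (rpz_beta_mem_genRing A hG₀ (rpz_x_mem_chart A x))
  · intro g hg
    obtain ⟨d, hd, hdN, hgd⟩ := hg
    haveI := hd
    have hg' : g = rpz_beta N L ⟨qExpand L d (jqModC L), jqModCd_mem_full L N hdN⟩ :=
      Subtype.ext (hgd.trans (rpz_beta_gen N L hdN).symm)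
    obtain ⟨b, c, hb, hc, hc0, hf⟩ := rpz_exists_div A halg
      ⟨qExpand L d (jqModC L), jqModCd_mem_full L N hdN⟩
    rw [hg', hf, map_div₀]
    exact div_mem
      (Subfield.subset_closure (rpz_genRing_le A _ (rpz_beta_mem_genRing A hG₀ hb)))
      (Subfield.subset_closure (rpz_genRing_le A _ (rpz_beta_mem_genRing A hG₀ hc)))

end GoodGens

section Base

variable (A : ValuationSubring Kbar) {N : ℕ} [NeZero N]
  {L : Type*} [Field L] [Algebra ℚ L] [Algebra L Kbar] [IsScalarTower ℚ L Kbar]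

theorem rpz_intCast_mem_O' (n : ℤ) : (n : Kbar) ∈ rpz_O' A L :=
  (rpz_mem_O' A L).2 ⟨(n : L), by rw [map_intCast]; exact intCast_mem A n, map_intCast _ n⟩

/-- `Q̄` is algebraic over the constants of the base level. -/
theorem rpz_alg (c : Kbar) :
    ∃ p : Polynomial Kbar, p ≠ 0 ∧ (∀ i, p.coeff i ∈ rpz_O' A L) ∧ p.eval c = 0 := by
  have h1 : IsAlgebraic ℚ c := (AlgebraicClosure.isAlgebraic ℚ).isAlgebraic c
  have h2 : IsAlgebraic ℤ c := (IsFractionRing.isAlgebraic_iff ℤ ℚ Kbar).2 h1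
  obtain ⟨p, hp0, hpc⟩ := h2
  refine ⟨p.map (algebraMap ℤ Kbar), ?_, ?_, ?_⟩
  · exact (Polynomial.map_ne_zero_iff (algebraMap ℤ Kbar).injective_int).2 hp0
  · intro i
    rw [Polynomial.coeff_map, eq_intCast]
    exact rpz_intCast_mem_O' A _
  · rw [Polynomial.eval_map, ← Polynomial.aeval_def]
    exact hpc

/-- the structure of the nonzero elements of the base discrete valuation ring. -/
theorem rpz_O_str [IsDiscreteValuationRing ↥(rpz_O0 A L)] {π : ↥(rpz_O0 A L)}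
    (hπ : Irreducible π) (o : Kbar) (ho : o ∈ rpz_O' A L) (ho0 : o ≠ 0) :
    ∃ (n : ℕ) (u : Kbar), u ∈ rpz_O' A L ∧ u⁻¹ ∈ rpz_O' A L ∧
      o = algebraMap L Kbar (π : L) ^ n * u := by
  obtain ⟨c, hc, rfl⟩ := (rpz_mem_O' A L).1 ho
  have hc0 : (⟨c, hc⟩ : ↥(rpz_O0 A L)) ≠ 0 := by
    intro h
    apply ho0
    have : c = 0 := congrArg Subtype.val h
    rw [this, map_zero]
  obtain ⟨n, u, hu⟩ := IsDiscreteValuationRing.associated_pow_irreducible hc0 hπ
  refine ⟨n, algebraMap L Kbar ((u⁻¹ : (↥(rpz_O0 A L))ˣ) : ↥(rpz_O0 A L)),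
    (rpz_mem_O' A L).2 ⟨_, ((u⁻¹ : (↥(rpz_O0 A L))ˣ) : ↥(rpz_O0 A L)).2, rfl⟩, ?_, ?_⟩
  · refine (rpz_mem_O' A L).2 ⟨((u : ↥(rpz_O0 A L)) : L), (u : ↥(rpz_O0 A L)).2, ?_⟩
    rw [← map_inv₀]
    congr 1
    have h1 : ((u : ↥(rpz_O0 A L)) : L) * (((u⁻¹ : (↥(rpz_O0 A L))ˣ) : ↥(rpz_O0 A L)) : L) = 1 :=
      congrArg Subtype.val u.mul_inv
    exact eq_inv_of_mul_eq_one_left h1
  · have h2 : c = (π : L) ^ n * (((u⁻¹ : (↥(rpz_O0 A L))ˣ) : ↥(rpz_O0 A L)) : L) := by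
      have h3 : (⟨c, hc⟩ : ↥(rpz_O0 A L)) = π ^ n * ((u⁻¹ : (↥(rpz_O0 A L))ˣ) : ↥(rpz_O0 A L)) := by
        rw [← hu, mul_assoc, Units.mul_inv, mul_one]
      have h4 := congrArg Subtype.val h3
      rw [MulMemClass.coe_mul, SubmonoidClass.coe_pow] at h4
      exact h4
    rw [h2, map_mul, map_pow]

end Base

section BaseDef

variable (A : ValuationSubring Kbar) {N : ℕ} [NeZero N]
  {L : Type*} [Field L] [Algebra ℚ L] [Algebra L Kbar] [IsScalarTower ℚ L Kbar]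

/-- the reduction of the image of a chart function is the coefficientwise reduction of its
q-expansion over `O₀`. -/
theorem rpz_red_coe
    {b₀ : ↥(lg_F L N)} (w₀ : LaurentSeries ↥(rpz_O0 A L))
    (hw₀ : coeffMap (rpz_O0 A L).subtype w₀ = (b₀ : LaurentSeries L))
    (hmem : rpz_beta N L b₀ ∈ rpg_intSubring A (IsLocalRing.residue A) N) :
    ((rpg_intRed A (IsLocalRing.residue A) N ⟨rpz_beta N L b₀, hmem⟩ :
      ↥(modularFunctionFieldFullC (IsLocalRing.ResidueField A) N)) :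
        LaurentSeries (IsLocalRing.ResidueField A)) =
      coeffMap (IsLocalRing.residue A) (coeffMap (dsc_incl Kbar A L) w₀) := by
  refine rpm_intRed_coe A N ⟨rpz_beta N L b₀, hmem⟩ (coeffMap (dsc_incl Kbar A L) w₀) ?_
  rw [coeffMap_coeffMap, dsc_subtype_comp_incl, ← coeffMap_coeffMap, hw₀, rpz_beta_coe]

/-- **kernel of the reduction on the base chart**: a chart function whose image reduces to zero is
divisible by the uniformiser. -/
theorem rpz_ker_of_red {π : ↥(rpz_O0 A L)} {x : ↥(lg_F L N)} (H : rpz_Level0 (rpz_O0 A L) N π x)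
    {b₀ : ↥(lg_F L N)} (hb₀ : b₀ ∈ fc_chart ↥(rpz_O0 A L) ({x} : Set ↥(lg_F L N)))
    (hmem : rpz_beta N L b₀ ∈ rpg_intSubring A (IsLocalRing.residue A) N)
    (hred : rpg_intRed A (IsLocalRing.residue A) N ⟨rpz_beta N L b₀, hmem⟩ = 0) :
    ∃ b' ∈ fc_chart ↥(rpz_O0 A L) ({x} : Set ↥(lg_F L N)),
      b₀ = algebraMap ↥(rpz_O0 A L) ↥(lg_F L N) π * b' := by
  obtain ⟨w₀, hw₀, hw⟩ := rpz_lift A H hb₀
  have h1 := rpz_red_coe A w₀ hw₀ hmem
  rw [hred] at h1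
  have h3 : coeffMap (IsLocalRing.residue ↥(rpz_O0 A L)) w₀ = 0 :=
    (dsc_red_incl_eq_zero_iff Kbar A L w₀).1 h1.symm
  exact H.ker b₀ hb₀ w₀ hw₀ h3

/-- **the base level of the chart `A[β(gens)]`.** -/
noncomputable def rpz_base [IsDiscreteValuationRing ↥(rpz_O0 A L)] {π : ↥(rpz_O0 A L)}
    (hπ : Irreducible π)
    (hres : ∀ a : A, ∃ c : L, algebraMap L Kbar c ∈ A ∧
      (a : Kbar) - algebraMap L Kbar c ∈ A.nonunits)
    {x : ↥(lg_F L N)} (H : rpz_Level0 (rpz_O0 A L) N π x)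
    {G₀ : Finset ↥(lg_F L N)}
    (hG₀ : Algebra.adjoin ↥(rpz_O0 A L) (G₀ : Set ↥(lg_F L N)) =
      fc_chart ↥(rpz_O0 A L) ({x} : Set ↥(lg_F L N)))
    (hGG : rpm_GoodGens A N (rpz_beta N L x) (rpz_gens N L G₀ : Set (Fbar N))) :
    rp_Base (rpm_dataGen A N (rpz_beta N L x) (rpz_gens N L G₀ : Set (Fbar N)) hGG).chart where
  O := rpz_O' A L
  O_le := fun _ ho => rpz_O'_le A L ho
  ϖ := algebraMap L Kbar (π : L)
  ϖ_mem := (rpz_mem_O' A L).2 ⟨(π : L), π.2, rfl⟩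
  ϖ_ne := by
    intro h
    rw [map_eq_zero] at h
    exact hπ.ne_zero (Subtype.ext h)
  ϖ_nonunit := by
    rw [← dsc_mem_comap_nonunits_iff]
    have h : π ∈ nonunits ↥(rpz_O0 A L) := hπ.not_isUnit
    rw [← IsLocalRing.mem_maximalIdeal] at h
    rw [ValuationSubring.mem_nonunits_iff_exists_mem_maximalIdeal]
    exact ⟨π.2, h⟩
  O_str := fun o ho ho0 => rpz_O_str A hπ o ho ho0
  alg := rpz_alg A
  res_eq := fun a => by
    obtain ⟨c, hc, hac⟩ := hres a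
    exact ⟨_, (rpz_mem_O' A L).2 ⟨c, hc, rfl⟩, hac⟩
  gens := rpz_gens N L G₀
  chart_eq := rfl
  red_ker := by
    intro b hb hbO hred
    obtain ⟨b₀, hb₀, rfl⟩ := rpz_exists_of_mem_genRing A hG₀ hbO
    have hmem : rpz_beta N L b₀ ∈ rpg_intSubring A (IsLocalRing.residue A) N :=
      (rpm_dataGen A N (rpz_beta N L x) (rpz_gens N L G₀ : Set (Fbar N)) hGG).le_int hb
    obtain ⟨b', hb', hbb'⟩ := rpz_ker_of_red A H hb₀ hmem hred
    refine ⟨rpz_beta N L b', rpz_beta_mem_genRing A hG₀ hb', ?_⟩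
    rw [hbb', map_mul]
    congr 1
    exact rpz_beta_algebraMap N L (π : L)

end BaseDef

end Fermat.Agent.JT3
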