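import Mathlib
import Fermat.Agent.JT3.Algebra.NormQuotientInst
import Fermat.Agent.JT3.FCore.FunField
import Fermat.Agent.JT3.Model.Charts

/-!
# JT3 / node E, producer side, leaf [E-GAL], generic layer (prefix `rcq_`)

`O` a discrete valuation ring with algebraically closed residue field and fraction field `L` of
characteristic zero, `F2 ⊆ E` function fields over `L` with `E / F2` finite Galois, `y ∈ F2`
transcendental over `L`.  `A := fc_chart O {y}` (normalisation of `O[y]` in `F2`),
`B := fc_chart O {y}` computed in `E`.  Then `B` is the integral closure of `A` in `E`, the Galois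
group acts on `B` with invariants `A`, and **if `B / π` is a Dedekind domain on which the Galois
group acts faithfully, then `A / π` is a Dedekind domain** (`rcq_dedekind_descent`, via the norm
trick `nq_quotient_span_isDedekindDomain`).
-/

set_option autoImplicit false
set_option linter.unusedSectionVars false
set_option linter.style.haveILetI false

namespace Fermat.Agent.JT3

open Polynomial IntermediateField IsLocalRing

section Residue

variable {O B : Type*} [CommRing O] [IsLocalRing O] [IsAlgClosed (ResidueField O)]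
  [CommRing B] [Algebra O B] [Algebra.FiniteType O B]

/-- **Closed points are rational**: if the residue field of `O` is algebraically closed and `B` is
an `O`-algebra of finite type, every maximal ideal of `B` above the maximal ideal of `O` has
residue field `O / 𝔪`. -/
theorem rcq_residue_surjective (n : Ideal B) [hn : n.IsMaximal]
    (hmn : ∀ a ∈ maximalIdeal O, algebraMap O B a ∈ n) (b : B) :
    ∃ a : O, b - algebraMap O B a ∈ n := by
  letI : Field (B ⧸ n) := Ideal.Quotient.field n
  let f : O →+* B ⧸ n := algebraMap O (B ⧸ n)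
  have hf : ∀ a : O, f a = Ideal.Quotient.mk n (algebraMap O B a) := fun a => rfl
  haveI : IsLocalHom f := by
    refine ⟨fun a ha => ?_⟩
    by_contra hna
    have hmem : a ∈ maximalIdeal O := (mem_maximalIdeal a).2 hna
    have h0 : f a = 0 := by
      rw [hf]
      exact Ideal.Quotient.eq_zero_iff_mem.2 (hmn a hmem)
    rw [h0] at ha
    exact not_isUnit_zero ha
  let g : ResidueField O →+* B ⧸ n := ResidueField.lift f
  letI : Algebra (ResidueField O) (B ⧸ n) := g.toAlgebra
  haveI : IsScalarTower O (ResidueField O) (B ⧸ n) :=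
    IsScalarTower.of_algebraMap_eq fun a => (ResidueField.lift_residue_apply f a).symm
  haveI h1 : Algebra.FiniteType O (B ⧸ n) :=
    Algebra.FiniteType.of_surjective (Ideal.Quotient.mkₐ O n) (Ideal.Quotient.mkₐ_surjective O n)
  haveI h2 : Algebra.FiniteType (ResidueField O) (B ⧸ n) :=
    Algebra.FiniteType.of_restrictScalars_finiteType O (ResidueField O) (B ⧸ n)
  haveI h3 : Module.Finite (ResidueField O) (B ⧸ n) :=
    finite_of_finite_type_of_isJacobsonRing (ResidueField O) (B ⧸ n)
  haveI h4 : Algebra.IsIntegral (ResidueField O) (B ⧸ n) := Algebra.IsIntegral.of_finite _ _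
  obtain ⟨c, hc⟩ := (IsAlgClosed.algebraMap_bijective_of_isIntegral (k := ResidueField O)
    (K := B ⧸ n)).2 (Ideal.Quotient.mk n b)
  obtain ⟨a, rfl⟩ := IsLocalRing.residue_surjective c
  refine ⟨a, ?_⟩
  rw [← Ideal.Quotient.eq]
  rw [← hc]
  exact (ResidueField.lift_residue_apply f a)

end Residue

section Pair

variable {O : Type*} [CommRing O] {F2 E : Type*} [Field F2] [Field E] [Algebra O F2] [Algebra O E]
  [Algebra F2 E] [IsScalarTower O F2 E] (y : F2)

/-- the image of `O[y]` in `E` is `O[ι y]`. -/
theorem rcq_map_adjoin_mem {r : F2} (hr : r ∈ Algebra.adjoin O ({y} : Set F2)) :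
    algebraMap F2 E r ∈ Algebra.adjoin O ({algebraMap F2 E y} : Set E) := by
  have h := AlgHom.map_adjoin_singleton (IsScalarTower.toAlgHom O F2 E) y
  have h2 : algebraMap F2 E r ∈ (Algebra.adjoin O ({y} : Set F2)).map
      (IsScalarTower.toAlgHom O F2 E) := Subalgebra.mem_map.2 ⟨r, hr, rfl⟩
  rw [h] at h2
  exact h2

theorem rcq_exists_of_mem_adjoin {s : E}
    (hs : s ∈ Algebra.adjoin O ({algebraMap F2 E y} : Set E)) :
    ∃ r ∈ Algebra.adjoin O ({y} : Set F2), algebraMap F2 E r = s := by
  have h := AlgHom.map_adjoin_singleton (IsScalarTower.toAlgHom O F2 E) y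
  have h2 : s ∈ (Algebra.adjoin O ({y} : Set F2)).map (IsScalarTower.toAlgHom O F2 E) := by
    rw [h]; exact hs
  obtain ⟨r, hr, hrs⟩ := Subalgebra.mem_map.1 h2
  exact ⟨r, hr, hrs⟩

/-- the image of the chart of `F2` lies in the chart of `E`. -/
theorem rcq_map_mem_chart {a : F2} (ha : a ∈ fc_chart O ({y} : Set F2)) :
    algebraMap F2 E a ∈ fc_chart O ({algebraMap F2 E y} : Set E) := by
  rw [fc_mem_chart] at ha ⊢
  have h1 : IsIntegral (Algebra.adjoin O ({y} : Set F2)) (algebraMap F2 E a) :=
    ha.map (IsScalarTower.toAlgHom (Algebra.adjoin O ({y} : Set F2)) F2 E)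
  refine mch_isIntegral_of_range_le (fun r => ?_) h1
  exact ⟨⟨algebraMap F2 E (r : F2), rcq_map_adjoin_mem y r.2⟩, rfl⟩

/-- an element of `E` integral over the chart of `F2` lies in the chart of `E`. -/
theorem rcq_mem_chart_of_isIntegral {x : E} (hx : IsIntegral (fc_chart O ({y} : Set F2)) x) :
    x ∈ fc_chart O ({algebraMap F2 E y} : Set E) := by
  rw [fc_mem_chart]
  have hx' : IsIntegral (integralClosure (Algebra.adjoin O ({y} : Set F2)) F2) x := hx
  have h1 : IsIntegral (Algebra.adjoin O ({y} : Set F2)) x :=
    isIntegral_trans (R := Algebra.adjoin O ({y} : Set F2))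
      (A := integralClosure (Algebra.adjoin O ({y} : Set F2)) F2) x hx'
  refine mch_isIntegral_of_range_le (fun r => ?_) h1
  exact ⟨⟨algebraMap F2 E (r : F2), rcq_map_adjoin_mem y r.2⟩, rfl⟩

/-- an element of the chart of `E` is integral over the chart of `F2`. -/
theorem rcq_isIntegral_of_mem_chart {x : E}
    (hx : x ∈ fc_chart O ({algebraMap F2 E y} : Set E)) :
    IsIntegral (fc_chart O ({y} : Set F2)) x := by
  rw [fc_mem_chart] at hx
  refine mch_isIntegral_of_range_le (fun s => ?_) hx
  obtain ⟨r, hr, hrs⟩ := rcq_exists_of_mem_adjoin y s.2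
  exact ⟨⟨r, fc_adjoin_le_chart _ hr⟩, hrs⟩

/-- the map `A → B` between the charts. -/
noncomputable def rcq_chartMap :
    fc_chart O ({y} : Set F2) →ₐ[O] fc_chart O ({algebraMap F2 E y} : Set E) :=
  ((IsScalarTower.toAlgHom O F2 E).comp (fc_chart O ({y} : Set F2)).val).codRestrict
    (fc_chart O ({algebraMap F2 E y} : Set E)) (fun a => rcq_map_mem_chart y a.2)

theorem rcq_chartMap_coe (a : fc_chart O ({y} : Set F2)) :
    ((rcq_chartMap (O := O) (E := E) y a : fc_chart O ({algebraMap F2 E y} : Set E)) : E)
      = algebraMap F2 E (a : F2) := rfl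

/-- the algebra structure `A → B`. -/
@[reducible] noncomputable def rcq_chartAlgebra :
    Algebra (fc_chart O ({y} : Set F2)) (fc_chart O ({algebraMap F2 E y} : Set E)) :=
  (rcq_chartMap (O := O) (E := E) y).toRingHom.toAlgebra

theorem rcq_isScalarTower_chart :
    letI := rcq_chartAlgebra (O := O) (E := E) y
    IsScalarTower (fc_chart O ({y} : Set F2)) (fc_chart O ({algebraMap F2 E y} : Set E)) E :=
  letI := rcq_chartAlgebra (O := O) (E := E) y
  IsScalarTower.of_algebraMap_eq fun _ => rfl

theorem rcq_isScalarTower_base :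
    letI := rcq_chartAlgebra (O := O) (E := E) y
    IsScalarTower O (fc_chart O ({y} : Set F2)) (fc_chart O ({algebraMap F2 E y} : Set E)) :=
  letI := rcq_chartAlgebra (O := O) (E := E) y
  IsScalarTower.of_algebraMap_eq fun a => ((rcq_chartMap (O := O) (E := E) y).commutes a).symm

/-- `B` is the integral closure of `A` in `E`. -/
theorem rcq_isIntegralClosure :
    letI := rcq_chartAlgebra (O := O) (E := E) y
    IsIntegralClosure (fc_chart O ({algebraMap F2 E y} : Set E)) (fc_chart O ({y} : Set F2)) E :=
  letI := rcq_chartAlgebra (O := O) (E := E) y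
  { algebraMap_injective := Subtype.val_injective
    isIntegral_iff := fun {x} =>
      ⟨fun hx => ⟨⟨x, rcq_mem_chart_of_isIntegral y hx⟩, rfl⟩,
        fun ⟨b, hb⟩ => hb ▸ rcq_isIntegral_of_mem_chart y b.2⟩ }

end Pair

section Descent

variable {O L F2 E : Type*} [CommRing O] [IsDomain O] [IsDiscreteValuationRing O]
  [IsAlgClosed (ResidueField O)]
  [Field L] [CharZero L] [Algebra O L] [IsFractionRing O L]
  [Field F2] [Field E] [Algebra L F2] [Algebra L E] [Algebra F2 E] [IsScalarTower L F2 E]
  [Algebra O F2] [Algebra O E] [IsScalarTower O L F2] [IsScalarTower O L E] [IsScalarTower O F2 E]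
  [FiniteDimensional F2 E] [IsGalois F2 E]

/-- the chart of a function field over a DVR is a noetherian integrally closed domain. -/
theorem rcq_chart_noetherian {y : F2} (hy : Transcendental L y) [FiniteDimensional L⟮y⟯ F2] :
    IsNoetherianRing (fc_chart O ({y} : Set F2)) := by
  have hfinA : Module.Finite (Algebra.adjoin O ({y} : Set F2))
      (integralClosure (Algebra.adjoin O ({y} : Set F2)) F2) := fc_ff_finite (L := L) hy
  have := fc_chart_isNoetherianRing (A0 := O) ({y} : Finset F2)
    (by rw [Finset.coe_singleton]; exact hfinA)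
  rwa [Finset.coe_singleton] at this

omit [IsDomain O] [IsDiscreteValuationRing O] [IsAlgClosed (ResidueField O)] [Field L]
  [CharZero L] [Algebra O L] [IsFractionRing O L] [Field E] [Algebra L F2] [Algebra L E]
  [Algebra F2 E] [IsScalarTower L F2 E] [Algebra O E] [IsScalarTower O L F2]
  [IsScalarTower O L E] [IsScalarTower O F2 E] [FiniteDimensional F2 E] [IsGalois F2 E] in
theorem rcq_chart_isIntegrallyClosed (y : F2) [IsFractionRing (fc_chart O ({y} : Set F2)) F2] :
    IsIntegrallyClosed (fc_chart O ({y} : Set F2)) := by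
  refine (isIntegrallyClosed_iff F2).2 fun {x} hx => ?_
  have hx' : IsIntegral (integralClosure (Algebra.adjoin O ({y} : Set F2)) F2) x := hx
  have h1 : IsIntegral (Algebra.adjoin O ({y} : Set F2)) x :=
    isIntegral_trans (R := Algebra.adjoin O ({y} : Set F2))
      (A := integralClosure (Algebra.adjoin O ({y} : Set F2)) F2) x hx'
  exact ⟨⟨x, h1⟩, rfl⟩

/-- the chart of `E` is an `O`-algebra of finite type. -/
theorem rcq_chart_finiteType {z : E} (hz : Transcendental L z) [FiniteDimensional L⟮z⟯ E] :
    Algebra.FiniteType O (fc_chart O ({z} : Set E)) := by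
  have hfin : Module.Finite (Algebra.adjoin O ({z} : Set E))
      (integralClosure (Algebra.adjoin O ({z} : Set E)) E) := fc_ff_finite (L := L) hz
  have hFT : Algebra.FiniteType O (Algebra.adjoin O ({z} : Set E)) := by
    rw [← Subalgebra.fg_iff_finiteType]
    exact ⟨{z}, by rw [Finset.coe_singleton]⟩
  have h2 : Algebra.FiniteType (Algebra.adjoin O ({z} : Set E))
      (integralClosure (Algebra.adjoin O ({z} : Set E)) E) := inferInstance
  change Algebra.FiniteType O (integralClosure (Algebra.adjoin O ({z} : Set E)) E)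
  exact Algebra.FiniteType.trans hFT h2

/-- **Dedekind descent along a Galois cover.**  If `B / π` is a Dedekind domain on which the Galois
group of `E / F2` acts faithfully, then `A / π` is a Dedekind domain. -/
theorem rcq_dedekind_descent {π : O} (hπ : Irreducible π) (y : F2) (hy : Transcendental L y)
    [FiniteDimensional L⟮y⟯ F2] [FiniteDimensional L⟮algebraMap F2 E y⟯ E]
    (hD : IsDedekindDomain (fc_chart O ({algebraMap F2 E y} : Set E) ⧸
      Ideal.span {algebraMap O (fc_chart O ({algebraMap F2 E y} : Set E)) π}))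
    (hfaith : ∀ σ : E ≃ₐ[F2] E, σ ≠ 1 → ∃ b ∈ fc_chart O ({algebraMap F2 E y} : Set E),
      ¬ ∃ c ∈ fc_chart O ({algebraMap F2 E y} : Set E), σ b - b = algebraMap O E π * c) :
    IsDedekindDomain (fc_chart O ({y} : Set F2) ⧸
      Ideal.span {algebraMap O (fc_chart O ({y} : Set F2)) π}) := by
  letI := rcq_chartAlgebra (O := O) (E := E) y
  haveI tower1 : IsScalarTower (fc_chart O ({y} : Set F2))
      (fc_chart O ({algebraMap F2 E y} : Set E)) E := rcq_isScalarTower_chart y
  haveI tower2 : IsScalarTower O (fc_chart O ({y} : Set F2))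
      (fc_chart O ({algebraMap F2 E y} : Set E)) := rcq_isScalarTower_base y
  haveI : IsIntegralClosure (fc_chart O ({algebraMap F2 E y} : Set E))
      (fc_chart O ({y} : Set F2)) E := rcq_isIntegralClosure y
  haveI : Algebra.IsAlgebraic (Algebra.adjoin O ({y} : Set F2)) F2 := fc_ff_isAlgebraic (L := L) y
  haveI : IsFractionRing (fc_chart O ({y} : Set F2)) F2 := fc_chart_isFractionRing {y}
  haveI : IsNoetherianRing (fc_chart O ({y} : Set F2)) := rcq_chart_noetherian (L := L) hy
  haveI : IsIntegrallyClosed (fc_chart O ({y} : Set F2)) := rcq_chart_isIntegrallyClosed y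
  have hιy : Transcendental L (algebraMap F2 E y) := by
    intro h
    apply hy
    exact (isAlgebraic_algHom_iff (IsScalarTower.toAlgHom L F2 E)
      (algebraMap F2 E).injective).1 h
  haveI hFT : Algebra.FiniteType O (fc_chart O ({algebraMap F2 E y} : Set E)) :=
    rcq_chart_finiteType (L := L) hιy
  haveI : Algebra.IsAlgebraic (Algebra.adjoin O ({algebraMap F2 E y} : Set E)) E :=
    fc_ff_isAlgebraic (L := L) (algebraMap F2 E y)
  haveI : IsFractionRing (fc_chart O ({algebraMap F2 E y} : Set E)) E :=
    fc_chart_isFractionRing {algebraMap F2 E y}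
  haveI : Module.Finite (fc_chart O ({y} : Set F2)) (fc_chart O ({algebraMap F2 E y} : Set E)) :=
    IsIntegralClosure.finite (fc_chart O ({y} : Set F2)) F2 E
      (fc_chart O ({algebraMap F2 E y} : Set E))
  haveI : Finite (fc_chart O ({algebraMap F2 E y} : Set E) ≃ₐ[fc_chart O ({y} : Set F2)]
      fc_chart O ({algebraMap F2 E y} : Set E)) :=
    Finite.of_equiv _ (galRestrict (fc_chart O ({y} : Set F2)) F2 E
      (fc_chart O ({algebraMap F2 E y} : Set E))).toEquiv
  haveI : Fintype (fc_chart O ({algebraMap F2 E y} : Set E) ≃ₐ[fc_chart O ({y} : Set F2)]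
      fc_chart O ({algebraMap F2 E y} : Set E)) := Fintype.ofFinite _
  haveI hinvI : Algebra.IsInvariant (fc_chart O ({y} : Set F2))
      (fc_chart O ({algebraMap F2 E y} : Set E))
      (fc_chart O ({algebraMap F2 E y} : Set E) ≃ₐ[fc_chart O ({y} : Set F2)]
        fc_chart O ({algebraMap F2 E y} : Set E)) :=
    Algebra.isInvariant_of_isGalois' (fc_chart O ({y} : Set F2)) F2 E
      (fc_chart O ({algebraMap F2 E y} : Set E))
  have heq : algebraMap (fc_chart O ({y} : Set F2)) (fc_chart O ({algebraMap F2 E y} : Set E))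
      (algebraMap O (fc_chart O ({y} : Set F2)) π)
      = algebraMap O (fc_chart O ({algebraMap F2 E y} : Set E)) π :=
    (IsScalarTower.algebraMap_apply O (fc_chart O ({y} : Set F2))
      (fc_chart O ({algebraMap F2 E y} : Set E)) π).symm
  haveI hD' : IsDedekindDomain (fc_chart O ({algebraMap F2 E y} : Set E) ⧸
      Ideal.span {algebraMap (fc_chart O ({y} : Set F2))
        (fc_chart O ({algebraMap F2 E y} : Set E))
        (algebraMap O (fc_chart O ({y} : Set F2)) π)}) := by
    rw [heq]; exact hD
  have hOE : Function.Injective (algebraMap O E) := by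
    rw [IsScalarTower.algebraMap_eq O L E]
    exact (algebraMap L E).injective.comp (IsFractionRing.injective O L)
  have hπE : algebraMap O E π ≠ 0 := (map_ne_zero_iff _ hOE).2 hπ.ne_zero
  refine nq_quotient_span_isDedekindDomain
    (A := fc_chart O ({y} : Set F2)) (B := fc_chart O ({algebraMap F2 E y} : Set E))
    (G := fc_chart O ({algebraMap F2 E y} : Set E) ≃ₐ[fc_chart O ({y} : Set F2)]
      fc_chart O ({algebraMap F2 E y} : Set E))
    (algebraMap O (fc_chart O ({y} : Set F2)) π) ?_ ?_ ?_ ?_ ?_
  · -- injectivity of `A → B`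
    intro a b hab
    apply Subtype.ext
    have h1 := congrArg (fun z : fc_chart O ({algebraMap F2 E y} : Set E) => (z : E)) hab
    exact (algebraMap F2 E).injective h1
  · -- invariants
    exact fun b hb => Algebra.IsInvariant.isInvariant b hb
  · -- faithfulness mod `π`
    intro g hg
    set σ : E ≃ₐ[F2] E := (galRestrict (fc_chart O ({y} : Set F2)) F2 E
      (fc_chart O ({algebraMap F2 E y} : Set E))).symm g with hσ
    have hgσ : galRestrict (fc_chart O ({y} : Set F2)) F2 E
        (fc_chart O ({algebraMap F2 E y} : Set E)) σ = g := by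
      rw [hσ, MulEquiv.apply_symm_apply]
    have hσ1 : σ ≠ 1 := by
      intro h1
      apply hg
      rw [← hgσ, h1, map_one]
    obtain ⟨b, hb, hbc⟩ := hfaith σ hσ1
    refine ⟨⟨b, hb⟩, fun hmem => hbc ?_⟩
    rw [heq] at hmem
    obtain ⟨c, hc⟩ := Ideal.mem_span_singleton'.1 hmem
    refine ⟨(c : E), c.2, ?_⟩
    have h1 := congrArg (fun z : fc_chart O ({algebraMap F2 E y} : Set E) => (z : E)) hc
    have h2 : ((g • (⟨b, hb⟩ : fc_chart O ({algebraMap F2 E y} : Set E)) :
        fc_chart O ({algebraMap F2 E y} : Set E)) : E) = σ b := by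
      have := algebraMap_galRestrict_apply (fc_chart O ({y} : Set F2)) (K := F2) (L := E)
        (B := fc_chart O ({algebraMap F2 E y} : Set E)) σ ⟨b, hb⟩
      rw [hgσ] at this
      exact this
    simp only [Subalgebra.coe_sub, Subalgebra.coe_mul] at h1
    rw [h2] at h1
    rw [← h1, mul_comm]
    rfl
  · -- `π` is a nonzerodivisor
    intro b hb
    rw [heq] at hb
    rcases mul_eq_zero.1 hb with h | h
    · exfalso
      apply hπE
      have := congrArg (fun z : fc_chart O ({algebraMap F2 E y} : Set E) => (z : E)) h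
      exact this
    · exact h
  · -- closed points are rational
    intro n hn hπn b
    rw [heq] at hπn
    haveI := hn
    obtain ⟨a, ha⟩ := rcq_residue_surjective (O := O) n (fun a ha => by
      rw [hπ.maximalIdeal_eq, Ideal.mem_span_singleton'] at ha
      obtain ⟨c, rfl⟩ := ha
      rw [map_mul]
      exact Ideal.mul_mem_left _ _ hπn) b
    refine ⟨algebraMap O (fc_chart O ({y} : Set F2)) a, ?_⟩
    rw [← IsScalarTower.algebraMap_apply O (fc_chart O ({y} : Set F2))
      (fc_chart O ({algebraMap F2 E y} : Set E))]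
    exact ha

end Descent

end Fermat.Agent.JT3
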