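import Mathlib
import Fermat.Agent.JT3.PlaceMap.CoverGalois
import Fermat.Agent.JT3.Inst.Reg
import Fermat.Agent.JT3.Inst.TowerFinite
import Fermat.Agent.JT3.Inst.Assemble
import Fermat.Agent.JT3.Bridge.GaussCenterOne
import Fermat.Agent.JT3.KDescent.Legendre
import Fermat.Agent.S24.Hurwitz.FunctionField

/-!
# JT3 / node E, producer side, leaf [E-GAL], Legendre instance (prefix `rcq_leg_`)

The Galois group of `E = φ(F_N)(λ)` over `φ(F_N)` (the six anharmonic substitutions) acts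
faithfully modulo `π` on the two `j'`-charts `T₁ = fc_chart O {j'}`, `T₂ = fc_chart O {1/j'}`:
a non-trivial automorphism moves the test element `λ` (on `T₁`) resp. `a = 1/(λ²-λ+1)` or
`e = λ/(λ²-λ+1)` (on `T₂`) by a unit of the Gauss valuation ring.  With `rcq_dedekind_descent`
this gives: `T_i / π` Dedekind ⟹ `fc_chart O {j'^{±1}} / π` (computed in `φ(F_N)`) Dedekind.
-/

set_option autoImplicit false
set_option linter.unusedSectionVars false
set_option linter.style.haveILetI false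

namespace Fermat.Agent.JT3

open Polynomial IntermediateField IsLocalRing ModularCurve

section Abstract

variable {E : Type*} [Field E] (V : ValuationSubring E) (lam : E)

/-- On the chart `T₁`: a non-trivial anharmonic substitution moves `λ` by a unit of `V`. -/
theorem rcq_leg_faith1 (hlam : lam ∈ V) (h0 : lam ≠ 0) (h1 : lam ≠ 1)
    (hu1 : 1 - 2 * lam ∉ V.nonunits) (hu2 : 1 - lam ^ 2 ∉ V.nonunits)
    (hu3 : lam ^ 2 - lam + 1 ∉ V.nonunits) (hu4 : 2 * lam - lam ^ 2 ∉ V.nonunits)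
    (s : E) (hs : s = 1 - lam ∨ s = 1 / lam ∨ s = 1 / (1 - lam) ∨ s = (lam - 1) / lam ∨
      s = lam / (lam - 1)) : s - lam ∉ V.nonunits := by
  have h1' : 1 - lam ≠ 0 := sub_ne_zero.2 (Ne.symm h1)
  have h1'' : lam - 1 ≠ 0 := sub_ne_zero.2 h1
  have h1V : 1 - lam ∈ V := sub_mem V.one_mem hlam
  have h1V' : lam - 1 ∈ V := sub_mem hlam V.one_mem
  intro h
  rcases hs with rfl | rfl | rfl | rfl | rfl
  · apply hu1
    have : 1 - 2 * lam = 1 - lam - lam := by ring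
    rw [this]; exact h
  · apply hu2
    have : 1 - lam ^ 2 = (1 / lam - lam) * lam := by field_simp
    rw [this]; exact gq_nonunits_mul V h hlam
  · apply hu3
    have : lam ^ 2 - lam + 1 = (1 / (1 - lam) - lam) * (1 - lam) := by field_simp; ring
    rw [this]; exact gq_nonunits_mul V h h1V
  · apply hu3
    have : lam ^ 2 - lam + 1 = -(((lam - 1) / lam - lam) * lam) := by field_simp; ring
    rw [this]; exact gq_nonunits_neg V (gq_nonunits_mul V h hlam)
  · apply hu4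
    have : 2 * lam - lam ^ 2 = (lam / (lam - 1) - lam) * (lam - 1) := by field_simp; ring
    rw [this]; exact gq_nonunits_mul V h h1V'

/-- On the chart `T₂`: a non-trivial anharmonic substitution `σ` (a ring endomorphism of `E` with
`σ λ = s`) moves `a = 1/(λ²-λ+1)` or `e = λ/(λ²-λ+1)` by a unit of `V`. -/
theorem rcq_leg_faith2 (hlam : lam ∈ V) (h0 : lam ≠ 0) (h1 : lam ≠ 1)
    (hD : lam ^ 2 - lam + 1 ≠ 0)
    (hu1 : 1 - 2 * lam ∉ V.nonunits) (hu2 : 1 - lam ^ 2 ∉ V.nonunits)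
    (hu4 : 2 * lam - lam ^ 2 ∉ V.nonunits)
    (σ : E →+* E)
    (hs : σ lam = 1 - lam ∨ σ lam = 1 / lam ∨ σ lam = 1 / (1 - lam) ∨ σ lam = (lam - 1) / lam ∨
      σ lam = lam / (lam - 1)) :
    σ (1 / (lam ^ 2 - lam + 1)) - 1 / (lam ^ 2 - lam + 1) ∉ V.nonunits ∨
      σ (lam / (lam ^ 2 - lam + 1)) - lam / (lam ^ 2 - lam + 1) ∉ V.nonunits := by
  have h1' : 1 - lam ≠ 0 := sub_ne_zero.2 (Ne.symm h1)
  have h1'' : lam - 1 ≠ 0 := sub_ne_zero.2 h1
  have hDV : lam ^ 2 - lam + 1 ∈ V :=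
    add_mem (sub_mem (pow_mem hlam 2) hlam) V.one_mem
  have hσa : σ (1 / (lam ^ 2 - lam + 1)) = 1 / ((σ lam) ^ 2 - σ lam + 1) := by
    rw [map_div₀, map_one, map_add, map_sub, map_pow, map_one]
  have hσe : σ (lam / (lam ^ 2 - lam + 1)) = σ lam / ((σ lam) ^ 2 - σ lam + 1) := by
    rw [map_div₀, map_add, map_sub, map_pow, map_one]
  rcases hs with hs | hs | hs | hs | hs
  · right
    intro h
    apply hu1
    have : 1 - 2 * lam = (σ (lam / (lam ^ 2 - lam + 1)) - lam / (lam ^ 2 - lam + 1))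
        * (lam ^ 2 - lam + 1) := by
      rw [hσe, hs]
      have hD' : (1 - lam) ^ 2 - (1 - lam) + 1 = lam ^ 2 - lam + 1 := by ring
      rw [hD', ← sub_div, div_mul_cancel₀ _ hD]
      ring
    rw [this]; exact gq_nonunits_mul V h hDV
  · left
    intro h
    apply hu2
    have : 1 - lam ^ 2 = -((σ (1 / (lam ^ 2 - lam + 1)) - 1 / (lam ^ 2 - lam + 1))
        * (lam ^ 2 - lam + 1)) := by
      rw [hσa, hs]
      have hD' : (1 / lam) ^ 2 - 1 / lam + 1 = (lam ^ 2 - lam + 1) / lam ^ 2 := by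
        field_simp; ring
      rw [hD', one_div_div, ← sub_div, div_mul_cancel₀ _ hD]
      ring
    rw [this]; exact gq_nonunits_neg V (gq_nonunits_mul V h hDV)
  · left
    intro h
    apply hu4
    have : 2 * lam - lam ^ 2 = -((σ (1 / (lam ^ 2 - lam + 1)) - 1 / (lam ^ 2 - lam + 1))
        * (lam ^ 2 - lam + 1)) := by
      rw [hσa, hs]
      have hD' : (1 / (1 - lam)) ^ 2 - 1 / (1 - lam) + 1
          = (lam ^ 2 - lam + 1) / (1 - lam) ^ 2 := by
        field_simp; ring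
      rw [hD', one_div_div, ← sub_div, div_mul_cancel₀ _ hD]
      ring
    rw [this]; exact gq_nonunits_neg V (gq_nonunits_mul V h hDV)
  · left
    intro h
    apply hu2
    have : 1 - lam ^ 2 = -((σ (1 / (lam ^ 2 - lam + 1)) - 1 / (lam ^ 2 - lam + 1))
        * (lam ^ 2 - lam + 1)) := by
      rw [hσa, hs]
      have hD' : ((lam - 1) / lam) ^ 2 - (lam - 1) / lam + 1
          = (lam ^ 2 - lam + 1) / lam ^ 2 := by
        field_simp; ring
      rw [hD', one_div_div, ← sub_div, div_mul_cancel₀ _ hD]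
      ring
    rw [this]; exact gq_nonunits_neg V (gq_nonunits_mul V h hDV)
  · left
    intro h
    apply hu4
    have : 2 * lam - lam ^ 2 = -((σ (1 / (lam ^ 2 - lam + 1)) - 1 / (lam ^ 2 - lam + 1))
        * (lam ^ 2 - lam + 1)) := by
      rw [hσa, hs]
      have hD' : (lam / (lam - 1)) ^ 2 - lam / (lam - 1) + 1
          = (lam ^ 2 - lam + 1) / (lam - 1) ^ 2 := by
        field_simp; ring
      rw [hD', one_div_div, ← sub_div, div_mul_cancel₀ _ hD]
      ring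
    rw [this]; exact gq_nonunits_neg V (gq_nonunits_mul V h hDV)

end Abstract

section Instances

variable {L : Type*} [Field L] (O : ValuationSubring L) (N : ℕ) [NeZero N]

/-- shortcut instance. -/
noncomputable instance rcq_leg_algOF2 : Algebra ↥O ↥(lg_F2 L N) := Algebra.ofSubsemiring O

instance rcq_leg_tower_O_L_F2 : IsScalarTower ↥O L ↥(lg_F2 L N) :=
  IsScalarTower.of_algebraMap_eq (fun _ => rfl)

attribute [local instance] lgh_algF2E

instance rcq_leg_tower_L_F2_E : IsScalarTower L (lg_F2 L N) (lg_E L N) :=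
  lgh_isScalarTower_base (lg_F2_le_E L N)

instance rcq_leg_tower_O_F2_E : IsScalarTower ↥O (lg_F2 L N) (lg_E L N) :=
  IsScalarTower.of_algebraMap_eq (fun _ => rfl)

/-- `j' = j(q²)` as an element of `φ(F_N)`. -/
noncomputable def rcq_leg_j : lg_F2 L N := ⟨lg_j2 L, lg_j2_mem_F2 L N⟩

theorem rcq_leg_algebraMap_j :
    algebraMap (lg_F2 L N) (lg_E L N) (rcq_leg_j N) = lgf_j2E L N := rfl

/-- `E = φ(F_N)(λ)`. -/
theorem rcq_leg_hgen : IntermediateField.adjoin (lg_F2 L N) {(lg_lamE N : lg_E L N)} = ⊤ := by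
  rw [eq_top_iff]
  rintro z -
  set M : IntermediateField (lg_F2 L N) (lg_E L N) :=
    IntermediateField.adjoin (lg_F2 L N) {(lg_lamE N : lg_E L N)} with hM
  let M' : IntermediateField L (LaurentSeries L) := (M.restrictScalars L).map (lg_E L N).val
  have h1 : lg_F2 L N ≤ M' := by
    intro x hx
    refine ⟨⟨x, lg_F2_le_E L N hx⟩, ?_, rfl⟩
    show (⟨x, lg_F2_le_E L N hx⟩ : lg_E L N) ∈ M
    exact M.algebraMap_mem ⟨x, hx⟩
  have h2 : lg_K L ≤ M' := by
    rw [lg_K, IntermediateField.adjoin_le_iff]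
    rintro _ rfl
    refine ⟨lg_lamE N, ?_, rfl⟩
    show (lg_lamE N : lg_E L N) ∈ M
    exact IntermediateField.mem_adjoin_simple_self _ _
  have h3 : lg_E L N ≤ M' := sup_le h1 h2
  obtain ⟨w, hw, hwz⟩ := h3 z.2
  have : w = z := Subtype.ext hwz
  rw [← this]
  exact hw

variable [CharZero L]

theorem rcq_leg_lam_ne_zero : (lg_lamE N : lg_E L N) ≠ 0 := fun h =>
  lgf_lam_transcendental L N two_ne_zero (h ▸ isAlgebraic_zero)

theorem rcq_leg_lam_ne_one : (lg_lamE N : lg_E L N) ≠ 1 := fun h =>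
  lgf_lam_transcendental L N two_ne_zero (h ▸ isAlgebraic_one)

theorem rcq_leg_hrel :
    256 * ((lg_lamE N : lg_E L N) ^ 2 - lg_lamE N + 1) ^ 3
      = algebraMap (lg_F2 L N) (lg_E L N) (rcq_leg_j N) * (lg_lamE N : lg_E L N) ^ 2
        * ((lg_lamE N : lg_E L N) - 1) ^ 2 :=
  lgf_legendreE L N

/-- **`E / φ(F_N)` is Galois.** -/
theorem rcq_leg_isGalois : IsGalois (lg_F2 L N) (lg_E L N) :=
  kd_leg_isGalois (lg_lamE N) (rcq_leg_j N) (rcq_leg_hgen N) (rcq_leg_hrel N)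
    (rcq_leg_lam_ne_zero N) (rcq_leg_lam_ne_one N)

/-- `j'` is transcendental over `L`. -/
theorem rcq_leg_j2_transcendental : Transcendental L (lg_j2 L) := by
  refine lgf_transcendental_of_coeff (n := -2) (by norm_num) ?_
  have h := qExpand_coeff_mul (R := L) (N := 2) (jqModC L) (-1)
  have h2 : ((2 : ℕ) : ℤ) * (-1) = -2 := by norm_num
  rw [h2] at h
  rw [lg_j2, h, coeff_jqModC_neg_one]
  exact one_ne_zero

theorem rcq_leg_j_transcendental : Transcendental L (rcq_leg_j (L := L) N) := fun h =>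
  rcq_leg_j2_transcendental (IntermediateField.isAlgebraic_iff.1 h)

theorem rcq_leg_j2E_transcendental : Transcendental L (lgf_j2E L N) := fun h =>
  rcq_leg_j2_transcendental (IntermediateField.isAlgebraic_iff.1 h)

/-- `φ(F_N)` is finite over `L(j')`. -/
theorem rcq_leg_finite_F2 : FiniteDimensional L⟮rcq_leg_j (L := L) N⟯ (lg_F2 L N) := by
  refine lgf_finite_of_gens (lg_F2 L N) _ ((jcr_finite_gens (k := L) N).image _)
    (lgf_tower_F2_eq_adjoin L N) (rcq_leg_j N) ?_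
  rintro y ⟨_, ⟨d, hd, hdN, rfl⟩, hy⟩
  haveI := hd
  obtain ⟨ℓ, hℓN, hℓ⟩ := Nat.exists_infinite_primes (N + 1)
  haveI : Fact ℓ.Prime := ⟨hℓ⟩
  have hℓd : ¬ ℓ ∣ d := fun h => by
    have := Nat.le_of_dvd (Nat.pos_of_ne_zero (NeZero.ne N)) (h.trans hdN)
    omega
  let ρ : ↥(GaloisRep.ratLocalizedAt ℓ) →+* L :=
    (algebraMap ℚ L).comp (GaloisRep.ratLocalizedAt ℓ).subtype
  obtain ⟨Φ, hm, h0⟩ := lgf_modEq_twist L d ℓ hℓd ρ
  refine (lgf_isIntegral_of_modEq (lg_F2 L N).val ρ L⟮rcq_leg_j (L := L) N⟯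
    (x := rcq_leg_j N) (y := y) (mem_adjoin_simple_self L _) Φ hm ?_).isAlgebraic
  have hy' : (lg_F2 L N).val y = lg_phi L (qExpand L d (jqModC L)) := hy.symm
  rw [hy']
  exact h0

theorem rcq_leg_finite_F2_inv :
    FiniteDimensional L⟮(rcq_leg_j (L := L) N)⁻¹⟯ (lg_F2 L N) :=
  haveI := rcq_leg_finite_F2 (L := L) N
  Fermat.Agent.S24.hw_finiteDimensional_adjoin (rcq_leg_j N)
    (fun h => rcq_leg_j_transcendental N (IsAlgebraic.inv_iff.1 h))

theorem rcq_leg_finite_E : FiniteDimensional L⟮lgf_j2E L N⟯ (lg_E L N) :=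
  haveI := lgf_finite L N
  Fermat.Agent.S24.hw_finiteDimensional_adjoin (lg_lamE N) (rcq_leg_j2E_transcendental N)

theorem rcq_leg_finite_E_inv : FiniteDimensional L⟮(lgf_j2E L N)⁻¹⟯ (lg_E L N) :=
  haveI := lgf_finite L N
  Fermat.Agent.S24.hw_finiteDimensional_adjoin (lg_lamE N)
    (fun h => rcq_leg_j2E_transcendental N (IsAlgebraic.inv_iff.1 h))

end Instances

section Gauss

variable {L : Type*} [Field L] [CharZero L] (O : ValuationSubring L) [IsDiscreteValuationRing O]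
  (N : ℕ) [NeZero N] {π : O} (hπ : Irreducible π)

/-- the `q`-Gauss valuation ring of `E = φ(F_N)(λ)`. -/
noncomputable def rcq_leg_V : ValuationSubring (lg_E L N) :=
  gq_valSubOf π hπ.ne_zero hπ.maximalIdeal_eq (lg_E L N) (lg_E_le_quotField O N)

theorem rcq_leg_lam_coe :
    ((lg_lamE (L := L) N : lg_E L N) : LaurentSeries L) = coeffMap (algebraMap O L) (hm_lam O) :=
  (hm_coeffMap_lam _).symm

theorem rcq_leg_lam_isBdd :
    gq_IsBdd O L ((lg_lamE (L := L) N : lg_E L N) : LaurentSeries L) := by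
  rw [rcq_leg_lam_coe O N]
  exact gq_isBdd_iota _

theorem rcq_leg_lam_mem_V : (lg_lamE N : lg_E L N) ∈ rcq_leg_V O N hπ :=
  rcq_leg_lam_isBdd O N

include hπ in
/-- a polynomial in `λ` with coefficients in `O`, one of them a unit, is a unit of the Gauss
ring. -/
theorem rcq_leg_eval₂_not_nonunits (h2 : IsUnit (2 : O)) (d : Polynomial O) (i : ℕ)
    (hi : IsUnit (d.coeff i)) :
    Polynomial.eval₂ ((algebraMap L (lg_E L N)).comp (algebraMap O L)) (lg_lamE N) d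
      ∉ (rcq_leg_V O N hπ).nonunits := by
  intro h
  have h16 : (16 : IsLocalRing.ResidueField O) ≠ 0 := by
    have h2k : (2 : IsLocalRing.ResidueField O) ≠ 0 := by
      have := (IsLocalRing.residue O).isUnit_map h2
      rw [map_ofNat] at this
      exact this.ne_zero
    have : (16 : IsLocalRing.ResidueField O) = 2 ^ 4 := by norm_num
    rw [this]
    exact pow_ne_zero _ h2k
  have hxtr : ∀ q : Polynomial (IsLocalRing.ResidueField O),
      Polynomial.aeval (coeffMap (IsLocalRing.residue O) (hm_lam O)) q = 0 → q = 0 := by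
    have htr : Transcendental (IsLocalRing.ResidueField O)
        (hm_lam (IsLocalRing.ResidueField O)) :=
      lgf_transcendental_of_coeff (n := 1) one_ne_zero (by rw [hm_lam_coeff_one]; exact h16)
    rw [hm_coeffMap_lam]
    exact (transcendental_iff.1 htr)
  have hres : gq_res O L ⟨((lg_lamE (L := L) N : lg_E L N) : LaurentSeries L),
      rcq_leg_lam_isBdd O N⟩ = coeffMap (IsLocalRing.residue O) (hm_lam O) :=
    gq_res_of_eq_iota _ (hm_lam O) (rcq_leg_lam_coe O N)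
  obtain ⟨d', hd'⟩ := gq_center_eval₂ π hπ.ne_zero hπ.maximalIdeal_eq (lg_E L N)
    (lg_E_le_quotField O N) (lg_lamE N) (rcq_leg_lam_isBdd O N) (by rw [hres]; exact hxtr) d h
  rw [hd', Polynomial.coeff_C_mul] at hi
  exact hπ.not_isUnit (isUnit_of_mul_isUnit_left hi)

include hπ in
theorem rcq_leg_hu1 (h2 : IsUnit (2 : O)) :
    1 - 2 * (lg_lamE N : lg_E L N) ∉ (rcq_leg_V O N hπ).nonunits := by
  have h := rcq_leg_eval₂_not_nonunits O N hπ h2 (1 - 2 * Polynomial.X) 0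
    (by simp)
  simpa [Polynomial.eval₂_sub, Polynomial.eval₂_mul, Polynomial.eval₂_ofNat] using h

include hπ in
theorem rcq_leg_hu2 (h2 : IsUnit (2 : O)) :
    1 - (lg_lamE N : lg_E L N) ^ 2 ∉ (rcq_leg_V O N hπ).nonunits := by
  have h := rcq_leg_eval₂_not_nonunits O N hπ h2 (1 - Polynomial.X ^ 2) 0
    (by simp)
  simpa [Polynomial.eval₂_sub, Polynomial.eval₂_pow] using h

include hπ in
theorem rcq_leg_hu3 (h2 : IsUnit (2 : O)) :
    (lg_lamE N : lg_E L N) ^ 2 - lg_lamE N + 1 ∉ (rcq_leg_V O N hπ).nonunits := by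
  have h := rcq_leg_eval₂_not_nonunits O N hπ h2 (Polynomial.X ^ 2 - Polynomial.X + 1) 0
    (by simp)
  simpa [Polynomial.eval₂_sub, Polynomial.eval₂_add, Polynomial.eval₂_pow] using h

include hπ in
theorem rcq_leg_hu4 (h2 : IsUnit (2 : O)) :
    2 * (lg_lamE N : lg_E L N) - (lg_lamE N : lg_E L N) ^ 2 ∉ (rcq_leg_V O N hπ).nonunits := by
  have h := rcq_leg_eval₂_not_nonunits O N hπ h2 (2 * Polynomial.X - Polynomial.X ^ 2) 2
    (by simp [Polynomial.coeff_X])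
  simpa [Polynomial.eval₂_sub, Polynomial.eval₂_mul, Polynomial.eval₂_pow,
    Polynomial.eval₂_ofNat] using h

theorem rcq_leg_j2_coe :
    ((lgf_j2E L N : lg_E L N) : LaurentSeries L)
      = coeffMap (algebraMap O L) (qExpand O 2 (jqModC O)) := by
  rw [coeffMap_qExpand, coeffMap_jqModC]
  rfl

theorem rcq_leg_j2_isBdd : gq_IsBdd O L ((lgf_j2E L N : lg_E L N) : LaurentSeries L) := by
  rw [rcq_leg_j2_coe O N]
  exact gq_isBdd_iota _

theorem rcq_leg_j2_inv_isBdd :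
    gq_IsBdd O L (((lgf_j2E L N)⁻¹ : lg_E L N) : LaurentSeries L) := by
  rw [IntermediateField.coe_inv]
  refine gq_isBdd_inv_of_res_ne_zero ⟨_, rcq_leg_j2_isBdd O N⟩ ?_
  rw [gq_res_of_eq_iota _ _ (rcq_leg_j2_coe O N), coeffMap_qExpand, coeffMap_jqModC]
  intro h0
  have h := qExpand_coeff_mul (R := IsLocalRing.ResidueField O) (N := 2)
    (jqModC (IsLocalRing.ResidueField O)) (-1)
  rw [h0, coeff_jqModC_neg_one, HahnSeries.coeff_zero] at h
  exact zero_ne_one h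

theorem rcq_leg_chart1_le :
    ∀ b ∈ fc_chart O ({lgf_j2E L N} : Set (lg_E L N)), b ∈ rcq_leg_V O N hπ :=
  gq_fc_chart_singleton_le π hπ.ne_zero hπ.maximalIdeal_eq (lg_E L N) (lg_E_le_quotField O N)
    (lgf_j2E L N) (rcq_leg_j2_isBdd O N)

theorem rcq_leg_chart2_le :
    ∀ b ∈ fc_chart O ({(lgf_j2E L N)⁻¹} : Set (lg_E L N)), b ∈ rcq_leg_V O N hπ :=
  gq_fc_chart_singleton_le π hπ.ne_zero hπ.maximalIdeal_eq (lg_E L N) (lg_E_le_quotField O N)
    (lgf_j2E L N)⁻¹ (rcq_leg_j2_inv_isBdd O N)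

theorem rcq_leg_pi_mem_nonunits :
    algebraMap O (lg_E L N) π ∈ (rcq_leg_V O N hπ).nonunits := by
  rw [IsScalarTower.algebraMap_apply O L (lg_E L N)]
  exact gq_const_mem_nonunits π hπ.ne_zero hπ.maximalIdeal_eq (lg_E L N) (lg_E_le_quotField O N)

theorem rcq_leg_legendre_cv :
    cv_legN (lg_lamE N : lg_E L N) = lgf_j2E L N * cv_legD (lg_lamE N : lg_E L N) := by
  unfold cv_legN cv_legD
  rw [lgf_legendreE, mul_assoc]

theorem rcq_leg_D_ne_zero : (lg_lamE N : lg_E L N) ^ 2 - lg_lamE N + 1 ≠ 0 := by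
  intro h
  have h0 : Polynomial.aeval (lg_lamE N : lg_E L N)
      (Polynomial.X ^ 2 - Polynomial.X + 1 : Polynomial L) = 0 := by
    rw [Polynomial.aeval_def, Polynomial.eval₂_add, Polynomial.eval₂_sub, Polynomial.eval₂_pow,
      Polynomial.eval₂_X, Polynomial.eval₂_one]
    exact h
  have h1 := transcendental_iff.1 (lgf_lam_transcendental L N two_ne_zero) _ h0
  have h2 := congrArg (fun p : Polynomial L => p.coeff 0) h1
  simp at h2

theorem rcq_leg_j2E_ne_zero : lgf_j2E L N ≠ 0 := fun h =>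
  rcq_leg_j2E_transcendental N (h ▸ isAlgebraic_zero)

/-- `λ ∈ T₁`. -/
theorem rcq_leg_lam_mem_chart1 (h2 : IsUnit (2 : O)) :
    (lg_lamE N : lg_E L N) ∈ fc_chart O ({lgf_j2E L N} : Set (lg_E L N)) := by
  rw [fc_mem_chart]
  exact cv_leg_isIntegral h2 (rcq_leg_legendre_cv N)

theorem rcq_leg_inv_rel :
    (lgf_j2E L N)⁻¹ * cv_legN (lg_lamE N : lg_E L N) = cv_legD (lg_lamE N : lg_E L N) := by
  rw [rcq_leg_legendre_cv, inv_mul_cancel_left₀ (rcq_leg_j2E_ne_zero N)]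

/-- `a = 1/(λ² - λ + 1) ∈ T₂`. -/
theorem rcq_leg_a_mem_chart2 :
    1 / ((lg_lamE N : lg_E L N) ^ 2 - lg_lamE N + 1)
      ∈ fc_chart O ({(lgf_j2E L N)⁻¹} : Set (lg_E L N)) := by
  rw [fc_mem_chart]
  exact cv_leg_isIntegral_u (one_div_mul_cancel (rcq_leg_D_ne_zero N)) (rcq_leg_inv_rel N)

/-- `e = λ/(λ² - λ + 1) ∈ T₂`. -/
theorem rcq_leg_e_mem_chart2 :
    (lg_lamE N : lg_E L N) / ((lg_lamE N : lg_E L N) ^ 2 - lg_lamE N + 1)
      ∈ fc_chart O ({(lgf_j2E L N)⁻¹} : Set (lg_E L N)) := by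
  rw [fc_mem_chart, div_eq_mul_one_div]
  exact cv_leg_isIntegral_v (one_div_mul_cancel (rcq_leg_D_ne_zero N)) (rcq_leg_inv_rel N)

end Gauss

section Faith

variable {L : Type*} [Field L] [CharZero L] (O : ValuationSubring L) [IsDiscreteValuationRing O]
  (N : ℕ) [NeZero N] {π : O} (hπ : Irreducible π)

attribute [local instance] lgh_algF2E

theorem rcq_leg_aut_eq_one (σ : lg_E L N ≃ₐ[lg_F2 L N] lg_E L N)
    (h : σ (lg_lamE N) = lg_lamE N) : σ = 1 := by
  have hrel := rcq_leg_hrel (L := L) N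
  have hgen := rcq_leg_hgen (L := L) N
  have h0 := rcq_leg_lam_ne_zero (L := L) N
  have h1 := rcq_leg_lam_ne_one (L := L) N
  have h' : σ (lg_lamE N) = (1 : lg_E L N ≃ₐ[lg_F2 L N] lg_E L N) (lg_lamE N) := by
    rw [AlgEquiv.one_apply]
    exact h
  exact kd_leg_aut_ext (lg_lamE N) (rcq_leg_j N) hgen hrel h0 h1 h'

/-- a non-trivial automorphism of `E / φ(F_N)` moves `λ` to one of its five other anharmonic
values. -/
theorem rcq_leg_aut_cases (σ : lg_E L N ≃ₐ[lg_F2 L N] lg_E L N) (hσ : σ ≠ 1) :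
    σ (lg_lamE N) = 1 - lg_lamE N ∨ σ (lg_lamE N) = 1 / lg_lamE N ∨
      σ (lg_lamE N) = 1 / (1 - lg_lamE N) ∨ σ (lg_lamE N) = (lg_lamE N - 1) / lg_lamE N ∨
      σ (lg_lamE N) = lg_lamE N / (lg_lamE N - 1) := by
  have hrel := rcq_leg_hrel (L := L) N
  have hgen := rcq_leg_hgen (L := L) N
  have h0 := rcq_leg_lam_ne_zero (L := L) N
  have h1 := rcq_leg_lam_ne_one (L := L) N
  have hcases := kd_leg_aut_cases (lg_lamE N) (rcq_leg_j N) hgen hrel h0 h1 σ
  exact hcases.resolve_left fun h => hσ (rcq_leg_aut_eq_one N σ h)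

include hπ in
/-- **The Galois group acts faithfully on `T₁ / π`.** -/
theorem rcq_leg_hfaith1 (h2 : IsUnit (2 : O)) (σ : lg_E L N ≃ₐ[lg_F2 L N] lg_E L N)
    (hσ : σ ≠ 1) :
    ∃ b ∈ fc_chart O ({lgf_j2E L N} : Set (lg_E L N)),
      ¬ ∃ c ∈ fc_chart O ({lgf_j2E L N} : Set (lg_E L N)),
        σ b - b = algebraMap O (lg_E L N) π * c := by
  refine ⟨lg_lamE N, rcq_leg_lam_mem_chart1 O N h2, ?_⟩
  rintro ⟨c, hc, hσc⟩
  refine rcq_leg_faith1 (rcq_leg_V O N hπ) (lg_lamE N) (rcq_leg_lam_mem_V O N hπ)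
    (rcq_leg_lam_ne_zero N) (rcq_leg_lam_ne_one N) (rcq_leg_hu1 O N hπ h2) (rcq_leg_hu2 O N hπ h2)
    (rcq_leg_hu3 O N hπ h2) (rcq_leg_hu4 O N hπ h2) (σ (lg_lamE N))
    (rcq_leg_aut_cases N σ hσ) ?_
  rw [hσc]
  exact gq_nonunits_mul _ (rcq_leg_pi_mem_nonunits O N hπ) (rcq_leg_chart1_le O N hπ c hc)

include hπ in
/-- **The Galois group acts faithfully on `T₂ / π`.** -/
theorem rcq_leg_hfaith2 (h2 : IsUnit (2 : O)) (σ : lg_E L N ≃ₐ[lg_F2 L N] lg_E L N)
    (hσ : σ ≠ 1) :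
    ∃ b ∈ fc_chart O ({(lgf_j2E L N)⁻¹} : Set (lg_E L N)),
      ¬ ∃ c ∈ fc_chart O ({(lgf_j2E L N)⁻¹} : Set (lg_E L N)),
        σ b - b = algebraMap O (lg_E L N) π * c := by
  have hmul : ∀ c ∈ fc_chart O ({(lgf_j2E L N)⁻¹} : Set (lg_E L N)),
      algebraMap O (lg_E L N) π * c ∈ (rcq_leg_V O N hπ).nonunits := fun c hc =>
    gq_nonunits_mul _ (rcq_leg_pi_mem_nonunits O N hπ) (rcq_leg_chart2_le O N hπ c hc)
  rcases rcq_leg_faith2 (rcq_leg_V O N hπ) (lg_lamE N) (rcq_leg_lam_mem_V O N hπ)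
    (rcq_leg_lam_ne_zero N) (rcq_leg_lam_ne_one N) (rcq_leg_D_ne_zero N)
    (rcq_leg_hu1 O N hπ h2) (rcq_leg_hu2 O N hπ h2) (rcq_leg_hu4 O N hπ h2)
    (σ : lg_E L N →+* lg_E L N) (rcq_leg_aut_cases N σ hσ) with h | h
  · refine ⟨_, rcq_leg_a_mem_chart2 O N, ?_⟩
    rintro ⟨c, hc, hσc⟩
    apply h
    have : (σ : lg_E L N →+* lg_E L N) (1 / ((lg_lamE N : lg_E L N) ^ 2 - lg_lamE N + 1))
        = σ (1 / ((lg_lamE N : lg_E L N) ^ 2 - lg_lamE N + 1)) := rfl
    rw [this, hσc]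
    exact hmul c hc
  · refine ⟨_, rcq_leg_e_mem_chart2 O N, ?_⟩
    rintro ⟨c, hc, hσc⟩
    apply h
    have : (σ : lg_E L N →+* lg_E L N)
        ((lg_lamE N : lg_E L N) / ((lg_lamE N : lg_E L N) ^ 2 - lg_lamE N + 1))
        = σ ((lg_lamE N : lg_E L N) / ((lg_lamE N : lg_E L N) ^ 2 - lg_lamE N + 1)) := rfl
    rw [this, hσc]
    exact hmul c hc

include hπ in
/-- transport of `rcq_dedekind_descent` along an equality `algebraMap F2 E y = yE`. -/
theorem rcq_leg_descent_aux [IsAlgClosed (IsLocalRing.ResidueField O)]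
    (y : lg_F2 L N) (yE : lg_E L N) (hyE : algebraMap (lg_F2 L N) (lg_E L N) y = yE)
    (hy : Transcendental L y) [FiniteDimensional L⟮y⟯ (lg_F2 L N)]
    [FiniteDimensional L⟮yE⟯ (lg_E L N)]
    (hD : IsDedekindDomain (fc_chart O ({yE} : Set (lg_E L N)) ⧸
      Ideal.span {algebraMap O (fc_chart O ({yE} : Set (lg_E L N))) π}))
    (hfaith : ∀ σ : lg_E L N ≃ₐ[lg_F2 L N] lg_E L N, σ ≠ 1 →
      ∃ b ∈ fc_chart O ({yE} : Set (lg_E L N)),
        ¬ ∃ c ∈ fc_chart O ({yE} : Set (lg_E L N)), σ b - b = algebraMap O (lg_E L N) π * c) :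
    IsDedekindDomain (fc_chart O ({y} : Set (lg_F2 L N)) ⧸
      Ideal.span {algebraMap O (fc_chart O ({y} : Set (lg_F2 L N))) π}) := by
  subst hyE
  haveI := rcq_leg_isGalois (L := L) N
  haveI := lgf_tower_finite_F2_E L N
  exact rcq_dedekind_descent hπ y hy hD hfaith

include hπ in
/-- **[E-GAL], Legendre, chart `j'`.**  If `T₁ / π` is a Dedekind domain (`T₁` the normalisation
of `O[j']` in `E = φ(F_N)(λ)`), then so is `A₁ / π` (`A₁` the normalisation of `O[j']` in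
`φ(F_N)`). -/
theorem rcq_leg_dedekind1 [IsAlgClosed (IsLocalRing.ResidueField O)] (h2 : IsUnit (2 : O))
    (hD : IsDedekindDomain (fc_chart O ({lgf_j2E L N} : Set (lg_E L N)) ⧸
      Ideal.span {algebraMap O (fc_chart O ({lgf_j2E L N} : Set (lg_E L N))) π})) :
    IsDedekindDomain (fc_chart O ({rcq_leg_j (L := L) N} : Set (lg_F2 L N)) ⧸
      Ideal.span {algebraMap O (fc_chart O ({rcq_leg_j (L := L) N} : Set (lg_F2 L N))) π}) := by
  haveI := rcq_leg_finite_F2 (L := L) N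
  haveI := rcq_leg_finite_E (L := L) N
  exact rcq_leg_descent_aux O N hπ (rcq_leg_j N) (lgf_j2E L N) rfl (rcq_leg_j_transcendental N) hD
    (rcq_leg_hfaith1 O N hπ h2)

include hπ in
/-- **[E-GAL], Legendre, chart `1/j'`.** -/
theorem rcq_leg_dedekind2 [IsAlgClosed (IsLocalRing.ResidueField O)] (h2 : IsUnit (2 : O))
    (hD : IsDedekindDomain (fc_chart O ({(lgf_j2E L N)⁻¹} : Set (lg_E L N)) ⧸
      Ideal.span {algebraMap O (fc_chart O ({(lgf_j2E L N)⁻¹} : Set (lg_E L N))) π})) :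
    IsDedekindDomain (fc_chart O ({(rcq_leg_j (L := L) N)⁻¹} : Set (lg_F2 L N)) ⧸
      Ideal.span
        {algebraMap O (fc_chart O ({(rcq_leg_j (L := L) N)⁻¹} : Set (lg_F2 L N))) π}) := by
  haveI := rcq_leg_finite_F2_inv (L := L) N
  haveI := rcq_leg_finite_E_inv (L := L) N
  have hyE : algebraMap (lg_F2 L N) (lg_E L N) (rcq_leg_j N)⁻¹ = (lgf_j2E L N)⁻¹ := by
    rw [map_inv₀]
    rfl
  exact rcq_leg_descent_aux O N hπ (rcq_leg_j N)⁻¹ (lgf_j2E L N)⁻¹ hyE
    (fun h => rcq_leg_j_transcendental N (IsAlgebraic.inv_iff.1 h)) hD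
    (rcq_leg_hfaith2 O N hπ h2)

end Faith

end Fermat.Agent.JT3
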