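/-
JT3 / node E, producer side, leaf [E-GLUE] (helper16): the `j'`-charts of the Legendre cover.

`E` a field, `O → E`, `x, j' ∈ E` with the Legendre relation `256 (x² - x + 1)³ = j' x² (x - 1)²`
(`x` an anharmonic coordinate).  `R = fc_chart O {x}` is the chart `x ≠ ∞` of the `x`-line,
`T1 = fc_chart O {j'}` the chart `j' ≠ ∞`, `T2 = fc_chart O {j'⁻¹}` the chart `j' ≠ 0`.
Then `T1 = R[1/(x(x-1))]`, and `T2[1/a] = R[1/(x² - x + 1)]` with `a = 1/(x² - x + 1) ∈ T2`;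
the local regularity seam `jt_RegAt` passes from the `x`-charts to the `j'`-charts.
-/
import Mathlib
import Fermat.Agent.JT3.FCore.Charts
import Fermat.Agent.JT3.Seams
import Fermat.Agent.JT3.Cover.Identities
import Fermat.Agent.JT3.Cover.Ramification

set_option autoImplicit false

noncomputable section

namespace Fermat.Agent.JT3

open Polynomial

section Integrality

variable {O : Type*} [CommRing O] {E : Type*} [Field E] [Algebra O E]

/-- a chart is integrally closed in `E` -/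
theorem rcg_chart_closed (S : Set E) {z : E} (hz : IsIntegral (fc_chart O S) z) :
    z ∈ fc_chart O S := by
  rw [fc_mem_chart]
  have h1 : Algebra.IsIntegral (Algebra.adjoin O S) (integralClosure (Algebra.adjoin O S) E) :=
    integralClosure.AlgebraIsIntegral
  exact isIntegral_trans (A := integralClosure (Algebra.adjoin O S) E) z hz

/-- an integrally closed subalgebra containing `t` contains the chart of `t` -/
theorem rcg_chart_le (X : Subalgebra O E) (hX : ∀ z : E, IsIntegral X z → z ∈ X) {t : E}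
    (ht : t ∈ X) : fc_chart O ({t} : Set E) ≤ X := by
  intro z hz
  rw [fc_mem_chart] at hz
  apply hX
  have hle : Algebra.adjoin O ({t} : Set E) ≤ X :=
    Algebra.adjoin_le (by intro y hy; rw [Set.mem_singleton_iff] at hy; rw [hy]; exact ht)
  exact IsIntegral.map_of_comp_eq (R := Algebra.adjoin O ({t} : Set E)) (S := E)
    (T := X) (U := E) (Subalgebra.inclusion hle).toRingHom (RingHom.id E) (by ext r; rfl) hz

/-- clearing denominators: if `s ∈ X` and `s t ∈ X` (`X` integrally closed in `E`) then every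
element of the chart of `t` is of the form `x / s^k`, `x ∈ X`. -/
theorem rcg_clear (X : Subalgebra O E) (hX : ∀ z : E, IsIntegral X z → z ∈ X) {s t : E}
    (hs : s ∈ X) (hst : s * t ∈ X) {S : Set E} (hS : S ⊆ (X : Set E) ∪ {t}) {z : E}
    (hz : z ∈ fc_chart O S) : ∃ k : ℕ, s ^ k * z ∈ X := by
  set R' : Subalgebra O E := Algebra.adjoin O ((X : Set E) ∪ {t}) with hR'
  have hXR' : X ≤ R' := fun y hy => Algebra.subset_adjoin (Or.inl hy)
  have htR' : t ∈ R' := Algebra.subset_adjoin (Or.inr rfl)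
  have hclear : ∀ c ∈ R', ∃ k : ℕ, ∀ n, k ≤ n → s ^ n * c ∈ X := by
    intro c hc
    induction hc using Algebra.adjoin_induction with
    | mem y hy =>
      rcases hy with hy | hy
      · exact ⟨0, fun n _ => mul_mem (pow_mem hs n) hy⟩
      · rw [Set.mem_singleton_iff] at hy
        subst hy
        refine ⟨1, fun n hn => ?_⟩
        obtain ⟨j, rfl⟩ := Nat.exists_eq_add_of_le hn
        rw [add_comm, pow_succ, mul_assoc]
        exact mul_mem (pow_mem hs j) hst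
    | algebraMap a =>
      exact ⟨0, fun n _ => mul_mem (pow_mem hs n) (Subalgebra.algebraMap_mem _ a)⟩
    | add c1 c2 _ _ h1 h2 =>
      obtain ⟨k1, h1⟩ := h1
      obtain ⟨k2, h2⟩ := h2
      refine ⟨max k1 k2, fun n hn => ?_⟩
      rw [mul_add]
      exact add_mem (h1 n ((le_max_left _ _).trans hn)) (h2 n ((le_max_right _ _).trans hn))
    | mul c1 c2 _ _ h1 h2 =>
      obtain ⟨k1, h1⟩ := h1
      obtain ⟨k2, h2⟩ := h2
      refine ⟨k1 + k2, fun n hn => ?_⟩
      obtain ⟨j, rfl⟩ := Nat.exists_eq_add_of_le hn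
      have : s ^ (k1 + k2 + j) * (c1 * c2) = (s ^ k1 * c1) * (s ^ (k2 + j) * c2) := by
        rw [pow_add, pow_add, pow_add]; ring
      rw [this]
      exact mul_mem (h1 k1 le_rfl) (h2 (k2 + j) (Nat.le_add_right _ _))
  have hz' : IsIntegral R' z := by
    rw [fc_mem_chart] at hz
    have hle : Algebra.adjoin O S ≤ R' := Algebra.adjoin_mono hS
    exact IsIntegral.map_of_comp_eq (R := Algebra.adjoin O S) (S := E)
      (T := R') (U := E) (Subalgebra.inclusion hle).toRingHom (RingHom.id E) (by ext r; rfl) hz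
  obtain ⟨k, hk⟩ := fc_clear_aux X R' s (hXR' hs) hclear hz'
  exact ⟨k, hX _ hk⟩

end Integrality

/-! ### transfer of the local seams along a localisation `Y = X[1/f]` -/

section Transfer

variable {X Y : Type*} [CommRing X] [CommRing Y] (ι : X →+* Y) (hι : Function.Injective ι)
  (f : X) (g : Y) (hfg : ι f * g = 1)
  (hloc : ∀ y : Y, ∃ (c : ℕ) (r : X), ι r = ι f ^ c * y)

include hfg in
theorem rcg_pow_notMem {N : Ideal Y} (hN : N ≠ ⊤) (c : ℕ) : ι f ^ c ∉ N := by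
  intro h
  apply hN
  rw [Ideal.eq_top_iff_one]
  have : (1 : Y) = ι f ^ c * g ^ c := by rw [← mul_pow, hfg, one_pow]
  rw [this]
  exact N.mul_mem_right _ h

include hι hfg hloc in
/-- (UP, Dom) -/
theorem rcg_up_dom {N : Ideal Y} (hN : N.IsPrime) {π : X} (h : tq_Dom π (N.comap ι)) :
    tq_Dom (ι π) N := by
  intro a b hab
  rw [Ideal.mem_span_singleton] at hab
  obtain ⟨z, hz⟩ := hab
  obtain ⟨ca, ra, hra⟩ := hloc a
  obtain ⟨cb, rb, hrb⟩ := hloc b
  obtain ⟨cz, rz, hrz⟩ := hloc z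
  have hprod : (f ^ cz * ra) * rb = π * (f ^ (ca + cb) * rz) := by
    apply hι
    simp only [map_mul, map_pow, hra, hrb, hrz]
    calc ι f ^ cz * (ι f ^ ca * a) * (ι f ^ cb * b)
        = ι f ^ cz * ι f ^ ca * ι f ^ cb * (a * b) := by ring
      _ = ι f ^ cz * ι f ^ ca * ι f ^ cb * (ι π * z) := by rw [hz]
      _ = ι π * (ι f ^ (ca + cb) * (ι f ^ cz * z)) := by rw [pow_add]; ring
  obtain ⟨s, hs, hsab⟩ := h (f ^ cz * ra) rb
    (by rw [hprod]; exact Ideal.mul_mem_right _ _ (Ideal.mem_span_singleton_self π))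
  have hsN : ι s ∉ N := hs
  rcases hsab with h1 | h1
  · rw [Ideal.mem_span_singleton] at h1
    obtain ⟨w, hw⟩ := h1
    refine ⟨ι s * ι f ^ (cz + ca), ?_, Or.inl ?_⟩
    · intro hmem
      rcases hN.mem_or_mem hmem with h2 | h2
      · exact hsN h2
      · exact rcg_pow_notMem ι f g hfg hN.ne_top _ h2
    · rw [Ideal.mem_span_singleton]
      refine ⟨ι w, ?_⟩
      rw [← map_mul, ← hw, map_mul, map_mul, map_pow, hra, pow_add]
      ring
  · rw [Ideal.mem_span_singleton] at h1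
    obtain ⟨w, hw⟩ := h1
    refine ⟨ι s * ι f ^ cb, ?_, Or.inr ?_⟩
    · intro hmem
      rcases hN.mem_or_mem hmem with h2 | h2
      · exact hsN h2
      · exact rcg_pow_notMem ι f g hfg hN.ne_top _ h2
    · rw [Ideal.mem_span_singleton]
      refine ⟨ι w, ?_⟩
      rw [← map_mul, ← hw, map_mul, hrb]
      ring

include hfg hloc in
/-- (UP, GenBy) -/
theorem rcg_up_genBy {N : Ideal Y} (hN : N.IsPrime) {π u : X}
    (h : tq_GenBy π u (N.comap ι)) : tq_GenBy (ι π) (ι u) N := by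
  obtain ⟨hπ, hu, hgen⟩ := h
  refine ⟨hπ, hu, fun x hx => ?_⟩
  obtain ⟨c, r, hr⟩ := hloc x
  have hrM : r ∈ N.comap ι := by
    rw [Ideal.mem_comap, hr]
    exact N.mul_mem_left _ hx
  obtain ⟨s, hs, hsr⟩ := hgen r hrM
  rw [Ideal.mem_span_pair] at hsr
  obtain ⟨α, β, hαβ⟩ := hsr
  refine ⟨ι s * ι f ^ c, ?_, ?_⟩
  · intro hmem
    rcases hN.mem_or_mem hmem with h2 | h2
    · exact hs h2
    · exact rcg_pow_notMem ι f g hfg hN.ne_top _ h2
  · rw [Ideal.mem_span_pair]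
    refine ⟨ι α, ι β, ?_⟩
    rw [← map_mul, ← map_mul, ← map_add, hαβ, map_mul, hr]
    ring


/-! #### DOWN: from `Y = X[1/f]` to `X`, at a prime `n ∌ f` -/

include hloc in
theorem rcg_map_mem {n : Ideal X} {y : Y} (hy : y ∈ n.map ι) :
    ∃ (c : ℕ) (r : X), r ∈ n ∧ ι r = ι f ^ c * y := by
  unfold Ideal.map at hy
  induction hy using Submodule.span_induction with
  | mem y hy =>
    obtain ⟨r, hr, rfl⟩ := hy
    exact ⟨0, r, hr, by simp⟩
  | zero => exact ⟨0, 0, n.zero_mem, by simp⟩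
  | add y1 y2 _ _ h1 h2 =>
    obtain ⟨c1, r1, hr1, e1⟩ := h1
    obtain ⟨c2, r2, hr2, e2⟩ := h2
    refine ⟨c1 + c2, f ^ c2 * r1 + f ^ c1 * r2,
      n.add_mem (n.mul_mem_left _ hr1) (n.mul_mem_left _ hr2), ?_⟩
    simp only [map_add, map_mul, map_pow, e1, e2, pow_add]
    ring
  | smul a y _ h1 =>
    obtain ⟨c, r, hr, e⟩ := h1
    obtain ⟨ca, ra, ea⟩ := hloc a
    refine ⟨ca + c, ra * r, n.mul_mem_left _ hr, ?_⟩
    simp only [map_mul, e, ea, pow_add, smul_eq_mul]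
    ring

include hι hloc in
theorem rcg_mem_of_map_mem {n : Ideal X} (hn : n.IsPrime) (hf : f ∉ n) {r : X}
    (hr : ι r ∈ n.map ι) : r ∈ n := by
  obtain ⟨c, r', hr', e⟩ := rcg_map_mem ι f hloc hr
  have h1 : r' = f ^ c * r := by
    apply hι
    rw [e, map_mul, map_pow]
  rw [h1] at hr'
  rcases hn.mem_or_mem hr' with h2 | h2
  · exact absurd (hn.mem_of_pow_mem c h2) hf
  · exact h2

include hι hloc in
theorem rcg_comap_map {n : Ideal X} (hn : n.IsPrime) (hf : f ∉ n) :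
    (n.map ι).comap ι = n := by
  apply le_antisymm
  · intro r hr
    exact rcg_mem_of_map_mem ι hι f hloc hn hf hr
  · exact Ideal.le_comap_map

include hfg in
theorem rcg_mem_of_pow_mul_mem {N : Ideal Y} {c : ℕ} {y : Y} (h : ι f ^ c * y ∈ N) : y ∈ N := by
  have : y = g ^ c * (ι f ^ c * y) := by
    rw [← mul_assoc, ← mul_pow, mul_comm g, hfg, one_pow, one_mul]
  rw [this]
  exact N.mul_mem_left _ h

include hι hfg hloc in
theorem rcg_map_isPrime {n : Ideal X} (hn : n.IsPrime) (hf : f ∉ n) : (n.map ι).IsPrime := by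
  refine ⟨?_, ?_⟩
  · intro htop
    apply hn.ne_top
    rw [Ideal.eq_top_iff_one]
    apply rcg_mem_of_map_mem ι hι f hloc hn hf
    rw [map_one, htop]
    exact Submodule.mem_top
  · intro y1 y2 h12
    obtain ⟨c1, r1, e1⟩ := hloc y1
    obtain ⟨c2, r2, e2⟩ := hloc y2
    have h : ι (r1 * r2) ∈ n.map ι := by
      have : ι (r1 * r2) = ι f ^ c1 * ι f ^ c2 * (y1 * y2) := by
        rw [map_mul, e1, e2]; ring
      rw [this]
      exact Ideal.mul_mem_left _ _ h12
    have h' := rcg_mem_of_map_mem ι hι f hloc hn hf h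
    rcases hn.mem_or_mem h' with h1 | h1
    · left
      apply rcg_mem_of_pow_mul_mem ι f g hfg (c := c1)
      rw [← e1]
      exact Ideal.mem_map_of_mem ι h1
    · right
      apply rcg_mem_of_pow_mul_mem ι f g hfg (c := c2)
      rw [← e2]
      exact Ideal.mem_map_of_mem ι h1

include hι hfg hloc in
/-- (DOWN, Dom) -/
theorem rcg_down_dom {n : Ideal X} {π : X}
    (h : tq_Dom (ι π) (n.map ι)) : tq_Dom π n := by
  intro a b hab
  rw [Ideal.mem_span_singleton] at hab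
  obtain ⟨z, hz⟩ := hab
  obtain ⟨s, hs, hsab⟩ := h (ι a) (ι b)
    (by rw [← map_mul, hz, map_mul]; exact Ideal.mul_mem_right _ _ (Ideal.mem_span_singleton_self _))
  obtain ⟨cs, rs, es⟩ := hloc s
  have key : ∀ a : X, s * ι a ∈ Ideal.span {ι π} →
      ∃ s' : X, s' ∉ n ∧ s' * a ∈ Ideal.span {π} := by
    intro a ha
    rw [Ideal.mem_span_singleton] at ha
    obtain ⟨w, hw⟩ := ha
    obtain ⟨cw, rw', ew⟩ := hloc w
    refine ⟨f ^ cw * rs, ?_, ?_⟩
    · intro hmem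
      apply hs
      have h1 : ι (f ^ cw * rs) ∈ n.map ι := Ideal.mem_map_of_mem ι hmem
      rw [map_mul, map_pow, es, ← mul_assoc, ← pow_add] at h1
      exact rcg_mem_of_pow_mul_mem ι f g hfg h1
    · rw [Ideal.mem_span_singleton]
      refine ⟨f ^ cs * rw', ?_⟩
      apply hι
      simp only [map_mul, map_pow, es, ew]
      calc ι f ^ cw * (ι f ^ cs * s) * ι a = ι f ^ cw * ι f ^ cs * (s * ι a) := by ring
        _ = ι f ^ cw * ι f ^ cs * (ι π * w) := by rw [hw]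
        _ = ι π * (ι f ^ cs * (ι f ^ cw * w)) := by ring
  rcases hsab with h1 | h1
  · obtain ⟨s', hs', h'⟩ := key a h1
    exact ⟨s', hs', Or.inl h'⟩
  · obtain ⟨s', hs', h'⟩ := key b h1
    exact ⟨s', hs', Or.inr h'⟩

include hι hfg hloc in
/-- (DOWN, GenBy) -/
theorem rcg_down_genBy {n : Ideal X} (hn : n.IsPrime) (hf : f ∉ n) {π : X} {u' : Y}
    (h : tq_GenBy (ι π) u' (n.map ι)) : ∃ u : X, tq_GenBy π u n := by
  obtain ⟨hπ, hu', hgen⟩ := h
  obtain ⟨c, u, hu, eu⟩ := rcg_map_mem ι f hloc hu'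
  refine ⟨u, rcg_mem_of_map_mem ι hι f hloc hn hf hπ, hu, fun x hx => ?_⟩
  obtain ⟨s, hs, hsx⟩ := hgen (ι x) (Ideal.mem_map_of_mem ι hx)
  rw [Ideal.mem_span_pair] at hsx
  obtain ⟨α, β, hαβ⟩ := hsx
  obtain ⟨cs, rs, es⟩ := hloc s
  obtain ⟨cα, rα, eα⟩ := hloc α
  obtain ⟨cβ, rβ, eβ⟩ := hloc β
  refine ⟨f ^ (cα + cβ + c) * rs, ?_, ?_⟩
  · intro hmem
    apply hs
    have h1 : ι (f ^ (cα + cβ + c) * rs) ∈ n.map ι := Ideal.mem_map_of_mem ι hmem
    rw [map_mul, map_pow, es, ← mul_assoc, ← pow_add] at h1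
    exact rcg_mem_of_pow_mul_mem ι f g hfg h1
  · rw [Ideal.mem_span_pair]
    refine ⟨f ^ (cs + cβ + c) * rα, f ^ (cs + cα) * rβ, ?_⟩
    apply hι
    simp only [map_mul, map_pow, map_add, es, eα, eβ, eu]
    calc ι f ^ (cs + cβ + c) * (ι f ^ cα * α) * ι π + ι f ^ (cs + cα) * (ι f ^ cβ * β) * (ι f ^ c * u')
        = ι f ^ (cs + cα + cβ + c) * (α * ι π + β * u') := by
          simp only [pow_add]; ring
      _ = ι f ^ (cs + cα + cβ + c) * (s * ι x) := by rw [hαβ]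
      _ = ι f ^ (cα + cβ + c) * (ι f ^ cs * s) * ι x := by
          simp only [pow_add]; ring

/-- residues: every element of `Y` is congruent mod `n Y` to an element of `X` (`n` maximal). -/
theorem rcg_exists_sub_mem {n : Ideal X} (hn : n.IsMaximal) (hf : f ∉ n) (y : Y)
    (hloc : ∀ y : Y, ∃ (c : ℕ) (r : X), ι r = ι f ^ c * y) :
    ∃ x : X, y - ι x ∈ n.map ι := by
  obtain ⟨b, i, hi, hb⟩ := hn.exists_inv hf
  obtain ⟨c, r, e⟩ := hloc y
  refine ⟨b ^ c * r, ?_⟩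
  have h1 : 1 - (b * f) ^ c ∈ n := by
    rw [← Ideal.Quotient.eq_zero_iff_mem, map_sub, map_pow, map_one]
    have h2 : Ideal.Quotient.mk n (b * f) = 1 := by
      have h3 : b * f = 1 - i := by rw [← hb]; ring
      rw [h3, map_sub, map_one, Ideal.Quotient.eq_zero_iff_mem.mpr hi, sub_zero]
    rw [h2, one_pow, sub_self]
  have h2 : y - ι (b ^ c * r) = ι (1 - (b * f) ^ c) * y := by
    rw [map_mul, e, map_sub, map_pow, map_pow, map_mul, map_one, mul_pow]
    ring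
  rw [h2]
  exact Ideal.mul_mem_right _ _ (Ideal.mem_map_of_mem ι h1)

end Transfer

/-! ### integrality of residue rings over `O`, and maximality of contracted primes -/

section IntMod

variable (O : Type*) [CommRing O]

/-- `B ⧸ I` is integral over `O`, in elementwise form. -/
def rcg_IntMod {B : Type*} [CommRing B] [Algebra O B] (I : Ideal B) : Prop :=
  ∀ z : B, ∃ p : O[X], p.Monic ∧ aeval z p ∈ I

variable {O}
variable {B C : Type*} [CommRing B] [CommRing C] [Algebra O B] [Algebra O C]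

theorem rcg_intMod_of_isIntegral (I : Ideal B) [Algebra.IsIntegral O (B ⧸ I)] :
    rcg_IntMod O I := by
  intro z
  obtain ⟨p, hp, h0⟩ := Algebra.IsIntegral.isIntegral (R := O) (Ideal.Quotient.mk I z)
  refine ⟨p, hp, ?_⟩
  rw [← Ideal.Quotient.eq_zero_iff_mem]
  rw [← aeval_def] at h0
  have h1 := Polynomial.aeval_algHom_apply (Ideal.Quotient.mkₐ O I) z p
  rw [Ideal.Quotient.mkₐ_eq_mk] at h1
  rw [← h1]
  exact h0

theorem rcg_isIntegral_of_intMod {I : Ideal B} (h : rcg_IntMod O I) :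
    Algebra.IsIntegral O (B ⧸ I) := by
  refine ⟨fun zb => ?_⟩
  obtain ⟨z, rfl⟩ := Ideal.Quotient.mk_surjective zb
  obtain ⟨p, hp, hpz⟩ := h z
  refine ⟨p, hp, ?_⟩
  rw [← aeval_def]
  have h1 := Polynomial.aeval_algHom_apply (Ideal.Quotient.mkₐ O I) z p
  rw [Ideal.Quotient.mkₐ_eq_mk] at h1
  rw [h1]
  exact Ideal.Quotient.eq_zero_iff_mem.mpr hpz

theorem rcg_intMod_comap (φ : B →ₐ[O] C) {I : Ideal C} (h : rcg_IntMod O I) :
    rcg_IntMod O (I.comap φ) := by
  intro z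
  obtain ⟨p, hp, hpz⟩ := h (φ z)
  refine ⟨p, hp, ?_⟩
  rw [Ideal.mem_comap, ← Polynomial.aeval_algHom_apply]
  exact hpz

theorem rcg_intMod_of_sub_mem (φ : B →ₐ[O] C) {n : Ideal B} {N : Ideal C}
    (hnN : ∀ x ∈ n, φ x ∈ N) (hres : ∀ y : C, ∃ x : B, y - φ x ∈ N) (h : rcg_IntMod O n) :
    rcg_IntMod O N := by
  intro y
  obtain ⟨x, hx⟩ := hres y
  obtain ⟨p, hp, hpx⟩ := h x
  refine ⟨p, hp, ?_⟩
  have h1 : aeval (φ x) p ∈ N := by
    rw [Polynomial.aeval_algHom_apply]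
    exact hnN _ hpx
  have h2 : aeval y p - aeval (φ x) p ∈ N := by
    rw [aeval_def, aeval_def, eval₂_eq_eval_map, eval₂_eq_eval_map]
    obtain ⟨w, hw⟩ := Polynomial.sub_dvd_eval_sub y (φ x) (p.map (algebraMap O C))
    rw [hw]
    exact Ideal.mul_mem_right _ _ hx
  have := N.add_mem h2 h1
  rwa [sub_add_cancel] at this

theorem rcg_isMaximal_of_intMod {π : O} (hπ : (Ideal.span {π} : Ideal O).IsMaximal)
    {M : Ideal B} (hM : M.IsPrime) (hπM : algebraMap O B π ∈ M) (h : rcg_IntMod O M) :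
    M.IsMaximal := by
  have hint : Algebra.IsIntegral O (B ⧸ M) := rcg_isIntegral_of_intMod h
  have hdom : IsDomain (B ⧸ M) := Ideal.Quotient.isDomain M
  have hbp : (⊥ : Ideal (B ⧸ M)).IsPrime := Ideal.isPrime_bot
  have hcomap : (⊥ : Ideal (B ⧸ M)).comap (algebraMap O (B ⧸ M)) = Ideal.span {π} := by
    symm
    apply hπ.eq_of_le
    · intro htop
      have h1 : (1 : O) ∈ (⊥ : Ideal (B ⧸ M)).comap (algebraMap O (B ⧸ M)) := by
        rw [htop]; exact Submodule.mem_top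
      rw [Ideal.mem_comap, map_one, Ideal.mem_bot] at h1
      exact one_ne_zero h1
    · rw [Ideal.span_le]
      intro y hy
      rw [Set.mem_singleton_iff] at hy
      subst hy
      rw [SetLike.mem_coe, Ideal.mem_comap, Ideal.mem_bot]
      rw [IsScalarTower.algebraMap_apply O B (B ⧸ M), Ideal.Quotient.algebraMap_eq]
      exact Ideal.Quotient.eq_zero_iff_mem.mpr hπM
  have hmax : (⊥ : Ideal (B ⧸ M)).IsMaximal :=
    Ideal.isMaximal_of_isIntegral_of_isMaximal_comap (R := O) ⊥ (by rw [hcomap]; exact hπ)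
  exact Ideal.Quotient.maximal_of_isField M (Ring.isField_iff_maximal_bot.mpr hmax)

/-- a field generated as a ring by one element over `O / π` is algebraic. -/
theorem rcg_isIntegral_of_adjoin_eq_top {π : O} (hπ : (Ideal.span {π} : Ideal O).IsMaximal)
    {K : Type*} [Field K] [Algebra O K] (hπK : algebraMap O K π = 0) (t : K)
    (ht : Algebra.adjoin O ({t} : Set K) = ⊤) : Algebra.IsIntegral O K := by
  have key : IsIntegral O t := by
    by_cases ht0 : t = 0
    · rw [ht0]; exact isIntegral_zero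
    have hmem : t⁻¹ ∈ Algebra.adjoin O ({t} : Set K) := by rw [ht]; exact Algebra.mem_top
    rw [Algebra.adjoin_singleton_eq_range_aeval] at hmem
    obtain ⟨q, hq⟩ := hmem
    set h : O[X] := X * q - 1 with hh
    have hh0 : aeval t h = 0 := by
      have hq' : (aeval t) q = t⁻¹ := hq
      rw [hh, map_sub, map_mul, aeval_X, map_one, hq', mul_inv_cancel₀ ht0, sub_self]
    let _ : Field (O ⧸ (Ideal.span {π} : Ideal O)) := Ideal.Quotient.field _
    set mk := Ideal.Quotient.mk (Ideal.span {π} : Ideal O) with hmk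
    set hb := h.map mk with hhb
    have hb0 : hb ≠ 0 := by
      intro h0
      have h1 : hb.coeff 0 = -1 := by
        rw [hhb, coeff_map, hh, coeff_sub, mul_coeff_zero, coeff_X_zero, zero_mul, coeff_one_zero,
          zero_sub, map_neg, map_one]
      rw [h0, coeff_zero] at h1
      exact one_ne_zero (neg_eq_zero.mp h1.symm)
    have hmon : (hb * C hb.leadingCoeff⁻¹).Monic := monic_mul_leadingCoeff_inv hb0
    obtain ⟨m, hm, -, hmm⟩ := lifts_and_degree_eq_and_monic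
      ((mem_lifts _).mpr (map_surjective mk Ideal.Quotient.mk_surjective _)) hmon
    obtain ⟨c', hc'⟩ := Ideal.Quotient.mk_surjective hb.leadingCoeff⁻¹
    have hd : C π ∣ m - C c' * h := by
      rw [C_dvd_iff_dvd_coeff]
      intro i
      rw [← Ideal.mem_span_singleton, ← Ideal.Quotient.eq_zero_iff_mem, ← coeff_map]
      rw [Polynomial.map_sub, hm, Polynomial.map_mul, map_C, ← hmk, hc', ← hhb, mul_comm,
        sub_self, coeff_zero]
    obtain ⟨r, hr⟩ := hd
    refine ⟨m, hmm, ?_⟩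
    rw [← aeval_def]
    have : m = C c' * h + C π * r := by rw [← hr]; ring
    rw [this, map_add, map_mul, map_mul, hh0, aeval_C, aeval_C, hπK]
    ring
  refine ⟨fun z => ?_⟩
  have hle : Algebra.adjoin O ({t} : Set K) ≤ integralClosure O K :=
    Algebra.adjoin_le (by intro y hy; rw [Set.mem_singleton_iff] at hy; rw [hy]; exact key)
  exact hle (by rw [ht]; exact Algebra.mem_top)

/-- if `T` is integral over `S = O[s]` and `n ∋ π` is a maximal ideal of `T`, then `T ⧸ n` is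
integral over `O` (`O ⧸ π` a field). -/
theorem rcg_intMod_of_isMaximal {π : O} (hπ : (Ideal.span {π} : Ideal O).IsMaximal)
    {S T : Type*} [CommRing S] [CommRing T] [Algebra O S] [Algebra S T] [Algebra O T]
    [IsScalarTower O S T] [Algebra.IsIntegral S T] (s : S)
    (hs : Algebra.adjoin O ({s} : Set S) = ⊤) (n : Ideal T) [hn : n.IsMaximal]
    (hπn : algebraMap O T π ∈ n) : rcg_IntMod O n := by
  have hm : (n.under S).IsMaximal := Ideal.isMaximal_comap_of_isIntegral_of_isMaximal n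
  let _ : Field (S ⧸ n.under S) := Ideal.Quotient.field _
  have h1 : Algebra.IsIntegral O (S ⧸ n.under S) := by
    apply rcg_isIntegral_of_adjoin_eq_top hπ (t := Ideal.Quotient.mk (n.under S) s)
    · rw [IsScalarTower.algebraMap_apply O S (S ⧸ n.under S), Ideal.Quotient.algebraMap_eq,
        Ideal.Quotient.eq_zero_iff_mem, Ideal.under_def, Ideal.mem_comap,
        ← IsScalarTower.algebraMap_apply]
      exact hπn
    · have h2 := AlgHom.map_adjoin (Ideal.Quotient.mkₐ O (n.under S)) ({s} : Set S)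
      rw [hs, Algebra.map_top, Set.image_singleton, Ideal.Quotient.mkₐ_eq_mk] at h2
      rw [← h2, AlgHom.range_eq_top]
      exact Ideal.Quotient.mkₐ_surjective O _
  have h3 : Algebra.IsIntegral O (T ⧸ n) := Algebra.IsIntegral.trans (S ⧸ n.under S)
  exact rcg_intMod_of_isIntegral n

end IntMod

/-! ### the seam `jt_RegAt` along localisations of charts -/

section ChartTransfer

variable {O : Type*} [CommRing O] {E : Type*} [Field E] [Algebra O E]

/-- the residue field of a closed point of the fibre `π = 0` of a chart `fc_chart O {t}` is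
algebraic over `O / π`. -/
theorem rcg_intMod_chart {π : O} (hπ : (Ideal.span {π} : Ideal O).IsMaximal) (t : E)
    (n : Ideal (fc_chart O ({t} : Set E))) (hn : n.IsMaximal)
    (hπn : algebraMap O (fc_chart O ({t} : Set E)) π ∈ n) : rcg_IntMod O n := by
  let _ : Algebra (Algebra.adjoin O ({t} : Set E)) (fc_chart O ({t} : Set E)) :=
    (Subalgebra.inclusion (fc_adjoin_le_chart ({t} : Set E))).toAlgebra
  have _ : IsScalarTower O (Algebra.adjoin O ({t} : Set E)) (fc_chart O ({t} : Set E)) :=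
    IsScalarTower.of_algebraMap_eq (fun r => rfl)
  have _ : IsScalarTower (Algebra.adjoin O ({t} : Set E)) (fc_chart O ({t} : Set E)) E :=
    IsScalarTower.of_algebraMap_eq (fun r => rfl)
  have _ : Algebra.IsIntegral (Algebra.adjoin O ({t} : Set E)) (fc_chart O ({t} : Set E)) := by
    refine ⟨fun z => ?_⟩
    have hz : IsIntegral (Algebra.adjoin O ({t} : Set E)) (z : E) := fc_mem_chart.mp z.2
    exact (isIntegral_algHom_iff (IsScalarTower.toAlgHom (Algebra.adjoin O ({t} : Set E))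
      (fc_chart O ({t} : Set E)) E) Subtype.val_injective).mp hz
  have hs : Algebra.adjoin O ({(⟨t, Algebra.subset_adjoin (Set.mem_singleton t)⟩ :
      Algebra.adjoin O ({t} : Set E))} : Set (Algebra.adjoin O ({t} : Set E))) = ⊤ := by
    have h1 := Algebra.adjoin_adjoin_coe_preimage (R := O) (s := ({t} : Set E))
    have h2 : ((↑) : Algebra.adjoin O ({t} : Set E) → E) ⁻¹' ({t} : Set E)
        = {(⟨t, Algebra.subset_adjoin (Set.mem_singleton t)⟩ :
          Algebra.adjoin O ({t} : Set E))} := by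
      ext y
      simp only [Set.mem_preimage, Set.mem_singleton_iff]
      exact ⟨fun h => Subtype.ext h, fun h => congrArg Subtype.val h⟩
    rw [h2] at h1
    exact h1
  exact rcg_intMod_of_isMaximal hπ _ hs n hπn

/-- **local transfer**: `T ⊆ W = T[1/a]` and `R ⊆ W = R[1/f]`; regularity of `R` along `π = 0`
gives the seams at every closed point `n ∌ a` of `T` (with residue field algebraic over `O/π`). -/
theorem rcg_regAt_local {π : O} (hπ : (Ideal.span {π} : Ideal O).IsMaximal)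
    (R T W : Subalgebra O E) (hRW : R ≤ W) (hTW : T ≤ W)
    {f : E} (hfR : f ∈ R) (hfW : f⁻¹ ∈ W) (hf0 : f ≠ 0)
    (hlocR : ∀ w ∈ W, ∃ k : ℕ, f ^ k * w ∈ R)
    {a : E} (haT : a ∈ T) (haW : a⁻¹ ∈ W) (ha0 : a ≠ 0)
    (hlocT : ∀ w ∈ W, ∃ k : ℕ, a ^ k * w ∈ T)
    (hR : jt_RegAt R (algebraMap O R π))
    (n : Ideal T) (hn : n.IsMaximal) (hπn : algebraMap O T π ∈ n) (hint : rcg_IntMod O n)
    (han : (⟨a, haT⟩ : T) ∉ n) :
    (∃ u, tq_GenBy (algebraMap O T π) u n) ∧ tq_Dom (algebraMap O T π) n := by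
  set ιR : R →ₐ[O] W := Subalgebra.inclusion hRW with hιR
  set ιT : T →ₐ[O] W := Subalgebra.inclusion hTW with hιT
  have hιRinj : Function.Injective (ιR : R →+* W) := Subalgebra.inclusion_injective hRW
  have hιTinj : Function.Injective (ιT : T →+* W) := Subalgebra.inclusion_injective hTW
  set fR : R := ⟨f, hfR⟩ with hfR'
  set gW : W := ⟨f⁻¹, hfW⟩ with hgW
  set aT : T := ⟨a, haT⟩ with haT'
  set bW : W := ⟨a⁻¹, haW⟩ with hbW
  have hfg : (ιR : R →+* W) fR * gW = 1 := Subtype.ext (mul_inv_cancel₀ hf0)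
  have hab : (ιT : T →+* W) aT * bW = 1 := Subtype.ext (mul_inv_cancel₀ ha0)
  have hlocR' : ∀ y : W, ∃ (c : ℕ) (r : R), (ιR : R →+* W) r = (ιR : R →+* W) fR ^ c * y := by
    intro y
    obtain ⟨k, hk⟩ := hlocR y y.2
    exact ⟨k, ⟨f ^ k * y, hk⟩, Subtype.ext rfl⟩
  have hlocT' : ∀ y : W, ∃ (c : ℕ) (r : T), (ιT : T →+* W) r = (ιT : T →+* W) aT ^ c * y := by
    intro y
    obtain ⟨k, hk⟩ := hlocT y y.2
    exact ⟨k, ⟨a ^ k * y, hk⟩, Subtype.ext rfl⟩
  set N : Ideal W := n.map (ιT : T →+* W) with hN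
  have hNprime : N.IsPrime := rcg_map_isPrime _ hιTinj aT bW hab hlocT' hn.isPrime han
  have hπN : (ιT : T →+* W) (algebraMap O T π) ∈ N := Ideal.mem_map_of_mem _ hπn
  have hπeq : (ιR : R →+* W) (algebraMap O R π) = (ιT : T →+* W) (algebraMap O T π) := rfl
  set M : Ideal R := N.comap (ιR : R →+* W) with hM
  have hMprime : M.IsPrime := Ideal.comap_isPrime _ N
  have hπM : algebraMap O R π ∈ M := by
    rw [hM, Ideal.mem_comap, hπeq]
    exact hπN
  have hintN : rcg_IntMod O N :=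
    rcg_intMod_of_sub_mem ιT (fun x hx => Ideal.mem_map_of_mem (ιT : T →+* W) hx)
      (fun y => rcg_exists_sub_mem (ιT : T →+* W) aT hn han y hlocT') hint
  have hintM : rcg_IntMod O M := rcg_intMod_comap ιR hintN
  have hMmax : M.IsMaximal := rcg_isMaximal_of_intMod hπ hMprime hπM hintM
  obtain ⟨⟨u, hu⟩, hdom⟩ := hR M hMmax hπM
  have hupG := rcg_up_genBy (ιR : R →+* W) fR gW hfg hlocR' hNprime hu
  have hupD := rcg_up_dom (ιR : R →+* W) hιRinj fR gW hfg hlocR' hNprime hdom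
  rw [hπeq] at hupG hupD
  exact ⟨rcg_down_genBy (ιT : T →+* W) hιTinj aT bW hab hlocT' hn.isPrime han hupG,
    rcg_down_dom (ιT : T →+* W) hιTinj aT bW hab hlocT' hupD⟩

/-- **one-chart transfer**: `R ⊆ T = R[1/f]`. -/
theorem rcg_regAt_of_localization {π : O} (hπ : (Ideal.span {π} : Ideal O).IsMaximal)
    (R T : Subalgebra O E) (hRT : R ≤ T)
    {f : E} (hfR : f ∈ R) (hfT : f⁻¹ ∈ T) (hf0 : f ≠ 0)
    (hloc : ∀ w ∈ T, ∃ k : ℕ, f ^ k * w ∈ R)
    (hint : ∀ n : Ideal T, n.IsMaximal → algebraMap O T π ∈ n → rcg_IntMod O n)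
    (hR : jt_RegAt R (algebraMap O R π)) : jt_RegAt T (algebraMap O T π) := by
  intro n hn hπn
  refine rcg_regAt_local hπ R T T hRT le_rfl hfR hfT hf0 hloc (a := 1) (one_mem T)
    (by rw [inv_one]; exact one_mem T) one_ne_zero (fun w hw => ⟨0, by simpa using hw⟩) hR n hn hπn
    (hint n hn hπn) ?_
  intro h1
  exact hn.ne_top ((Ideal.eq_top_iff_one n).mpr h1)

end ChartTransfer

/-! ### the Legendre cover: the chart `j ≠ ∞` -/

section Legendre

variable {O : Type*} [CommRing O] {E : Type*} [Field E] [Algebra O E]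

theorem rcg_exists_inv256 (h2 : IsUnit (2 : O)) : ∃ v : O, 256 * v = 1 := by
  have : IsUnit ((2 : O) ^ 8) := h2.pow 8
  obtain ⟨u, hu⟩ := this
  refine ⟨↑u⁻¹, ?_⟩
  have : (256 : O) = 2 ^ 8 := by norm_num
  rw [this, ← hu, Units.mul_inv]

theorem rcg_exists_inv256' (h2 : IsUnit (2 : O)) : ∃ v : O, (256 : E) * algebraMap O E v = 1 := by
  obtain ⟨v, hv⟩ := rcg_exists_inv256 h2
  refine ⟨v, ?_⟩
  have := congrArg (algebraMap O E) hv
  rw [map_mul, map_one, map_ofNat] at this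
  exact this

theorem rcg_256_ne_zero (h2 : IsUnit (2 : O)) : (256 : E) ≠ 0 := by
  obtain ⟨v, hv⟩ := rcg_exists_inv256' (E := E) h2
  intro h0
  rw [h0, zero_mul] at hv
  exact zero_ne_one hv

theorem rcg_ofNat_mem (X : Subalgebra O E) (m : ℕ) [m.AtLeastTwo] : (OfNat.ofNat m : E) ∈ X := by
  rw [← map_ofNat (algebraMap O E) m]
  exact X.algebraMap_mem _

variable {x j : E}

theorem rcg_leg_rel (hleg : cv_legN x = j * cv_legD x) :
    256 * (x * (x - 1) + 1) ^ 3 = j * (x * (x - 1)) ^ 2 := by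
  unfold cv_legN cv_legD at hleg
  linear_combination hleg

theorem rcg_w_ne_zero (h2 : IsUnit (2 : O)) (hleg : cv_legN x = j * cv_legD x) :
    x * (x - 1) ≠ 0 := by
  intro h0
  have h := rcg_leg_rel hleg
  rw [h0] at h
  simp only [zero_add, one_pow, mul_one, ne_eq, OfNat.ofNat_ne_zero, not_false_eq_true,
    zero_pow, mul_zero] at h
  exact rcg_256_ne_zero (O := O) h2 h

theorem rcg_x_ne_zero (h2 : IsUnit (2 : O)) (hleg : cv_legN x = j * cv_legD x) : x ≠ 0 :=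
  left_ne_zero_of_mul (rcg_w_ne_zero h2 hleg)

theorem rcg_legD_mem (X : Subalgebra O E) (hx : x ∈ X) : cv_legD x ∈ X := by
  unfold cv_legD
  exact mul_mem (pow_mem hx 2) (pow_mem (sub_mem hx (one_mem X)) 2)

theorem rcg_legN_mem (X : Subalgebra O E) (hx : x ∈ X) : cv_legN x ∈ X := by
  unfold cv_legN
  exact mul_mem (rcg_ofNat_mem X 256)
    (pow_mem (add_mem (sub_mem (pow_mem hx 2) hx) (one_mem X)) 3)

theorem rcg_x_mem_T1 (h2 : IsUnit (2 : O)) (hleg : cv_legN x = j * cv_legD x) :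
    x ∈ fc_chart O ({j} : Set E) :=
  fc_mem_chart.mpr (cv_leg_isIntegral h2 hleg)

theorem rcg_R_le_T1 (h2 : IsUnit (2 : O)) (hleg : cv_legN x = j * cv_legD x) :
    fc_chart O ({x} : Set E) ≤ fc_chart O ({j} : Set E) :=
  rcg_chart_le _ (fun _ hz => rcg_chart_closed _ hz) (rcg_x_mem_T1 h2 hleg)

theorem rcg_winv_mem_T1 (h2 : IsUnit (2 : O)) (hleg : cv_legN x = j * cv_legD x) :
    (x * (x - 1))⁻¹ ∈ fc_chart O ({j} : Set E) := by
  rw [fc_mem_chart]
  obtain ⟨v, hv'⟩ := rcg_exists_inv256' (E := E) h2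
  have hw := rcg_w_ne_zero h2 hleg
  have hwu : (x * (x - 1)) * (x * (x - 1))⁻¹ = 1 := mul_inv_cancel₀ hw
  have hrel := rcg_leg_rel hleg
  generalize (x * (x - 1))⁻¹ = u at hwu ⊢
  generalize x * (x - 1) = w at hwu hrel
  let c : Algebra.adjoin O {j} := algebraMap O _ v * cv_adjGen j
  refine ⟨(X + 1) ^ 3 - C c * X, by monicity!, ?_⟩
  have hc : algebraMap (Algebra.adjoin O {j}) E c = algebraMap O E v * j := rfl
  rw [← aeval_def]
  simp only [map_sub, map_mul, map_pow, map_add, map_one, aeval_X, aeval_C, hc]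
  have e1 : (w + 1) ^ 3 = algebraMap O E v * j * w ^ 2 := by
    linear_combination (algebraMap O E v) * hrel - (w + 1) ^ 3 * hv'
  have e2 : u + 1 = u * (w + 1) := by linear_combination (-1) * hwu
  rw [e2]
  linear_combination u ^ 3 * e1 + (algebraMap O E v * j * u * (w * u + 1)) * hwu

theorem rcg_T1_clear (hleg : cv_legN x = j * cv_legD x) {z : E}
    (hz : z ∈ fc_chart O ({j} : Set E)) :
    ∃ k : ℕ, (x * (x - 1)) ^ k * z ∈ fc_chart O ({x} : Set E) := by
  have hx : x ∈ fc_chart O ({x} : Set E) := fc_x_mem_chart x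
  obtain ⟨k, hk⟩ := rcg_clear (fc_chart O ({x} : Set E)) (fun _ hz => rcg_chart_closed _ hz)
    (s := cv_legD x) (t := j) (rcg_legD_mem _ hx)
    (by rw [mul_comm, ← hleg]; exact rcg_legN_mem _ hx) (S := {j}) Set.subset_union_right hz
  refine ⟨2 * k, ?_⟩
  have : (x * (x - 1)) ^ (2 * k) = cv_legD x ^ k := by
    unfold cv_legD
    rw [pow_mul, mul_pow]
  rw [this]
  exact hk

/-- **the chart `j ≠ ∞` of the Legendre cover is regular along `π = 0`** if the chart `x ≠ ∞` of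
the `x`-line is. -/
theorem rcg_regAt_T1 {π : O} (hπ : (Ideal.span {π} : Ideal O).IsMaximal) (h2 : IsUnit (2 : O))
    (hleg : cv_legN x = j * cv_legD x)
    (hR : jt_RegAt (fc_chart O ({x} : Set E)) (algebraMap O (fc_chart O ({x} : Set E)) π)) :
    jt_RegAt (fc_chart O ({j} : Set E)) (algebraMap O (fc_chart O ({j} : Set E)) π) :=
  rcg_regAt_of_localization hπ _ _ (rcg_R_le_T1 h2 hleg) (f := x * (x - 1))
    (mul_mem (fc_x_mem_chart x) (sub_mem (fc_x_mem_chart x) (one_mem _)))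
    (rcg_winv_mem_T1 h2 hleg) (rcg_w_ne_zero h2 hleg) (fun _ hw => rcg_T1_clear hleg hw)
    (fun n hn hπn => rcg_intMod_chart hπ j n hn hπn) hR

/-! ### the Legendre cover: the chart `j ≠ 0` -/

theorem rcg_j_ne_zero (h2 : IsUnit (2 : O)) (hleg : cv_legN x = j * cv_legD x)
    (hg : x ^ 2 - x + 1 ≠ 0) : j ≠ 0 := by
  intro h0
  have h := rcg_leg_rel hleg
  rw [h0, zero_mul] at h
  rcases mul_eq_zero.mp h with h1 | h1
  · exact rcg_256_ne_zero (O := O) h2 h1
  · apply hg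
    have := pow_eq_zero_iff (three_ne_zero) |>.mp h1
    linear_combination this

/-- `a = 1/(x² - x + 1)` lies in the chart `j ≠ 0`: `a (a - 1)² = 256 / j`. -/
theorem rcg_a_mem_T2 (h2 : IsUnit (2 : O)) (hleg : cv_legN x = j * cv_legD x)
    (hg : x ^ 2 - x + 1 ≠ 0) : (x ^ 2 - x + 1)⁻¹ ∈ fc_chart O ({j⁻¹} : Set E) := by
  rw [fc_mem_chart]
  have hj := rcg_j_ne_zero h2 hleg hg
  have hjj : j * j⁻¹ = 1 := mul_inv_cancel₀ hj
  have hga : (x ^ 2 - x + 1) * (x ^ 2 - x + 1)⁻¹ = 1 := mul_inv_cancel₀ hg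
  have hrel : 256 * (x ^ 2 - x + 1) ^ 3 = j * ((x ^ 2 - x + 1) - 1) ^ 2 := by
    linear_combination rcg_leg_rel hleg
  generalize (x ^ 2 - x + 1)⁻¹ = a at hga ⊢
  generalize x ^ 2 - x + 1 = g at hga hrel
  generalize j⁻¹ = ji at hjj ⊢
  let c : Algebra.adjoin O {ji} := algebraMap O _ 256 * cv_adjGen ji
  refine ⟨X * (X - 1) ^ 2 - C c, by monicity!, ?_⟩
  have hc : algebraMap (Algebra.adjoin O {ji}) E c = algebraMap O E 256 * ji := rfl
  rw [← aeval_def]
  simp only [map_sub, map_mul, map_pow, map_one, aeval_X, aeval_C, hc, map_ofNat]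
  linear_combination (-(ji * a ^ 3)) * hrel - (a ^ 3 * (g - 1) ^ 2) * hjj
    + (256 * ji * ((g * a) ^ 2 + g * a + 1) - a * (a * g + 1 - 2 * a)) * hga

/-- `e = x/(x² - x + 1)` lies in the chart `j ≠ 0`: `e² - a e + a (a - 1) = 0`. -/
theorem rcg_e_mem_T2 (h2 : IsUnit (2 : O)) (hleg : cv_legN x = j * cv_legD x)
    (hg : x ^ 2 - x + 1 ≠ 0) : x * (x ^ 2 - x + 1)⁻¹ ∈ fc_chart O ({j⁻¹} : Set E) := by
  apply rcg_chart_closed
  have ha := rcg_a_mem_T2 h2 hleg hg
  have hga : (x ^ 2 - x + 1) * (x ^ 2 - x + 1)⁻¹ = 1 := mul_inv_cancel₀ hg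
  generalize (x ^ 2 - x + 1)⁻¹ = a at hga ha ⊢
  let aT : fc_chart O ({j⁻¹} : Set E) := ⟨a, ha⟩
  refine ⟨X ^ 2 - C aT * X + C (aT * (aT - 1)), by monicity!, ?_⟩
  have hc : algebraMap (fc_chart O ({j⁻¹} : Set E)) E aT = a := rfl
  rw [← aeval_def]
  simp only [map_sub, map_mul, map_pow, map_add, map_one, aeval_X, aeval_C, hc]
  linear_combination a * hga

/-- `b = x²/(x² - x + 1) = e - a + 1` lies in the chart `j ≠ 0`. -/
theorem rcg_b_mem_T2 (h2 : IsUnit (2 : O)) (hleg : cv_legN x = j * cv_legD x)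
    (hg : x ^ 2 - x + 1 ≠ 0) : x ^ 2 * (x ^ 2 - x + 1)⁻¹ ∈ fc_chart O ({j⁻¹} : Set E) := by
  have ha := rcg_a_mem_T2 h2 hleg hg
  have he := rcg_e_mem_T2 h2 hleg hg
  have hga : (x ^ 2 - x + 1) * (x ^ 2 - x + 1)⁻¹ = 1 := mul_inv_cancel₀ hg
  have : x ^ 2 * (x ^ 2 - x + 1)⁻¹ = x * (x ^ 2 - x + 1)⁻¹ - (x ^ 2 - x + 1)⁻¹ + 1 := by
    linear_combination hga
  rw [this]
  exact add_mem (sub_mem he ha) (one_mem _)

/-- the two open sets `a ≠ 0`, `b ≠ 0` cover the chart `j ≠ 0`. -/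
theorem rcg_cover (hg : x ^ 2 - x + 1 ≠ 0) :
    (x ^ 2 - x + 1)⁻¹ * (2 - (x ^ 2 - x + 1)⁻¹ - x ^ 2 * (x ^ 2 - x + 1)⁻¹)
      + x ^ 2 * (x ^ 2 - x + 1)⁻¹ * (2 - x ^ 2 * (x ^ 2 - x + 1)⁻¹) = 1 := by
  have hga : (x ^ 2 - x + 1) * (x ^ 2 - x + 1)⁻¹ = 1 := mul_inv_cancel₀ hg
  generalize (x ^ 2 - x + 1)⁻¹ = a at hga ⊢
  linear_combination (a * (x ^ 2 - x + 1) + 1 - 2 * a * (1 + x ^ 2)) * hga

/-- the seams at the closed points of the chart `j ≠ 0` where `a = 1/(x² - x + 1) ≠ 0`. -/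
theorem rcg_local_T2 {π : O} (hπ : (Ideal.span {π} : Ideal O).IsMaximal) (h2 : IsUnit (2 : O))
    (hleg : cv_legN x = j * cv_legD x) (hg : x ^ 2 - x + 1 ≠ 0)
    (hR : jt_RegAt (fc_chart O ({x} : Set E)) (algebraMap O (fc_chart O ({x} : Set E)) π))
    (n : Ideal (fc_chart O ({j⁻¹} : Set E))) (hn : n.IsMaximal)
    (hπn : algebraMap O (fc_chart O ({j⁻¹} : Set E)) π ∈ n)
    (han : (⟨(x ^ 2 - x + 1)⁻¹, rcg_a_mem_T2 h2 hleg hg⟩ : fc_chart O ({j⁻¹} : Set E)) ∉ n) :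
    (∃ u, tq_GenBy (algebraMap O (fc_chart O ({j⁻¹} : Set E)) π) u n) ∧
      tq_Dom (algebraMap O (fc_chart O ({j⁻¹} : Set E)) π) n := by
  have hj := rcg_j_ne_zero h2 hleg hg
  have hxR : x ∈ fc_chart O ({x} : Set E) := fc_x_mem_chart x
  have ha := rcg_a_mem_T2 h2 hleg hg
  have hRW : fc_chart O ({x} : Set E) ≤ fc_chart O ({x, j⁻¹} : Set E) :=
    fc_chart_mono (by intro y hy; exact Or.inl hy)
  have hTW : fc_chart O ({j⁻¹} : Set E) ≤ fc_chart O ({x, j⁻¹} : Set E) :=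
    fc_chart_mono (by intro y hy; exact Or.inr hy)
  have hfne : cv_legN x ≠ 0 := by
    unfold cv_legN
    exact mul_ne_zero (rcg_256_ne_zero (O := O) h2) (pow_ne_zero 3 hg)
  obtain ⟨v, hv⟩ := rcg_exists_inv256' (E := E) h2
  have hga : (x ^ 2 - x + 1) * (x ^ 2 - x + 1)⁻¹ = 1 := mul_inv_cancel₀ hg
  have hfinv : (cv_legN x)⁻¹ = algebraMap O E v * ((x ^ 2 - x + 1)⁻¹) ^ 3 := by
    symm
    apply eq_inv_of_mul_eq_one_left
    unfold cv_legN
    linear_combination (((x ^ 2 - x + 1) * (x ^ 2 - x + 1)⁻¹) ^ 3) * hv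
      + (((x ^ 2 - x + 1) * (x ^ 2 - x + 1)⁻¹) ^ 2 + (x ^ 2 - x + 1) * (x ^ 2 - x + 1)⁻¹ + 1) * hga
  refine rcg_regAt_local hπ (fc_chart O ({x} : Set E)) (fc_chart O ({j⁻¹} : Set E))
    (fc_chart O ({x, j⁻¹} : Set E)) hRW hTW (f := cv_legN x) (rcg_legN_mem _ hxR) ?_ hfne ?_
    (a := (x ^ 2 - x + 1)⁻¹) ha ?_ (inv_ne_zero hg) ?_ hR n hn hπn
    (rcg_intMod_chart hπ j⁻¹ n hn hπn) han
  · rw [hfinv]
    exact mul_mem (Subalgebra.algebraMap_mem _ v) (pow_mem (hTW ha) 3)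
  · intro w hw
    refine rcg_clear (fc_chart O ({x} : Set E)) (fun _ hz => rcg_chart_closed _ hz)
      (s := cv_legN x) (t := j⁻¹) (rcg_legN_mem _ hxR) ?_ (S := {x, j⁻¹}) ?_ hw
    · rw [hleg, mul_comm j, mul_assoc, mul_inv_cancel₀ hj, mul_one]
      exact rcg_legD_mem _ hxR
    · intro y hy
      rcases hy with rfl | hy
      · exact Or.inl hxR
      · exact Or.inr hy
  · rw [inv_inv]
    exact hRW (add_mem (sub_mem (pow_mem hxR 2) hxR) (one_mem _))
  · intro w hw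
    refine rcg_clear (fc_chart O ({j⁻¹} : Set E)) (fun _ hz => rcg_chart_closed _ hz)
      (s := (x ^ 2 - x + 1)⁻¹) (t := x) ha ?_ (S := {x, j⁻¹}) ?_ hw
    · rw [mul_comm]
      exact rcg_e_mem_T2 h2 hleg hg
    · intro y hy
      rcases hy with rfl | hy
      · exact Or.inr rfl
      · rw [Set.mem_singleton_iff] at hy
        rw [hy]
        exact Or.inl (fc_x_mem_chart j⁻¹)

/-- **the chart `j ≠ 0` of the Legendre cover is regular along `π = 0`** if the two standard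
charts `x ≠ ∞`, `x ≠ 0` of the `x`-line are. -/
theorem rcg_regAt_T2 {π : O} (hπ : (Ideal.span {π} : Ideal O).IsMaximal) (h2 : IsUnit (2 : O))
    (hleg : cv_legN x = j * cv_legD x) (hg : x ^ 2 - x + 1 ≠ 0)
    (hR1 : jt_RegAt (fc_chart O ({x} : Set E)) (algebraMap O (fc_chart O ({x} : Set E)) π))
    (hR2 : jt_RegAt (fc_chart O ({x⁻¹} : Set E)) (algebraMap O (fc_chart O ({x⁻¹} : Set E)) π)) :
    jt_RegAt (fc_chart O ({j⁻¹} : Set E)) (algebraMap O (fc_chart O ({j⁻¹} : Set E)) π) := by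
  intro n hn hπn
  by_cases han : (⟨(x ^ 2 - x + 1)⁻¹, rcg_a_mem_T2 h2 hleg hg⟩ : fc_chart O ({j⁻¹} : Set E)) ∈ n
  · have hx0 : x ≠ 0 := rcg_x_ne_zero h2 hleg
    have hleg' := cv_leg_rel_inv hx0 hleg
    have hgeq : (x⁻¹) ^ 2 - x⁻¹ + 1 = (x ^ 2 - x + 1) * (x⁻¹) ^ 2 := by
      have hxx : x * x⁻¹ = 1 := mul_inv_cancel₀ hx0
      linear_combination (x⁻¹ - x * x⁻¹ - 1) * hxx
    have hg' : (x⁻¹) ^ 2 - x⁻¹ + 1 ≠ 0 := by
      rw [hgeq]
      exact mul_ne_zero hg (pow_ne_zero 2 (inv_ne_zero hx0))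
    have hb_eq : ((x⁻¹) ^ 2 - x⁻¹ + 1)⁻¹ = x ^ 2 * (x ^ 2 - x + 1)⁻¹ := by
      rw [hgeq, mul_inv, ← inv_pow, inv_inv, mul_comm]
    apply rcg_local_T2 hπ h2 hleg' hg' hR2 n hn hπn
    intro hbn
    have hb : (⟨x ^ 2 * (x ^ 2 - x + 1)⁻¹, rcg_b_mem_T2 h2 hleg hg⟩ :
        fc_chart O ({j⁻¹} : Set E)) ∈ n := by
      convert hbn using 1
      exact Subtype.ext hb_eq.symm
    apply hn.ne_top
    rw [Ideal.eq_top_iff_one]
    have h1 : (1 : fc_chart O ({j⁻¹} : Set E))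
        = (⟨(x ^ 2 - x + 1)⁻¹, rcg_a_mem_T2 h2 hleg hg⟩ : fc_chart O ({j⁻¹} : Set E))
            * (2 - ⟨(x ^ 2 - x + 1)⁻¹, rcg_a_mem_T2 h2 hleg hg⟩
              - ⟨x ^ 2 * (x ^ 2 - x + 1)⁻¹, rcg_b_mem_T2 h2 hleg hg⟩)
          + ⟨x ^ 2 * (x ^ 2 - x + 1)⁻¹, rcg_b_mem_T2 h2 hleg hg⟩
            * (2 - ⟨x ^ 2 * (x ^ 2 - x + 1)⁻¹, rcg_b_mem_T2 h2 hleg hg⟩) :=
      Subtype.ext (rcg_cover hg).symm
    rw [h1]
    exact n.add_mem (n.mul_mem_right _ han) (n.mul_mem_right _ hb)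
  · exact rcg_local_T2 hπ h2 hleg hg hR1 n hn hπn han

end Legendre

end Fermat.Agent.JT3
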