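/-
JT3 / node E, producer side, leaf [E-GLUE] (helper16), second file: the function-field facts for
the coordinate `j` of the Legendre cover (`j` transcendental, `E` finite over `K(j)`), and the
primality of `π` on the three `j`-charts (via `cn_prime_funField` applied to `x := j`).
-/
import Mathlib
import Fermat.Agent.JT3.PlaceMap.CoverGlue
import Fermat.Agent.JT3.Model.Connected

set_option autoImplicit false

noncomputable section

namespace Fermat.Agent.JT3

open Polynomial IntermediateField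

section FunField

variable {K : Type*} [Field K] {E : Type*} [Field E] [Algebra K E] {x j : E}

/-- `x` is integral over `K(j)`. -/
theorem rcg_isIntegral_x (h2 : (2 : K) ≠ 0) (hleg : cv_legN x = j * cv_legD x) :
    IsIntegral K⟮j⟯ x := by
  have h1 : IsIntegral (Algebra.adjoin K {j}) x := cv_leg_isIntegral (isUnit_iff_ne_zero.mpr h2) hleg
  have hle : Algebra.adjoin K ({j} : Set E) ≤ K⟮j⟯.toSubalgebra :=
    IntermediateField.algebra_adjoin_le_adjoin K _
  exact IsIntegral.map_of_comp_eq (R := Algebra.adjoin K ({j} : Set E)) (S := E)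
    (T := K⟮j⟯) (U := E) (Subalgebra.inclusion hle).toRingHom (RingHom.id E) (by ext r; rfl) h1

/-- `j` is transcendental over the constants if `x` is. -/
theorem rcg_transcendental_j (h2 : (2 : K) ≠ 0) (hleg : cv_legN x = j * cv_legD x)
    (hx : Transcendental K x) : Transcendental K j := by
  intro hj
  apply hx
  have hj' : IsIntegral K j := hj.isIntegral
  have h1 : IsIntegral (Algebra.adjoin K {j}) x := cv_leg_isIntegral (isUnit_iff_ne_zero.mpr h2) hleg
  have h3 : Algebra.IsIntegral K (Algebra.adjoin K ({j} : Set E)) :=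
    Algebra.IsIntegral.adjoin (by intro y hy; rw [Set.mem_singleton_iff] at hy; rw [hy]; exact hj')
  exact (isIntegral_trans (A := Algebra.adjoin K ({j} : Set E)) x h1).isAlgebraic

/-- `j ∈ K(x)`. -/
theorem rcg_j_mem_adjoin (h2 : (2 : K) ≠ 0) (hleg : cv_legN x = j * cv_legD x) : j ∈ K⟮x⟯ := by
  have hw : x * (x - 1) ≠ 0 := rcg_w_ne_zero (O := K) (isUnit_iff_ne_zero.mpr h2) hleg
  have hD : cv_legD x ≠ 0 := by
    unfold cv_legD
    rw [← mul_pow]
    exact pow_ne_zero 2 hw
  have hj : j = cv_legN x * (cv_legD x)⁻¹ := by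
    rw [hleg, mul_assoc, mul_inv_cancel₀ hD, mul_one]
  have hxm : x ∈ K⟮x⟯ := mem_adjoin_simple_self K x
  rw [hj]
  refine mul_mem ?_ (inv_mem ?_)
  · exact rcg_legN_mem K⟮x⟯.toSubalgebra hxm
  · exact rcg_legD_mem K⟮x⟯.toSubalgebra hxm

/-- `E` is finite over `K(j)` if it is finite over `K(x)`. -/
theorem rcg_finiteDimensional_j (h2 : (2 : K) ≠ 0) (hleg : cv_legN x = j * cv_legD x)
    [FiniteDimensional K⟮x⟯ E] : FiniteDimensional K⟮j⟯ E := by
  have hFM : K⟮j⟯ ≤ K⟮x⟯ := adjoin_simple_le_iff.mpr (rcg_j_mem_adjoin h2 hleg)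
  let M' : IntermediateField K⟮j⟯ E := IntermediateField.extendScalars hFM
  have h1 : FiniteDimensional K⟮j⟯ K⟮j⟯⟮x⟯ :=
    IntermediateField.adjoin.finiteDimensional (rcg_isIntegral_x h2 hleg)
  have hle : M' ≤ K⟮j⟯⟮x⟯ := by
    intro m hm
    have hm' : m ∈ K⟮x⟯ := hm
    have h4 : K⟮x⟯ ≤ (K⟮j⟯⟮x⟯).restrictScalars K :=
      adjoin_simple_le_iff.mpr (mem_adjoin_simple_self K⟮j⟯ x)
    exact h4 hm'
  have h3 : FiniteDimensional K⟮j⟯ M' :=
    FiniteDimensional.of_injective (IntermediateField.inclusion hle).toLinearMap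
      (IntermediateField.inclusion_injective hle)
  have h5 : FiniteDimensional M' E := (inferInstance : FiniteDimensional K⟮x⟯ E)
  exact FiniteDimensional.trans K⟮j⟯ M' E

end FunField

section Prime

universe v

variable {A0 K0 : Type*} {F0 : Type v} [CommRing A0] [IsDomain A0] [IsDiscreteValuationRing A0]
  [Field K0] [Field F0] [Algebra A0 K0] [IsFractionRing A0 K0] [Algebra K0 F0] [Algebra A0 F0]
  [IsScalarTower A0 K0 F0]

omit [Field K0] [Field F0] [Algebra A0 K0] [IsFractionRing A0 K0] [Algebra K0 F0] [Algebra A0 F0]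
  [IsScalarTower A0 K0 F0] in
/-- a uniformiser of a discrete valuation ring generates a maximal ideal. -/
theorem rcg_span_isMaximal {π : A0} (hπ : Irreducible π) :
    (Ideal.span {π} : Ideal A0).IsMaximal := by
  rw [← (IsDiscreteValuationRing.irreducible_iff_uniformizer π).mp hπ]
  exact IsLocalRing.maximalIdeal.isMaximal A0

omit [CommRing A0] [IsDomain A0] [IsDiscreteValuationRing A0] [Algebra A0 K0] [IsFractionRing A0 K0]
  [Algebra A0 F0] [IsScalarTower A0 K0 F0] in
theorem rcg_g_ne_zero {x : F0} (hx : Transcendental K0 x) : x ^ 2 - x + 1 ≠ 0 := by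
  intro h0
  apply hx
  refine ⟨X ^ 2 - X + 1, ?_, by simpa using h0⟩
  exact (by monicity! : (X ^ 2 - X + 1 : K0[X]).Monic).ne_zero

/-- **`π` is a prime element of the three `j`-charts of the Legendre cover**, and both standard
`j`-charts are regular along `π = 0`, if the two standard `x`-charts are regular along `π = 0`. -/
theorem rcg_prime_T [CharZero K0] {π : A0} (hπ : Irreducible π) (h2 : IsUnit (2 : A0)) {x j : F0}
    (hleg : cv_legN x = j * cv_legD x) (hx : Transcendental K0 x) [FiniteDimensional K0⟮x⟯ F0]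
    (hconst : ∀ z : F0, IsAlgebraic K0 z → z ∈ (algebraMap K0 F0).range)
    (hR1 : jt_RegAt (fc_chart A0 ({x} : Set F0)) (algebraMap A0 (fc_chart A0 ({x} : Set F0)) π))
    (hR2 : jt_RegAt (fc_chart A0 ({x⁻¹} : Set F0))
      (algebraMap A0 (fc_chart A0 ({x⁻¹} : Set F0)) π)) :
    (Prime (algebraMap A0 (fc_chart A0 ({j} : Set F0)) π) ∧
      Prime (algebraMap A0 (fc_chart A0 ({j⁻¹} : Set F0)) π) ∧
      Prime (algebraMap A0 (fc_chart A0 ({j, j⁻¹} : Set F0)) π)) ∧
    jt_RegAt (fc_chart A0 ({j} : Set F0)) (algebraMap A0 (fc_chart A0 ({j} : Set F0)) π) ∧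
    jt_RegAt (fc_chart A0 ({j⁻¹} : Set F0)) (algebraMap A0 (fc_chart A0 ({j⁻¹} : Set F0)) π) := by
  have h2K : (2 : K0) ≠ 0 := two_ne_zero
  have hmax := rcg_span_isMaximal hπ
  have hj := rcg_transcendental_j h2K hleg hx
  have := rcg_finiteDimensional_j h2K hleg
  have hT1 := rcg_regAt_T1 hmax h2 hleg hR1
  have hT2 := rcg_regAt_T2 hmax h2 hleg (rcg_g_ne_zero (K0 := K0) hx) hR1 hR2
  exact ⟨cn_prime_funField hπ hj hconst (fun n hn hπn => (hT1 n hn hπn).2)
    (fun n hn hπn => (hT2 n hn hπn).2), hT1, hT2⟩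

end Prime

end Fermat.Agent.JT3
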