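import Mathlib
import Fermat.Agent.JT3.Seams
import Fermat.Agent.JT3.Model.Connected
import Fermat.Agent.JT3.Algebra.NormQuotientInst

/-!
# JT3 / node E, producer side: regularity along `π = 0` ⟹ Dedekind modulo `π` (prefix `rrd_`)

`A0` a discrete valuation ring with uniformiser `π` and fraction field `K0` of characteristic zero,
`F0 / K0` a function field in which `K0` is algebraically closed, `x ∈ F0` transcendental with
`F0` finite over `K0(x)`.  If the two charts `fc_chart A0 {x}` and `fc_chart A0 {x⁻¹}` are regular
along `π = 0` (`jt_RegAt`), then `π` is prime in both (`cn_prime_funField`) and both charts are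
Dedekind domains modulo `π` (`nq_quotient_isDedekindDomain_of_local_pair`).

This is the bridge between the regularity seams of the cover charts (`rcg_regAt_T1`, …) and the
Dedekind input `hD` of the Galois descent `rcq_dedekind_descent`.
-/

set_option autoImplicit false
set_option linter.unusedSectionVars false
set_option linter.style.haveILetI false

namespace Fermat.Agent.JT3

open IntermediateField

section RegDedekind

universe v

variable {A0 K0 : Type*} {F0 : Type v} [CommRing A0] [IsDomain A0] [IsDiscreteValuationRing A0]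
  [Field K0] [Field F0] [Algebra A0 K0] [IsFractionRing A0 K0] [Algebra K0 F0] [Algebra A0 F0]
  [IsScalarTower A0 K0 F0]

/-- a chart on which `π` is prime and which is regular along `π = 0` is Dedekind modulo `π`. -/
theorem rrd_dedekind_of_prime {B : Type*} [CommRing B] [IsDomain B] [IsNoetherianRing B] {π : B}
    (hprime : Prime π) (hreg : jt_RegAt B π) : IsDedekindDomain (B ⧸ Ideal.span {π}) := by
  refine nq_quotient_isDedekindDomain_of_local_pair π
    ((Ideal.span_singleton_prime hprime.ne_zero).2 hprime) ?_
  intro n hn hπn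
  obtain ⟨⟨u, -, hu, hgen⟩, -⟩ := hreg n hn hπn
  exact ⟨u, hu, hgen⟩

/-- the chart of a transcendental coordinate of a function field is noetherian. -/
theorem rrd_chart_noetherian [CharZero K0] {y : F0} (hy : Transcendental K0 y)
    [FiniteDimensional K0⟮y⟯ F0] : IsNoetherianRing (fc_chart A0 ({y} : Set F0)) := by
  have hfinA : Module.Finite (Algebra.adjoin A0 ({y} : Set F0))
      (integralClosure (Algebra.adjoin A0 ({y} : Set F0)) F0) := fc_ff_finite (L := K0) hy
  have := fc_chart_isNoetherianRing (A0 := A0) ({y} : Finset F0)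
    (by rw [Finset.coe_singleton]; exact hfinA)
  rwa [Finset.coe_singleton] at this

/-- **regularity of the two standard charts along `π = 0` ⟹ both are Dedekind modulo `π`.** -/
theorem rrd_dedekind_of_regAt [CharZero K0] {π : A0} (hπ : Irreducible π) {x : F0}
    (hx : Transcendental K0 x) [FiniteDimensional K0⟮x⟯ F0]
    (hconst : ∀ z : F0, IsAlgebraic K0 z → z ∈ (algebraMap K0 F0).range)
    (hr1 : jt_RegAt (fc_chart A0 ({x} : Set F0)) (algebraMap A0 (fc_chart A0 ({x} : Set F0)) π))
    (hr2 : jt_RegAt (fc_chart A0 ({x⁻¹} : Set F0))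
      (algebraMap A0 (fc_chart A0 ({x⁻¹} : Set F0)) π)) :
    IsDedekindDomain (fc_chart A0 ({x} : Set F0) ⧸
        Ideal.span {algebraMap A0 (fc_chart A0 ({x} : Set F0)) π}) ∧
      IsDedekindDomain (fc_chart A0 ({x⁻¹} : Set F0) ⧸
        Ideal.span {algebraMap A0 (fc_chart A0 ({x⁻¹} : Set F0)) π}) := by
  obtain ⟨hp1, hp2, -⟩ := cn_prime_funField (K0 := K0) hπ hx hconst
    (fun n hn hπn => (hr1 n hn hπn).2) (fun n hn hπn => (hr2 n hn hπn).2)
  have hxi : Transcendental K0 x⁻¹ := fun h => hx (IsAlgebraic.inv_iff.mp h)
  haveI hfd2 : FiniteDimensional K0⟮x⁻¹⟯ F0 := by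
    rw [rt_adjoin_inv]
    infer_instance
  haveI := rrd_chart_noetherian (A0 := A0) hx
  haveI := rrd_chart_noetherian (A0 := A0) hxi
  exact ⟨rrd_dedekind_of_prime hp1 hr1, rrd_dedekind_of_prime hp2 hr2⟩

end RegDedekind

end Fermat.Agent.JT3
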