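import Mathlib
import Fermat.Agent.JT3.PlaceMap.CoverGalois
import Fermat.Agent.JT3.KDescent.Hesse

/-!
# JT3 / node E, producer side, leaf [E-GAL], Hesse twin (prefix `rcq_hes_`)

The Hesse cover `E = F2(μ)`, `27 μ³ (μ³ + 8)³ = j₃ (μ³ - 1)³`, over a discrete valuation ring `O`
containing a primitive cube root of unity `w` and with `3 ∈ Oˣ`.  For the two charts `y = j₃` and
`y = j₃⁻¹` the Galois group of `E / F2` acts faithfully modulo `π` on `fc_chart O {ι y}`
(`rcq_hes_faithful_j`, `rcq_hes_faithful_jinv`), so `rcq_dedekind_descent` gives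
`rcq_hes_dedekind`: Dedekind-ness of `fc_chart O {y} / π` descends from `E` to `F2`.

The generic tool is `rcq_hes_key`: if `p(λ) = π · q(λ) · t` with `t` integral over `O[y]`,
`y = N₀(λ) / D₀(λ)`, `D₀ ≢ 0 mod π`, then `p ≡ 0 mod π`.
-/

set_option autoImplicit false
set_option linter.unusedSectionVars false
set_option linter.style.haveILetI false

namespace Fermat.Agent.JT3

open Polynomial IntermediateField

section Faithful

variable {O L E : Type*} [CommRing O] [IsDomain O] [IsDiscreteValuationRing O] [Field L]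
  [Algebra O L] [IsFractionRing O L] [Field E] [Algebra L E] [Algebra O E] [IsScalarTower O L E]
  {lam : E} (hlam : Transcendental L lam)

include hlam in
/-- `O[λ]` is integrally closed in `L(λ)`: an element of `L(λ)` integral over `O[λ]` lies in
`O[λ]`. -/
theorem rcq_hes_mem_adjoin_of_isIntegral {z : E} (hz : IsIntegral (Algebra.adjoin O ({lam} : Set E)) z)
    (hzL : z ∈ L⟮lam⟯) : z ∈ Algebra.adjoin O ({lam} : Set E) := by
  letI : Algebra (Algebra.adjoin O ({lam} : Set E)) L⟮lam⟯ := (fc_ff_incl (L := L) lam).toAlgebra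
  haveI : IsScalarTower (Algebra.adjoin O ({lam} : Set E)) L⟮lam⟯ E :=
    IsScalarTower.of_algebraMap_eq fun _ => rfl
  haveI : IsFractionRing (Algebra.adjoin O ({lam} : Set E)) L⟮lam⟯ := fc_ff_isFractionRing lam
  haveI : IsIntegrallyClosed (Algebra.adjoin O ({lam} : Set E)) :=
    fc_ff_isIntegrallyClosed (fc_ff_transcendental (L := L) hlam)
  have h1 : IsIntegral (Algebra.adjoin O ({lam} : Set E)) (⟨z, hzL⟩ : L⟮lam⟯) := by
    have : algebraMap L⟮lam⟯ E ⟨z, hzL⟩ = z := rfl
    rw [← this] at hz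
    exact (isIntegral_algebraMap_iff (algebraMap L⟮lam⟯ E).injective).1 hz
  obtain ⟨r, hr⟩ := IsIntegrallyClosed.isIntegral_iff.1 h1
  have : (r : E) = z := congrArg (fun t : L⟮lam⟯ => (t : E)) hr
  rw [← this]; exact r.2

omit [IsDomain O] [IsDiscreteValuationRing O] [IsFractionRing O L] [IsScalarTower O L E] in
/-- Elements of `O[y]` become elements of `O[λ]` after multiplication by a power of the
denominator of `y = N₀(λ) / D₀(λ)`. -/
theorem rcq_hes_pow_mul_mem {yE : E} {D₀ N₀ : O[X]} (hDN : yE * aeval lam D₀ = aeval lam N₀)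
    (a : E) (ha : a ∈ Algebra.adjoin O ({yE} : Set E)) :
    ∃ m : ℕ, ∀ m' : ℕ, m ≤ m' → aeval lam D₀ ^ m' * a ∈ Algebra.adjoin O ({lam} : Set E) := by
  have hmem : ∀ q : O[X], aeval lam q ∈ Algebra.adjoin O ({lam} : Set E) := fun q => by
    rw [Algebra.adjoin_singleton_eq_range_aeval]; exact ⟨q, rfl⟩
  induction ha using Algebra.adjoin_induction with
  | mem x hx =>
    rw [Set.mem_singleton_iff] at hx
    subst hx
    refine ⟨1, fun m' hm' => ?_⟩
    obtain ⟨k, rfl⟩ : ∃ k, m' = k + 1 := ⟨m' - 1, by omega⟩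
    rw [pow_succ, mul_assoc, mul_comm (aeval lam D₀) x, hDN]
    exact mul_mem (pow_mem (hmem D₀) k) (hmem N₀)
  | algebraMap c =>
    refine ⟨0, fun m' _ => ?_⟩
    exact mul_mem (pow_mem (hmem D₀) m') (Subalgebra.algebraMap_mem _ c)
  | add x y _ _ hx hy =>
    obtain ⟨m1, h1⟩ := hx
    obtain ⟨m2, h2⟩ := hy
    refine ⟨max m1 m2, fun m' hm' => ?_⟩
    rw [mul_add]
    exact add_mem (h1 m' (le_trans (le_max_left _ _) hm')) (h2 m' (le_trans (le_max_right _ _) hm'))
  | mul x y _ _ hx hy =>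
    obtain ⟨m1, h1⟩ := hx
    obtain ⟨m2, h2⟩ := hy
    refine ⟨m1 + m2, fun m' hm' => ?_⟩
    obtain ⟨k, rfl⟩ : ∃ k, m' = m1 + k := ⟨m' - m1, by omega⟩
    have : aeval lam D₀ ^ (m1 + k) * (x * y) = (aeval lam D₀ ^ m1 * x) * (aeval lam D₀ ^ k * y) := by
      rw [pow_add]; ring
    rw [this]
    exact mul_mem (h1 m1 le_rfl) (h2 k (by omega))

omit [IsDomain O] [IsDiscreteValuationRing O] [IsFractionRing O L] [IsScalarTower O L E] in
/-- An element integral over `O[y]`, `y = N₀(λ)/D₀(λ)`, becomes integral over `O[λ]` after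
multiplication by a power of `D₀(λ)`. -/
theorem rcq_hes_pow_mul_isIntegral {yE : E} {D₀ N₀ : O[X]}
    (hDN : yE * aeval lam D₀ = aeval lam N₀)
    {t : E} (ht : IsIntegral (Algebra.adjoin O ({yE} : Set E)) t) :
    ∃ m : ℕ, IsIntegral (Algebra.adjoin O ({lam} : Set E)) (aeval lam D₀ ^ m * t) := by
  classical
  obtain ⟨p, hpm, hpt⟩ := ht
  set R := Algebra.adjoin O ({lam} : Set E) with hR
  set n := p.natDegree with hn
  have hstep : ∀ i : ℕ, ∃ m : ℕ, ∀ m' : ℕ, m ≤ m' →
      aeval lam D₀ ^ m' * ((p.coeff i : Algebra.adjoin O ({yE} : Set E)) : E) ∈ R :=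
    fun i => rcq_hes_pow_mul_mem hDN _ (p.coeff i).2
  choose mi hmi using hstep
  set m := (Finset.range (n + 1)).sup mi with hm
  set s : E := aeval lam D₀ ^ m with hs
  have hsR : s ∈ R := by
    rw [hs, hR, Algebra.adjoin_singleton_eq_range_aeval]
    exact ⟨D₀ ^ m, by rw [map_pow]; rfl⟩
  set pE : E[X] := p.map (algebraMap (Algebra.adjoin O ({yE} : Set E)) E) with hpE
  have hpEm : pE.Monic := hpm.map _
  have hpEdeg : pE.natDegree = n := hpm.natDegree_map _
  set q : E[X] := scaleRoots pE s with hq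
  have hqm : q.Monic := (monic_scaleRoots_iff s).2 hpEm
  have hqt : eval (s * t) q = 0 := by
    rw [hq, scaleRoots_eval_mul, hpE, eval_map, hpt, mul_zero]
  have hcoeff : ∀ i : ℕ, q.coeff i ∈ (algebraMap R E).range := by
    intro i
    rw [hq, coeff_scaleRoots, hpEdeg, hpE, coeff_map]
    rcases lt_trichotomy i n with hi | hi | hi
    · have h1 : s * ((p.coeff i : Algebra.adjoin O ({yE} : Set E)) : E) ∈ R :=
        hmi i m (Finset.le_sup (f := mi) (Finset.mem_range.2 (by omega)))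
      obtain ⟨k, hk⟩ : ∃ k, n - i = k + 1 := ⟨n - i - 1, by omega⟩
      have h2 : algebraMap (Algebra.adjoin O ({yE} : Set E)) E (p.coeff i) * s ^ (n - i)
          = (s * ((p.coeff i : Algebra.adjoin O ({yE} : Set E)) : E)) * s ^ k := by
        rw [hk, pow_succ]
        show ((p.coeff i : Algebra.adjoin O ({yE} : Set E)) : E) * (s ^ k * s) = _
        ring
      rw [h2]
      exact ⟨⟨_, mul_mem h1 (pow_mem hsR k)⟩, rfl⟩
    · subst hi
      have : p.coeff n = 1 := hpm.coeff_natDegree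
      rw [this, map_one, Nat.sub_self, pow_zero, mul_one]
      exact ⟨1, map_one _⟩
    · rw [coeff_eq_zero_of_natDegree_lt (by rw [← hn]; exact hi), map_zero, zero_mul]
      exact ⟨0, map_zero _⟩
  obtain ⟨q', hq'map, -, hq'm⟩ := Polynomial.lifts_and_degree_eq_and_monic
    (p := q) (f := algebraMap R E) ((Polynomial.lifts_iff_coeff_lifts q).2 hcoeff) hqm
  refine ⟨m, q', hq'm, ?_⟩
  rw [← eval_map, hq'map]
  exact hqt

include hlam in
/-- **Key divisibility lemma.** If `p(λ) = π · q(λ) · t` with `t` integral over `O[y]`,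
`y = N₀(λ)/D₀(λ)` with `D₀ ≢ 0 mod π`, then `p ≡ 0 mod π`. -/
theorem rcq_hes_key {π : O} (hπ : Irreducible π) {yE : E} {D₀ N₀ : O[X]}
    (hDN : yE * aeval lam D₀ = aeval lam N₀) (hD₀ : D₀.map (IsLocalRing.residue O) ≠ 0)
    {t : E} (ht : IsIntegral (Algebra.adjoin O ({yE} : Set E)) t) (p q : O[X])
    (h : aeval lam p = algebraMap O E π * (aeval lam q * t)) :
    p.map (IsLocalRing.residue O) = 0 := by
  set R := Algebra.adjoin O ({lam} : Set E) with hR
  have hmemR : ∀ f : O[X], aeval lam f ∈ R := fun f => by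
    rw [hR, Algebra.adjoin_singleton_eq_range_aeval]; exact ⟨f, rfl⟩
  obtain ⟨m, hm⟩ := rcq_hes_pow_mul_isIntegral (lam := lam) hDN ht
  set z : E := aeval lam q * (aeval lam D₀ ^ m * t) with hz
  have hzint : IsIntegral R z := by
    have h1 : IsIntegral R (aeval lam q) :=
      isIntegral_algebraMap (R := R) (x := ⟨aeval lam q, hmemR q⟩)
    exact h1.mul hm
  have hπz : algebraMap O E π * z = aeval lam (D₀ ^ m * p) := by
    rw [map_mul, map_pow, h, hz]; ring
  have hπ0 : algebraMap O E π ≠ 0 := by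
    rw [IsScalarTower.algebraMap_apply O L E]
    exact (_root_.map_ne_zero _).2 ((map_ne_zero_iff _ (IsFractionRing.injective O L)).2 hπ.ne_zero)
  have hzL : z ∈ L⟮lam⟯ := by
    have h1 : z = (algebraMap L E (algebraMap O L π))⁻¹ * aeval lam (D₀ ^ m * p) := by
      rw [← hπz, IsScalarTower.algebraMap_apply O L E, ← mul_assoc, inv_mul_cancel₀, one_mul]
      rw [← IsScalarTower.algebraMap_apply O L E]; exact hπ0
    rw [h1]
    refine mul_mem (inv_mem (IntermediateField.algebraMap_mem _ _)) ?_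
    exact fc_ff_adjoin_le (A0 := O) (L := L) lam (hmemR _)
  have hzR : z ∈ R := rcq_hes_mem_adjoin_of_isIntegral hlam hzint hzL
  rw [hR, Algebra.adjoin_singleton_eq_range_aeval] at hzR
  obtain ⟨r, hr⟩ := hzR
  have hr' : aeval lam r = z := hr
  have hinj : Function.Injective (aeval lam : O[X] →ₐ[O] E) :=
    transcendental_iff_injective.1 (fc_ff_transcendental (L := L) hlam)
  have heq : C π * r = D₀ ^ m * p := by
    apply hinj
    rw [map_mul, aeval_C, hr', hπz]
  have hres : IsLocalRing.residue O π = 0 :=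
    (IsLocalRing.residue_eq_zero_iff π).2 ((IsLocalRing.mem_maximalIdeal π).2 hπ.not_isUnit)
  have h2 := congrArg (Polynomial.map (IsLocalRing.residue O)) heq
  rw [Polynomial.map_mul, Polynomial.map_mul, Polynomial.map_C, hres, map_zero, zero_mul,
    Polynomial.map_pow] at h2
  rcases mul_eq_zero.1 h2.symm with h3 | h3
  · exact absurd h3 (pow_ne_zero m hD₀)
  · exact h3

end Faithful

section Units

variable {O : Type*} [CommRing O]

/-- `w ^ c - 1` divides `3` when `w` is a primitive cube root of unity and `w ^ c ≠ 1`. -/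
theorem rcq_hes_isUnit_pow_sub_one {w : O} (hw : w ^ 2 + w + 1 = 0) (h3 : IsUnit (3 : O)) (c : ℕ)
    (hc : w ^ c ≠ 1) : IsUnit (w ^ c - 1) := by
  have hw3 : w ^ 3 = 1 := by linear_combination (w - 1) * hw
  have hmod : w ^ c = w ^ (c % 3) := by
    conv_lhs => rw [← Nat.div_add_mod c 3, pow_add, pow_mul, hw3, one_pow, one_mul]
  have hlt : c % 3 < 3 := Nat.mod_lt _ (by norm_num)
  rw [hmod] at hc ⊢
  interval_cases h : c % 3
  · exact absurd (pow_zero w) hc
  · have : (3 : O) = (w ^ 1 - 1) * (w ^ 2 - 1) := by linear_combination (2 - w) * hw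
    rw [this] at h3
    exact isUnit_of_mul_isUnit_left h3
  · have : (3 : O) = (w ^ 2 - 1) * (w - 1) := by linear_combination (2 - w) * hw
    rw [this] at h3
    exact isUnit_of_mul_isUnit_left h3

theorem rcq_hes_isUnit_pow {w : O} (hw : w ^ 2 + w + 1 = 0) (c : ℕ) : IsUnit (w ^ c) := by
  have hw3 : w ^ 3 = 1 := by linear_combination (w - 1) * hw
  exact (IsUnit.of_mul_eq_one (w ^ 2) (by rw [← hw3]; ring)).pow c

variable [IsLocalRing O]

/-- a quadratic polynomial with a unit coefficient does not vanish modulo the maximal ideal. -/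
theorem rcq_hes_quad_map_ne_zero {a2 a1 a0 : O} (h : IsUnit a2 ∨ IsUnit a1 ∨ IsUnit a0) :
    (C a2 * X ^ 2 + C a1 * X + C a0 : O[X]).map (IsLocalRing.residue O) ≠ 0 := by
  intro h0
  have hc : ∀ n, ((C a2 * X ^ 2 + C a1 * X + C a0 : O[X]).map (IsLocalRing.residue O)).coeff n
      = 0 := fun n => by rw [h0, coeff_zero]
  have e2 := hc 2
  have e1 := hc 1
  have e0 := hc 0
  simp only [coeff_map, coeff_add, coeff_C_mul, coeff_X_pow, coeff_X, coeff_C] at e2 e1 e0
  norm_num at e2 e1 e0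
  rcases h with h | h | h
  · exact e2 h
  · exact e1 h
  · exact e0 h

end Units

section HesPoly

variable {O E : Type*} [CommRing O] [CommRing E] [Algebra O E]

/-- the Hesse denominator `(X³ - 1)³` over `O`. -/
noncomputable def rcq_hes_D (O : Type*) [CommRing O] : O[X] := (X ^ 3 - 1) ^ 3

/-- the Hesse numerator `27 X³ (X³ + 8)³` over `O`. -/
noncomputable def rcq_hes_N (O : Type*) [CommRing O] : O[X] := C 27 * (X ^ 3 * (X ^ 3 + C 8) ^ 3)

theorem rcq_hes_aeval_D (mu : E) : aeval mu (rcq_hes_D O) = cv_hesD mu := by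
  unfold rcq_hes_D cv_hesD
  simp only [map_pow, map_sub, aeval_X, map_one]

theorem rcq_hes_aeval_N (mu : E) : aeval mu (rcq_hes_N O) = cv_hesN mu := by
  unfold rcq_hes_N cv_hesN
  simp only [map_mul, map_pow, map_add, aeval_X, map_ofNat]
  ring

theorem rcq_hes_D_map_ne_zero {k : Type*} [Field k] (f : O →+* k) :
    (rcq_hes_D O).map f ≠ 0 := by
  have hm : (rcq_hes_D O).Monic := by unfold rcq_hes_D; monicity!
  exact (hm.map f).ne_zero

theorem rcq_hes_N_map_ne_zero {k : Type*} [Field k] (f : O →+* k) (h3 : f 3 ≠ 0) :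
    (rcq_hes_N O).map f ≠ 0 := by
  have hm : (X ^ 3 * (X ^ 3 + C 8) ^ 3 : O[X]).Monic := by monicity!
  unfold rcq_hes_N
  rw [Polynomial.map_mul, Polynomial.map_C]
  refine mul_ne_zero ?_ (hm.map f).ne_zero
  rw [Ne, C_eq_zero]
  have : (27 : O) = 3 ^ 3 := by norm_num
  rw [this, map_pow]
  exact pow_ne_zero 3 h3

end HesPoly

section Fin

variable {L F2 E : Type*} [Field L] [Field F2] [Field E] [Algebra L F2] [Algebra L E]
  [Algebra F2 E] [IsScalarTower L F2 E]

/-- finiteness of `E` over `L(ι y)` from finiteness of `F2 / L(y)` and `E / F2`. -/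
theorem rcq_hes_finiteDimensional_top (y : F2) [FiniteDimensional L⟮y⟯ F2]
    [FiniteDimensional F2 E] : FiniteDimensional L⟮algebraMap F2 E y⟯ E := by
  haveI h1 : Module.Finite L⟮y⟯ E := Module.Finite.trans F2 E
  have hmem : ∀ x : L⟮y⟯, algebraMap F2 E (x : F2) ∈ L⟮algebraMap F2 E y⟯ := by
    intro x
    have h2 : (L⟮y⟯).map (IsScalarTower.toAlgHom L F2 E) = L⟮algebraMap F2 E y⟯ := by
      rw [IntermediateField.adjoin_map, Set.image_singleton]
      rfl
    rw [← h2]
    exact ⟨x, x.2, rfl⟩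
  let g : L⟮y⟯ →+* L⟮algebraMap F2 E y⟯ :=
    { toFun := fun x => ⟨algebraMap F2 E (x : F2), hmem x⟩
      map_one' := by ext; simp
      map_mul' := fun a b => by ext; simp
      map_zero' := by ext; simp
      map_add' := fun a b => by ext; simp }
  letI : Algebra L⟮y⟯ L⟮algebraMap F2 E y⟯ := g.toAlgebra
  haveI : IsScalarTower L⟮y⟯ L⟮algebraMap F2 E y⟯ E :=
    IsScalarTower.of_algebraMap_eq fun x => rfl
  exact Module.Finite.of_restrictScalars_finite L⟮y⟯ L⟮algebraMap F2 E y⟯ E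

end Fin

section Basic

variable {L F2 E : Type*}
  [Field L] [CharZero L]
  [Field F2] [Field E] [Algebra L F2] [Algebra L E] [Algebra F2 E] [IsScalarTower L F2 E]

/-- a transcendental generator of the Hesse cover is not a cube root of unity. -/
theorem rcq_hes_cube_ne_one {mu : E} (hmu : Transcendental L mu) : mu ^ 3 ≠ 1 := by
  intro h
  apply hmu
  refine ⟨X ^ 3 - 1, ?_, ?_⟩
  · exact (monic_X_pow_sub_C (1 : L) (by norm_num : (3 : ℕ) ≠ 0)).ne_zero
  · simp [h]

theorem rcq_hes_ne_zero {mu : E} (hmu : Transcendental L mu) : mu ≠ 0 := by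
  rintro rfl
  exact hmu (isAlgebraic_zero)

/-- the parameter `j₃` of the Hesse cover is transcendental. -/
theorem rcq_hes_transcendental_j {mu : E} (hmu : Transcendental L mu) {j3 : F2}
    (hhes : cv_hesN mu = algebraMap F2 E j3 * cv_hesD mu) : Transcendental L j3 := by
  intro hj
  apply hmu
  have hjE : IsAlgebraic L (algebraMap F2 E j3) :=
    (isAlgebraic_algHom_iff (IsScalarTower.toAlgHom L F2 E) (algebraMap F2 E).injective).2 hj
  have h3 : IsUnit (3 : L) := IsUnit.mk0 _ (by norm_num)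
  have h1 : IsIntegral (Algebra.adjoin L {algebraMap F2 E j3}) mu := cv_hes_isIntegral h3 hhes
  haveI : Algebra.IsIntegral L (Algebra.adjoin L {algebraMap F2 E j3}) :=
    Algebra.IsIntegral.adjoin (fun x hx => by
      rw [Set.mem_singleton_iff.1 hx]; exact hjE.isIntegral)
  exact (isIntegral_trans (R := L) mu h1).isAlgebraic

theorem rcq_hes_transcendental_jinv {mu : E} (hmu : Transcendental L mu) {j3 : F2}
    (hhes : cv_hesN mu = algebraMap F2 E j3 * cv_hesD mu) : Transcendental L j3⁻¹ := by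
  intro hj
  exact rcq_hes_transcendental_j hmu hhes (by simpa using hj.inv)

end Basic

section InvInt

variable {O E : Type*} [CommRing O] [Field E] [Algebra O E]

/-- **Hesse integrality at infinity**: `ν = μ⁻¹` is integral over `O[1/j]`. -/
theorem rcq_hes_isIntegral_inv {mu yE : E} (hmu0 : mu ≠ 0)
    (h : yE * cv_hesN mu = cv_hesD mu) : IsIntegral (Algebra.adjoin O {yE}) mu⁻¹ := by
  let c : Algebra.adjoin O {yE} := cv_adjGen yE
  refine ⟨X ^ 3 * (X ^ 3 - 1) ^ 3 + C c * (C 27 * (C 8 * X ^ 3 + 1) ^ 3), by monicity!, ?_⟩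
  have hc : algebraMap (Algebra.adjoin O {yE}) E c = yE := rfl
  rw [← aeval_def]
  simp only [map_sub, map_mul, map_pow, map_add, map_one, aeval_X, aeval_C, hc, map_ofNat]
  unfold cv_hesN cv_hesD at h
  field_simp
  linear_combination h

end InvInt

section HesFaith

variable {O L F2 E : Type*} [CommRing O] [IsDomain O] [IsDiscreteValuationRing O]
  [Field L] [CharZero L] [Algebra O L] [IsFractionRing O L]
  [Field F2] [Field E] [Algebra L F2] [Algebra L E] [Algebra F2 E] [IsScalarTower L F2 E]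
  [Algebra O F2] [Algebra O E] [IsScalarTower O L F2] [IsScalarTower O L E] [IsScalarTower O F2 E]
  {π : O} (hπ : Irreducible π) (mu : E) (j3 : F2)
  (hhes : cv_hesN mu = algebraMap F2 E j3 * cv_hesD mu)
  (hgen : IntermediateField.adjoin F2 {mu} = ⊤) (hmu : Transcendental L mu)
  (w : O) (hw : IsPrimitiveRoot w 3) (h3 : IsUnit (3 : O))

omit [IsDiscreteValuationRing O] in
theorem rcq_hes_w_rel {w : O} (hw : IsPrimitiveRoot w 3) : w ^ 2 + w + 1 = 0 := by
  have h1 : w ^ 3 = 1 := hw.pow_eq_one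
  have h2 : w ≠ 1 := hw.ne_one (by norm_num)
  have h3 : (w - 1) * (w ^ 2 + w + 1) = 0 := by linear_combination h1
  exact (mul_eq_zero.1 h3).resolve_left (sub_ne_zero.2 h2)

include hgen hmu hw hhes in
/-- the automorphisms of the Hesse cover, with the root of unity coming from `O`. -/
theorem rcq_hes_aut_cases (σ : E ≃ₐ[F2] E) :
    ∃ c : ℕ, σ mu = algebraMap O E w ^ c * mu ∨
      ∃ k : ℕ, σ mu * (algebraMap O E w ^ k * mu - 1) =
        algebraMap O E w ^ c * (algebraMap O E w ^ k * mu + 2) := by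
  haveI : CharZero F2 := charZero_of_injective_algebraMap (algebraMap L F2).injective
  have hinj : Function.Injective (algebraMap O F2) := by
    rw [IsScalarTower.algebraMap_eq O L F2]
    exact (algebraMap L F2).injective.comp (IsFractionRing.injective O L)
  have hwF : IsPrimitiveRoot (algebraMap O F2 w) 3 := hw.map_of_injective hinj
  have h1 : mu ^ 3 ≠ 1 := rcq_hes_cube_ne_one hmu
  have hW : algebraMap F2 E (algebraMap O F2 w) = algebraMap O E w :=
    (IsScalarTower.algebraMap_apply O F2 E w).symm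
  obtain ⟨c, hc | ⟨k, hc⟩⟩ := kd_hes_aut_cases mu j3 (algebraMap O F2 w) hgen hwF hhes h1 σ
  · exact ⟨c, Or.inl (by rw [hc, hW])⟩
  · refine ⟨c, Or.inr ⟨k, ?_⟩⟩
    rw [hW] at hc
    have hWrel : algebraMap O E w ^ 2 + algebraMap O E w + 1 = 0 := by
      have := congrArg (algebraMap O E) (rcq_hes_w_rel hw)
      simpa using this
    have hz := kd_hes_ne_one (kd_hes_pow_ne_one hWrel h1 k)
    rw [hc]
    unfold kd_hes_s
    field_simp

include hgen hmu hw hhes in
theorem rcq_hes_aut_ext (σ : E ≃ₐ[F2] E) (h : σ mu = mu) : σ = 1 := by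
  haveI : CharZero F2 := charZero_of_injective_algebraMap (algebraMap L F2).injective
  have hinj : Function.Injective (algebraMap O F2) := by
    rw [IsScalarTower.algebraMap_eq O L F2]
    exact (algebraMap L F2).injective.comp (IsFractionRing.injective O L)
  have hwF : IsPrimitiveRoot (algebraMap O F2 w) 3 := hw.map_of_injective hinj
  have h1 : mu ^ 3 ≠ 1 := rcq_hes_cube_ne_one hmu
  exact kd_hes_aut_ext mu j3 (algebraMap O F2 w) hgen hwF hhes h1 (by rw [h]; rfl)

include hπ hhes hgen hmu hw h3 in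
/-- **Faithfulness modulo `π` on the chart `y = j₃`** (test element `μ`). -/
theorem rcq_hes_faithful_j (σ : E ≃ₐ[F2] E) (hσ : σ ≠ 1) :
    ∃ b ∈ fc_chart O ({algebraMap F2 E j3} : Set E),
      ¬ ∃ c ∈ fc_chart O ({algebraMap F2 E j3} : Set E), σ b - b = algebraMap O E π * c := by
  have hmuint : IsIntegral (Algebra.adjoin O {algebraMap F2 E j3}) mu := cv_hes_isIntegral h3 hhes
  refine ⟨mu, hmuint, ?_⟩
  rintro ⟨t, ht, hEq⟩
  have ht' : IsIntegral (Algebra.adjoin O {algebraMap F2 E j3}) t := ht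
  have hDN : algebraMap F2 E j3 * aeval mu (rcq_hes_D O) = aeval mu (rcq_hes_N O) := by
    rw [rcq_hes_aeval_D, rcq_hes_aeval_N, hhes]
  have hD₀ : (rcq_hes_D O).map (IsLocalRing.residue O) ≠ 0 := rcq_hes_D_map_ne_zero _
  have hwrel := rcq_hes_w_rel hw
  obtain ⟨c, hc | ⟨k, hc⟩⟩ := rcq_hes_aut_cases mu j3 hhes hgen hmu w hw σ
  · have hne : w ^ c ≠ 1 := by
      intro h
      apply hσ
      apply rcq_hes_aut_ext mu j3 hhes hgen hmu w hw
      rw [hc, ← map_pow, h, map_one, one_mul]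
    have hu : IsUnit (w ^ c - 1) := rcq_hes_isUnit_pow_sub_one hwrel h3 c hne
    have hkey := rcq_hes_key hmu hπ hDN hD₀ ht' (C 0 * X ^ 2 + C (w ^ c - 1) * X + C 0) 1 (by
      simp only [map_mul, aeval_C, aeval_X, map_pow, map_zero, map_one, map_sub,
        zero_mul, zero_add, add_zero, one_mul]
      rw [← hEq, hc]; ring)
    exact rcq_hes_quad_map_ne_zero (Or.inr (Or.inl hu)) hkey
  · have hu : IsUnit (-(w ^ k)) := (rcq_hes_isUnit_pow hwrel k).neg
    have hkey := rcq_hes_key hmu hπ hDN hD₀ ht'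
      (C (-(w ^ k)) * X ^ 2 + C (w ^ (c + k) + 1) * X + C (2 * w ^ c)) (C (w ^ k) * X - 1) (by
      simp only [map_add, map_mul, aeval_C, aeval_X, map_pow, map_one, map_sub, map_neg,
        map_ofNat]
      have : σ mu = mu + algebraMap O E π * t := by rw [← hEq]; ring
      rw [this] at hc
      linear_combination (-1 : E) * hc)
    exact rcq_hes_quad_map_ne_zero (Or.inl hu) hkey

include hπ hhes hgen hmu hw h3 in
/-- **Faithfulness modulo `π` on the chart `y = j₃⁻¹`** (test element `ν = μ⁻¹`). -/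
theorem rcq_hes_faithful_jinv (σ : E ≃ₐ[F2] E) (hσ : σ ≠ 1) :
    ∃ b ∈ fc_chart O ({algebraMap F2 E j3⁻¹} : Set E),
      ¬ ∃ c ∈ fc_chart O ({algebraMap F2 E j3⁻¹} : Set E), σ b - b = algebraMap O E π * c := by
  have hmu0 : mu ≠ 0 := rcq_hes_ne_zero hmu
  have hj0 : j3 ≠ 0 := by
    rintro rfl
    exact rcq_hes_transcendental_j hmu hhes isAlgebraic_zero
  have hjE0 : algebraMap F2 E j3 ≠ 0 := (_root_.map_ne_zero _).2 hj0
  have hy : algebraMap F2 E j3⁻¹ * cv_hesN mu = cv_hesD mu := by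
    rw [hhes, map_inv₀, ← mul_assoc, inv_mul_cancel₀ hjE0, one_mul]
  have hnuint : IsIntegral (Algebra.adjoin O {algebraMap F2 E j3⁻¹}) mu⁻¹ :=
    rcq_hes_isIntegral_inv hmu0 hy
  refine ⟨mu⁻¹, hnuint, ?_⟩
  rintro ⟨t, ht, hEq⟩
  have ht' : IsIntegral (Algebra.adjoin O {algebraMap F2 E j3⁻¹}) t := ht
  have hDN : algebraMap F2 E j3⁻¹ * aeval mu (rcq_hes_N O) = aeval mu (rcq_hes_D O) := by
    rw [rcq_hes_aeval_D, rcq_hes_aeval_N, hy]
  have hD₀ : (rcq_hes_N O).map (IsLocalRing.residue O) ≠ 0 :=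
    rcq_hes_N_map_ne_zero _ ((IsLocalRing.residue_ne_zero_iff_isUnit 3).2 h3)
  have hwrel := rcq_hes_w_rel hw
  have h1 : σ mu⁻¹ * σ mu = 1 := by
    rw [← map_mul, inv_mul_cancel₀ hmu0, map_one]
  have h2 : mu⁻¹ * mu = 1 := inv_mul_cancel₀ hmu0
  obtain ⟨c, hc | ⟨k, hc⟩⟩ := rcq_hes_aut_cases mu j3 hhes hgen hmu w hw σ
  · have hne : w ^ c ≠ 1 := by
      intro h
      apply hσ
      apply rcq_hes_aut_ext mu j3 hhes hgen hmu w hw
      rw [hc, ← map_pow, h, map_one, one_mul]
    have hu : IsUnit (1 - w ^ c) := by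
      have := (rcq_hes_isUnit_pow_sub_one hwrel h3 c hne).neg
      rwa [neg_sub] at this
    have hkey := rcq_hes_key hmu hπ hDN hD₀ ht' (C 0 * X ^ 2 + C 0 * X + C (1 - w ^ c))
      (C (w ^ c) * X) (by
      simp only [map_mul, aeval_C, aeval_X, map_pow, map_zero, map_one, map_sub,
        zero_mul, zero_add]
      rw [hc] at h1
      linear_combination (algebraMap O E w ^ c * mu) * hEq - h1 + algebraMap O E w ^ c * h2)
    exact rcq_hes_quad_map_ne_zero (Or.inr (Or.inr hu)) hkey
  · have hu : IsUnit (w ^ k) := rcq_hes_isUnit_pow hwrel k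
    have hkey := rcq_hes_key hmu hπ hDN hD₀ ht'
      (C (w ^ k) * X ^ 2 + C (-(1 + w ^ (c + k))) * X + C (-(2 * w ^ c)))
      (C (w ^ c) * X * (C (w ^ k) * X + 2)) (by
      simp only [map_add, map_mul, aeval_C, aeval_X, map_pow, map_one, map_neg,
        map_ofNat]
      linear_combination (-(mu * (algebraMap O E w ^ k * mu - 1))) * h1 + (mu * σ mu⁻¹) * hc +
        (algebraMap O E w ^ c * (algebraMap O E w ^ k * mu + 2)) * h2 +
        (algebraMap O E w ^ c * mu * (algebraMap O E w ^ k * mu + 2)) * hEq)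
    exact rcq_hes_quad_map_ne_zero (Or.inl hu) hkey

end HesFaith

section HesDedekind

variable {O L F2 E : Type*} [CommRing O] [IsDomain O] [IsDiscreteValuationRing O]
  [IsAlgClosed (IsLocalRing.ResidueField O)]
  [Field L] [CharZero L] [Algebra O L] [IsFractionRing O L]
  [Field F2] [Field E] [Algebra L F2] [Algebra L E] [Algebra F2 E] [IsScalarTower L F2 E]
  [Algebra O F2] [Algebra O E] [IsScalarTower O L F2] [IsScalarTower O L E] [IsScalarTower O F2 E]

/-- **[E-GAL], Hesse twin.**  For the Hesse cover `E = F2(μ)`, `27 μ³ (μ³ + 8)³ = j₃ (μ³ - 1)³`,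
and either chart `y = j₃` or `y = j₃⁻¹`: if the chart of `E` is Dedekind modulo `π`, so is the
chart of `F2`. -/
theorem rcq_hes_dedekind {π : O} (hπ : Irreducible π) (mu : E) (j3 : F2)
    (hhes : cv_hesN mu = algebraMap F2 E j3 * cv_hesD mu)
    (hgen : IntermediateField.adjoin F2 {mu} = ⊤) (hmu : Transcendental L mu)
    (w : O) (hw : IsPrimitiveRoot w 3) (h3 : IsUnit (3 : O))
    (y : F2) (hy : y = j3 ∨ y = j3⁻¹) [FiniteDimensional L⟮y⟯ F2]
    (hD : IsDedekindDomain (fc_chart O ({algebraMap F2 E y} : Set E) ⧸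
      Ideal.span {algebraMap O (fc_chart O ({algebraMap F2 E y} : Set E)) π})) :
    IsDedekindDomain (fc_chart O ({y} : Set F2) ⧸
      Ideal.span {algebraMap O (fc_chart O ({y} : Set F2)) π}) := by
  haveI : CharZero F2 := charZero_of_injective_algebraMap (algebraMap L F2).injective
  have hinj : Function.Injective (algebraMap O F2) := by
    rw [IsScalarTower.algebraMap_eq O L F2]
    exact (algebraMap L F2).injective.comp (IsFractionRing.injective O L)
  have hwF : IsPrimitiveRoot (algebraMap O F2 w) 3 := hw.map_of_injective hinj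
  have h1 : mu ^ 3 ≠ 1 := rcq_hes_cube_ne_one hmu
  haveI : FiniteDimensional F2 E :=
    kd_hes_finiteDimensional mu j3 (algebraMap O F2 w) hgen hwF hhes h1
  haveI : IsGalois F2 E := kd_hes_isGalois mu j3 (algebraMap O F2 w) hgen hwF hhes h1
  haveI : FiniteDimensional L⟮algebraMap F2 E y⟯ E := rcq_hes_finiteDimensional_top y
  rcases hy with rfl | rfl
  · exact rcq_dedekind_descent hπ y (rcq_hes_transcendental_j hmu hhes) hD
      (rcq_hes_faithful_j hπ mu y hhes hgen hmu w hw h3)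
  · exact rcq_dedekind_descent hπ j3⁻¹ (rcq_hes_transcendental_jinv hmu hhes) hD
      (rcq_hes_faithful_jinv hπ mu j3 hhes hgen hmu w hw h3)

end HesDedekind

end Fermat.Agent.JT3
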