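/-
Node E, producer side, leaf [E-LOC-HES]: the `j''`-charts of the Hesse cover are localisations of
the `μ`-charts, so their special fibres are Dedekind domains as soon as those of the `μ`-charts are.

For `j'' = 27 μ³ (μ³ + 8)³ / (μ³ - 1)³`:
* `fc_chart O {j''}   = R₁[1/(μ³ - 1)]`,   `R₁ = fc_chart O {μ}`;
* `fc_chart O {j''⁻¹} = R₂[1/(1 + 8 μ⁻³)]`, `R₂ = fc_chart O {μ⁻¹}`;
only `3 ∈ Oˣ` is used.  The generic part (`rch_away_dedekind`, `rch_prim`, `rch_chart_le`,
`rch_clear`) is independent of the cover.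
-/
import Mathlib
import Fermat.Agent.JT3.FCore.Charts
import Fermat.Agent.JT3.Cover.Identities
import Fermat.Agent.JT3.Algebra.NormQuotientInst
import Fermat.Agent.JT3.Seams

set_option autoImplicit false
set_option linter.unusedSectionVars false

namespace Fermat.Agent.JT3

open Polynomial

section Generic

variable {O : Type*} [CommRing O] {E : Type*} [Field E] [Algebra O E]

/-- **One-chart transfer.** `R ≤ T` subalgebras of a field, `T = R[1/σ]` (elementwise), `π` a
parameter of the base with `R / π` a Dedekind domain and `σ ∉ π R`.  Then `T / π` is a Dedekind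
domain (it is the localisation of `R / π` at `σ`). -/
theorem rch_away_dedekind (R T : Subalgebra O E) (hRT : R ≤ T) (σ : E) (hσR : σ ∈ R)
    (hσT : σ⁻¹ ∈ T) (hclear : ∀ x ∈ T, ∃ k : ℕ, σ ^ k * x ∈ R) (π : O)
    [IsDedekindDomain (↥R ⧸ Ideal.span {algebraMap O ↥R π})]
    (hσπ : (⟨σ, hσR⟩ : ↥R) ∉ Ideal.span {algebraMap O ↥R π}) :
    IsDedekindDomain (↥T ⧸ Ideal.span {algebraMap O ↥T π}) := by
  classical
  set I : Ideal ↥R := Ideal.span {algebraMap O ↥R π} with hI
  set J : Ideal ↥T := Ideal.span {algebraMap O ↥T π} with hJ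
  set ι : ↥R →+* ↥T := (Subalgebra.inclusion hRT).toRingHom with hι
  have hιπ : ι (algebraMap O ↥R π) = algebraMap O ↥T π := rfl
  have hIJ : I ≤ J.comap ι := by
    rw [hI, Ideal.span_le]
    intro x hx
    rw [Set.mem_singleton_iff] at hx
    subst hx
    change ι _ ∈ J
    rw [hιπ]
    exact Ideal.mem_span_singleton_self _
  set φ : ↥R ⧸ I →+* ↥T ⧸ J := Ideal.quotientMap J ι hIJ with hφ
  have hφmk : ∀ r : ↥R, φ (Ideal.Quotient.mk I r) = Ideal.Quotient.mk J (ι r) := fun r =>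
    Ideal.quotientMap_mk
  let _ : Algebra (↥R ⧸ I) (↥T ⧸ J) := φ.toAlgebra
  have halg : ∀ x, algebraMap (↥R ⧸ I) (↥T ⧸ J) x = φ x := fun _ => rfl
  set s : ↥R := ⟨σ, hσR⟩ with hs
  set sb : ↥R ⧸ I := Ideal.Quotient.mk I s with hsb
  have hσ0 : σ ≠ 0 := by
    intro h
    apply hσπ
    have : s = 0 := Subtype.ext h
    rw [this]
    exact Ideal.zero_mem _
  have hsb0 : sb ≠ 0 := fun h => hσπ (Ideal.Quotient.eq_zero_iff_mem.mp h)
  -- `σ` is a unit of `T`
  set t : ↥T := ⟨σ⁻¹, hσT⟩ with ht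
  have hst : ι s * t = 1 := Subtype.ext (mul_inv_cancel₀ hσ0)
  have hpow : ∀ k : ℕ, ((ι s ^ k : ↥T) : E) = σ ^ k := fun k => by
    rw [SubmonoidClass.coe_pow]; rfl
  have hloc : IsLocalization (Submonoid.powers sb) (↥T ⧸ J) := by
    rw [isLocalization_iff]
    refine ⟨?_, ?_, ?_⟩
    · rintro ⟨y, k, rfl⟩
      change IsUnit (algebraMap (↥R ⧸ I) (↥T ⧸ J) (sb ^ k))
      rw [map_pow]
      apply IsUnit.pow
      rw [halg, hsb, hφmk]
      refine IsUnit.of_mul_eq_one (Ideal.Quotient.mk J t) ?_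
      rw [← map_mul, hst, map_one]
    · intro z
      obtain ⟨x, rfl⟩ := Ideal.Quotient.mk_surjective z
      obtain ⟨k, hk⟩ := hclear x x.2
      refine ⟨(Ideal.Quotient.mk I ⟨_, hk⟩, ⟨sb ^ k, k, rfl⟩), ?_⟩
      change Ideal.Quotient.mk J x * algebraMap (↥R ⧸ I) (↥T ⧸ J) (sb ^ k) =
        algebraMap (↥R ⧸ I) (↥T ⧸ J) (Ideal.Quotient.mk I ⟨_, hk⟩)
      rw [halg, halg, hsb, ← map_pow, hφmk, hφmk, ← map_mul]
      congr 1
      apply Subtype.ext
      rw [MulMemClass.coe_mul, map_pow, hpow, mul_comm]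
      rfl
    · intro x y hxy
      obtain ⟨x, rfl⟩ := Ideal.Quotient.mk_surjective x
      obtain ⟨y, rfl⟩ := Ideal.Quotient.mk_surjective y
      rw [halg, halg, hφmk, hφmk, Ideal.Quotient.eq, hJ, Ideal.mem_span_singleton'] at hxy
      obtain ⟨a, ha⟩ := hxy
      obtain ⟨k, hk⟩ := hclear a a.2
      refine ⟨⟨sb ^ k, k, rfl⟩, ?_⟩
      change sb ^ k * Ideal.Quotient.mk I x = sb ^ k * Ideal.Quotient.mk I y
      rw [hsb, ← map_pow, ← map_mul, ← map_mul, Ideal.Quotient.eq, hI,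
        Ideal.mem_span_singleton']
      refine ⟨⟨_, hk⟩, ?_⟩
      apply Subtype.ext
      have h1 := congrArg (fun z : ↥T => (z : E)) ha
      simp only [MulMemClass.coe_mul, AddSubgroupClass.coe_sub] at h1
      simp only [MulMemClass.coe_mul, AddSubgroupClass.coe_sub, SubmonoidClass.coe_pow]
      have h2 : ((algebraMap O ↥T π : ↥T) : E) = ((algebraMap O ↥R π : ↥R) : E) := rfl
      have h3 : ((ι x : ↥T) : E) = (x : E) := rfl
      have h4 : ((ι y : ↥T) : E) = (y : E) := rfl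
      rw [h2, h3, h4] at h1
      have h5 : ((s : ↥R) : E) = σ := rfl
      rw [h5, ← mul_sub, ← h1]
      ring
  have hM : Submonoid.powers sb ≤ nonZeroDivisors (↥R ⧸ I) :=
    powers_le_nonZeroDivisors_of_noZeroDivisors hsb0
  have : IsDomain (↥T ⧸ J) := IsLocalization.isDomain_of_le_nonZeroDivisors (↥T ⧸ J) hM
  exact IsLocalization.isDedekindDomain (↥R ⧸ I) hM (↥T ⧸ J)

end Generic

section Prim

variable {O : Type*} [CommRing O] {E : Type*} [Field E] [Algebra O E]

/-- charts are monotone for integral dependence: if every coordinate of `S` lies in the chart of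
`S'`, then the chart of `S` lies in the chart of `S'`. -/
theorem rch_chart_le {S S' : Set E} (h : ∀ s ∈ S, s ∈ fc_chart O S') :
    fc_chart O S ≤ fc_chart O S' := by
  intro z hz
  rw [fc_mem_chart] at hz ⊢
  have hle : Algebra.adjoin O S ≤ (integralClosure (Algebra.adjoin O S') E).restrictScalars O :=
    Algebra.adjoin_le h
  have h1 : IsIntegral ↥(integralClosure (Algebra.adjoin O S') E) z :=
    IsIntegral.map_of_comp_eq (R := Algebra.adjoin O S) (S := E)
      (T := ↥(integralClosure (Algebra.adjoin O S') E)) (U := E)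
      (Subalgebra.inclusion hle).toRingHom (RingHom.id E) (by ext r; rfl) hz
  exact isIntegral_trans (A := integralClosure (Algebra.adjoin O S') E) z h1

/-- **Primitivity.** `x` transcendental over `O`, `π` a prime element of `O`: a polynomial
expression `p(x)` divisible by `π` in the chart of `x` has all its coefficients divisible by `π`
(lying over for the Gauss prime `π O[x]`). -/
theorem rch_prim {π : O} (hπ : Prime π) (x : E) (hx : Transcendental O x) (p : O[X]) (y : E)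
    (hy : y ∈ fc_chart O ({x} : Set E)) (h : aeval x p = algebraMap O E π * y) : C π ∣ p := by
  classical
  have hinj : Function.Injective (aeval x : O[X] → E) := transcendental_iff_injective.mp hx
  let _ : Algebra O[X] E := (aeval x : O[X] →ₐ[O] E).toRingHom.toAlgebra
  have halg : ∀ a : O[X], algebraMap O[X] E a = aeval x a := fun _ => rfl
  -- `y` is integral over `O[X]`
  have hyint : IsIntegral O[X] y := by
    rw [fc_mem_chart] at hy
    obtain ⟨q, hqm, hq⟩ := hy
    set f : O[X] →+* ↥(Algebra.adjoin O ({x} : Set E)) :=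
      ((aeval x : O[X] →ₐ[O] E).codRestrict (Algebra.adjoin O ({x} : Set E)) (fun a => by
        rw [Algebra.adjoin_singleton_eq_range_aeval]; exact ⟨a, rfl⟩)).toRingHom with hf
    have hfsurj : Function.Surjective f := by
      rintro ⟨a, ha⟩
      rw [Algebra.adjoin_singleton_eq_range_aeval] at ha
      obtain ⟨b, rfl⟩ := ha
      exact ⟨b, rfl⟩
    obtain ⟨q', hq'⟩ := Polynomial.map_surjective f hfsurj q
    obtain ⟨q'', hq''map, -, hq''m⟩ :=
      Polynomial.lifts_and_degree_eq_and_monic ((Polynomial.mem_lifts _).mpr ⟨q', hq'⟩) hqm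
    refine ⟨q'', hq''m, ?_⟩
    have hcomp : algebraMap O[X] E =
        (algebraMap ↥(Algebra.adjoin O ({x} : Set E)) E).comp f := by
      ext a <;> rfl
    rw [hcomp, ← Polynomial.eval₂_map, hq''map]
    exact hq
  set S' := integralClosure O[X] E with hS'
  set P : Ideal O[X] := Ideal.span {C π} with hP
  have hPprime : P.IsPrime :=
    (Ideal.span_singleton_prime (C_ne_zero.mpr hπ.ne_zero)).mpr (prime_C_iff.mpr hπ)
  have hker : RingHom.ker (algebraMap O[X] ↥S') ≤ P := by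
    intro a ha
    rw [RingHom.mem_ker] at ha
    have h1 : algebraMap O[X] E a = 0 := by
      have := congrArg (fun z : ↥S' => (z : E)) ha
      exact this
    rw [halg] at h1
    have : a = 0 := hinj (by rw [h1, map_zero])
    rw [this]
    exact Ideal.zero_mem _
  obtain ⟨Q, hQ, hQP⟩ := Ideal.exists_ideal_over_prime_of_isIntegral_of_isDomain P hker
  set yS : ↥S' := ⟨y, hyint⟩ with hyS
  have hmul : algebraMap O[X] ↥S' p = algebraMap O[X] ↥S' (C π) * yS := by
    apply Subtype.ext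
    change algebraMap O[X] E p = algebraMap O[X] E (C π) * y
    rw [halg, halg, aeval_C, h]
  have hCQ : algebraMap O[X] ↥S' (C π) ∈ Q := by
    have : C π ∈ Q.comap (algebraMap O[X] ↥S') := by
      rw [hQP]; exact Ideal.mem_span_singleton_self _
    exact this
  have hpQ : p ∈ Q.comap (algebraMap O[X] ↥S') := by
    rw [Ideal.mem_comap, hmul]
    exact Ideal.mul_mem_right _ _ hCQ
  rw [hQP, hP, Ideal.mem_span_singleton] at hpQ
  exact hpQ

/-- a polynomial expression with a unit coefficient is not divisible by `π` in the chart. -/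
theorem rch_notMem_span {π : O} (hπ : Prime π) (x : E) (hx : Transcendental O x) (p : O[X])
    (i : ℕ) (hi : IsUnit (p.coeff i)) (hm : aeval x p ∈ fc_chart O ({x} : Set E)) :
    (⟨aeval x p, hm⟩ : ↥(fc_chart O ({x} : Set E))) ∉
      Ideal.span {algebraMap O ↥(fc_chart O ({x} : Set E)) π} := by
  intro hmem
  rw [Ideal.mem_span_singleton'] at hmem
  obtain ⟨a, ha⟩ := hmem
  have h1 : aeval x p = algebraMap O E π * (a : E) := by
    have := congrArg (fun z : ↥(fc_chart O ({x} : Set E)) => (z : E)) ha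
    simp only [MulMemClass.coe_mul] at this
    rw [← this, mul_comm]
    rfl
  have h2 := rch_prim hπ x hx p a a.2 h1
  rw [Polynomial.C_dvd_iff_dvd_coeff] at h2
  exact hπ.not_isUnit (isUnit_of_dvd_unit (h2 i) hi)

end Prim

section Clear

variable {O : Type*} [CommRing O] {E : Type*} [Field E] [Algebra O E]

/-- `sⁿ c ∈ O[x]` for `c ∈ O[x, y]` and `n` large, when `s ∈ O[x]` and `s^m y ∈ O[x]`. -/
theorem rch_adjoin_pair_clear {x y s : E} (hs : s ∈ Algebra.adjoin O ({x} : Set E)) (m : ℕ)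
    (hy : s ^ m * y ∈ Algebra.adjoin O ({x} : Set E)) :
    ∀ c ∈ Algebra.adjoin O ({x, y} : Set E), ∃ k : ℕ, ∀ n, k ≤ n →
      s ^ n * c ∈ Algebra.adjoin O ({x} : Set E) := by
  have hxmem : x ∈ Algebra.adjoin O ({x} : Set E) := Algebra.subset_adjoin rfl
  intro c hc
  induction hc using Algebra.adjoin_induction with
  | mem z hz =>
    rcases hz with rfl | rfl
    · exact ⟨0, fun n _ => mul_mem (pow_mem hs n) hxmem⟩
    · refine ⟨m, fun n hn => ?_⟩
      obtain ⟨j, rfl⟩ := Nat.exists_eq_add_of_le hn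
      rw [add_comm, pow_add, mul_assoc]
      exact mul_mem (pow_mem hs j) hy
  | algebraMap a =>
    exact ⟨0, fun n _ => mul_mem (pow_mem hs n) (Subalgebra.algebraMap_mem _ a)⟩
  | add c1 c2 _ _ h1 h2 =>
    obtain ⟨k1, h1⟩ := h1
    obtain ⟨k2, h2⟩ := h2
    refine ⟨max k1 k2, fun n hn => ?_⟩
    rw [mul_add]
    exact add_mem (h1 n ((le_max_left _ _).trans hn)) (h2 n ((le_max_right _ _).trans hn))
  | mul c1 c2 _ _ h1 h2 =>
    obtain ⟨k1, h1⟩ := h1
    obtain ⟨k2, h2⟩ := h2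
    refine ⟨k1 + k2, fun n hn => ?_⟩
    obtain ⟨j, rfl⟩ := Nat.exists_eq_add_of_le hn
    have : s ^ (k1 + k2 + j) * (c1 * c2) = (s ^ k1 * c1) * (s ^ (k2 + j) * c2) := by
      rw [pow_add, pow_add, pow_add]; ring
    rw [this]
    exact mul_mem (h1 k1 le_rfl) (h2 (k2 + j) (Nat.le_add_right _ _))

/-- clearing denominators between the chart of `y` and the chart of `x`: if `s ∈ O[x]` and
`s^m y ∈ O[x]`, every element of the chart of `y` is multiplied into the chart of `x` by a power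
of `s`. -/
theorem rch_clear {x y s : E} (hs : s ∈ Algebra.adjoin O ({x} : Set E)) (m : ℕ)
    (hy : s ^ m * y ∈ Algebra.adjoin O ({x} : Set E)) {z : E}
    (hz : z ∈ fc_chart O ({y} : Set E)) : ∃ k : ℕ, s ^ k * z ∈ fc_chart O ({x} : Set E) := by
  have h1 : z ∈ fc_chart O ({x, y} : Set E) :=
    fc_chart_mono (by
      intro t ht; rw [Set.mem_singleton_iff] at ht; rw [ht]
      exact Set.mem_insert_of_mem _ rfl) hz
  exact fc_clear_aux (Algebra.adjoin O ({x} : Set E)) (Algebra.adjoin O ({x, y} : Set E)) s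
    (Algebra.adjoin_mono (by
      intro t ht; rw [Set.mem_singleton_iff] at ht; rw [ht]; exact Set.mem_insert _ _) hs)
    (rch_adjoin_pair_clear hs m hy) h1

end Clear

section Hesse

variable {O : Type*} [CommRing O] {E : Type*} [Field E] [Algebra O E]

theorem rch_isUnit_pow3 (h3 : IsUnit (3 : O)) (n : ℕ) : IsUnit ((3 : O) ^ n) := h3.pow n

/-- membership in a one-coordinate chart from a monic equation over `O[y]`. -/
theorem rch_mem_chart_of_monic {y z : E} (q : (↥(Algebra.adjoin O ({y} : Set E)))[X])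
    (hq : q.Monic) (h : eval₂ (algebraMap ↥(Algebra.adjoin O ({y} : Set E)) E) z q = 0) :
    z ∈ fc_chart O ({y} : Set E) := ⟨q, hq, h⟩

variable (mu j3 : E)

theorem rch_hes_mu_mem (hhes : cv_hesN mu = j3 * cv_hesD mu) (h3 : IsUnit (3 : O)) :
    mu ∈ fc_chart O ({j3} : Set E) := by
  obtain ⟨c, hc⟩ := isUnit_iff_exists_inv.mp (h3.pow 3)
  set jB : ↥(Algebra.adjoin O ({j3} : Set E)) := ⟨j3, Algebra.subset_adjoin rfl⟩ with hjB
  have hcE : (27 : E) * algebraMap O E c = 1 := by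
    have := congrArg (algebraMap O E) hc
    rw [map_mul, map_pow, map_one, map_ofNat] at this
    rw [← this]
    norm_num
  refine rch_mem_chart_of_monic
    (X ^ 3 * (X ^ 3 + C 8) ^ 3 - C (algebraMap O _ c * jB) * (X ^ 3 - C 1) ^ 3) ?_ ?_
  · monicity!
  · unfold cv_hesN cv_hesD at hhes
    simp only [eval₂_sub, eval₂_mul, eval₂_pow, eval₂_add, eval₂_X, eval₂_C, eval₂_one, map_mul,
      map_one]
    have e1 : algebraMap ↥(Algebra.adjoin O ({j3} : Set E)) E (algebraMap O _ c)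
        = algebraMap O E c := rfl
    have e2 : algebraMap ↥(Algebra.adjoin O ({j3} : Set E)) E jB = j3 := rfl
    have e3 : algebraMap ↥(Algebra.adjoin O ({j3} : Set E)) E 8 = 8 := map_ofNat _ 8
    rw [e1, e2, e3]
    linear_combination (algebraMap O E c) * hhes - mu ^ 3 * (mu ^ 3 + 8) ^ 3 * hcE

theorem rch_hes_sigma_inv_mem (hhes : cv_hesN mu = j3 * cv_hesD mu) (h3 : IsUnit (3 : O))
    (hσ : mu ^ 3 - 1 ≠ 0) : (mu ^ 3 - 1)⁻¹ ∈ fc_chart O ({j3} : Set E) := by
  obtain ⟨c, hc⟩ := isUnit_iff_exists_inv.mp (h3.pow 3)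
  obtain ⟨d, hd⟩ := isUnit_iff_exists_inv.mp (h3.pow 2)
  set jB : ↥(Algebra.adjoin O ({j3} : Set E)) := ⟨j3, Algebra.subset_adjoin rfl⟩ with hjB
  have hcE : (27 : E) * algebraMap O E c = 1 := by
    have := congrArg (algebraMap O E) hc
    rw [map_mul, map_pow, map_one, map_ofNat] at this
    rw [← this]
    norm_num
  have hdE : (9 : E) * algebraMap O E d = 1 := by
    have := congrArg (algebraMap O E) hd
    rw [map_mul, map_pow, map_one, map_ofNat] at this
    rw [← this]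
    norm_num
  set s : E := mu ^ 3 - 1 with hs
  have hmu : mu ^ 3 = s + 1 := by rw [hs]; ring
  unfold cv_hesN cv_hesD at hhes
  rw [← hs, hmu] at hhes
  -- `w = 9 / s` is integral
  have hw : 9 * s⁻¹ ∈ fc_chart O ({j3} : Set E) := by
    refine rch_mem_chart_of_monic
      ((X + C 9) * (X + C 1) ^ 3 - C (algebraMap O _ c * jB) * X) ?_ ?_
    · monicity!
    · simp only [eval₂_sub, eval₂_mul, eval₂_pow, eval₂_add, eval₂_X, eval₂_C, eval₂_one, map_mul,
        map_one]
      have e1 : algebraMap ↥(Algebra.adjoin O ({j3} : Set E)) E (algebraMap O _ c)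
          = algebraMap O E c := rfl
      have e2 : algebraMap ↥(Algebra.adjoin O ({j3} : Set E)) E jB = j3 := rfl
      have e3 : algebraMap ↥(Algebra.adjoin O ({j3} : Set E)) E 9 = 9 := map_ofNat _ 9
      rw [e1, e2, e3]
      field_simp
      linear_combination (9 * algebraMap O E c) * hhes - 9 * (s + 1) * (s + 9) ^ 3 * hcE
  have : s⁻¹ = algebraMap O E d * (9 * s⁻¹) := by
    rw [← mul_assoc, mul_comm (algebraMap O E d), hdE, one_mul]
  rw [this]
  exact mul_mem (Subalgebra.algebraMap_mem _ d) hw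

theorem rch_hes_nu_mem (hhes : cv_hesN mu = j3 * cv_hesD mu) (hmu : mu ≠ 0) (hj : j3 ≠ 0) :
    mu⁻¹ ∈ fc_chart O ({j3⁻¹} : Set E) := by
  set wB : ↥(Algebra.adjoin O ({j3⁻¹} : Set E)) := ⟨j3⁻¹, Algebra.subset_adjoin rfl⟩ with hwB
  unfold cv_hesN cv_hesD at hhes
  refine rch_mem_chart_of_monic
    (X ^ 3 * (X ^ 3 - C 1) ^ 3 + C (27 * wB) * (C 8 * X ^ 3 + C 1) ^ 3) ?_ ?_
  · monicity!
  · simp only [eval₂_sub, eval₂_mul, eval₂_pow, eval₂_add, eval₂_X, eval₂_C, eval₂_one, map_mul,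
      map_one]
    have e2 : algebraMap ↥(Algebra.adjoin O ({j3⁻¹} : Set E)) E wB = j3⁻¹ := rfl
    have e3 : algebraMap ↥(Algebra.adjoin O ({j3⁻¹} : Set E)) E 8 = 8 := map_ofNat _ 8
    have e4 : algebraMap ↥(Algebra.adjoin O ({j3⁻¹} : Set E)) E 27 = 27 := map_ofNat _ 27
    rw [e2, e3, e4]
    field_simp
    linear_combination hhes

theorem rch_hes_sigma2_inv_mem (hhes : cv_hesN mu = j3 * cv_hesD mu) (h3 : IsUnit (3 : O))
    (hmu : mu ≠ 0) (hj : j3 ≠ 0) (hσ : 1 + 8 * mu⁻¹ ^ 3 ≠ 0) :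
    (1 + 8 * mu⁻¹ ^ 3)⁻¹ ∈ fc_chart O ({j3⁻¹} : Set E) := by
  obtain ⟨d, hd⟩ := isUnit_iff_exists_inv.mp (h3.pow 2)
  set wB : ↥(Algebra.adjoin O ({j3⁻¹} : Set E)) := ⟨j3⁻¹, Algebra.subset_adjoin rfl⟩ with hwB
  have hdE : (9 : E) * algebraMap O E d = 1 := by
    have := congrArg (algebraMap O E) hd
    rw [map_mul, map_pow, map_one, map_ofNat] at this
    rw [← this]
    norm_num
  unfold cv_hesN cv_hesD at hhes
  have hσ' : mu ^ 3 + 8 ≠ 0 := by
    intro h
    apply hσ
    field_simp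
    linear_combination h
  have hw : 9 * (1 + 8 * mu⁻¹ ^ 3)⁻¹ ∈ fc_chart O ({j3⁻¹} : Set E) := by
    refine rch_mem_chart_of_monic
      ((X - C 9) * (X - C 1) ^ 3 + C (110592 * wB) * X) ?_ ?_
    · monicity!
    · simp only [eval₂_sub, eval₂_mul, eval₂_pow, eval₂_add, eval₂_X, eval₂_C, eval₂_one, map_mul,
        map_one]
      have e2 : algebraMap ↥(Algebra.adjoin O ({j3⁻¹} : Set E)) E wB = j3⁻¹ := rfl
      have e3 : algebraMap ↥(Algebra.adjoin O ({j3⁻¹} : Set E)) E 9 = 9 := map_ofNat _ 9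
      have e4 : algebraMap ↥(Algebra.adjoin O ({j3⁻¹} : Set E)) E 110592 = 110592 :=
        map_ofNat _ 110592
      rw [e2, e3, e4]
      have h1 : 1 + 8 * mu⁻¹ ^ 3 = (mu ^ 3 + 8) / mu ^ 3 := by
        field_simp
      rw [h1, inv_div]
      field_simp
      linear_combination (36864 : E) * hhes
  have : (1 + 8 * mu⁻¹ ^ 3)⁻¹ = algebraMap O E d * (9 * (1 + 8 * mu⁻¹ ^ 3)⁻¹) := by
    rw [← mul_assoc, mul_comm (algebraMap O E d), hdE, one_mul]
  rw [this]
  exact mul_mem (Subalgebra.algebraMap_mem _ d) hw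

end Hesse

section Main

variable {O : Type*} [CommRing O] {E : Type*} [Field E] [Algebra O E]

theorem rch_aeval_ne_zero {x : E} (hx : Transcendental O x) {p : O[X]} (hp : p ≠ 0) :
    aeval x p ≠ 0 := fun h => hp ((transcendental_iff.mp hx) p h)

theorem rch_ofNat_mem (S : Subalgebra O E) (n : ℕ) [n.AtLeastTwo] : (OfNat.ofNat n : E) ∈ S := by
  have : (OfNat.ofNat n : E) = algebraMap O E (OfNat.ofNat n) := (map_ofNat _ n).symm
  rw [this]; exact Subalgebra.algebraMap_mem _ _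

variable (mu j3 : E)

/-- **Hesse cover, the chart `j'' ≠ ∞`**: `fc_chart O {j''} = R₁[1/(μ³ - 1)]`, so its special fibre
is a Dedekind domain as soon as the special fibre of the `μ`-chart is. -/
theorem rch_T1 (hhes : cv_hesN mu = j3 * cv_hesD mu) (h3 : IsUnit (3 : O)) {π : O}
    (hπ : Prime π) (htr : Transcendental O mu)
    [IsDedekindDomain (↥(fc_chart O ({mu} : Set E)) ⧸
      Ideal.span {algebraMap O ↥(fc_chart O ({mu} : Set E)) π})] :
    IsDedekindDomain (↥(fc_chart O ({j3} : Set E)) ⧸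
      Ideal.span {algebraMap O ↥(fc_chart O ({j3} : Set E)) π}) := by
  have hnt : Nontrivial O := ⟨⟨π, 0, hπ.ne_zero⟩⟩
  have hmuA : mu ∈ Algebra.adjoin O ({mu} : Set E) := Algebra.subset_adjoin rfl
  have hpm : (X ^ 3 - C 1 : O[X]).Monic := monic_X_pow_sub_C (1 : O) (by norm_num)
  have hev : aeval mu (X ^ 3 - C 1 : O[X]) = mu ^ 3 - 1 := by
    simp
  have hσ : mu ^ 3 - 1 ≠ 0 := by
    rw [← hev]; exact rch_aeval_ne_zero htr hpm.ne_zero
  have hsA : mu ^ 3 - 1 ∈ Algebra.adjoin O ({mu} : Set E) :=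
    sub_mem (pow_mem hmuA 3) (one_mem _)
  have hσR : mu ^ 3 - 1 ∈ fc_chart O ({mu} : Set E) := fc_adjoin_le_chart _ hsA
  have hRT : fc_chart O ({mu} : Set E) ≤ fc_chart O ({j3} : Set E) := by
    apply rch_chart_le
    intro s hs
    rw [Set.mem_singleton_iff] at hs
    rw [hs]
    exact rch_hes_mu_mem mu j3 hhes h3
  have hyA : (mu ^ 3 - 1) ^ 3 * j3 ∈ Algebra.adjoin O ({mu} : Set E) := by
    unfold cv_hesN cv_hesD at hhes
    rw [mul_comm, ← hhes]
    exact mul_mem (mul_mem (rch_ofNat_mem _ 27) (pow_mem hmuA 3))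
      (pow_mem (add_mem (pow_mem hmuA 3) (rch_ofNat_mem _ 8)) 3)
  refine rch_away_dedekind (fc_chart O ({mu} : Set E)) (fc_chart O ({j3} : Set E)) hRT
    (mu ^ 3 - 1) hσR (rch_hes_sigma_inv_mem mu j3 hhes h3 hσ)
    (fun x hx => rch_clear hsA 3 hyA hx) π ?_
  have hm : aeval mu (X ^ 3 - C 1 : O[X]) ∈ fc_chart O ({mu} : Set E) := by rw [hev]; exact hσR
  have := rch_notMem_span hπ mu htr (X ^ 3 - C 1) (X ^ 3 - C 1 : O[X]).natDegree
    (by rw [hpm.coeff_natDegree]; exact isUnit_one) hm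
  convert this using 2
  exact Subtype.ext hev.symm

/-- **Hesse cover, the chart `j'' ≠ 0`**: `fc_chart O {j''⁻¹} = R₂[1/(1 + 8 μ⁻³)]` is a localisation
of the chart of `μ⁻¹`. -/
theorem rch_T2 (hhes : cv_hesN mu = j3 * cv_hesD mu) (h3 : IsUnit (3 : O)) {π : O}
    (hπ : Prime π) (htr : Transcendental O mu)
    [IsDedekindDomain (↥(fc_chart O ({mu⁻¹} : Set E)) ⧸
      Ideal.span {algebraMap O ↥(fc_chart O ({mu⁻¹} : Set E)) π})] :
    IsDedekindDomain (↥(fc_chart O ({j3⁻¹} : Set E)) ⧸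
      Ideal.span {algebraMap O ↥(fc_chart O ({j3⁻¹} : Set E)) π}) := by
  have hnt : Nontrivial O := ⟨⟨π, 0, hπ.ne_zero⟩⟩
  have htr' : Transcendental O mu⁻¹ := fun h => htr (IsAlgebraic.inv_iff.mp h)
  have hmu0 : mu ≠ 0 := by
    have := rch_aeval_ne_zero htr (p := (X : O[X])) X_ne_zero
    simpa using this
  have h27 : (27 : E) ≠ 0 := by
    have h := (h3.pow 3).map (algebraMap O E)
    rw [map_pow, map_ofNat] at h
    have := h.ne_zero
    norm_num at this ⊢
    exact this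
  have hpm8 : (X ^ 3 + C 8 : O[X]).Monic := monic_X_pow_add_C (8 : O) (by norm_num)
  have hmu8 : mu ^ 3 + 8 ≠ 0 := by
    have := rch_aeval_ne_zero htr hpm8.ne_zero
    simpa [map_ofNat] using this
  have hpm1 : (X ^ 3 - C 1 : O[X]).Monic := monic_X_pow_sub_C (1 : O) (by norm_num)
  have hm1 : mu ^ 3 - 1 ≠ 0 := by
    have := rch_aeval_ne_zero htr hpm1.ne_zero
    simpa using this
  have hj0 : j3 ≠ 0 := by
    intro h
    unfold cv_hesN cv_hesD at hhes
    rw [h, zero_mul] at hhes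
    exact mul_ne_zero (mul_ne_zero h27 (pow_ne_zero 3 hmu0)) (pow_ne_zero 3 hmu8) hhes
  have hnuA : mu⁻¹ ∈ Algebra.adjoin O ({mu⁻¹} : Set E) := Algebra.subset_adjoin rfl
  have hc0 : (C 8 * X ^ 3 + 1 : O[X]).coeff 0 = 1 := by
    simp
  have hp0 : (C 8 * X ^ 3 + 1 : O[X]) ≠ 0 := by
    intro h
    rw [h, coeff_zero] at hc0
    exact zero_ne_one hc0
  have hev : aeval mu⁻¹ (C 8 * X ^ 3 + 1 : O[X]) = 1 + 8 * mu⁻¹ ^ 3 := by
    simp [map_ofNat, add_comm]
  have hσ : 1 + 8 * mu⁻¹ ^ 3 ≠ 0 := by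
    rw [← hev]; exact rch_aeval_ne_zero htr' hp0
  have hsA : 1 + 8 * mu⁻¹ ^ 3 ∈ Algebra.adjoin O ({mu⁻¹} : Set E) :=
    add_mem (one_mem _) (mul_mem (rch_ofNat_mem _ 8) (pow_mem hnuA 3))
  have hσR : 1 + 8 * mu⁻¹ ^ 3 ∈ fc_chart O ({mu⁻¹} : Set E) := fc_adjoin_le_chart _ hsA
  have hRT : fc_chart O ({mu⁻¹} : Set E) ≤ fc_chart O ({j3⁻¹} : Set E) := by
    apply rch_chart_le
    intro s hs
    rw [Set.mem_singleton_iff] at hs
    rw [hs]
    exact rch_hes_nu_mem mu j3 hhes hmu0 hj0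
  obtain ⟨c, hc⟩ := isUnit_iff_exists_inv.mp (h3.pow 3)
  have hcE : (27 : E) * algebraMap O E c = 1 := by
    have := congrArg (algebraMap O E) hc
    rw [map_mul, map_pow, map_one, map_ofNat] at this
    rw [← this]
    norm_num
  have hyA : (1 + 8 * mu⁻¹ ^ 3) ^ 3 * j3⁻¹ ∈ Algebra.adjoin O ({mu⁻¹} : Set E) := by
    have e : (1 + 8 * mu⁻¹ ^ 3) ^ 3 * j3⁻¹ =
        algebraMap O E c * (mu⁻¹ ^ 3 * (1 - mu⁻¹ ^ 3) ^ 3) := by
      unfold cv_hesN cv_hesD at hhes
      field_simp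
      linear_combination (algebraMap O E c) * hhes - mu ^ 3 * (mu ^ 3 + 8) ^ 3 * hcE
    rw [e]
    exact mul_mem (Subalgebra.algebraMap_mem _ _)
      (mul_mem (pow_mem hnuA 3) (pow_mem (sub_mem (one_mem _) (pow_mem hnuA 3)) 3))
  refine rch_away_dedekind (fc_chart O ({mu⁻¹} : Set E)) (fc_chart O ({j3⁻¹} : Set E)) hRT
    (1 + 8 * mu⁻¹ ^ 3) hσR (rch_hes_sigma2_inv_mem mu j3 hhes h3 hmu0 hj0 hσ)
    (fun x hx => rch_clear hsA 3 hyA hx) π ?_
  have hm : aeval mu⁻¹ (C 8 * X ^ 3 + 1 : O[X]) ∈ fc_chart O ({mu⁻¹} : Set E) := by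
    rw [hev]; exact hσR
  have := rch_notMem_span hπ mu⁻¹ htr' (C 8 * X ^ 3 + 1) 0
    (by rw [hc0]; exact isUnit_one) hm
  convert this using 2
  exact Subtype.ext hev.symm

end Main

section Corollaries

variable {O : Type*} [CommRing O] {E : Type*} [Field E] [Algebra O E]

/-- a chart whose special fibre is a Dedekind domain: `π` is a prime element of the chart. -/
theorem rch_prime_of_dedekind (T : Subalgebra O E) (π : O) (hπE : algebraMap O E π ≠ 0)
    [IsDedekindDomain (↥T ⧸ Ideal.span {algebraMap O ↥T π})] : Prime (algebraMap O ↥T π) := by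
  have h0 : algebraMap O ↥T π ≠ 0 := fun h => hπE (congrArg Subtype.val h)
  rw [← Ideal.span_singleton_prime h0]
  exact (Ideal.Quotient.isDomain_iff_prime _).mp inferInstance

/-- a chart whose special fibre is a Dedekind domain satisfies the local regularity seam. -/
theorem rch_regAt_of_dedekind (T : Subalgebra O E) (π : O)
    [IsDedekindDomain (↥T ⧸ Ideal.span {algebraMap O ↥T π})] :
    jt_RegAt ↥T (algebraMap O ↥T π) := by
  intro n hn hπn
  have hprime : (Ideal.span {algebraMap O ↥T π}).IsPrime :=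
    (Ideal.Quotient.isDomain_iff_prime _).mp inferInstance
  refine ⟨?_, ?_⟩
  · obtain ⟨u, hu, hgen⟩ := nq_maximal_local (algebraMap O ↥T π) n hπn
    exact ⟨u, hπn, hu, hgen⟩
  · intro a b hab
    refine ⟨1, fun h => hn.ne_top ((Ideal.eq_top_iff_one _).mpr h), ?_⟩
    rw [one_mul, one_mul]
    exact hprime.mem_or_mem hab

/-- conversely (for a noetherian chart): `π` prime and the local regularity seam give a Dedekind
special fibre. -/
theorem rch_dedekind_of_regAt {B : Type*} [CommRing B] [IsNoetherianRing B] (π : B)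
    (hp : Prime π) (hr : jt_RegAt B π) : IsDedekindDomain (B ⧸ Ideal.span {π}) :=
  nq_quotient_isDedekindDomain_of_local_pair π ((Ideal.span_singleton_prime hp.ne_zero).mpr hp)
    (fun n hn hπn => by
      obtain ⟨⟨u, -, hu, hgen⟩, -⟩ := hr n hn hπn
      exact ⟨u, hu, hgen⟩)

end Corollaries

end Fermat.Agent.JT3
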