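/-
JT3 / node E (place map), producer side: q-integrality of integral functions.

`O` a domain which is completely integrally closed in its fraction field `K` (e.g. a discrete
valuation ring).  Then `O((q))` is completely integrally closed in `K((q))` (Bourbaki, AC V §1
no. 4, lowest-term argument): if `d ≠ 0` in `O((q))` and `d fⁿ ∈ O((q))` for all `n`, then
`f ∈ O((q))`.

Consequence (`rqi_mem_range_of_finite`): a subring `B` of `K((q))` which is a finitely generated
module over a subring `R ⊆ O((q))` and consists of quotients of elements of `O((q))` lies in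
`O((q))`.  This is the q-expansion principle "integral over `O[j]` ⟹ integral q-expansion".
-/
import Mathlib
import Fermat.Prelude.Def_ModularCurve_LaurentCoeff

set_option autoImplicit false
set_option linter.unusedSectionVars false

namespace Fermat.Agent.JT3

open ModularCurve

section CIC

variable {O K : Type*} [CommRing O] [IsDomain O] [Field K] [Algebra O K]

/-- `O` is completely integrally closed in `K`. -/
def rqi_CIC (O K : Type*) [CommRing O] [Field K] [Algebra O K] : Prop :=
  ∀ (x : K) (d : O), d ≠ 0 →
    (∀ n : ℕ, algebraMap O K d * x ^ n ∈ Set.range (algebraMap O K)) →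
    x ∈ Set.range (algebraMap O K)

/-- a Laurent series all of whose coefficients lie in the range of `f` is in the range of
`coeffMap f`. -/
theorem rqi_exists_coeffMap_eq {R S : Type*} [CommRing R] [CommRing S] (f : R →+* S)
    (x : LaurentSeries S) (h : ∀ k, x.coeff k ∈ Set.range f) :
    x ∈ Set.range (coeffMap f) := by
  classical
  choose g hg using h
  let g' : ℤ → R := fun k => if x.coeff k = 0 then 0 else g k
  have hsupp : Function.support g' ⊆ x.support := by
    intro k hk
    simp only [Function.mem_support, g'] at hk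
    by_contra h0
    exact hk (by rw [if_pos (by simpa using h0)])
  refine ⟨⟨g', x.isPWO_support.mono hsupp⟩, ?_⟩
  ext k
  rw [coeffMap_coeff]
  show f (g' k) = x.coeff k
  by_cases h0 : x.coeff k = 0
  · simp [g', h0]
  · simp [g', h0, hg k]

theorem rqi_coeff_mem_range {R S : Type*} [CommRing R] [CommRing S] (f : R →+* S)
    {x : LaurentSeries S} (hx : x ∈ Set.range (coeffMap f)) (k : ℤ) :
    x.coeff k ∈ Set.range f := by
  obtain ⟨y, rfl⟩ := hx
  exact ⟨y.coeff k, (coeffMap_coeff f y k).symm⟩

theorem rqi_leadingCoeff_pow {R : Type*} [CommRing R] [IsDomain R] (x : LaurentSeries R) (n : ℕ) :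
    (x ^ n).leadingCoeff = x.leadingCoeff ^ n := by
  induction n with
  | zero => simp
  | succ n ih => rw [pow_succ, HahnSeries.leadingCoeff_mul, ih, pow_succ]

/-- **`O((q))` is completely integrally closed in `K((q))`.** -/
theorem rqi_cic (hO : rqi_CIC O K) (f : LaurentSeries K)
    (d : LaurentSeries O) (hd : coeffMap (algebraMap O K) d ≠ 0)
    (h : ∀ n : ℕ, coeffMap (algebraMap O K) d * f ^ n ∈ (coeffMap (algebraMap O K)).range) :
    f ∈ (coeffMap (algebraMap O K)).range := by
  classical
  set ι := coeffMap (algebraMap O K) with hι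
  by_contra hf
  -- the bad indices
  set S : Set ℤ := {i | f.coeff i ∉ Set.range (algebraMap O K)} with hS
  have hSne : S.Nonempty := by
    by_contra hne
    apply hf
    rw [RingHom.mem_range]
    refine rqi_exists_coeffMap_eq (algebraMap O K) f fun k => ?_
    by_contra hk
    exact hne ⟨k, hk⟩
  have hSsub : S ⊆ f.support := by
    intro i hi
    rw [HahnSeries.mem_support]
    intro h0
    exact hi ⟨0, by rw [map_zero, h0]⟩
  have hWF : S.IsWF := f.isWF_support.mono hSsub
  set i₀ := hWF.min hSne with hi₀
  have hi₀S : f.coeff i₀ ∉ Set.range (algebraMap O K) := hWF.min_mem hSne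
  have hmin : ∀ i, i < i₀ → f.coeff i ∈ Set.range (algebraMap O K) := by
    intro i hi
    by_contra hiS
    exact (hWF.not_lt_min hSne hiS) hi
  -- the truncation
  let gf : ℤ → K := fun i => if i < i₀ then f.coeff i else 0
  have hgsupp : Function.support gf ⊆ f.support := by
    intro i hi
    simp only [Function.mem_support, gf] at hi
    rw [HahnSeries.mem_support]
    intro h0
    apply hi
    split_ifs
    · exact h0
    · rfl
  let g : LaurentSeries K := ⟨gf, f.isPWO_support.mono hgsupp⟩
  have hg : g ∈ ι.range := by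
    rw [RingHom.mem_range]
    refine rqi_exists_coeffMap_eq (algebraMap O K) g fun k => ?_
    show gf k ∈ _
    by_cases hk : k < i₀
    · simp only [gf, if_pos hk]; exact hmin k hk
    · simp only [gf, if_neg hk]; exact ⟨0, map_zero _⟩
  set f' := f - g with hf'
  have hcoeff_lt : ∀ i, i < i₀ → f'.coeff i = 0 := by
    intro i hi
    rw [hf', HahnSeries.coeff_sub]
    show f.coeff i - gf i = 0
    simp only [gf, if_pos hi, sub_self]
  have hcoeff_i₀ : f'.coeff i₀ = f.coeff i₀ := by
    rw [hf', HahnSeries.coeff_sub]
    show f.coeff i₀ - gf i₀ = _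
    simp only [gf, lt_irrefl, if_false, sub_zero]
  have hf'0 : f'.coeff i₀ ≠ 0 := by
    rw [hcoeff_i₀]
    intro h0
    exact hi₀S ⟨0, by rw [map_zero, h0]⟩
  have hf'ne : f' ≠ 0 := by
    intro h0
    rw [h0] at hf'0
    exact hf'0 rfl
  have hord : f'.order = i₀ := by
    apply le_antisymm
    · exact HahnSeries.order_le_of_coeff_ne_zero hf'0
    · by_contra hlt
      rw [not_le] at hlt
      exact hf'ne (HahnSeries.coeff_order_eq_zero.1 (hcoeff_lt _ hlt))
  have hlead : f'.leadingCoeff = f.coeff i₀ := by
    rw [HahnSeries.leadingCoeff_eq, hord, hcoeff_i₀]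
  -- `ι d * f' ^ n` stays in the range
  have hmem : ∀ n : ℕ, ι d * f' ^ n ∈ ι.range := by
    intro n
    have hexp : f' ^ n = ∑ m ∈ Finset.range (n + 1), f ^ m * (-g) ^ (n - m) * (n.choose m : LaurentSeries K) := by
      rw [hf', sub_eq_add_neg, add_pow]
    rw [hexp, Finset.mul_sum]
    refine Subring.sum_mem _ fun m _ => ?_
    have : ι d * (f ^ m * (-g) ^ (n - m) * (n.choose m : LaurentSeries K))
        = (ι d * f ^ m) * ((-g) ^ (n - m) * (n.choose m : LaurentSeries K)) := by ring
    rw [this]
    exact Subring.mul_mem _ (h m)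
      (Subring.mul_mem _ (Subring.pow_mem _ (Subring.neg_mem _ hg) _) (natCast_mem _ _))
  -- leading coefficients
  set c : O := d.coeff (ι d).order with hc
  have hιlead : (ι d).leadingCoeff = algebraMap O K c := by
    rw [HahnSeries.leadingCoeff_eq, hι, coeffMap_coeff]
  have hc0 : c ≠ 0 := by
    intro h0
    have : (ι d).leadingCoeff = 0 := by rw [hιlead, h0, map_zero]
    exact hd (HahnSeries.leadingCoeff_eq_zero.1 this)
  apply hi₀S
  refine hO (f.coeff i₀) c hc0 fun n => ?_
  have h1 : (ι d * f' ^ n).leadingCoeff = algebraMap O K c * f.coeff i₀ ^ n := by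
    rw [HahnSeries.leadingCoeff_mul, rqi_leadingCoeff_pow, hιlead, hlead]
  rw [← h1, HahnSeries.leadingCoeff_eq]
  exact rqi_coeff_mem_range (algebraMap O K) (RingHom.mem_range.1 (hmem n)) _

/-- a subring with a common denominator lies in `O((q))`. -/
theorem rqi_subring_le_range_of_denominator (hO : rqi_CIC O K) (B : Subring (LaurentSeries K))
    (d : LaurentSeries O) (hd : coeffMap (algebraMap O K) d ≠ 0)
    (hB : ∀ b ∈ B, coeffMap (algebraMap O K) d * b ∈ (coeffMap (algebraMap O K)).range) :
    B ≤ (coeffMap (algebraMap O K)).range := fun b hb =>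
  rqi_cic hO b d hd fun n => hB _ (B.pow_mem hb n)

/-- **q-expansion principle.** A subring `B` of `K((q))` contained in a finitely generated module
over a subring `R ⊆ O((q))`, with generators which are quotients of elements of `O((q))`, lies in
`O((q))`. -/
theorem rqi_subring_le_range (hO : rqi_CIC O K) (B R : Subring (LaurentSeries K))
    (hR : R ≤ (coeffMap (algebraMap O K)).range) (G : Finset (LaurentSeries K))
    (hG : ∀ g ∈ G, ∃ z2 : LaurentSeries O, coeffMap (algebraMap O K) z2 ≠ 0 ∧
      g * coeffMap (algebraMap O K) z2 ∈ (coeffMap (algebraMap O K)).range)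
    (hspan : ∀ b ∈ B, b ∈ Submodule.span R (G : Set (LaurentSeries K))) :
    B ≤ (coeffMap (algebraMap O K)).range := by
  classical
  set ι := coeffMap (algebraMap O K) with hι
  choose! z hz0 hz using hG
  set d : LaurentSeries O := ∏ g ∈ G, z g with hd
  have hιd : ι d = ∏ g ∈ G, ι (z g) := by rw [hd, map_prod]
  have hd0 : ι d ≠ 0 := by
    rw [hιd]
    exact Finset.prod_ne_zero_iff.2 fun g hg => hz0 g hg
  refine rqi_subring_le_range_of_denominator hO B d hd0 fun b hb => ?_
  have hbs := hspan b hb
  refine Submodule.span_induction (p := fun b _ => ι d * b ∈ ι.range) ?_ ?_ ?_ ?_ hbs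
  · intro g hg
    have hgG : g ∈ G := hg
    have : ι d = (∏ g' ∈ G.erase g, ι (z g')) * ι (z g) := by
      rw [hιd, Finset.prod_erase_mul _ _ hgG]
    rw [this, mul_assoc, mul_comm (ι (z g)) g]
    refine Subring.mul_mem _ ?_ (hz g hgG)
    exact Subring.prod_mem _ fun g' _ => ⟨z g', rfl⟩
  · rw [mul_zero]; exact Subring.zero_mem _
  · intro x y _ _ hx hy
    rw [mul_add]; exact Subring.add_mem _ hx hy
  · intro r x _ hx
    have : ι d * (r • x) = (r : LaurentSeries K) * (ι d * x) := by
      rw [Subring.smul_def, smul_eq_mul]; ring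
    rw [this]
    exact Subring.mul_mem _ (hR r.2) hx

end CIC

section DVR

variable {O K : Type*} [CommRing O] [IsDomain O] [IsDiscreteValuationRing O] [Field K]
  [Algebra O K] [IsFractionRing O K]

/-- a discrete valuation ring is completely integrally closed. -/
theorem rqi_cic_of_dvr : rqi_CIC O K := by
  intro x d hd h
  by_cases hx0 : x = 0
  · exact ⟨0, by rw [hx0, map_zero]⟩
  rcases ValuationRing.isInteger_or_isInteger O x with hx | hx
  · obtain ⟨o, ho⟩ := hx
    exact ⟨o, ho⟩
  · obtain ⟨y, hy⟩ := hx
    by_cases hyu : IsUnit y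
    · obtain ⟨u, rfl⟩ := hyu
      refine ⟨((u⁻¹ : Oˣ) : O), ?_⟩
      have h1 : algebraMap O K (u : O) * algebraMap O K ((u⁻¹ : Oˣ) : O) = 1 := by
        rw [← map_mul, Units.mul_inv, map_one]
      rw [hy] at h1
      field_simp at h1
      exact h1
    · exfalso
      apply hd
      have hmem : ∀ n : ℕ, d ∈ (IsLocalRing.maximalIdeal O) ^ n := by
        intro n
        obtain ⟨o, ho⟩ := h n
        have : d = o * y ^ n := by
          apply FaithfulSMul.algebraMap_injective O K
          rw [map_mul, map_pow, hy, ho, inv_pow]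
          field_simp
        rw [this]
        exact Ideal.mul_mem_left _ _ (Ideal.pow_mem_pow ((IsLocalRing.mem_maximalIdeal _).2 hyu) n)
      have := Ideal.iInf_pow_eq_bot_of_isLocalRing (IsLocalRing.maximalIdeal O)
        (IsLocalRing.maximalIdeal.isMaximal O).ne_top
      have hd' : d ∈ (⨅ n : ℕ, (IsLocalRing.maximalIdeal O) ^ n) := by
        rw [Ideal.mem_iInf]; exact hmem
      rw [this] at hd'
      exact hd'

end DVR

end Fermat.Agent.JT3
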