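/-
JT3 / node E (place map), producer side: the base-level package of one chart.

`(K, O)` a discrete valuation ring with fraction field `K` of characteristic zero,
`E ⊆ K((q))` a function field consisting of quotients of series over `O`, `x ∈ E` a coordinate
with a `q`-expansion over `O` whose reduction is transcendental.  `rpn_Level0 E π x` bundles what
the final assembly of node E needs from the chart `fc_chart O {x}` (normalisation of `O[x]` in
`E`):

* `qint` : every chart function has a `q`-expansion with coefficients in `O`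
           (q-expansion principle, `QIntegral.lean`);
* `fin`  : the chart is a finite `O[x]`-module (elementwise form);
* `ker`  : the kernel of the coefficientwise reduction on the chart is generated by `π`
           (`Bridge/GaussCenterOne.lean`);
* `ded`  : the chart modulo `π` is a Dedekind domain (the geometric input).

`rpn_level0_of_dedekind` : everything follows from `ded`.
-/
import Fermat.Agent.JT3.PlaceMap.QIntegral
import Fermat.Agent.JT3.Bridge.GaussCenterOne
import Fermat.Agent.JT3.FCore.FunField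

set_option autoImplicit false
set_option linter.unusedSectionVars false
set_option linter.style.longLine false

open IsLocalRing Polynomial ModularCurve IntermediateField

namespace Fermat.Agent.JT3

section Level0

variable {O : Type*} [CommRing O] [IsDomain O] [IsDiscreteValuationRing O]
variable {K : Type*} [Field K] [Algebra O K] [IsFractionRing O K]
variable (E : IntermediateField K (LaurentSeries K)) [Algebra O ↥E] [IsScalarTower O K ↥E]

/-- The base-level package of the chart `fc_chart O {x}`. -/
structure rpn_Level0 (π : O) (x : ↥E) : Prop where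
  qint : ∀ b ∈ fc_chart O ({x} : Set ↥E), ∃ w : LaurentSeries O,
    coeffMap (algebraMap O K) w = (b : LaurentSeries K)
  fin : ∃ G : Finset ↥E, (∀ g ∈ G, g ∈ fc_chart O ({x} : Set ↥E)) ∧
    ∀ b ∈ fc_chart O ({x} : Set ↥E),
      b ∈ Submodule.span ↥(Algebra.adjoin O ({x} : Set ↥E)) (G : Set ↥E)
  ker : ∀ b ∈ fc_chart O ({x} : Set ↥E), ∀ w : LaurentSeries O,
    coeffMap (algebraMap O K) w = (b : LaurentSeries K) → coeffMap (residue O) w = 0 →
      ∃ b' ∈ fc_chart O ({x} : Set ↥E), b = algebraMap O ↥E π * b'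
  ded : IsDedekindDomain (↥(fc_chart O ({x} : Set ↥E)) ⧸
    Ideal.span {algebraMap O ↥(fc_chart O ({x} : Set ↥E)) π})

end Level0

section Fin

variable {O : Type*} [CommRing O] [IsDomain O] [IsDiscreteValuationRing O]
variable {K : Type*} [Field K] [Algebra O K] [IsFractionRing O K] [CharZero K]
variable {F0 : Type*} [Field F0] [Algebra K F0] [Algebra O F0] [IsScalarTower O K F0]

/-- the finiteness field from `fc_ff_finite`. -/
theorem rpn_fin {x : F0} (hx : Transcendental K x) [FiniteDimensional K⟮x⟯ F0] :
    ∃ G : Finset F0, (∀ g ∈ G, g ∈ fc_chart O ({x} : Set F0)) ∧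
      ∀ b ∈ fc_chart O ({x} : Set F0),
        b ∈ Submodule.span ↥(Algebra.adjoin O ({x} : Set F0)) (G : Set F0) := by
  classical
  have hfin := fc_ff_finite (A0 := O) (L := K) (F0 := F0) hx
  obtain ⟨G₀, hG₀⟩ := hfin.1
  refine ⟨G₀.image Subtype.val, ?_, ?_⟩
  · intro g hg
    obtain ⟨g₀, -, rfl⟩ := Finset.mem_image.1 hg
    exact g₀.2
  · intro b hb
    have hb' : (⟨b, hb⟩ : ↥(integralClosure ↥(Algebra.adjoin O ({x} : Set F0)) F0)) ∈
        Submodule.span ↥(Algebra.adjoin O ({x} : Set F0)) (G₀ : Set _) := by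
      rw [hG₀]; trivial
    have key : ∀ z : ↥(integralClosure ↥(Algebra.adjoin O ({x} : Set F0)) F0),
        z ∈ Submodule.span ↥(Algebra.adjoin O ({x} : Set F0)) (G₀ : Set _) →
        (z : F0) ∈ Submodule.span ↥(Algebra.adjoin O ({x} : Set F0))
          ((G₀.image Subtype.val : Finset F0) : Set F0) := by
      intro z hz
      induction hz using Submodule.span_induction with
      | mem g hg =>
        exact Submodule.subset_span (Finset.mem_coe.2 (Finset.mem_image_of_mem _ hg))
      | zero => exact Submodule.zero_mem _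
      | add y z _ _ hy hz => exact Submodule.add_mem _ hy hz
      | smul r y _ hy => exact Submodule.smul_mem _ r hy
    exact key _ hb'

end Fin

section QInt

variable {O : Type*} [CommRing O] [IsDomain O] [IsDiscreteValuationRing O]
variable {K : Type*} [Field K] [Algebra O K] [IsFractionRing O K]
variable (E : IntermediateField K (LaurentSeries K)) [Algebra O ↥E] [IsScalarTower O K ↥E]

theorem rpn_coe_algebraMap (c : O) :
    ((algebraMap O ↥E c : ↥E) : LaurentSeries K)
      = coeffMap (algebraMap O K) (algebraMap O (LaurentSeries O) c) := by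
  rw [gq_coeffMap_algebraMap, IsScalarTower.algebraMap_apply O K ↥E]
  rfl

/-- `O[x] ⊆ O((q))` when `x ∈ O((q))`. -/
theorem rpn_adjoin_le_range {x : ↥E} {y : LaurentSeries O}
    (hxy : (x : LaurentSeries K) = coeffMap (algebraMap O K) y) {r : ↥E}
    (hr : r ∈ Algebra.adjoin O ({x} : Set ↥E)) :
    (r : LaurentSeries K) ∈ (coeffMap (algebraMap O K)).range := by
  induction hr using Algebra.adjoin_induction with
  | mem z hz =>
    rw [Set.mem_singleton_iff] at hz
    rw [hz, hxy]
    exact ⟨y, rfl⟩
  | algebraMap c =>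
    rw [rpn_coe_algebraMap]
    exact ⟨_, rfl⟩
  | add a b _ _ ha hb => exact Subring.add_mem _ ha hb
  | mul a b _ _ ha hb => exact Subring.mul_mem _ ha hb

/-- **q-expansion principle for the chart**: the chart functions have `q`-expansions over `O`. -/
theorem rpn_qint (hE : E ≤ gq_quotField O K) {x : ↥E} {y : LaurentSeries O}
    (hxy : (x : LaurentSeries K) = coeffMap (algebraMap O K) y)
    (hfin : ∃ G : Finset ↥E, (∀ g ∈ G, g ∈ fc_chart O ({x} : Set ↥E)) ∧
      ∀ b ∈ fc_chart O ({x} : Set ↥E),
        b ∈ Submodule.span ↥(Algebra.adjoin O ({x} : Set ↥E)) (G : Set ↥E)) :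
    ∀ b ∈ fc_chart O ({x} : Set ↥E), ∃ w : LaurentSeries O,
      coeffMap (algebraMap O K) w = (b : LaurentSeries K) := by
  classical
  obtain ⟨G, -, hspan⟩ := hfin
  set ι := coeffMap (algebraMap O K) with hι
  have hinj : Function.Injective ι := gq_coeffMap_injective (K := K) (IsFractionRing.injective O K)
  let φ : ↥E →+* LaurentSeries K := E.val.toRingHom
  let B : Subring (LaurentSeries K) := (fc_chart O ({x} : Set ↥E)).toSubring.map φ
  let R : Subring (LaurentSeries K) := (Algebra.adjoin O ({x} : Set ↥E)).toSubring.map φ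
  have hR : R ≤ ι.range := by
    rintro _ ⟨r, hr, rfl⟩
    exact rpn_adjoin_le_range E hxy hr
  have hG : ∀ g ∈ G.image φ, ∃ z2 : LaurentSeries O, ι z2 ≠ 0 ∧ g * ι z2 ∈ ι.range := by
    intro g hg
    obtain ⟨g₀, -, rfl⟩ := Finset.mem_image.1 hg
    obtain ⟨z1, z2, hz2, hz⟩ := hE g₀.2
    refine ⟨z2, fun h0 => hz2 (hinj (by rw [h0, map_zero])), ⟨z1, hz.symm⟩⟩
  have key : ∀ a : ↥E, a ∈ Submodule.span ↥(Algebra.adjoin O ({x} : Set ↥E)) (G : Set ↥E) →
      φ a ∈ Submodule.span R ((G.image φ : Finset (LaurentSeries K)) : Set _) := by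
    intro a ha
    induction ha using Submodule.span_induction with
    | mem g hg =>
      exact Submodule.subset_span (Finset.mem_coe.2 (Finset.mem_image_of_mem _ hg))
    | zero => rw [map_zero]; exact Submodule.zero_mem _
    | add a c _ _ ha hc => rw [map_add]; exact Submodule.add_mem _ ha hc
    | smul r a _ ha =>
      have : φ (r • a) = (⟨φ r, ⟨r, r.2, rfl⟩⟩ : ↥R) • φ a := by
        rw [Subring.smul_def, smul_eq_mul, ← map_mul]
        rfl
      rw [this]
      exact Submodule.smul_mem _ _ ha
  have hsp : ∀ b ∈ B, b ∈ Submodule.span R ((G.image φ : Finset (LaurentSeries K)) : Set _) := by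
    rintro _ ⟨b, hb, rfl⟩
    exact key b (hspan b hb)
  have hle := rqi_subring_le_range (rqi_cic_of_dvr (O := O) (K := K)) B R hR (G.image φ) hG hsp
  intro b hb
  obtain ⟨w, hw⟩ := hle (⟨b, hb, rfl⟩ : φ b ∈ B)
  exact ⟨w, hw⟩

/-- **the kernel of the coefficientwise reduction on the chart is generated by `π`**, when the
chart modulo `π` is a domain. -/
theorem rpn_ker {π : O} (hπ : Irreducible π) (hE : E ≤ gq_quotField O K) {x : ↥E}
    {y : LaurentSeries O} (hxy : (x : LaurentSeries K) = coeffMap (algebraMap O K) y)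
    (htr : ∀ p : (ResidueField O)[X], aeval (coeffMap (residue O) y) p = 0 → p = 0)
    (hprime : Prime (algebraMap O ↥(fc_chart O ({x} : Set ↥E)) π)) :
    ∀ b ∈ fc_chart O ({x} : Set ↥E), ∀ w : LaurentSeries O,
      coeffMap (algebraMap O K) w = (b : LaurentSeries K) → coeffMap (residue O) w = 0 →
        ∃ b' ∈ fc_chart O ({x} : Set ↥E), b = algebraMap O ↥E π * b' := by
  have hπ0 : π ≠ 0 := hπ.ne_zero
  have hπm : maximalIdeal O = Ideal.span {π} :=
    (IsDiscreteValuationRing.irreducible_iff_uniformizer π).1 hπ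
  have hu : gq_IsBdd O K (x : LaurentSeries K) := by rw [hxy]; exact gq_isBdd_iota y
  have htr' : ∀ p : (ResidueField O)[X],
      aeval (gq_res O K ⟨(x : LaurentSeries K), hu⟩) p = 0 → p = 0 := by
    intro p hp
    rw [gq_res_of_eq_iota ⟨(x : LaurentSeries K), hu⟩ y hxy] at hp
    exact htr p hp
  intro b hb w hw hw0
  have hbb : gq_IsBdd O K (b : LaurentSeries K) := by rw [← hw]; exact gq_isBdd_iota w
  have hnon : b ∈ (gq_valSubOf π hπ0 hπm E hE).nonunits := by
    rw [gq_mem_nonunits_iff_res π hπ0 hπm E hE b hbb,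
      gq_res_of_eq_iota ⟨(b : LaurentSeries K), hbb⟩ w hw.symm, hw0]
  obtain ⟨b', hb', hbb'⟩ := gq_center_of_integral_over_adjoin_singleton π hπ0 hπm E hE x hu htr'
    (fc_chart O ({x} : Set ↥E)) (fc_adjoin_le_chart _) (fun c hc => fc_mem_chart.1 hc) hprime
    b hb hnon
  refine ⟨b', hb', ?_⟩
  rw [hbb', ← IsScalarTower.algebraMap_apply O K ↥E]

/-- **The base-level package from the Dedekind property.** -/
theorem rpn_level0_of_dedekind [CharZero K] {π : O} (hπ : Irreducible π)
    (hE : E ≤ gq_quotField O K) {x : ↥E} {y : LaurentSeries O}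
    (hxy : (x : LaurentSeries K) = coeffMap (algebraMap O K) y)
    (htr : ∀ p : (ResidueField O)[X], aeval (coeffMap (residue O) y) p = 0 → p = 0)
    (hx : Transcendental K x) [FiniteDimensional K⟮x⟯ ↥E]
    (hded : IsDedekindDomain (↥(fc_chart O ({x} : Set ↥E)) ⧸
      Ideal.span {algebraMap O ↥(fc_chart O ({x} : Set ↥E)) π})) :
    rpn_Level0 E π x := by
  have hfin := rpn_fin (O := O) (K := K) (F0 := ↥E) hx
  have hinj : Function.Injective (algebraMap O ↥(fc_chart O ({x} : Set ↥E))) := by
    intro a c hac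
    have h1 : algebraMap O ↥E a = algebraMap O ↥E c := congrArg Subtype.val hac
    rw [IsScalarTower.algebraMap_apply O K ↥E, IsScalarTower.algebraMap_apply O K ↥E] at h1
    exact IsFractionRing.injective O K ((algebraMap K ↥E).injective h1)
  have hπ' : algebraMap O ↥(fc_chart O ({x} : Set ↥E)) π ≠ 0 := by
    intro h0
    exact hπ.ne_zero (hinj (by rw [h0, map_zero]))
  have hprime : Prime (algebraMap O ↥(fc_chart O ({x} : Set ↥E)) π) := by
    have hdom : IsDomain (↥(fc_chart O ({x} : Set ↥E)) ⧸
      Ideal.span {algebraMap O ↥(fc_chart O ({x} : Set ↥E)) π}) := inferInstance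
    exact (Ideal.span_singleton_prime hπ').1 ((Ideal.Quotient.isDomain_iff_prime _).1 hdom)
  exact ⟨rpn_qint E hE hxy hfin, hfin, rpn_ker E hπ hE hxy htr hprime, hded⟩

end QInt

end Fermat.Agent.JT3
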