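/-
JT3 / node E, producer side: the residue field of the base level `O₀ = A ∩ K₀` (prefix `ebr_`).

`A` a valuation subring of `ℚ̄` over `ℓ`, `K₀ = ebf_K0 ℓ`, `O₀ = A.comap (algebraMap K₀ ℚ̄)`.
By `ebf_residue_repr` every residue class of `A` is represented in `O₀`, so the residue field of
`O₀` is isomorphic to the residue field of `A`, which is algebraically closed (`jcr_isAlgClosed`).
This is the instance `[IsAlgClosed (ResidueField O)]` of `rcq_dedekind_descent` at the base level.
-/
import Mathlib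
import Fermat.Agent.JT3.PlaceMap.BaseField
import Fermat.Agent.JT3.Descent.FieldOfDef
import Fermat.Agent.JT3.S18.ConstRed

set_option autoImplicit false
set_option linter.unusedSectionVars false
set_option linter.style.haveILetI false

noncomputable section

namespace Fermat.Agent.JT3

open IsLocalRing

/-! ### generic: residue fields along a local homomorphism hitting every residue class -/

section Generic

variable {O A' : Type*} [CommRing O] [IsLocalRing O] [CommRing A'] [IsLocalRing A']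
  (φ : O →+* A') [IsLocalHom φ]

/-- if every residue class of `A'` is represented in `O`, the map of residue fields is
bijective. -/
theorem ebr_map_bijective (hrepr : ∀ a : A', ∃ o : O, residue A' (φ o) = residue A' a) :
    Function.Bijective (ResidueField.map φ) := by
  refine ⟨(ResidueField.map φ).injective, fun x => ?_⟩
  obtain ⟨a, rfl⟩ := residue_surjective x
  obtain ⟨o, ho⟩ := hrepr a
  exact ⟨residue O o, by rw [ResidueField.map_residue, ho]⟩

/-- the residue field isomorphism. -/
def ebr_residueEquivOfRepr (hrepr : ∀ a : A', ∃ o : O, residue A' (φ o) = residue A' a) :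
    ResidueField O ≃+* ResidueField A' :=
  RingEquiv.ofBijective (ResidueField.map φ) (ebr_map_bijective φ hrepr)

theorem ebr_residueEquivOfRepr_residue
    (hrepr : ∀ a : A', ∃ o : O, residue A' (φ o) = residue A' a) (o : O) :
    ebr_residueEquivOfRepr φ hrepr (residue O o) = residue A' (φ o) :=
  ResidueField.map_residue φ o

end Generic

/-! ### the base level -/

section Base

local notation "Qb" => AlgebraicClosure ℚ

variable (A : ValuationSubring Qb) (ℓ : ℕ) [hℓ : Fact ℓ.Prime] (hA : A.LiesOverPrime ℓ)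

include hA in
/-- every residue class of `A` is represented in `O₀ = A ∩ K₀` (through `dsc_incl`). -/
theorem ebr_repr (a : A) : ∃ o : ↥(A.comap (algebraMap ↥(ebf_K0 ℓ) Qb)),
    residue A (dsc_incl Qb A ↥(ebf_K0 ℓ) o) = residue A a := by
  obtain ⟨o, hoA, hoK, ho⟩ := ebf_residue_repr A ℓ hA a
  refine ⟨⟨⟨o, hoK⟩, hoA⟩, ?_⟩
  rw [← ho]
  rfl

/-- the residue field of `O₀ = A ∩ K₀` is the residue field of `A`. -/
def ebr_residueEquiv (hA : A.LiesOverPrime ℓ) :
    ResidueField ↥(A.comap (algebraMap ↥(ebf_K0 ℓ) Qb)) ≃+* ResidueField A :=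
  haveI := dsc_incl_isLocalHom Qb A ↥(ebf_K0 ℓ)
  ebr_residueEquivOfRepr (dsc_incl Qb A ↥(ebf_K0 ℓ)) (ebr_repr A ℓ hA)

theorem ebr_residueEquiv_residue (hA : A.LiesOverPrime ℓ)
    (o : ↥(A.comap (algebraMap ↥(ebf_K0 ℓ) Qb))) :
    ebr_residueEquiv A ℓ hA (residue _ o) = residue A (dsc_incl Qb A ↥(ebf_K0 ℓ) o) :=
  haveI := dsc_incl_isLocalHom Qb A ↥(ebf_K0 ℓ)
  ResidueField.map_residue (dsc_incl Qb A ↥(ebf_K0 ℓ)) o

include hA in
/-- **the residue field of the base level `O₀ = A ∩ K₀` is algebraically closed.** -/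
theorem ebr_isAlgClosed :
    IsAlgClosed (ResidueField ↥(A.comap (algebraMap ↥(ebf_K0 ℓ) Qb))) := by
  haveI := jcr_isAlgClosed A
  exact IsAlgClosed.of_ringEquiv (k := ResidueField A) _ (ebr_residueEquiv A ℓ hA).symm

include hA in
/-- the residue field of the base level has characteristic `ℓ`. -/
theorem ebr_charP : CharP (ResidueField ↥(A.comap (algebraMap ↥(ebf_K0 ℓ) Qb))) ℓ := by
  haveI := ebf_charP A ℓ hA
  exact (RingHom.charP_iff (ebr_residueEquiv A ℓ hA).toRingHom
    (ebr_residueEquiv A ℓ hA).injective ℓ).2 inferInstance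

include hA in
/-- `ℓ` lies in the maximal ideal of the base level. -/
theorem ebr_natCast_mem_maximalIdeal :
    ((ℓ : ℕ) : ↥(A.comap (algebraMap ↥(ebf_K0 ℓ) Qb))) ∈
      maximalIdeal ↥(A.comap (algebraMap ↥(ebf_K0 ℓ) Qb)) := by
  rw [mem_maximalIdeal, mem_nonunits_iff]
  exact (ebf_irreducible A ℓ hA).not_isUnit

omit hℓ in
/-- the base field contains a primitive `N`-th root of unity for `ℓ ∤ N`. -/
theorem ebr_exists_primitiveRoot (N : ℕ) [NeZero N] (hℓN : ¬ ℓ ∣ N) :
    ∃ ζ : ↥(ebf_K0 ℓ), IsPrimitiveRoot ζ N := by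
  have _ : NeZero ((N : ℕ) : ℚ) := ⟨by exact_mod_cast NeZero.ne N⟩
  obtain ⟨ζ, hζ⟩ := HasEnoughRootsOfUnity.exists_primitiveRoot Qb N
  refine ⟨⟨ζ, ebf_mem_K0 hℓN hζ.pow_eq_one⟩, ?_⟩
  exact IsPrimitiveRoot.of_map_of_injective (f := algebraMap ↥(ebf_K0 ℓ) Qb) hζ
    (algebraMap ↥(ebf_K0 ℓ) Qb).injective

end Base

end Fermat.Agent.JT3
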