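/-
JT3 / node E (place map), producer side, leaf [E-FIN], part 3: regular reduction and node E.

For a chart `fc_chart O₀ {x}` at a DVR level `(L, O₀ = A ∩ L)` satisfying `rpz_Level0`:
* `rpz_quotHom` : `chart → red(A[β gens])` is surjective with kernel `(π)`, so the reduced chart
  ring `rpz_D` is `chart ⧸ (π)`, a Dedekind domain (`rpz_isDedekindDomain`);
* `rpz_isFractionRing` : its fraction field is the reduced function field (Gauss factorisation,
  from the levels of the chart);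
* `rpz_chart` : good generators + base level (`rp_Base`) + `RedRegular` for the chart over `A`;
* **`rpz_nodeE_of_level0`** : `ReductionInputsModL A N` from the two charts `x = j`, `x = j⁻¹` at
  any DVR level `(L, A ∩ L)` with full residue field;
* **`rpz_nodeE_ebf`** : the same at the cyclotomic base level `L = ebf_K0 ℓ` (helper6's [E-BASE]).
Prefix `rpz_`.
-/
import Mathlib
import Fermat.Agent.JT3.PlaceMap.FinalChart

set_option autoImplicit false
set_option linter.unusedSectionVars false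
set_option linter.style.haveILetI false

namespace Fermat.Agent.JT3

open AlgebraicCurve Polynomial ModularCurve Fermat.Agent.S24 IntermediateField

attribute [local instance] Fermat.Agent.JT3.rpm_instAlgSubring Fermat.Agent.JT3.rpm_instAlgFt
set_option synthInstance.maxHeartbeats 400000

/-! ### the reduced chart ring is `chart ⧸ (π)` -/

section Quot

variable (A : ValuationSubring Kbar) {N : ℕ} [NeZero N]
  {L : Type*} [Field L] [Algebra ℚ L] [Algebra L Kbar] [IsScalarTower ℚ L Kbar]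

/-- the base change as a map from the base chart to the chart over `A`. -/
noncomputable def rpz_chartHom {x : ↥(lg_F L N)} {G₀ : Finset ↥(lg_F L N)}
    (hG₀ : Algebra.adjoin ↥(rpz_O0 A L) (G₀ : Set ↥(lg_F L N)) =
      fc_chart ↥(rpz_O0 A L) ({x} : Set ↥(lg_F L N)))
    (hGG : rpm_GoodGens A N (rpz_beta N L x) (rpz_gens N L G₀ : Set (Fbar N))) :
    ↥(fc_chart ↥(rpz_O0 A L) ({x} : Set ↥(lg_F L N))) →+*
      ↥(rpm_dataGen A N (rpz_beta N L x) (rpz_gens N L G₀ : Set (Fbar N)) hGG).chart.B :=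
  ((rpz_beta N L).comp
    (fc_chart ↥(rpz_O0 A L) ({x} : Set ↥(lg_F L N))).toSubring.subtype).codRestrict _
    (fun b₀ => rpz_genRing_le A _ (rpz_beta_mem_genRing A hG₀ b₀.2))

theorem rpz_chartHom_coe {x : ↥(lg_F L N)} {G₀ : Finset ↥(lg_F L N)}
    (hG₀ : Algebra.adjoin ↥(rpz_O0 A L) (G₀ : Set ↥(lg_F L N)) =
      fc_chart ↥(rpz_O0 A L) ({x} : Set ↥(lg_F L N)))
    (hGG : rpm_GoodGens A N (rpz_beta N L x) (rpz_gens N L G₀ : Set (Fbar N)))
    (b₀ : ↥(fc_chart ↥(rpz_O0 A L) ({x} : Set ↥(lg_F L N)))) :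
    ((rpz_chartHom A hG₀ hGG b₀ : ↥(rpm_dataGen A N (rpz_beta N L x)
      (rpz_gens N L G₀ : Set (Fbar N)) hGG).chart.B) : Fbar N) = rpz_beta N L (b₀ : ↥(lg_F L N)) :=
  rfl

/-- the reduction map of the base chart. -/
noncomputable def rpz_quotHom {x : ↥(lg_F L N)} {G₀ : Finset ↥(lg_F L N)}
    (hG₀ : Algebra.adjoin ↥(rpz_O0 A L) (G₀ : Set ↥(lg_F L N)) =
      fc_chart ↥(rpz_O0 A L) ({x} : Set ↥(lg_F L N)))
    (hGG : rpm_GoodGens A N (rpz_beta N L x) (rpz_gens N L G₀ : Set (Fbar N))) :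
    ↥(fc_chart ↥(rpz_O0 A L) ({x} : Set ↥(lg_F L N))) →+*
      ↥(rpz_D (rpm_dataGen A N (rpz_beta N L x) (rpz_gens N L G₀ : Set (Fbar N)) hGG).chart) :=
  (rpz_rho _).comp (rpz_chartHom A hG₀ hGG)

theorem rpz_quotHom_surjective
    (hres : ∀ a : A, ∃ c : L, algebraMap L Kbar c ∈ A ∧
      (a : Kbar) - algebraMap L Kbar c ∈ A.nonunits)
    {x : ↥(lg_F L N)} {G₀ : Finset ↥(lg_F L N)}
    (hG₀ : Algebra.adjoin ↥(rpz_O0 A L) (G₀ : Set ↥(lg_F L N)) =
      fc_chart ↥(rpz_O0 A L) ({x} : Set ↥(lg_F L N)))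
    (hGG : rpm_GoodGens A N (rpz_beta N L x) (rpz_gens N L G₀ : Set (Fbar N))) :
    Function.Surjective (rpz_quotHom A hG₀ hGG) := by
  intro d
  obtain ⟨b, rfl⟩ := rpz_rho_surjective _ d
  obtain ⟨b', hb', hbb'⟩ := rpz_red_surj
    (rpm_dataGen A N (rpz_beta N L x) (rpz_gens N L G₀ : Set (Fbar N)) hGG).chart
    (rpz_O' A L) (fun _ ho => rpz_O'_le A L ho)
    (fun a => by
      obtain ⟨c, hc, hac⟩ := hres a
      exact ⟨_, (rpz_mem_O' A L).2 ⟨c, hc, rfl⟩, hac⟩)
    (rpz_gens N L G₀ : Set (Fbar N)) rfl b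
  obtain ⟨b₀, hb₀, hb₀b'⟩ := rpz_exists_of_mem_genRing A hG₀ hb'
  refine ⟨⟨b₀, hb₀⟩, ?_⟩
  apply Subtype.ext
  change (rpm_dataGen A N (rpz_beta N L x) (rpz_gens N L G₀ : Set (Fbar N)) hGG).chart.red
    (rpz_chartHom A hG₀ hGG ⟨b₀, hb₀⟩) =
    (rpm_dataGen A N (rpz_beta N L x) (rpz_gens N L G₀ : Set (Fbar N)) hGG).chart.red b
  rw [← hbb']
  congr 1
  exact Subtype.ext hb₀b'

end Quot

section Ded

variable (A : ValuationSubring Kbar) {N : ℕ} [NeZero N]
  {L : Type*} [Field L] [Algebra ℚ L] [Algebra L Kbar] [IsScalarTower ℚ L Kbar]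

theorem rpz_quotHom_ker {π : ↥(rpz_O0 A L)} (hπ : π ∈ IsLocalRing.maximalIdeal ↥(rpz_O0 A L))
    {x : ↥(lg_F L N)} (H : rpz_Level0 (rpz_O0 A L) N π x) {G₀ : Finset ↥(lg_F L N)}
    (hG₀ : Algebra.adjoin ↥(rpz_O0 A L) (G₀ : Set ↥(lg_F L N)) =
      fc_chart ↥(rpz_O0 A L) ({x} : Set ↥(lg_F L N)))
    (hGG : rpm_GoodGens A N (rpz_beta N L x) (rpz_gens N L G₀ : Set (Fbar N))) :
    RingHom.ker (rpz_quotHom A hG₀ hGG) =
      Ideal.span {algebraMap ↥(rpz_O0 A L) ↥(fc_chart ↥(rpz_O0 A L) ({x} : Set ↥(lg_F L N))) π} := by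
  set C := (rpm_dataGen A N (rpz_beta N L x) (rpz_gens N L G₀ : Set (Fbar N)) hGG).chart with hC
  apply le_antisymm
  · intro b₀ hb₀
    rw [RingHom.mem_ker] at hb₀
    have h1 : C.red (rpz_chartHom A hG₀ hGG b₀) = 0 := congrArg Subtype.val hb₀
    have hmem : rpz_beta N L (b₀ : ↥(lg_F L N)) ∈ rpg_intSubring A (IsLocalRing.residue A) N :=
      (rpm_dataGen A N (rpz_beta N L x) (rpz_gens N L G₀ : Set (Fbar N)) hGG).le_int
        (rpz_chartHom A hG₀ hGG b₀).2
    obtain ⟨b', hb', hbb'⟩ := rpz_ker_of_red A H b₀.2 hmem h1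
    rw [Ideal.mem_span_singleton']
    refine ⟨⟨b', hb'⟩, Subtype.ext ?_⟩
    rw [mul_comm]
    exact hbb'.symm
  · rw [Ideal.span_singleton_le_iff_mem, RingHom.mem_ker]
    apply Subtype.ext
    have hπA : algebraMap L Kbar (π : L) ∈ A := π.2
    have hπm : (⟨algebraMap L Kbar (π : L), hπA⟩ : A) ∈ IsLocalRing.maximalIdeal A := by
      have h1 : (π : L) ∈ (rpz_O0 A L).nonunits := by
        rw [ValuationSubring.mem_nonunits_iff_exists_mem_maximalIdeal]
        exact ⟨π.2, hπ⟩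
      rw [dsc_mem_comap_nonunits_iff, ValuationSubring.mem_nonunits_iff_exists_mem_maximalIdeal]
        at h1
      exact h1.2
    have h2 : rpz_chartHom A hG₀ hGG
        (algebraMap ↥(rpz_O0 A L) ↥(fc_chart ↥(rpz_O0 A L) ({x} : Set ↥(lg_F L N))) π) =
        ⟨algebraMap Kbar (Fbar N) ((⟨algebraMap L Kbar (π : L), hπA⟩ : A) : Kbar),
          C.const_mem _⟩ := by
      apply Subtype.ext
      rw [rpz_chartHom_coe]
      exact rpz_beta_algebraMap N L (π : L)
    change C.red (rpz_chartHom A hG₀ hGG _) = 0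
    rw [h2, C.red_const]
    have h3 : C.res ⟨algebraMap L Kbar (π : L), hπA⟩ = 0 :=
      (IsLocalRing.residue_eq_zero_iff _).2 hπm
    rw [h3, map_zero]

/-- **the reduced chart ring is a Dedekind domain.** -/
theorem rpz_isDedekindDomain {π : ↥(rpz_O0 A L)}
    (hπ : π ∈ IsLocalRing.maximalIdeal ↥(rpz_O0 A L))
    (hres : ∀ a : A, ∃ c : L, algebraMap L Kbar c ∈ A ∧
      (a : Kbar) - algebraMap L Kbar c ∈ A.nonunits)
    {x : ↥(lg_F L N)} (H : rpz_Level0 (rpz_O0 A L) N π x) {G₀ : Finset ↥(lg_F L N)}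
    (hG₀ : Algebra.adjoin ↥(rpz_O0 A L) (G₀ : Set ↥(lg_F L N)) =
      fc_chart ↥(rpz_O0 A L) ({x} : Set ↥(lg_F L N)))
    (hGG : rpm_GoodGens A N (rpz_beta N L x) (rpz_gens N L G₀ : Set (Fbar N))) :
    IsDedekindDomain
      ↥(rpz_D (rpm_dataGen A N (rpz_beta N L x) (rpz_gens N L G₀ : Set (Fbar N)) hGG).chart) := by
  haveI := H.ded
  have e1 := RingHom.quotientKerEquivOfSurjective (rpz_quotHom_surjective A hres hG₀ hGG)
  have e2 := Ideal.quotEquivOfEq (rpz_quotHom_ker A hπ H hG₀ hGG)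
  exact nq_isDedekindDomain_of_ringEquiv
    (S := ↥(fc_chart ↥(rpz_O0 A L) ({x} : Set ↥(lg_F L N))) ⧸
      Ideal.span {algebraMap ↥(rpz_O0 A L) ↥(fc_chart ↥(rpz_O0 A L) ({x} : Set ↥(lg_F L N))) π})
    (e2.symm.trans e1).symm

end Ded

/-! ### the fraction field of the reduced chart ring -/

section Frac

variable (A : ValuationSubring Kbar) (N : ℕ) [NeZero N]

/-- the reduction of `j(q^d)` lies in the fraction field of the reduced chart ring. -/
theorem rpz_gen_mem_closure {x : Fbar N} (D : rpm_ChartData A N x) (hL : D.chart.HasLevels)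
    {d : ℕ} [NeZero d] (hd : d ∣ N) :
    (⟨qExpand (IsLocalRing.ResidueField A) d (jqModC (IsLocalRing.ResidueField A)),
      jqModCd_mem_full (IsLocalRing.ResidueField A) N hd⟩ :
        ↥(modularFunctionFieldFullC (IsLocalRing.ResidueField A) N)) ∈
      Subfield.closure (rpz_D D.chart :
        Set ↥(modularFunctionFieldFullC (IsLocalRing.ResidueField A) N)) := by
  set C := D.chart with hC
  set f : Fbar N := barGenF N d hd with hf
  have hfcoe : (f : LaurentSeries Kbar) = barGen d := coe_barGenF d hd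
  have hfint : f ∈ rpg_intSubring A (IsLocalRing.residue A) N := rpm_gen_mem_int A N hd hfcoe
  have hred : rpg_intRed A (IsLocalRing.residue A) N ⟨f, hfint⟩ =
      ⟨qExpand (IsLocalRing.ResidueField A) d (jqModC (IsLocalRing.ResidueField A)),
        jqModCd_mem_full (IsLocalRing.ResidueField A) N hd⟩ := by
    apply Subtype.ext
    rw [rpm_intRed_coe A N ⟨f, hfint⟩ (qExpand A d (jqModC A)) (by
      rw [coeffMap_qExpand, coeffMap_jqModC, hfcoe, rpm_barGen_eq]),
      coeffMap_qExpand, coeffMap_jqModC]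
  rw [← hred]
  by_cases hf0 : f = 0
  · have : (⟨f, hfint⟩ : rpg_intSubring A (IsLocalRing.residue A) N) = 0 := Subtype.ext hf0
    rw [this, map_zero]
    exact zero_mem _
  obtain ⟨c, a, b, hc0, hra, hrb, hrel⟩ := rpm_exists_gauss_factor C hL f hf0
  have hD : ∀ y : C.B, C.red y ∈ Subfield.closure (rpz_D C :
      Set ↥(modularFunctionFieldFullC (IsLocalRing.ResidueField A) N)) :=
    fun y => Subfield.subset_closure ⟨y, rfl⟩
  have haint : (a : Fbar N) ∈ rpg_intSubring A (IsLocalRing.residue A) N := D.le_int a.2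
  have hbint : (b : Fbar N) ∈ rpg_intSubring A (IsLocalRing.residue A) N := D.le_int b.2
  have hra' : C.red a = rpg_intRed A (IsLocalRing.residue A) N ⟨a, haint⟩ := rfl
  have hrb' : C.red b = rpg_intRed A (IsLocalRing.residue A) N ⟨b, hbint⟩ := rfl
  by_cases hcA : c ∈ A
  · -- `c ∈ A`
    have hcint := rpm_const_mem_int A N ⟨c, hcA⟩
    have h1 : (⟨f, hfint⟩ : rpg_intSubring A (IsLocalRing.residue A) N) * ⟨b, hbint⟩ =
        ⟨algebraMap Kbar (Fbar N) c, hcint⟩ * ⟨a, haint⟩ := Subtype.ext hrel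
    have h2 := congrArg (rpg_intRed A (IsLocalRing.residue A) N) h1
    rw [map_mul, map_mul, ← hra', ← hrb'] at h2
    have h3 : rpg_intRed A (IsLocalRing.residue A) N ⟨algebraMap Kbar (Fbar N) c, hcint⟩ =
        C.red ⟨algebraMap Kbar (Fbar N) ((⟨c, hcA⟩ : A) : Kbar), C.const_mem _⟩ := rfl
    rw [h3] at h2
    have h4 : rpg_intRed A (IsLocalRing.residue A) N ⟨f, hfint⟩ =
        C.red ⟨algebraMap Kbar (Fbar N) ((⟨c, hcA⟩ : A) : Kbar), C.const_mem _⟩ * C.red a /
          C.red b := by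
      rw [eq_div_iff hrb]
      exact h2
    rw [h4]
    exact div_mem (mul_mem (hD _) (hD _)) (hD _)
  · -- `c ∉ A`: then `c⁻¹ ∈ 𝔪_A` and `red a = 0`, a contradiction
    exfalso
    have hciA : c⁻¹ ∈ A := (A.mem_or_inv_mem c).resolve_left hcA
    have hcim : (⟨c⁻¹, hciA⟩ : A) ∈ IsLocalRing.maximalIdeal A := by
      rw [IsLocalRing.mem_maximalIdeal, mem_nonunits_iff]
      intro hu
      apply hcA
      obtain ⟨u, hu⟩ := hu.exists_right_inv
      have h1 : c⁻¹ * (u : Kbar) = 1 := congrArg Subtype.val hu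
      have h2 : (u : Kbar) = c := by
        rw [← inv_inv c]
        exact (eq_inv_of_mul_eq_one_right h1)
      rw [← h2]
      exact u.2
    have hcint := rpm_const_mem_int A N ⟨c⁻¹, hciA⟩
    have hrel' : algebraMap Kbar (Fbar N) c⁻¹ * (f * (b : Fbar N)) = (a : Fbar N) := by
      rw [hrel, ← mul_assoc, ← map_mul, inv_mul_cancel₀ hc0, map_one, one_mul]
    have h1 : (⟨algebraMap Kbar (Fbar N) c⁻¹, hcint⟩ :
        rpg_intSubring A (IsLocalRing.residue A) N) * (⟨f, hfint⟩ * ⟨b, hbint⟩) = ⟨a, haint⟩ :=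
      Subtype.ext hrel'
    have h2 := congrArg (rpg_intRed A (IsLocalRing.residue A) N) h1
    rw [map_mul, ← hra'] at h2
    have h3 : rpg_intRed A (IsLocalRing.residue A) N ⟨algebraMap Kbar (Fbar N) c⁻¹, hcint⟩ = 0 := by
      rw [rpm_intRed_const A N ⟨c⁻¹, hciA⟩, (IsLocalRing.residue_eq_zero_iff _).2 hcim, map_zero]
    rw [h3, zero_mul] at h2
    exact hra h2.symm

end Frac

section Frac2

variable (A : ValuationSubring Kbar) (N : ℕ) [NeZero N]

/-- every element of the reduced function field lies in the fraction field of the reduced chart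
ring. -/
theorem rpz_mem_closure {x : Fbar N} (D : rpm_ChartData A N x) (hL : D.chart.HasLevels)
    (y : ↥(modularFunctionFieldFullC (IsLocalRing.ResidueField A) N)) :
    y ∈ Subfield.closure (rpz_D D.chart :
      Set ↥(modularFunctionFieldFullC (IsLocalRing.ResidueField A) N)) := by
  set S' := Subfield.closure (rpz_D D.chart :
      Set ↥(modularFunctionFieldFullC (IsLocalRing.ResidueField A) N)) with hS'
  let T : IntermediateField (IsLocalRing.ResidueField A)
      (LaurentSeries (IsLocalRing.ResidueField A)) :=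
    (S'.map (modularFunctionFieldFullC (IsLocalRing.ResidueField A) N).toSubfield.subtype
      ).toIntermediateField (fun c =>
        ⟨(algebraMap (IsLocalRing.ResidueField A)
          ↥(modularFunctionFieldFullC (IsLocalRing.ResidueField A) N) c :
            ↥(modularFunctionFieldFullC (IsLocalRing.ResidueField A) N)),
          Subfield.subset_closure (Subalgebra.algebraMap_mem (rpz_D D.chart) c), rfl⟩)
  have hle : modularFunctionFieldFullC (IsLocalRing.ResidueField A) N ≤ T := by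
    rw [modularFunctionFieldFullC, IntermediateField.adjoin_le_iff]
    rintro _ ⟨d, hd, hdN, rfl⟩
    haveI := hd
    exact ⟨_, rpz_gen_mem_closure A N D hL hdN, rfl⟩
  obtain ⟨y', hy', hyy'⟩ := hle y.2
  have : y' = y := Subtype.ext hyy'
  rw [← this]
  exact hy'

/-- **the reduced function field is the fraction field of the reduced chart ring.** -/
theorem rpz_isFractionRing {x : Fbar N} (D : rpm_ChartData A N x) (hL : D.chart.HasLevels) :
    IsFractionRing ↥(rpz_D D.chart)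
      ↥(modularFunctionFieldFullC (IsLocalRing.ResidueField A) N) := by
  refine IsFractionRing.of_field _ _ (fun z => ?_)
  have hz := rpz_mem_closure A N D hL z
  have hcl : Subring.closure ((rpz_D D.chart : Subalgebra _ _) :
      Set ↥(modularFunctionFieldFullC (IsLocalRing.ResidueField A) N)) =
      (rpz_D D.chart).toSubring := Subring.closure_eq (rpz_D D.chart).toSubring
  rw [Subfield.mem_closure_iff, hcl] at hz
  obtain ⟨y, hy, w, hw, hyw⟩ := hz
  exact ⟨⟨y, hy⟩, ⟨w, hw⟩, hyw.symm⟩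

end Frac2

/-! ### one chart -/

section OneChart

variable (A : ValuationSubring Kbar) {N : ℕ} [NeZero N]
  {L : Type*} [Field L] [Algebra ℚ L] [Algebra L Kbar] [IsScalarTower ℚ L Kbar]
  {ℓ : ℕ} [Fact ℓ.Prime]

/-- **one chart of the model over `A`** from a chart at the DVR level `(L, A ∩ L)`: good
generators, a base level and regular reduction. -/
theorem rpz_chart (hℓN : ¬ ℓ ∣ N) (hA : A.LiesOverPrime ℓ)
    [IsDiscreteValuationRing ↥(rpz_O0 A L)] {π : ↥(rpz_O0 A L)} (hπ : Irreducible π)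
    (hres : ∀ a : A, ∃ c : L, algebraMap L Kbar c ∈ A ∧
      (a : Kbar) - algebraMap L Kbar c ∈ A.nonunits)
    {x : ↥(lg_F L N)} (H : rpz_Level0 (rpz_O0 A L) N π x)
    (halg : Algebra.IsAlgebraic ↥(Algebra.adjoin ↥(rpz_O0 A L) ({x} : Set ↥(lg_F L N)))
      ↥(lg_F L N))
    {X : Fbar N} (hX : rpz_beta N L x = X)
    (hXint : X ∈ rpg_intSubring A (IsLocalRing.residue A) N)
    (htr : Transcendental (IsLocalRing.ResidueField A)
      (rpg_intRed A (IsLocalRing.residue A) N ⟨X, hXint⟩)) :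
    ∃ (gens : Set (Fbar N)) (hGG : rpm_GoodGens A N X gens),
      Nonempty (rp_Base (rpm_dataGen A N X gens hGG).chart) ∧
        (rpm_dataGen A N X gens hGG).chart.RedRegular := by
  subst hX
  obtain ⟨G₀, hG₀⟩ := H.fg
  have hGG := rpz_goodGens A hℓN hA H hG₀ halg
  refine ⟨(rpz_gens N L G₀ : Set (Fbar N)), hGG, ⟨rpz_base A hπ hres H hG₀ hGG⟩, ?_⟩
  set D := rpm_dataGen A N (rpz_beta N L x) (rpz_gens N L G₀ : Set (Fbar N)) hGG with hD
  have hL : D.chart.HasLevels := rpu_hasLevels (rpm_funField N) (rpz_base A hπ hres H hG₀ hGG)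
  have hπm : π ∈ IsLocalRing.maximalIdeal ↥(rpz_O0 A L) := by
    rw [IsLocalRing.mem_maximalIdeal]
    exact hπ.not_isUnit
  haveI : IsDedekindDomain ↥(rpz_D D.chart) := rpz_isDedekindDomain A hπm hres H hG₀ hGG
  haveI : IsFractionRing ↥(rpz_D D.chart)
      ↥(modularFunctionFieldFullC (IsLocalRing.ResidueField A) N) :=
    rpz_isFractionRing A N D hL
  have hnf : ¬ IsField ↥(rpz_D D.chart) :=
    rpz_not_isField D.chart D.x_mem D.integral htr
  exact rpd_redRegular D.chart ↥(rpz_D D.chart) hnf (rpz_rho D.chart)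
    (rpz_rho_surjective D.chart) (rpz_rho_spec D.chart)

end OneChart

/-! ### node E -/

section NodeE

variable (A : ValuationSubring Kbar) {N : ℕ} [NeZero N]
  {L : Type*} [Field L] [Algebra ℚ L] [Algebra L Kbar] [IsScalarTower ℚ L Kbar]
  {ℓ : ℕ} [Fact ℓ.Prime]

theorem rpz_red_j_transcendental :
    Transcendental (IsLocalRing.ResidueField A)
      (rpg_intRed A (IsLocalRing.residue A) N ⟨br_jBar N, rpm_j_mem_int A N⟩) := by
  intro h
  apply vx_transcendental_jq (k := IsLocalRing.ResidueField A)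
  have h1 := h.algebraMap (A := LaurentSeries (IsLocalRing.ResidueField A))
  have h2 : algebraMap ↥(modularFunctionFieldFullC (IsLocalRing.ResidueField A) N)
      (LaurentSeries (IsLocalRing.ResidueField A))
      (rpg_intRed A (IsLocalRing.residue A) N ⟨br_jBar N, rpm_j_mem_int A N⟩) =
      jqModC (IsLocalRing.ResidueField A) := by
    change ((rpg_intRed A (IsLocalRing.residue A) N ⟨br_jBar N, rpm_j_mem_int A N⟩ :
      ↥(modularFunctionFieldFullC (IsLocalRing.ResidueField A) N)) :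
        LaurentSeries (IsLocalRing.ResidueField A)) = _
    rw [rpm_intRed_coe A N ⟨br_jBar N, rpm_j_mem_int A N⟩ (jqModC A) (by
      rw [coeffMap_jqModC, coe_br_jBar, rpm_jqK_eq]), coeffMap_jqModC]
  rwa [h2] at h1

theorem rpz_red_jinv_transcendental :
    Transcendental (IsLocalRing.ResidueField A)
      (rpg_intRed A (IsLocalRing.residue A) N ⟨(br_jBar N)⁻¹, rpm_jinv_mem_int A N⟩) := by
  have h1 : rpg_intRed A (IsLocalRing.residue A) N ⟨br_jBar N, rpm_j_mem_int A N⟩ *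
      rpg_intRed A (IsLocalRing.residue A) N ⟨(br_jBar N)⁻¹, rpm_jinv_mem_int A N⟩ = 1 := by
    rw [← map_mul]
    have : (⟨br_jBar N, rpm_j_mem_int A N⟩ : rpg_intSubring A (IsLocalRing.residue A) N) *
        ⟨(br_jBar N)⁻¹, rpm_jinv_mem_int A N⟩ = 1 :=
      Subtype.ext (mul_inv_cancel₀ (rpm_j_ne_zero N))
    rw [this, map_one]
  rw [eq_inv_of_mul_eq_one_right h1]
  intro h
  exact rpz_red_j_transcendental A (IsAlgebraic.inv_iff.1 h)

/-- **Node E from two charts at a DVR level `(L, A ∩ L)`**, `L` any subfield of `Q̄` such that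
`A ∩ L` is a discrete valuation ring with the same residue field as `A`. -/
theorem rpz_nodeE_of_level0 (hℓN : ¬ ℓ ∣ N) (hA : A.LiesOverPrime ℓ)
    [IsDiscreteValuationRing ↥(rpz_O0 A L)] {π : ↥(rpz_O0 A L)} (hπ : Irreducible π)
    (hres : ∀ a : A, ∃ c : L, algebraMap L Kbar c ∈ A ∧
      (a : Kbar) - algebraMap L Kbar c ∈ A.nonunits)
    (H1 : rpz_Level0 (rpz_O0 A L) N π (rpz_jF L N))
    (H2 : rpz_Level0 (rpz_O0 A L) N π (rpz_jF L N)⁻¹) :
    ReductionInputsModL A N := by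
  haveI : CharZero L := algebraRat.charZero L
  haveI : IsFractionRing ↥(rpz_O0 A L) L := inferInstance
  haveI : IsScalarTower ↥(rpz_O0 A L) L ↥(lg_F L N) := IsScalarTower.of_algebraMap_eq fun _ => rfl
  have halg1 : Algebra.IsAlgebraic
      ↥(Algebra.adjoin ↥(rpz_O0 A L) ({rpz_jF L N} : Set ↥(lg_F L N))) ↥(lg_F L N) := by
    haveI := rpz_finite L N
    exact fc_ff_isAlgebraic (L := L) (rpz_jF L N)
  have halg2 : Algebra.IsAlgebraic
      ↥(Algebra.adjoin ↥(rpz_O0 A L) ({(rpz_jF L N)⁻¹} : Set ↥(lg_F L N))) ↥(lg_F L N) := by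
    haveI := rpz_finite_inv L N
    exact fc_ff_isAlgebraic (L := L) (rpz_jF L N)⁻¹
  obtain ⟨gens₁, h₁, ⟨Bs1⟩, hR1⟩ := rpz_chart A hℓN hA hπ hres H1 halg1 (rpz_beta_jF N L)
    (rpm_j_mem_int A N) (rpz_red_j_transcendental A)
  obtain ⟨gens₂, h₂, ⟨Bs2⟩, hR2⟩ := rpz_chart A hℓN hA hπ hres H2 halg2
    (by rw [map_inv₀, rpz_beta_jF]) (rpm_jinv_mem_int A N) (rpz_red_jinv_transcendental A)
  exact rpm_reductionInputsModL_base_gens A N hℓN hA gens₁ gens₂ h₁ h₂ Bs1 hR1 Bs2 hR2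

end NodeE

/-! ### the cyclotomic base level -/

section Ebf

variable {N : ℕ} [NeZero N] {ℓ : ℕ} [Fact ℓ.Prime]

/-- **Node E at the cyclotomic base level** `K₀ = ℚ(μ_m : ℓ ∤ m)`, `O₀ = A ∩ K₀`, uniformiser `ℓ`:
`ReductionInputsModL A N` from the hypotheses `rpz_Level0` on the two charts `x = j`, `x = j⁻¹`. -/
theorem rpz_nodeE_ebf (hℓN : ¬ ℓ ∣ N) (A : ValuationSubring Kbar) (hA : A.LiesOverPrime ℓ)
    (H1 : rpz_Level0 (rpz_O0 A ↥(ebf_K0 ℓ)) N ((ℓ : ℕ) : ↥(rpz_O0 A ↥(ebf_K0 ℓ)))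
      (rpz_jF ↥(ebf_K0 ℓ) N))
    (H2 : rpz_Level0 (rpz_O0 A ↥(ebf_K0 ℓ)) N ((ℓ : ℕ) : ↥(rpz_O0 A ↥(ebf_K0 ℓ)))
      (rpz_jF ↥(ebf_K0 ℓ) N)⁻¹) :
    ReductionInputsModL A N := by
  haveI : IsDiscreteValuationRing ↥(rpz_O0 A ↥(ebf_K0 ℓ)) := ebf_isDVR A ℓ hA
  refine rpz_nodeE_of_level0 A hℓN hA (ebf_irreducible A ℓ hA) ?_ H1 H2
  intro a
  obtain ⟨o, ho, hoK, hres⟩ := ebf_residue_repr A ℓ hA a
  refine ⟨⟨o, hoK⟩, ho, ?_⟩
  change (a : Kbar) - o ∈ A.nonunits
  rw [ValuationSubring.mem_nonunits_iff_exists_mem_maximalIdeal]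
  refine ⟨sub_mem a.2 ho, ?_⟩
  rw [← IsLocalRing.residue_eq_zero_iff]
  have : (⟨(a : Kbar) - o, sub_mem a.2 ho⟩ : A) = a - ⟨o, ho⟩ := rfl
  rw [this, map_sub, hres, sub_self]

end Ebf

end Fermat.Agent.JT3
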