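/-
JT3 / node E (place map), producer side, leaf [E-FIN], part 4: the final statement against the
interface structure `rpn_Level0` of `PlaceMap/Level0.lean`.

* `rpz_level0_of_rpn` : the interface structure `rpn_Level0 (lg_F L N) π x` gives the local
  `rpz_Level0 O N π x` (the elementwise `fin` gives "finitely generated `O`-algebra").
* **`rpz_nodeE_of_rpn`** : `ReductionInputsModL A N` from `rpn_Level0` for the two charts
  `x = rml_jF L N`, `(rml_jF L N)⁻¹` at any DVR level `(L, A ∩ L)` with full residue field.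
* **`rpz_nodeE`** : the same at the cyclotomic base level `L = ebf_K0 ℓ`, uniformiser `ℓ`
  (the statement of the architecture note; the instance binder
  `[IsDiscreteValuationRing ↥(A.comap ..)]` is needed to state `rpn_Level0`: use
  `haveI := ebf_isDVR A ℓ hA`).
Prefix `rpz_`.
-/
import Mathlib
import Fermat.Agent.JT3.PlaceMap.Final
import Fermat.Agent.JT3.PlaceMap.Level0
import Fermat.Agent.JT3.Export.RamLInst

set_option autoImplicit false
set_option linter.unusedSectionVars false
set_option linter.style.haveILetI false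

namespace Fermat.Agent.JT3

open AlgebraicCurve Polynomial ModularCurve Fermat.Agent.S24 IntermediateField

section Wrap

variable {L : Type*} [Field L] (O : ValuationSubring L) [IsDiscreteValuationRing O]
  (N : ℕ) [NeZero N]

/-- the elementwise finiteness of a chart gives a finite set of algebra generators. -/
theorem rpz_fg_of_span {x : ↥(lg_F L N)}
    (hfin : ∃ G : Finset ↥(lg_F L N), (∀ g ∈ G, g ∈ fc_chart O ({x} : Set ↥(lg_F L N))) ∧
      ∀ b ∈ fc_chart O ({x} : Set ↥(lg_F L N)),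
        b ∈ Submodule.span ↥(Algebra.adjoin O ({x} : Set ↥(lg_F L N))) (G : Set ↥(lg_F L N))) :
    (fc_chart O ({x} : Set ↥(lg_F L N))).FG := by
  classical
  obtain ⟨G, hG, hspan⟩ := hfin
  refine ⟨{x} ∪ G, le_antisymm ?_ ?_⟩
  · refine Algebra.adjoin_le ?_
    intro y hy
    rw [Finset.coe_union, Finset.coe_singleton] at hy
    rcases hy with hy | hy
    · rw [Set.mem_singleton_iff] at hy
      rw [hy]
      exact fc_adjoin_le_chart _ (Algebra.subset_adjoin rfl)
    · exact hG y hy
  · intro b hb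
    have hle : Algebra.adjoin O ({x} : Set ↥(lg_F L N)) ≤
        Algebra.adjoin O ((({x} ∪ G : Finset ↥(lg_F L N)) : Set ↥(lg_F L N))) :=
      Algebra.adjoin_mono (by
        intro y hy
        rw [Set.mem_singleton_iff] at hy
        rw [hy]
        simp)
    have key : ∀ z : ↥(lg_F L N),
        z ∈ Submodule.span ↥(Algebra.adjoin O ({x} : Set ↥(lg_F L N))) (G : Set ↥(lg_F L N)) →
        z ∈ Algebra.adjoin O ((({x} ∪ G : Finset ↥(lg_F L N)) : Set ↥(lg_F L N))) := by
      intro z hz
      induction hz using Submodule.span_induction with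
      | mem g hg => exact Algebra.subset_adjoin (by simp [Finset.mem_coe.1 hg])
      | zero => exact zero_mem _
      | add y z _ _ hy hz => exact add_mem hy hz
      | smul r y _ hy =>
        have : r • y = (r : ↥(lg_F L N)) * y := rfl
        rw [this]
        exact mul_mem (hle r.2) hy
    exact key b (hspan b hb)

/-- the interface structure of `PlaceMap/Level0.lean` gives the hypotheses of this file. -/
theorem rpz_level0_of_rpn {π : O} {x : ↥(lg_F L N)} (H : rpn_Level0 (lg_F L N) π x) :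
    rpz_Level0 O N π x where
  qint := H.qint
  fg := rpz_fg_of_span O N H.fin
  ker := H.ker
  ded := H.ded

end Wrap

section NodeE

variable {N : ℕ} [NeZero N] {ℓ : ℕ} [Fact ℓ.Prime]

/-- **Node E from the interface structure**, at any DVR level `(L, A ∩ L)` with full residue
field. -/
theorem rpz_nodeE_of_rpn {L : Type*} [Field L] [Algebra ℚ L] [Algebra L Kbar]
    [IsScalarTower ℚ L Kbar] (hℓN : ¬ ℓ ∣ N) (A : ValuationSubring Kbar) (hA : A.LiesOverPrime ℓ)
    [IsDiscreteValuationRing ↥(A.comap (algebraMap L Kbar))]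
    {π : ↥(A.comap (algebraMap L Kbar))} (hπ : Irreducible π)
    (hres : ∀ a : A, ∃ c : L, algebraMap L Kbar c ∈ A ∧
      (a : Kbar) - algebraMap L Kbar c ∈ A.nonunits)
    (h1 : rpn_Level0 (lg_F L N) π (rml_jF L N))
    (h2 : rpn_Level0 (lg_F L N) π (rml_jF L N)⁻¹) :
    ReductionInputsModL A N :=
  rpz_nodeE_of_level0 A hℓN hA hπ hres
    (rpz_level0_of_rpn (A.comap (algebraMap L Kbar)) N h1)
    (rpz_level0_of_rpn (A.comap (algebraMap L Kbar)) N h2)

set_option synthInstance.maxHeartbeats 400000 in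
set_option maxHeartbeats 1000000 in
/-- **[E-FIN] Node E at the cyclotomic base level** `K₀ = ebf_K0 ℓ`, `O₀ = A ∩ K₀`, `ℓ' = ℓ`. -/
theorem rpz_nodeE (N : ℕ) [NeZero N] {ℓ : ℕ} [Fact ℓ.Prime] (hℓN : ¬ ℓ ∣ N)
    (A : ValuationSubring Kbar) (hA : A.LiesOverPrime ℓ)
    [IsDiscreteValuationRing ↥(A.comap (algebraMap ↥(ebf_K0 ℓ) Kbar))]
    (h1 : rpn_Level0 (lg_F ↥(ebf_K0 ℓ) N)
      ((ℓ : ℕ) : ↥(A.comap (algebraMap ↥(ebf_K0 ℓ) Kbar))) (rml_jF ↥(ebf_K0 ℓ) N))
    (h2 : rpn_Level0 (lg_F ↥(ebf_K0 ℓ) N)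
      ((ℓ : ℕ) : ↥(A.comap (algebraMap ↥(ebf_K0 ℓ) Kbar))) (rml_jF ↥(ebf_K0 ℓ) N)⁻¹) :
    ReductionInputsModL A N :=
  rpz_nodeE_ebf hℓN A hA
    (rpz_level0_of_rpn (A.comap (algebraMap ↥(ebf_K0 ℓ) Kbar)) N h1)
    (rpz_level0_of_rpn (A.comap (algebraMap ↥(ebf_K0 ℓ) Kbar)) N h2)

end NodeE

end Fermat.Agent.JT3
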