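/-
[E-GAL] (C) (node E, producer side): transport of charts along an isomorphism of fields.
`φ : F ≃ₐ[O] F'` induces `fc_chart O {y} ≃ₐ[O] fc_chart O {φ y}`, hence "Dedekind modulo `π`"
passes from the chart at `φ y` to the chart at `y`.  Instances: `φ = (q ↦ q²) : lg_F ≃ lg_F2`
(Legendre) and `φ = (q ↦ q³) : lg_F ≃ hs_F3` (Hesse).
-/
import Mathlib
import Fermat.Agent.JT3.Algebra.NormQuotient
import Fermat.Agent.JT3.FCore.Charts
import Fermat.Agent.JT3.Export.RamLHesse

set_option autoImplicit false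
set_option linter.unusedSectionVars false
set_option linter.style.haveILetI false

namespace Fermat.Agent.JT3

noncomputable section

section Generic

variable {O F F' : Type*} [CommRing O] [Field F] [Field F'] [Algebra O F] [Algebra O F']

/-- the image of a chart element under an `O`-algebra homomorphism lies in the image chart. -/
theorem rct_map_mem (φ : F →ₐ[O] F') (y : F) {z : F} (hz : z ∈ fc_chart O ({y} : Set F)) :
    φ z ∈ fc_chart O ({φ y} : Set F') := by
  rw [fc_mem_chart] at hz ⊢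
  have hmap : (Algebra.adjoin O ({y} : Set F)).map φ = Algebra.adjoin O ({φ y} : Set F') := by
    rw [AlgHom.map_adjoin, Set.image_singleton]
  have hmem : ∀ r : Algebra.adjoin O ({y} : Set F),
      φ (r : F) ∈ Algebra.adjoin O ({φ y} : Set F') := by
    intro r
    rw [← hmap]
    exact ⟨r, r.2, rfl⟩
  let ψ : Algebra.adjoin O ({y} : Set F) →+* Algebra.adjoin O ({φ y} : Set F') :=
    { toFun := fun r => ⟨φ (r : F), hmem r⟩
      map_one' := Subtype.ext (by simp)
      map_mul' := fun a b => Subtype.ext (by simp)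
      map_zero' := Subtype.ext (by simp)
      map_add' := fun a b => Subtype.ext (by simp) }
  exact IsIntegral.map_of_comp_eq ψ φ.toRingHom (by ext r; rfl) hz

/-- **Transport of a chart** along an isomorphism of fields. -/
def rct_chartEquiv (φ : F ≃ₐ[O] F') (y : F) :
    fc_chart O ({y} : Set F) ≃ₐ[O] fc_chart O ({φ y} : Set F') where
  toFun z := ⟨φ z, rct_map_mem φ.toAlgHom y z.2⟩
  invFun w := ⟨φ.symm w, by
    have h := rct_map_mem φ.symm.toAlgHom (φ y) w.2
    have h2 : φ.symm.toAlgHom (φ y) = y := φ.symm_apply_apply y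
    rwa [h2] at h⟩
  left_inv z := Subtype.ext (φ.symm_apply_apply z)
  right_inv w := Subtype.ext (φ.apply_symm_apply w)
  map_mul' a b := Subtype.ext (by simp)
  map_add' a b := Subtype.ext (by simp)
  commutes' o := Subtype.ext (by simp)

@[simp] theorem rct_chartEquiv_coe (φ : F ≃ₐ[O] F') (y : F) (z : fc_chart O ({y} : Set F)) :
    ((rct_chartEquiv φ y z : fc_chart O ({φ y} : Set F')) : F') = φ (z : F) := rfl

/-- the quotients of the two charts by `π` are isomorphic. -/
def rct_quotientEquiv (φ : F ≃ₐ[O] F') (y : F) (π : O) :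
    (fc_chart O ({y} : Set F) ⧸ Ideal.span {algebraMap O (fc_chart O ({y} : Set F)) π}) ≃+*
      (fc_chart O ({φ y} : Set F') ⧸
        Ideal.span {algebraMap O (fc_chart O ({φ y} : Set F')) π}) :=
  Ideal.quotientEquiv (Ideal.span {algebraMap O (fc_chart O ({y} : Set F)) π})
    (Ideal.span {algebraMap O (fc_chart O ({φ y} : Set F')) π})
    (rct_chartEquiv φ y).toRingEquiv (by
      rw [Ideal.map_span, Set.image_singleton]
      congr 2
      exact ((rct_chartEquiv φ y).commutes π).symm)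

/-- **Transport of "Dedekind modulo `π`"** from the chart at `φ y` to the chart at `y`. -/
theorem rct_dedekind (φ : F ≃ₐ[O] F') (y : F) (π : O)
    (h : IsDedekindDomain (fc_chart O ({φ y} : Set F') ⧸
      Ideal.span {algebraMap O (fc_chart O ({φ y} : Set F')) π})) :
    IsDedekindDomain (fc_chart O ({y} : Set F) ⧸
      Ideal.span {algebraMap O (fc_chart O ({y} : Set F)) π}) :=
  nq_isDedekindDomain_of_ringEquiv (rct_quotientEquiv φ y π)

/-- transport in the other direction. -/
theorem rct_dedekind' (φ : F ≃ₐ[O] F') (y : F) (π : O)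
    (h : IsDedekindDomain (fc_chart O ({y} : Set F) ⧸
      Ideal.span {algebraMap O (fc_chart O ({y} : Set F)) π})) :
    IsDedekindDomain (fc_chart O ({φ y} : Set F') ⧸
      Ideal.span {algebraMap O (fc_chart O ({φ y} : Set F')) π}) :=
  nq_isDedekindDomain_of_ringEquiv (rct_quotientEquiv φ y π).symm

/-- primality of `π` is transported as well. -/
theorem rct_prime (φ : F ≃ₐ[O] F') (y : F) (π : O)
    (h : Prime (algebraMap O (fc_chart O ({φ y} : Set F')) π)) :
    Prime (algebraMap O (fc_chart O ({y} : Set F)) π) := by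
  have h1 : (rct_chartEquiv φ y) (algebraMap O (fc_chart O ({y} : Set F)) π) =
      algebraMap O (fc_chart O ({φ y} : Set F')) π := (rct_chartEquiv φ y).commutes π
  rw [← h1] at h
  exact (MulEquiv.prime_iff (rct_chartEquiv φ y)).mp h

end Generic

section Inst

variable (L : Type*) [Field L] (O : ValuationSubring L) (N : ℕ) [NeZero N]

/-- `φ = (q ↦ q²)` as an `O`-algebra isomorphism `lg_F L N ≃ lg_F2 L N`. -/
def rct_phiO : ↥(lg_F L N) ≃ₐ[O] ↥(lg_F2 L N) :=
  haveI : IsScalarTower O L (lg_F L N) := IsScalarTower.of_algebraMap_eq fun _ => rfl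
  haveI : IsScalarTower O L (lg_F2 L N) := IsScalarTower.of_algebraMap_eq fun _ => rfl
  (rml_phiEquiv L N).restrictScalars O

theorem rct_phiO_apply (x : ↥(lg_F L N)) : rct_phiO L O N x = rml_phiEquiv L N x := rfl

theorem rct_phiO_jF : rct_phiO L O N (rml_jF L N) = rml_jF2 L N := Subtype.ext rfl

theorem rct_phiO_jF_inv : rct_phiO L O N (rml_jF L N)⁻¹ = (rml_jF2 L N)⁻¹ := by
  rw [map_inv₀, rct_phiO_jF]

/-- **Legendre transport, chart `j ≠ ∞`**: Dedekind modulo `π` for the chart of `lg_F2 L N` at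
`j' = j(q²)` gives Dedekind modulo `π` for the chart of `lg_F L N` at `j`. -/
theorem rct_leg_dedekind_j (π : O)
    (h : IsDedekindDomain (fc_chart O ({rml_jF2 L N} : Set ↥(lg_F2 L N)) ⧸
      Ideal.span {algebraMap O (fc_chart O ({rml_jF2 L N} : Set ↥(lg_F2 L N))) π})) :
    IsDedekindDomain (fc_chart O ({rml_jF L N} : Set ↥(lg_F L N)) ⧸
      Ideal.span {algebraMap O (fc_chart O ({rml_jF L N} : Set ↥(lg_F L N))) π}) := by
  apply rct_dedekind (rct_phiO L O N) (rml_jF L N) π
  rw [rct_phiO_jF]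
  exact h

/-- **Legendre transport, chart `j ≠ 0`**. -/
theorem rct_leg_dedekind_jinv (π : O)
    (h : IsDedekindDomain (fc_chart O ({(rml_jF2 L N)⁻¹} : Set ↥(lg_F2 L N)) ⧸
      Ideal.span {algebraMap O (fc_chart O ({(rml_jF2 L N)⁻¹} : Set ↥(lg_F2 L N))) π})) :
    IsDedekindDomain (fc_chart O ({(rml_jF L N)⁻¹} : Set ↥(lg_F L N)) ⧸
      Ideal.span {algebraMap O (fc_chart O ({(rml_jF L N)⁻¹} : Set ↥(lg_F L N))) π}) := by
  apply rct_dedekind (rct_phiO L O N) (rml_jF L N)⁻¹ π
  rw [rct_phiO_jF_inv]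
  exact h

/-- `φ₃ = (q ↦ q³)` as an `O`-algebra isomorphism `lg_F L N ≃ hs_F3 L N`. -/
def rct_phi3O : ↥(lg_F L N) ≃ₐ[O] ↥(hs_F3 L N) :=
  haveI : IsScalarTower O L (lg_F L N) := IsScalarTower.of_algebraMap_eq fun _ => rfl
  haveI : IsScalarTower O L (hs_F3 L N) := IsScalarTower.of_algebraMap_eq fun _ => rfl
  (rml_phiEquiv3 L N).restrictScalars O

theorem rct_phi3O_apply (x : ↥(lg_F L N)) : rct_phi3O L O N x = rml_phiEquiv3 L N x := rfl

theorem rct_phi3O_jF : rct_phi3O L O N (rml_jF L N) = rml_jF3 L N := Subtype.ext rfl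

theorem rct_phi3O_jF_inv : rct_phi3O L O N (rml_jF L N)⁻¹ = (rml_jF3 L N)⁻¹ := by
  rw [map_inv₀, rct_phi3O_jF]

/-- **Hesse transport, chart `j ≠ ∞`**. -/
theorem rct_hes_dedekind_j (π : O)
    (h : IsDedekindDomain (fc_chart O ({rml_jF3 L N} : Set ↥(hs_F3 L N)) ⧸
      Ideal.span {algebraMap O (fc_chart O ({rml_jF3 L N} : Set ↥(hs_F3 L N))) π})) :
    IsDedekindDomain (fc_chart O ({rml_jF L N} : Set ↥(lg_F L N)) ⧸
      Ideal.span {algebraMap O (fc_chart O ({rml_jF L N} : Set ↥(lg_F L N))) π}) := by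
  apply rct_dedekind (rct_phi3O L O N) (rml_jF L N) π
  rw [rct_phi3O_jF]
  exact h

/-- **Hesse transport, chart `j ≠ 0`**. -/
theorem rct_hes_dedekind_jinv (π : O)
    (h : IsDedekindDomain (fc_chart O ({(rml_jF3 L N)⁻¹} : Set ↥(hs_F3 L N)) ⧸
      Ideal.span {algebraMap O (fc_chart O ({(rml_jF3 L N)⁻¹} : Set ↥(hs_F3 L N))) π})) :
    IsDedekindDomain (fc_chart O ({(rml_jF L N)⁻¹} : Set ↥(lg_F L N)) ⧸
      Ideal.span {algebraMap O (fc_chart O ({(rml_jF L N)⁻¹} : Set ↥(lg_F L N))) π}) := by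
  apply rct_dedekind (rct_phi3O L O N) (rml_jF L N)⁻¹ π
  rw [rct_phi3O_jF_inv]
  exact h

end Inst

end

end Fermat.Agent.JT3
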