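import Mathlib
import Fermat.Agent.JT3.Inst.RegApply
import Fermat.Agent.JT3.Inst.Ram
import Fermat.Agent.JT3.Inst.Final
import Fermat.Agent.JT3.Inst.HesseRegApply
import Fermat.Agent.JT3.Inst.HesseRamCore
import Fermat.Agent.JT3.Inst.HesseRamWrap
import Fermat.Agent.JT3.Inst.S18Ram
import Fermat.Agent.JT3.PlaceMap.CoverGluePrime
import Fermat.Agent.JT3.PlaceMap.RegDedekind
import Fermat.Agent.JT3.PlaceMap.CoverGaloisLeg
import Fermat.Agent.JT3.PlaceMap.WireHesInst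
import Fermat.Agent.JT3.PlaceMap.CoverTransport
import Fermat.Agent.JT3.PlaceMap.BaseField
import Fermat.Agent.JT3.PlaceMap.BaseResidue

/-!
# JT3 / node E, producer side, leaf [E-WIRE] (prefix `rpw_`)

The final wiring of the geometric input of node E.

* `rpw_leg_dedekind` : (`ℓ` odd) for a DVR level `(L, O)` inside `Q̄` with algebraically closed
  residue field, `ℓ ∈ 𝔪_O`, `ℓ ∤ N`, `ζ_N ∈ L`: both `j`-charts `fc_chart O {j^{±1}}` of
  `F_N = lg_F L N` are Dedekind domains modulo a uniformiser `π`.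
  Chain: `lg_regAt_lam(_inv)` (regularity of the `λ`-charts of the Legendre cover `E = φ(F_N)(λ)`,
  with the ramification hypotheses `lgr_`) ⟹ `rcg_prime_T` (regularity of the `j'`-charts of `E`)
  ⟹ `rrd_dedekind_of_regAt` (Dedekind modulo `π`) ⟹ `rcq_leg_dedekind1/2` (Galois descent to
  `φ(F_N)`) ⟹ `rct_leg_dedekind_j/_jinv` (transport along `φ : F_N ≃ φ(F_N)`).
* `rpw_hes_dedekind` : (`ℓ ≠ 3`) the same through the Hesse cover `E = φ₃(F_N)(μ)`, `ζ_{3N} ∈ L`.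
* `rpw_base_dedekind` : the base level `(K₀, O₀) = (ebf_K0 ℓ, A ∩ K₀)`, uniformiser `ℓ`, for every
  prime `ℓ ∤ N` and every place `A` of `Q̄` over `ℓ`: Legendre for `ℓ` odd, Hesse for `ℓ = 2`.
-/

set_option autoImplicit false
set_option linter.unusedSectionVars false
set_option linter.style.haveILetI false

noncomputable section

open Polynomial IntermediateField ModularCurve Fermat.Agent.S24

namespace Fermat.Agent.JT3

section Leg

variable (L : Type*) [Field L] [CharZero L] [Algebra ℚ L] [Algebra L Kbar] [IsScalarTower ℚ L Kbar]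
  (N : ℕ) [NeZero N]

attribute [local instance] lgh_algKjK lgh_algKjF2 lgh_algKjE lgh_algF2E lgh_algKE

/-- the ramification hypotheses of the Legendre cover at `λ` (helper29's `lgr_`). -/
theorem rpw_ramHyp_lam : lg_RamHyp N (lgh_lamK L) :=
  ⟨fun V2 _ _ hL hx hx0 hx1 => lgr_hH N (lgh_legendre_K L) V2 hL hx hx0 hx1,
   fun V2 _ _ hL hx hx0 P _ hP => lgr_hT0 N (lgh_legendre_K L) V2 hL hx hx0 P hP,
   fun V2 _ _ hL hx hx1 P _ hP => lgr_hT1 N (lgh_legendre_K L) V2 hL hx hx1 P hP⟩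

/-- the ramification hypotheses of the Legendre cover at `λ⁻¹`. -/
theorem rpw_ramHyp_lam_inv : lg_RamHyp N (lgh_lamK L)⁻¹ :=
  ⟨fun V2 _ _ hL hx hx0 hx1 => lgr_hH N (lgr_legendre_K_inv L) V2 hL hx hx0 hx1,
   fun V2 _ _ hL hx hx0 P _ hP => lgr_hT0 N (lgr_legendre_K_inv L) V2 hL hx hx0 P hP,
   fun V2 _ _ hL hx hx1 P _ hP => lgr_hT1 N (lgr_legendre_K_inv L) V2 hL hx hx1 P hP⟩

variable {L}
variable (O : ValuationSubring L) [IsDiscreteValuationRing O]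

/-- `m` prime to `ℓ ∈ 𝔪_O` is a unit of `O`. -/
theorem rpw_isUnit_of_ne {ℓ : ℕ} [Fact ℓ.Prime]
    (hℓ : ((ℓ : ℕ) : O) ∈ IsLocalRing.maximalIdeal O) {m : ℕ} (hm : m.Prime) (hne : ℓ ≠ m) :
    IsUnit ((m : ℕ) : O) :=
  lg_isUnit_natCast (O := O) hℓ
    ((Nat.coprime_primes hm (Fact.out : ℓ.Prime)).2 (Ne.symm hne))

/-- **Legendre chain, generic base level** (`ℓ` odd): both `j`-charts of `F_N` over `O` are
Dedekind modulo `π`. -/
theorem rpw_leg_dedekind [IsAlgClosed (IsLocalRing.ResidueField O)]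
    {π : O} (hπ : Irreducible π) (ℓ : ℕ) [Fact ℓ.Prime]
    (hℓ : ((ℓ : ℕ) : O) ∈ IsLocalRing.maximalIdeal O) (hℓ2 : ℓ ≠ 2) (hℓN : ¬ ℓ ∣ N)
    (ζ : L) (hζ : IsPrimitiveRoot ζ N) :
    IsDedekindDomain (fc_chart O ({rml_jF L N} : Set ↥(lg_F L N)) ⧸
        Ideal.span {algebraMap O (fc_chart O ({rml_jF L N} : Set ↥(lg_F L N))) π}) ∧
      IsDedekindDomain (fc_chart O ({(rml_jF L N)⁻¹} : Set ↥(lg_F L N)) ⧸
        Ideal.span {algebraMap O (fc_chart O ({(rml_jF L N)⁻¹} : Set ↥(lg_F L N))) π}) := by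
  have hR1 := lg_regAt_lam O N hπ ℓ hℓ hℓ2 hℓN ζ hζ (rpw_ramHyp_lam L N)
  have hR2 := lg_regAt_lam_inv O N hπ ℓ hℓ hℓ2 hℓN ζ hζ (rpw_ramHyp_lam_inv L N)
  have h2 : IsUnit (2 : O) := by
    have := rpw_isUnit_of_ne O hℓ Nat.prime_two hℓ2
    simpa using this
  haveI := lgf_finite L N
  have hconst : ∀ z : lg_E L N, IsAlgebraic L z → z ∈ (algebraMap L (lg_E L N)).range :=
    fun z hz => lgf_hconst (lg_E L N) z hz
  obtain ⟨-, hT1, hT2⟩ := rcg_prime_T (A0 := O) (K0 := L) hπ h2 (lg_rel_lamE N)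
    (lgf_lam_transcendental L N two_ne_zero) hconst hR1 hR2
  have hj : Transcendental L (lgf_j2E L N) :=
    rcg_transcendental_j two_ne_zero (lg_rel_lamE N) (lgf_lam_transcendental L N two_ne_zero)
  haveI : FiniteDimensional L⟮lgf_j2E L N⟯ (lg_E L N) :=
    rcg_finiteDimensional_j two_ne_zero (lg_rel_lamE N)
  obtain ⟨hD1, hD2⟩ := rrd_dedekind_of_regAt (A0 := O) (K0 := L) hπ hj hconst hT1 hT2
  have hF1 := rcq_leg_dedekind1 O N hπ h2 hD1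
  have hF2 := rcq_leg_dedekind2 O N hπ h2 hD2
  exact ⟨rct_leg_dedekind_j L O N π hF1, rct_leg_dedekind_jinv L O N π hF2⟩

end Leg

section Hes

variable {L : Type*} [Field L] [CharZero L] [Algebra ℚ L] [Algebra L Kbar] [IsScalarTower ℚ L Kbar]
  (N : ℕ) [NeZero N]

attribute [local instance] hsh_algKjK hsh_algKjF3 hsh_algKjE hsh_algF3E hsh_algKE

variable (O : ValuationSubring L) [IsDiscreteValuationRing O]

/-- **Hesse chain, generic base level** (`ℓ ≠ 3`): both `j`-charts of `F_N` over `O` are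
Dedekind modulo `π`. -/
theorem rpw_hes_dedekind [IsAlgClosed (IsLocalRing.ResidueField O)]
    {π : O} (hπ : Irreducible π) (ℓ : ℕ) [Fact ℓ.Prime]
    (hℓ : ((ℓ : ℕ) : O) ∈ IsLocalRing.maximalIdeal O) (hℓ3 : ℓ ≠ 3) (hℓN : ¬ ℓ ∣ N)
    (ζ : L) (hζ : IsPrimitiveRoot ζ (3 * N)) :
    IsDedekindDomain (fc_chart O ({rml_jF L N} : Set ↥(lg_F L N)) ⧸
        Ideal.span {algebraMap O (fc_chart O ({rml_jF L N} : Set ↥(lg_F L N))) π}) ∧
      IsDedekindDomain (fc_chart O ({(rml_jF L N)⁻¹} : Set ↥(lg_F L N)) ⧸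
        Ideal.span {algebraMap O (fc_chart O ({(rml_jF L N)⁻¹} : Set ↥(lg_F L N))) π}) := by
  have h3 : (3 : L) ≠ 0 := three_ne_zero
  have hN0 : 0 < 3 * N := Nat.pos_of_ne_zero (Nat.mul_ne_zero (by norm_num) (NeZero.ne N))
  have hζN : IsPrimitiveRoot (ζ ^ 3) N := hζ.pow hN0 rfl
  have hω : IsPrimitiveRoot (ζ ^ N) 3 := hζ.pow hN0 (mul_comm 3 N)
  have hω3 : (ζ ^ N) ^ 3 = 1 := hω.pow_eq_one
  have hωsum : (ζ ^ N) ^ 2 + ζ ^ N + 1 = 0 := by
    have := hω.geom_sum_eq_zero (by norm_num)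
    simp only [Finset.sum_range_succ, Finset.sum_range_zero, pow_zero, pow_one, zero_add] at this
    linear_combination this
  let ωO : ↥O := ⟨ζ ^ N, hs_root_mem _ _ hω3⟩
  have hωO : ωO ^ 2 + ωO + 1 = 0 := Subtype.ext hωsum
  have hωOprim : IsPrimitiveRoot ωO 3 := IsPrimitiveRoot.coe_submonoidClass_iff.1 hω
  obtain ⟨cH, cT, cTinf⟩ := hsrc_cores (L := L) h3 N
  have hr3' := hsrw_ramHyp3 h3 N (ζ ^ N) hωsum cH cT
  have hr4' := hsrw_ramHyp4 h3 N (ζ ^ N) hωsum cH cT cTinf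
  have h3O : IsUnit (3 : O) := by
    have := rpw_isUnit_of_ne O hℓ Nat.prime_three hℓ3
    simpa using this
  have hr3 : jt_RegAt (fc_chart O ({hs_muE h3 N} : Set (hs_E L h3 N)))
      (algebraMap O (fc_chart O ({hs_muE h3 N} : Set (hs_E L h3 N))) π) :=
    hs_regAt_apply3 h3 N hπ ℓ hℓ hℓ3 hℓN (ζ ^ 3) hζN ωO hωO (hsh_muK L h3)
      (hs_muK_transcendental L h3) (hsh_adjoin_muK L h3) (hsv_S L h3 N)
      (hsv_adjoin_eq_top L h3 N) (fun θ hθ => hsv_goodGen_mu h3 _ hℓ hℓ3 hℓN hθ) hr3'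
  have hr4 : jt_RegAt (fc_chart O ({(hs_muE h3 N)⁻¹} : Set (hs_E L h3 N)))
      (algebraMap O (fc_chart O ({(hs_muE h3 N)⁻¹} : Set (hs_E L h3 N))) π) := by
    have := hs_regAt_apply4 h3 N hπ ℓ hℓ hℓ3 hℓN (ζ ^ 3) hζN ωO hωO (hsh_muK L h3)⁻¹
      (hs_muK_inv_transcendental L h3) (hs_adjoin_muK_inv L h3) (hsv_S L h3 N)
      (hsv_adjoin_eq_top L h3 N)
      (fun θ hθ => by
        rw [hs_algebraMap_muK_inv]
        exact hsv_goodGen_mu_inv h3 _ hℓ hℓ3 hℓN hθ) hr4'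
    rwa [hs_algebraMap_muK_inv] at this
  exact rpw_hesi_dedekind_of_regAt h3 O N hπ h3O ωO hωOprim hr3 hr4

end Hes

section Base

local notation "Qb" => AlgebraicClosure ℚ

variable (N : ℕ) [NeZero N] {ℓ : ℕ} [Fact ℓ.Prime] (hℓN : ¬ ℓ ∣ N)
  (A : ValuationSubring Qb) (hA : A.LiesOverPrime ℓ)

set_option synthInstance.maxHeartbeats 400000 in
set_option maxHeartbeats 1000000 in
include hℓN hA in
/-- **The geometric input of node E at the base level** `(K₀, O₀) = (ebf_K0 ℓ, A ∩ K₀)`: both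
`j`-charts of `F_N` over `O₀` are Dedekind domains modulo the uniformiser `ℓ`. -/
theorem rpw_base_dedekind :
    IsDedekindDomain
        (fc_chart ↥(A.comap (algebraMap ↥(ebf_K0 ℓ) Qb))
            ({rml_jF ↥(ebf_K0 ℓ) N} : Set ↥(lg_F ↥(ebf_K0 ℓ) N)) ⧸
          Ideal.span {algebraMap ↥(A.comap (algebraMap ↥(ebf_K0 ℓ) Qb))
            (fc_chart ↥(A.comap (algebraMap ↥(ebf_K0 ℓ) Qb))
              ({rml_jF ↥(ebf_K0 ℓ) N} : Set ↥(lg_F ↥(ebf_K0 ℓ) N)))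
            ((ℓ : ℕ) : ↥(A.comap (algebraMap ↥(ebf_K0 ℓ) Qb)))}) ∧
      IsDedekindDomain
        (fc_chart ↥(A.comap (algebraMap ↥(ebf_K0 ℓ) Qb))
            ({(rml_jF ↥(ebf_K0 ℓ) N)⁻¹} : Set ↥(lg_F ↥(ebf_K0 ℓ) N)) ⧸
          Ideal.span {algebraMap ↥(A.comap (algebraMap ↥(ebf_K0 ℓ) Qb))
            (fc_chart ↥(A.comap (algebraMap ↥(ebf_K0 ℓ) Qb))
              ({(rml_jF ↥(ebf_K0 ℓ) N)⁻¹} : Set ↥(lg_F ↥(ebf_K0 ℓ) N)))
            ((ℓ : ℕ) : ↥(A.comap (algebraMap ↥(ebf_K0 ℓ) Qb)))}) := by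
  haveI := ebf_isDVR A ℓ hA
  haveI := ebr_isAlgClosed A ℓ hA
  have hπ := ebf_irreducible A ℓ hA
  have hℓm := ebr_natCast_mem_maximalIdeal A ℓ hA
  by_cases h2 : ℓ = 2
  · have hℓ3 : ℓ ≠ 3 := by omega
    haveI : NeZero (3 * N) := ⟨Nat.mul_ne_zero (by norm_num) (NeZero.ne N)⟩
    have hℓ3N : ¬ ℓ ∣ 3 * N := by
      intro h
      rcases ((Fact.out : ℓ.Prime).dvd_mul).1 h with h' | h'
      · exact hℓ3 ((Nat.prime_dvd_prime_iff_eq Fact.out Nat.prime_three).1 h')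
      · exact hℓN h'
    obtain ⟨ζ, hζ⟩ := ebr_exists_primitiveRoot ℓ (3 * N) hℓ3N
    exact rpw_hes_dedekind N _ hπ ℓ hℓm hℓ3 hℓN ζ hζ
  · obtain ⟨ζ, hζ⟩ := ebr_exists_primitiveRoot ℓ N hℓN
    exact rpw_leg_dedekind N _ hπ ℓ hℓm h2 hℓN ζ hζ

end Base

end Fermat.Agent.JT3

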