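import Mathlib
import Fermat.Agent.JT3.PlaceMap.Wire
import Fermat.Agent.JT3.PlaceMap.Level0
import Fermat.Agent.JT3.PlaceMap.Modular
import Fermat.Agent.JT3.Inst.LevelFinite
import Fermat.Agent.JT3.Export.S28Sep
import Fermat.Agent.JT3.Export.RamLInst
import Fermat.Agent.JT3.Bridge.GaussVal

/-!
# JT3 / node E, producer side, leaf [E-WIRE], part 2 (prefix `rpw_`)

The base-level packages `rpn_Level0` of the two `j`-charts of `F_N = lg_F L N`:

* `rpw_level0_j`, `rpw_level0_jinv` : at a generic DVR level `(L, O)` of characteristic zero, from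
  the Dedekind property of the chart modulo `π` (`rpn_level0_of_dedekind` with
  `hE := rpw_F_le_quotField`, `y := jqModC O` resp. `rpm_jinv O`, transcendence of `j̃` over the
  residue field `vx_transcendental_jq`, finiteness `lgf_level_finite(_inv)`).
* `rpw_base_level0` : at the base level `(K₀, O₀) = (ebf_K0 ℓ, A ∩ K₀)`, uniformiser `ℓ`,
  UNCONDITIONALLY for every prime `ℓ ∤ N` and every place `A` of `Q̄` over `ℓ`
  (with `rpw_base_dedekind`).
-/

set_option autoImplicit false
set_option linter.unusedSectionVars false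
set_option linter.style.haveILetI false

noncomputable section

open Polynomial IntermediateField ModularCurve IsLocalRing

namespace Fermat.Agent.JT3

section L0

variable {L : Type*} [Field L] (O : ValuationSubring L) (N : ℕ) [NeZero N]

/-- every element of `F_N = lg_F L N` is a quotient of series with coefficients in `O`. -/
theorem rpw_F_le_quotField : lg_F L N ≤ gq_quotField O L := by
  rw [lg_F, modularFunctionFieldFullC, IntermediateField.adjoin_le_iff]
  rintro _ ⟨d, hd, -, rfl⟩
  have : qExpand L d (jqModC L) = coeffMap (algebraMap O L) (qExpand O d (jqModC O)) := by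
    rw [coeffMap_qExpand, coeffMap_jqModC]
  show qExpand L d (jqModC L) ∈ gq_quotField O L
  rw [this]
  exact gq_iota_mem_quotField _

/-- the tower `O ⊆ L ⊆ F_N`. -/
theorem rpw_tower_O_L_F : IsScalarTower ↥O L ↥(lg_F L N) :=
  IsScalarTower.of_algebraMap_eq (fun _ => rfl)

attribute [local instance] rpw_tower_O_L_F

variable [CharZero L] [IsDiscreteValuationRing O] {π : O} (hπ : Irreducible π)

include hπ in
/-- **the base-level package of the chart `j ≠ ∞`** from its Dedekind property modulo `π`. -/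
theorem rpw_level0_j
    (hded : IsDedekindDomain (fc_chart O ({rml_jF L N} : Set ↥(lg_F L N)) ⧸
      Ideal.span {algebraMap O (fc_chart O ({rml_jF L N} : Set ↥(lg_F L N))) π})) :
    rpn_Level0 (lg_F L N) π (rml_jF L N) := by
  haveI := lgf_level_finite L N
  refine rpn_level0_of_dedekind (O := ↥O) (K := L) (lg_F L N) hπ (rpw_F_le_quotField O N)
    (y := jqModC ↥O) ?_ ?_ (lgf_level_j_transcendental L N) hded
  · rw [coeffMap_jqModC]; rfl
  · intro p hp
    rw [coeffMap_jqModC] at hp
    exact (transcendental_iff.mp (vx_transcendental_jq (k := ResidueField ↥O))) p hp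

include hπ in
/-- **the base-level package of the chart `j ≠ 0`** from its Dedekind property modulo `π`. -/
theorem rpw_level0_jinv
    (hded : IsDedekindDomain (fc_chart O ({(rml_jF L N)⁻¹} : Set ↥(lg_F L N)) ⧸
      Ideal.span {algebraMap O (fc_chart O ({(rml_jF L N)⁻¹} : Set ↥(lg_F L N))) π})) :
    rpn_Level0 (lg_F L N) π (rml_jF L N)⁻¹ := by
  haveI := lgf_level_finite_inv L N
  refine rpn_level0_of_dedekind (O := ↥O) (K := L) (lg_F L N) hπ (rpw_F_le_quotField O N)
    (y := rpm_jinv ↥O) ?_ ?_ (lgf_level_j_inv_transcendental L N) hded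
  · rw [rpm_coeffMap_jinv]; rfl
  · intro p hp
    rw [rpm_coeffMap_jinv] at hp
    have htr : Transcendental (ResidueField ↥O) (jqModC (ResidueField ↥O))⁻¹ := fun h =>
      vx_transcendental_jq (IsAlgebraic.inv_iff.mp h)
    exact (transcendental_iff.mp htr) p hp

end L0

section Base

local notation "Qb" => AlgebraicClosure ℚ

variable (N : ℕ) [NeZero N] {ℓ : ℕ} [Fact ℓ.Prime] (hℓN : ¬ ℓ ∣ N)
  (A : ValuationSubring Qb) (hA : A.LiesOverPrime ℓ)

attribute [local instance] rpw_tower_O_L_F

set_option synthInstance.maxHeartbeats 400000 in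
set_option maxHeartbeats 1000000 in
include hℓN hA in
/-- **The two base-level packages of node E**, unconditionally, at
`(K₀, O₀) = (ebf_K0 ℓ, A ∩ K₀)` with the uniformiser `ℓ`. -/
theorem rpw_base_level0 :
    haveI := ebf_isDVR A ℓ hA
    rpn_Level0 (O := ↥(A.comap (algebraMap ↥(ebf_K0 ℓ) Qb))) (K := ↥(ebf_K0 ℓ))
        (lg_F ↥(ebf_K0 ℓ) N) ((ℓ : ℕ) : ↥(A.comap (algebraMap ↥(ebf_K0 ℓ) Qb)))
        (rml_jF ↥(ebf_K0 ℓ) N) ∧
      rpn_Level0 (O := ↥(A.comap (algebraMap ↥(ebf_K0 ℓ) Qb))) (K := ↥(ebf_K0 ℓ))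
        (lg_F ↥(ebf_K0 ℓ) N) ((ℓ : ℕ) : ↥(A.comap (algebraMap ↥(ebf_K0 ℓ) Qb)))
        (rml_jF ↥(ebf_K0 ℓ) N)⁻¹ := by
  haveI := ebf_isDVR A ℓ hA
  have hπ := ebf_irreducible A ℓ hA
  obtain ⟨h1, h2⟩ := rpw_base_dedekind N hℓN A hA
  exact ⟨rpw_level0_j _ N hπ h1, rpw_level0_jinv _ N hπ h2⟩

end Base

end Fermat.Agent.JT3
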