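import Mathlib
import Fermat.Agent.JT3.PlaceMap.WireLevel0
import Fermat.Agent.JT3.PlaceMap.FinalNodeE

/-!
# JT3 / NODE E (prefix `rpw_`): `ReductionInputsModL A N` for every good prime

`rpw_nodeE` : for every level `N`, every prime `ℓ ∤ N` and every place `A` of `Q̄` over `ℓ`, the
hypothesis `ReductionInputsModL A N` of the reduction map of `J₀(N)` modulo `ℓ` holds
(`ℓ = 2` included).

Chain: `rpw_base_dedekind` (the two `j`-charts of `F_N` over the base level
`(K₀, O₀) = (ebf_K0 ℓ, A ∩ K₀)` are Dedekind modulo `ℓ`: Legendre cover for `ℓ` odd, Hesse cover for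
`ℓ = 2`) ⟹ `rpw_base_level0` (the two packages `rpn_Level0`) ⟹ `rpz_nodeE` (base change to `A`:
chart data, `rp_Base`, `RedRegular`, `rpm_reductionInputsModL_gauss_base`).
-/

set_option autoImplicit false

namespace Fermat.Agent.JT3

open ModularCurve

/-- **NODE E.** -/
theorem rpw_nodeE (N : ℕ) [NeZero N] (ℓ : ℕ) (hℓ : ℓ.Prime) (hℓN : ¬ ℓ ∣ N)
    (A : ValuationSubring (AlgebraicClosure ℚ)) (hA : A.LiesOverPrime ℓ) :
    ReductionInputsModL A N := by
  haveI : Fact ℓ.Prime := ⟨hℓ⟩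
  haveI := ebf_isDVR A ℓ hA
  obtain ⟨h1, h2⟩ := rpw_base_level0 N hℓN A hA
  exact rpz_nodeE N hℓN A hA h1 h2

end Fermat.Agent.JT3
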