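/-
JT3 / node E (place map), producer side, [E-FIN] input `hgen` at a base level `(L, O)`:
the generators `j(q^d)`, `d ∣ N`, `ℓ ∤ d`, of the level-`N` function field `lg_F L N` lie in the
chart `fc_chart O {j}` (the modular equation is monic over `ℤ_(ℓ)[j]`), and `j^{-M} j(q^d)` lies in
the chart `fc_chart O {j⁻¹}` for some `M`.

* `rpn_gen_jd L N hd` : `j(q^d)` as an element of `lg_F L N`;
* `rpn_gen_mem` : `j(q^d) ∈ fc_chart O {rml_jF L N}`;
* `rpn_gen_mem_inv` : `∃ M, (rml_jF L N)⁻¹ ^ M * j(q^d) ∈ fc_chart O {(rml_jF L N)⁻¹}`.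
-/
import Mathlib
import Fermat.Agent.JT3.Bridge.GaussModular
import Fermat.Agent.JT3.Export.RamLInst
import Fermat.Agent.JT3.FCore.Charts
import Fermat.Agent.JT3.PlaceMap.Modular

set_option autoImplicit false
set_option linter.unusedSectionVars false

open ModularCurve Polynomial

namespace Fermat.Agent.JT3

section Gen

variable (L : Type*) [Field L] (O : ValuationSubring L) (N : ℕ) [NeZero N]

/-- `j(q^d)`, `d ∣ N`, as an element of the level-`N` function field. -/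
noncomputable def rpn_gen_jd {d : ℕ} [NeZero d] (hd : d ∣ N) : ↥(lg_F L N) :=
  ⟨qExpand L d (jqModC L), jqModCd_mem_full L N hd⟩

theorem rpn_gen_jd_coe {d : ℕ} [NeZero d] (hd : d ∣ N) :
    ((rpn_gen_jd L N hd : ↥(lg_F L N)) : LaurentSeries L) = qExpand L d (jqModC L) := rfl

variable {L N}
variable {ℓ : ℕ} [Fact ℓ.Prime]

/-- **the generators lie in the chart `j ≠ ∞`** (the modular equation). -/
theorem rpn_gen_mem (ρ : ↥(GaloisRep.ratLocalizedAt ℓ) →+* ↥O) {d : ℕ} [NeZero d] (hd : d ∣ N)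
    (hℓd : ¬ ℓ ∣ d) :
    rpn_gen_jd L N hd ∈ fc_chart ↥O ({rml_jF L N} : Set ↥(lg_F L N)) := by
  rw [fc_mem_chart]
  set R := Algebra.adjoin ↥O ({rml_jF L N} : Set ↥(lg_F L N)) with hR
  let jR : R := ⟨rml_jF L N, Algebra.subset_adjoin rfl⟩
  let θ : (↥O)[X] →+* R := (aeval jR : (↥O)[X] →ₐ[↥O] R).toRingHom
  refine ⟨(gqm_Phi d ℓ hℓd ρ).map θ, (gqm_Phi_monic d ℓ hℓd ρ).map θ, ?_⟩
  rw [Polynomial.eval₂_map]
  have hinj : Function.Injective ((lg_F L N).val : ↥(lg_F L N) →+* LaurentSeries L) :=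
    Subtype.val_injective
  apply hinj
  rw [map_zero]
  have h1 := Polynomial.hom_eval₂ (gqm_Phi d ℓ hℓd ρ) ((algebraMap R ↥(lg_F L N)).comp θ)
    ((lg_F L N).val : ↥(lg_F L N) →+* LaurentSeries L) (rpn_gen_jd L N hd)
  have h2 : ((lg_F L N).val : ↥(lg_F L N) →+* LaurentSeries L).comp
      ((algebraMap R ↥(lg_F L N)).comp θ) =
      (coeffMap (algebraMap ↥O L)).comp
        (aeval (jqModC ↥O) : (↥O)[X] →ₐ[↥O] LaurentSeries ↥O).toRingHom := by
    refine Polynomial.ringHom_ext (fun r => ?_) ?_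
    · simp only [θ, RingHom.comp_apply, AlgHom.toRingHom_eq_coe, RingHom.coe_coe, aeval_C]
      rw [gq_algebraMap_eq_single, coeffMap_single, ← gq_algebraMap_eq_single]
      rfl
    · simp only [θ, RingHom.comp_apply, AlgHom.toRingHom_eq_coe, RingHom.coe_coe, aeval_X]
      rw [coeffMap_jqModC]
      rfl
  rw [h2] at h1
  rw [h1]
  have h3 : ((lg_F L N).val : ↥(lg_F L N) →+* LaurentSeries L) (rpn_gen_jd L N hd) =
      coeffMap (algebraMap ↥O L) (qExpand ↥O d (jqModC ↥O)) := by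
    rw [coeffMap_qExpand, coeffMap_jqModC]
    rfl
  rw [h3, ← Polynomial.hom_eval₂, gqm_Phi_root d ℓ hℓd ρ, map_zero]

theorem rpn_gen_jF_ne_zero : rml_jF L N ≠ 0 := by
  intro h
  have := congrArg (fun f : ↥(lg_F L N) => (f : LaurentSeries L)) h
  exact jqModC_ne_zero_of_nontrivial L this

/-- integrality over `O[x]` as an algebra and as the ring generated by the constants and `x`. -/
theorem rpn_gen_isIntegral_closure_iff {F : Type*} [Field F] [Algebra ↥O F] (x z : F) :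
    IsIntegral (Algebra.adjoin ↥O ({x} : Set F)) z ↔
      IsIntegral (Subring.closure (Set.range (algebraMap ↥O F) ∪ {x})) z := by
  have hle : ∀ r : F, r ∈ Algebra.adjoin ↥O ({x} : Set F) ↔
      r ∈ Subring.closure (Set.range (algebraMap ↥O F) ∪ {x}) := by
    intro r
    rw [← Algebra.adjoin_eq_ring_closure]
    rfl
  constructor
  · intro h
    let φ : Algebra.adjoin ↥O ({x} : Set F) →+*
        Subring.closure (Set.range (algebraMap ↥O F) ∪ {x}) :=
      ((Algebra.adjoin ↥O ({x} : Set F)).val.toRingHom).codRestrict _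
        (fun r => (hle _).1 r.2)
    exact IsIntegral.map_of_comp_eq φ (RingHom.id F) (by ext r; rfl) h
  · intro h
    let φ : Subring.closure (Set.range (algebraMap ↥O F) ∪ {x}) →+*
        Algebra.adjoin ↥O ({x} : Set F) :=
      ((Subring.closure (Set.range (algebraMap ↥O F) ∪ {x})).subtype).codRestrict _
        (fun r => (hle _).2 r.2)
    exact IsIntegral.map_of_comp_eq φ (RingHom.id F) (by ext r; rfl) h

/-- **the generators, scaled, lie in the chart `j ≠ 0`.** -/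
theorem rpn_gen_mem_inv (ρ : ↥(GaloisRep.ratLocalizedAt ℓ) →+* ↥O) {d : ℕ} [NeZero d]
    (hd : d ∣ N) (hℓd : ¬ ℓ ∣ d) :
    ∃ M : ℕ, (rml_jF L N)⁻¹ ^ M * rpn_gen_jd L N hd ∈
      fc_chart ↥O ({(rml_jF L N)⁻¹} : Set ↥(lg_F L N)) := by
  have hA := rpn_gen_mem O ρ hd hℓd
  rw [fc_mem_chart, rpn_gen_isIntegral_closure_iff] at hA
  obtain ⟨M, hM⟩ := rpm_scale_isIntegral (Set.range (algebraMap ↥O ↥(lg_F L N)))
    (rpn_gen_jF_ne_zero (L := L) (N := N)) hA
  refine ⟨M, ?_⟩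
  rw [fc_mem_chart, rpn_gen_isIntegral_closure_iff]
  exact hM

/-- `rpn_gen_mem` for all `d ∣ N` at once, `ℓ ∤ N`. -/
theorem rpn_gen_mem_of_not_dvd (ρ : ↥(GaloisRep.ratLocalizedAt ℓ) →+* ↥O) (hℓN : ¬ ℓ ∣ N)
    {d : ℕ} [NeZero d] (hd : d ∣ N) :
    rpn_gen_jd L N hd ∈ fc_chart ↥O ({rml_jF L N} : Set ↥(lg_F L N)) :=
  rpn_gen_mem O ρ hd fun h => hℓN (dvd_trans h hd)

/-- `rpn_gen_mem_inv` for all `d ∣ N` at once, `ℓ ∤ N`. -/
theorem rpn_gen_mem_inv_of_not_dvd (ρ : ↥(GaloisRep.ratLocalizedAt ℓ) →+* ↥O) (hℓN : ¬ ℓ ∣ N)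
    {d : ℕ} [NeZero d] (hd : d ∣ N) :
    ∃ M : ℕ, (rml_jF L N)⁻¹ ^ M * rpn_gen_jd L N hd ∈
      fc_chart ↥O ({(rml_jF L N)⁻¹} : Set ↥(lg_F L N)) :=
  rpn_gen_mem_inv O ρ hd fun h => hℓN (dvd_trans h hd)

end Gen

end Fermat.Agent.JT3
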