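/-
JT3 / node E (place map), producer side, step (iv) of [E-FIN]: `RedRegular` from the range of the
reduction map.

* `rpr_redRegular_of_range` : if the range `D = red(B) ⊆ Ft` of the reduction map of a chart is a
  Dedekind domain, is not a field, and every element of `Ft` is a quotient of elements of `D`,
  then the chart is `RedRegular`.
* `rpr_rangeEquiv` : the first isomorphism theorem in the form used by the producers: a ring
  `R₀` (the base-level chart), a map `β : R₀ → B` with `red(β R₀) = red(B)` and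
  `ker (red ∘ β) = (π₀)` gives `R₀ ⧸ (π₀) ≃+* red(B)`.
* `rpr_not_isField` : `D` is not a field when it contains an element `t` transcendental over `k`
  and is integral over `k[t]`.
* `rpr_redRegular_of_base` : the three together.
* `rpr_frac_of_gens` : the hypothesis `hfrac` from generators of `Ft / k`.
-/
import Mathlib
import Fermat.Agent.JT3.PlaceMap.Defs
import Fermat.Agent.JT3.PlaceMap.RedDedekind
import Fermat.Agent.JT3.Algebra.NormQuotient
import Fermat.Agent.JT3.PlaceMap.LevelUp

set_option autoImplicit false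
set_option linter.style.haveILetI false

namespace Fermat.Agent.JT3

open AlgebraicCurve

variable {Kb : Type*} [Field Kb] {A : ValuationSubring Kb} {FF : Type*} [Field FF] [Algebra Kb FF]
  {k : Type*} [Field k] {Ft : Type*} [Field Ft] [Algebra k Ft]

/-- the constants of `k` lie in the range of the reduction map. -/
theorem rpr_const_mem_range (C : rp_Chart A FF k Ft) (c : k) :
    algebraMap k Ft c ∈ C.red.range := by
  obtain ⟨a, rfl⟩ := C.res_surj c
  exact ⟨⟨_, C.const_mem a⟩, C.red_const a⟩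

/-- the `k`-algebra structure of the range of the reduction map. -/
@[reducible] noncomputable def rpr_algRange (C : rp_Chart A FF k Ft) : Algebra k C.red.range :=
  ((algebraMap k Ft).codRestrict C.red.range (rpr_const_mem_range C)).toAlgebra

/-- **`RedRegular` from the range of the reduction map.** -/
theorem rpr_redRegular_of_range (C : rp_Chart A FF k Ft)
    (hDed : IsDedekindDomain C.red.range) (hnf : ¬ IsField C.red.range)
    (hfrac : ∀ f : Ft, ∃ b c : C.B, C.red c ≠ 0 ∧ f * C.red c = C.red b) : C.RedRegular := by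
  letI : Algebra k C.red.range := rpr_algRange C
  haveI : IsScalarTower k C.red.range Ft := IsScalarTower.of_algebraMap_eq fun _ => rfl
  haveI : FaithfulSMul C.red.range Ft :=
    (faithfulSMul_iff_algebraMap_injective _ _).mpr Subtype.val_injective
  haveI : IsFractionRing C.red.range Ft := by
    refine IsFractionRing.of_field _ _ fun z => ?_
    obtain ⟨b, c, hc, h⟩ := hfrac z
    refine ⟨⟨C.red b, b, rfl⟩, ⟨C.red c, c, rfl⟩, ?_⟩
    change z = C.red b / C.red c
    rw [eq_div_iff hc, h]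
  exact rpd_redRegular C C.red.range hnf C.red.rangeRestrict C.red.rangeRestrict_surjective
    fun _ => rfl

/-- **First isomorphism theorem, producer form.** -/
noncomputable def rpr_rangeEquiv (C : rp_Chart A FF k Ft) {R₀ : Type*} [CommRing R₀] (π₀ : R₀)
    (β : R₀ →+* C.B) (hπ : C.red (β π₀) = 0)
    (hker : ∀ r : R₀, C.red (β r) = 0 → ∃ r', r = π₀ * r')
    (hsurj : ∀ b : C.B, ∃ r : R₀, C.red (β r) = C.red b) :
    (R₀ ⧸ Ideal.span {π₀}) ≃+* C.red.range := by
  have h0 : ∀ r ∈ Ideal.span {π₀}, (C.red.comp β) r = 0 := by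
    intro r hr
    obtain ⟨r', rfl⟩ := Ideal.mem_span_singleton'.mp hr
    rw [RingHom.comp_apply, map_mul, map_mul, hπ, mul_zero]
  have hmem : ∀ q : R₀ ⧸ Ideal.span {π₀},
      Ideal.Quotient.lift (Ideal.span {π₀}) (C.red.comp β) h0 q ∈ C.red.range := by
    intro q
    obtain ⟨r, rfl⟩ := Ideal.Quotient.mk_surjective q
    rw [Ideal.Quotient.lift_mk]
    exact ⟨β r, rfl⟩
  refine RingEquiv.ofBijective
    ((Ideal.Quotient.lift (Ideal.span {π₀}) (C.red.comp β) h0).codRestrict C.red.range hmem)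
    ⟨?_, ?_⟩
  · rw [injective_iff_map_eq_zero]
    intro q hq
    obtain ⟨r, rfl⟩ := Ideal.Quotient.mk_surjective q
    have h1 : C.red (β r) = 0 := by
      have := congrArg (fun t : C.red.range => (t : Ft)) hq
      simpa using this
    obtain ⟨r', rfl⟩ := hker r h1
    rw [Ideal.Quotient.eq_zero_iff_mem]
    exact Ideal.mem_span_singleton'.mpr ⟨r', mul_comm _ _⟩
  · rintro ⟨_, b, rfl⟩
    obtain ⟨r, hr⟩ := hsurj b
    refine ⟨Ideal.Quotient.mk _ r, ?_⟩
    apply Subtype.ext
    change Ideal.Quotient.lift (Ideal.span {π₀}) (C.red.comp β) h0 (Ideal.Quotient.mk _ r) = C.red b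
    rw [Ideal.Quotient.lift_mk]
    exact hr

/-- a subring of `Ft` containing `k` and an element `t` transcendental over `k`, and integral over
`k[t]`, is not a field. -/
theorem rpr_not_isField (D : Subring Ft) (hk : ∀ c : k, algebraMap k Ft c ∈ D) (t : Ft)
    (ht : t ∈ D) (htr : Transcendental k t)
    (hint : ∀ d ∈ D, IsIntegral (Algebra.adjoin k ({t} : Set Ft)) d) : ¬ IsField D := by
  intro hD
  -- `k[t] ⊆ D`
  have hle : ∀ s ∈ Algebra.adjoin k ({t} : Set Ft), s ∈ D := by
    intro s hs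
    induction hs using Algebra.adjoin_induction with
    | mem x hx =>
      rw [Set.mem_singleton_iff] at hx
      rw [hx]; exact ht
    | algebraMap c => exact hk c
    | add x y _ _ hx hy => exact D.add_mem hx hy
    | mul x y _ _ hx hy => exact D.mul_mem hx hy
  let R := Algebra.adjoin k ({t} : Set Ft)
  let φ : R →+* D :=
    { toFun := fun s => ⟨s, hle s s.2⟩
      map_one' := rfl
      map_mul' := fun _ _ => rfl
      map_zero' := rfl
      map_add' := fun _ _ => rfl }
  letI : Algebra R D := φ.toAlgebra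
  have hinj : Function.Injective (algebraMap R D) := by
    intro a b hab
    apply Subtype.ext
    exact congrArg (fun d : D => (d : Ft)) hab
  haveI : Algebra.IsIntegral R D := by
    refine ⟨fun d => ?_⟩
    obtain ⟨p, hp, hpd⟩ := hint d d.2
    refine ⟨p, hp, ?_⟩
    apply Subtype.ext
    have h1 : ((Polynomial.eval₂ (algebraMap R D) d p : D) : Ft) =
        Polynomial.eval₂ (algebraMap R Ft) (d : Ft) p :=
      Polynomial.hom_eval₂ p (algebraMap R D) D.subtype d
    rw [h1]
    exact hpd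
  have hR : IsField R := isField_of_isIntegral_of_isField hinj hD
  -- `k[t] ≅ k[X]` is not a field
  let ψ : Polynomial k →ₐ[k] R :=
    (Polynomial.aeval (R := k) t).codRestrict R fun p => Polynomial.aeval_mem_adjoin_singleton k t
  have hbij : Function.Bijective ψ := by
    refine ⟨?_, ?_⟩
    · rw [injective_iff_map_eq_zero]
      intro p hp
      have h2 : Polynomial.aeval t p = 0 := congrArg (fun s : R => (s : Ft)) hp
      by_contra hne
      exact htr ⟨p, hne, h2⟩
    · rintro ⟨s, hs⟩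
      have hs' : s ∈ (Polynomial.aeval (R := k) t).range := by
        rw [← Algebra.adjoin_singleton_eq_range_aeval]
        exact hs
      obtain ⟨p, hp⟩ := hs'
      exact ⟨p, Subtype.ext hp⟩
  have e : Polynomial k ≃+* R := RingEquiv.ofBijective ψ hbij
  exact Polynomial.not_isField k (e.toMulEquiv.isField hR)

/-- the reduction of a chart function integral over `A[x]` is integral over `k[x̃]`. -/
theorem rpr_red_isIntegral (C : rp_Chart A FF k Ft) {x : FF} (hx : x ∈ C.B) (b : C.B)
    (hint : IsIntegral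
      (Subring.closure ((Set.range fun a : A => algebraMap Kb FF (a : Kb)) ∪ {x})) (b : FF)) :
    IsIntegral (Algebra.adjoin k ({C.red ⟨x, hx⟩} : Set Ft)) (C.red b) := by
  set S : Subring FF := Subring.closure ((Set.range fun a : A => algebraMap Kb FF (a : Kb)) ∪ {x})
    with hS
  have hle : S ≤ C.B := by
    rw [hS, Subring.closure_le]
    rintro _ (⟨a, rfl⟩ | h)
    · exact C.const_mem a
    · rw [Set.mem_singleton_iff] at h
      rw [h]
      exact hx
  -- the subring of chart functions whose reduction lies in `k[x̃]`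
  set T : Subring FF :=
    (((Algebra.adjoin k ({C.red ⟨x, hx⟩} : Set Ft)).toSubring).comap C.red).map C.B.subtype with hT
  have hleT : S ≤ T := by
    rw [hS, Subring.closure_le]
    rintro _ (⟨a, rfl⟩ | hs)
    · refine ⟨⟨_, C.const_mem a⟩, ?_, rfl⟩
      change C.red _ ∈ Algebra.adjoin k ({C.red ⟨x, hx⟩} : Set Ft)
      rw [C.red_const]
      exact Subalgebra.algebraMap_mem _ _
    · rw [Set.mem_singleton_iff] at hs
      rw [hs]
      exact ⟨⟨x, hx⟩, Algebra.subset_adjoin rfl, rfl⟩
  have hmem : ∀ s : S, (C.red.comp (Subring.inclusion hle)) s ∈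
      Algebra.adjoin k ({C.red ⟨x, hx⟩} : Set Ft) := by
    intro s
    obtain ⟨y, hy, hys⟩ := hleT s.2
    have : Subring.inclusion hle s = y := Subtype.ext hys.symm
    rw [RingHom.comp_apply, this]
    exact hy
  let φ : S →+* Algebra.adjoin k ({C.red ⟨x, hx⟩} : Set Ft) :=
    (C.red.comp (Subring.inclusion hle)).codRestrict
      (Algebra.adjoin k ({C.red ⟨x, hx⟩} : Set Ft)) hmem
  obtain ⟨p, hp, hpb⟩ := hint
  refine ⟨p.map φ, hp.map _, ?_⟩
  rw [Polynomial.eval₂_map]
  have h1 : (algebraMap (Algebra.adjoin k ({C.red ⟨x, hx⟩} : Set Ft)) Ft).comp φ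
      = C.red.comp (Subring.inclusion hle) := by
    ext s
    rfl
  rw [h1, ← Polynomial.hom_eval₂]
  have h2 : Polynomial.eval₂ (Subring.inclusion hle) b p = 0 := by
    apply Subtype.ext
    have := Polynomial.hom_eval₂ p (Subring.inclusion hle) C.B.subtype b
    change C.B.subtype (Polynomial.eval₂ (Subring.inclusion hle) _ p) = 0
    rw [this]
    exact hpb
  rw [h2, map_zero]

/-- **`red(A[gens]) = red(O[gens])`** when `O ⊆ A` has the same residue field as `A`. -/
theorem rpr_red_surj_genRing (C : rp_Chart A FF k Ft) (O : Subring Kb) (hO : ∀ o ∈ O, o ∈ A)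
    (hres : ∀ a : A, ∃ o ∈ O, (a : Kb) - o ∈ A.nonunits) (gens : Set FF)
    (hchart : C.B = rp_genRing A.toSubring gens) (b : C.B) :
    ∃ b' : FF, b' ∈ rp_genRing O gens ∧ ∃ h : b' ∈ C.B, C.red ⟨b', h⟩ = C.red b := by
  have hOB : rp_genRing O gens ≤ C.B := by
    rw [hchart]
    exact rp_genRing_mono (fun o ho => hO o ho) gens
  set ι : rp_genRing O gens →+* C.B := Subring.inclusion hOB with hι
  set T' : Subring C.B := Subring.comap C.red (C.red.comp ι).range with hT'
  have hle : C.B ≤ T'.map C.B.subtype := by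
    conv_lhs => rw [hchart]
    apply rp_genRing_le
    · intro g hg
      have hgB : g ∈ C.B := hOB (rp_gen_mem_genRing _ hg)
      refine ⟨⟨g, hgB⟩, ?_, rfl⟩
      show C.red ⟨g, hgB⟩ ∈ (C.red.comp ι).range
      exact ⟨⟨g, rp_gen_mem_genRing _ hg⟩, rfl⟩
    · intro a ha
      have haB : algebraMap Kb FF a ∈ C.B := C.const_mem ⟨a, ha⟩
      refine ⟨⟨algebraMap Kb FF a, haB⟩, ?_, rfl⟩
      show C.red ⟨algebraMap Kb FF a, haB⟩ ∈ (C.red.comp ι).range
      obtain ⟨o, ho, hoo⟩ := hres ⟨a, ha⟩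
      refine ⟨⟨algebraMap Kb FF o, rp_const_mem_genRing _ ho⟩, ?_⟩
      have h1 := C.red_const ⟨a, ha⟩
      have h2 := C.red_const ⟨o, hO o ho⟩
      have h3 : C.res ⟨a, ha⟩ = C.res ⟨o, hO o ho⟩ := by
        have h4 : C.res (⟨a, ha⟩ - ⟨o, hO o ho⟩) = 0 :=
          (rpc_res_eq_zero_iff C _).2 hoo
        rw [map_sub, sub_eq_zero] at h4
        exact h4
      show C.red (ι ⟨algebraMap Kb FF o, _⟩) = C.red ⟨algebraMap Kb FF a, haB⟩
      rw [h1, h3, ← h2]
      rfl
  obtain ⟨b₁, hb₁, hb₁b⟩ := hle b.2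
  have hbb : b₁ = b := Subtype.ext hb₁b
  rw [hbb] at hb₁
  obtain ⟨b', hb'⟩ := hb₁
  exact ⟨b', b'.2, hOB b'.2, hb'⟩

/-- **`RedRegular` from a base-level chart whose special fibre is Dedekind.**  `R₀` is the
base-level chart ring, `β` its base change into the chart, `t` the coordinate. -/
theorem rpr_redRegular_of_base (C : rp_Chart A FF k Ft) {R₀ : Type*} [CommRing R₀] (π₀ : R₀)
    (hDed : IsDedekindDomain (R₀ ⧸ Ideal.span {π₀}))
    (β : R₀ →+* C.B) (hπ : C.red (β π₀) = 0)
    (hker : ∀ r : R₀, C.red (β r) = 0 → ∃ r', r = π₀ * r')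
    (hsurj : ∀ b : C.B, ∃ r : R₀, C.red (β r) = C.red b)
    (t : C.B) (htr : Transcendental k (C.red t))
    (hint : ∀ b : C.B, IsIntegral (Algebra.adjoin k ({C.red t} : Set Ft)) (C.red b))
    (hfrac : ∀ f : Ft, ∃ b c : C.B, C.red c ≠ 0 ∧ f * C.red c = C.red b) : C.RedRegular := by
  have hD : IsDedekindDomain C.red.range :=
    nq_isDedekindDomain_of_ringEquiv (rpr_rangeEquiv C π₀ β hπ hker hsurj).symm
  refine rpr_redRegular_of_range C hD ?_ hfrac
  refine rpr_not_isField C.red.range (rpr_const_mem_range C) (C.red t) ⟨t, rfl⟩ htr ?_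
  rintro _ ⟨b, rfl⟩
  exact hint b

/-- **`hfrac` from generators.** -/
theorem rpr_frac_of_gens (C : rp_Chart A FF k Ft) (G : Set Ft)
    (hG : IntermediateField.adjoin k G = ⊤)
    (h : ∀ g ∈ G, ∃ b c : C.B, C.red c ≠ 0 ∧ g * C.red c = C.red b) :
    ∀ f : Ft, ∃ b c : C.B, C.red c ≠ 0 ∧ f * C.red c = C.red b := by
  intro f
  have hf : f ∈ IntermediateField.adjoin k G := by rw [hG]; trivial
  induction hf using IntermediateField.adjoin_induction with
  | mem x hx => exact h x hx
  | algebraMap r =>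
    obtain ⟨a, rfl⟩ := C.res_surj r
    refine ⟨⟨_, C.const_mem a⟩, 1, ?_, ?_⟩
    · rw [map_one]; exact one_ne_zero
    · rw [map_one, mul_one, C.red_const]
  | add x y _ _ hx hy =>
    obtain ⟨b₁, c₁, hc₁, h₁⟩ := hx
    obtain ⟨b₂, c₂, hc₂, h₂⟩ := hy
    refine ⟨b₁ * c₂ + b₂ * c₁, c₁ * c₂, ?_, ?_⟩
    · rw [map_mul]; exact mul_ne_zero hc₁ hc₂
    · rw [map_add, map_mul, map_mul, map_mul, ← h₁, ← h₂]; ring
  | inv x _ hx =>
    obtain ⟨b, c, hc, h₁⟩ := hx
    by_cases hx0 : x = 0
    · refine ⟨0, 1, ?_, ?_⟩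
      · rw [map_one]; exact one_ne_zero
      · rw [hx0, inv_zero, zero_mul, map_zero]
    · refine ⟨c, b, ?_, ?_⟩
      · rw [← h₁]; exact mul_ne_zero hx0 hc
      · rw [← h₁, ← mul_assoc, inv_mul_cancel₀ hx0, one_mul]
  | mul x y _ _ hx hy =>
    obtain ⟨b₁, c₁, hc₁, h₁⟩ := hx
    obtain ⟨b₂, c₂, hc₂, h₂⟩ := hy
    refine ⟨b₁ * b₂, c₁ * c₂, ?_, ?_⟩
    · rw [map_mul]; exact mul_ne_zero hc₁ hc₂
    · rw [map_mul, map_mul, ← h₁, ← h₂]; ring

end Fermat.Agent.JT3
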