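/-
JT3 / node E, producer side: the complete Legendre chain (prefix `rcq_legi_`).

`L` a field of characteristic zero, `O ⊆ L` a discrete valuation ring with `2 ∈ O^×` and
algebraically closed residue field.  Regularity of the two `λ`-charts of `E = φ(F_N)(λ)` along
`π = 0` ⟹ the two `j`-charts of `lg_F L N` are Dedekind domains modulo `π`:
`rcg_prime_T` (helper16) ⟹ `rrd_dedekind_of_prime` ⟹ `rcq_leg_dedekind1/2` (helper4)
⟹ `rct_leg_dedekind_j/_jinv` (helper21).
-/
import Mathlib
import Fermat.Agent.JT3.PlaceMap.CoverGaloisLeg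
import Fermat.Agent.JT3.PlaceMap.CoverGluePrime
import Fermat.Agent.JT3.PlaceMap.CoverTransport
import Fermat.Agent.JT3.PlaceMap.RegDedekind
import Fermat.Agent.JT3.Inst.RegApply

set_option autoImplicit false
set_option linter.unusedSectionVars false
set_option linter.style.haveILetI false

noncomputable section

open ModularCurve IntermediateField AlgebraicCurve IsLocalRing

namespace Fermat.Agent.JT3

section Chain

variable {L : Type*} [Field L] [CharZero L] (O : ValuationSubring L)
  [IsDiscreteValuationRing O] (N : ℕ) [NeZero N] {π : O} (hπ : Irreducible π)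

attribute [local instance] lgh_algF2E

theorem rcq_legi_jF2_eq : rml_jF2 L N = rcq_leg_j (L := L) N := rfl

include hπ in
/-- **The Legendre chain**: regularity of the two `λ`-charts of `E = φ(F_N)(λ)` along `π = 0`
⟹ the two `j`-charts of `lg_F L N` are Dedekind domains modulo `π`. -/
theorem rcq_legi_dedekind_of_regAt [IsAlgClosed (ResidueField O)] (h2 : IsUnit (2 : O))
    (hr1 : jt_RegAt (fc_chart O ({lg_lamE N} : Set (lg_E L N)))
      (algebraMap O (fc_chart O ({lg_lamE N} : Set (lg_E L N))) π))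
    (hr2 : jt_RegAt (fc_chart O ({(lg_lamE N)⁻¹} : Set (lg_E L N)))
      (algebraMap O (fc_chart O ({(lg_lamE N)⁻¹} : Set (lg_E L N))) π)) :
    IsDedekindDomain (fc_chart O ({rml_jF L N} : Set ↥(lg_F L N)) ⧸
        Ideal.span {algebraMap O (fc_chart O ({rml_jF L N} : Set ↥(lg_F L N))) π}) ∧
      IsDedekindDomain (fc_chart O ({(rml_jF L N)⁻¹} : Set ↥(lg_F L N)) ⧸
        Ideal.span {algebraMap O (fc_chart O ({(rml_jF L N)⁻¹} : Set ↥(lg_F L N))) π}) := by
  have hx : Transcendental L (lg_lamE (L := L) N) := lgf_lam_transcendental L N two_ne_zero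
  haveI := lgf_finite L N
  have hconst : ∀ z : lg_E L N, IsAlgebraic L z → z ∈ (algebraMap L (lg_E L N)).range :=
    fun z hz => lgf_hconst (lg_E L N) z hz
  obtain ⟨⟨hp1, hp2, -⟩, hT1, hT2⟩ := rcg_prime_T (K0 := L) hπ h2 (lg_rel_lamE (L := L) N) hx
    hconst hr1 hr2
  haveI := rcq_leg_finite_E (L := L) N
  haveI := rcq_leg_finite_E_inv (L := L) N
  have hj : Transcendental L (lgf_j2E L N) := rcq_leg_j2E_transcendental N
  have hji : Transcendental L (lgf_j2E L N)⁻¹ := fun h => hj (IsAlgebraic.inv_iff.1 h)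
  haveI := rrd_chart_noetherian (A0 := O) (K0 := L) hj
  haveI := rrd_chart_noetherian (A0 := O) (K0 := L) hji
  have hD1 := rrd_dedekind_of_prime hp1 hT1
  have hD2 := rrd_dedekind_of_prime hp2 hT2
  exact ⟨rct_leg_dedekind_j L O N π (rcq_leg_dedekind1 O N hπ h2 hD1),
    rct_leg_dedekind_jinv L O N π (rcq_leg_dedekind2 O N hπ h2 hD2)⟩

end Chain

end Fermat.Agent.JT3
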