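/-
JT3 / node E, producer side, leaf [E-GLUE] (helper16), instance file: the two `j'`-charts of the
Legendre cover `lg_E L N` are Dedekind modulo a uniformiser `π` of a DVR level `(L, O)`
(`ℓ` odd, `ℓ ∤ N`, `ζ_N ∈ L`): regularity of the `λ`-charts (`lg_regAt_lam`, `lg_regAt_lam_inv`)
⟹ regularity of the `j'`-charts (`rcg_prime_T`) ⟹ Dedekind (`rrd_dedekind_of_regAt`).
This is the hypothesis `hD` of `rcq_dedekind_descent` for `y = j'`, `y = j'⁻¹`.
-/
import Mathlib
import Fermat.Agent.JT3.Inst.RegApply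
import Fermat.Agent.JT3.Inst.RamHyp
import Fermat.Agent.JT3.PlaceMap.RegDedekind
import Fermat.Agent.JT3.PlaceMap.CoverGluePrime

set_option autoImplicit false

open IntermediateField

namespace Fermat.Agent.JT3

section Leg

variable {L : Type*} [Field L] [CharZero L] (O : ValuationSubring L) [IsDiscreteValuationRing O]
  (N : ℕ) [NeZero N]

/-- regularity of the two `λ`-charts ⟹ `π` prime on the three `j'`-charts and regularity of the
two standard `j'`-charts. -/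
theorem rcg_leg_prime_of_regAt {π : O} (hπ : Irreducible π) (h2 : IsUnit (2 : O))
    (hR1 : jt_RegAt (fc_chart O ({lg_lamE N} : Set (lg_E L N)))
      (algebraMap O (fc_chart O ({lg_lamE N} : Set (lg_E L N))) π))
    (hR2 : jt_RegAt (fc_chart O ({(lg_lamE N)⁻¹} : Set (lg_E L N)))
      (algebraMap O (fc_chart O ({(lg_lamE N)⁻¹} : Set (lg_E L N))) π)) :
    (Prime (algebraMap O (fc_chart O ({lgf_j2E L N} : Set (lg_E L N))) π) ∧
      Prime (algebraMap O (fc_chart O ({(lgf_j2E L N)⁻¹} : Set (lg_E L N))) π) ∧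
      Prime (algebraMap O (fc_chart O ({lgf_j2E L N, (lgf_j2E L N)⁻¹} : Set (lg_E L N))) π)) ∧
    jt_RegAt (fc_chart O ({lgf_j2E L N} : Set (lg_E L N)))
      (algebraMap O (fc_chart O ({lgf_j2E L N} : Set (lg_E L N))) π) ∧
    jt_RegAt (fc_chart O ({(lgf_j2E L N)⁻¹} : Set (lg_E L N)))
      (algebraMap O (fc_chart O ({(lgf_j2E L N)⁻¹} : Set (lg_E L N))) π) := by
  have hx : Transcendental L (lg_lamE (L := L) N) := lgf_lam_transcendental L N two_ne_zero
  have : FiniteDimensional L⟮(lg_lamE N : lg_E L N)⟯ (lg_E L N) := lgf_finite L N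
  exact rcg_prime_T (K0 := L) hπ h2 (lg_rel_lamE (L := L) N) hx (lgf_hconst (lg_E L N)) hR1 hR2

/-- `j'` is transcendental over the constants. -/
theorem rcg_leg_j2E_transcendental : Transcendental L (lgf_j2E L N) :=
  rcg_transcendental_j two_ne_zero (lg_rel_lamE (L := L) N)
    (lgf_lam_transcendental L N two_ne_zero)

/-- `E` is finite over `L(j')`. -/
theorem rcg_leg_j2E_finite : FiniteDimensional L⟮lgf_j2E L N⟯ (lg_E L N) := by
  have : FiniteDimensional L⟮(lg_lamE N : lg_E L N)⟯ (lg_E L N) := lgf_finite L N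
  exact rcg_finiteDimensional_j (K := L) two_ne_zero (lg_rel_lamE (L := L) N)

/-- regularity of the two `λ`-charts ⟹ the two `j'`-charts are Dedekind modulo `π`. -/
theorem rcg_leg_dedekind_of_regAt {π : O} (hπ : Irreducible π) (h2 : IsUnit (2 : O))
    (hR1 : jt_RegAt (fc_chart O ({lg_lamE N} : Set (lg_E L N)))
      (algebraMap O (fc_chart O ({lg_lamE N} : Set (lg_E L N))) π))
    (hR2 : jt_RegAt (fc_chart O ({(lg_lamE N)⁻¹} : Set (lg_E L N)))
      (algebraMap O (fc_chart O ({(lg_lamE N)⁻¹} : Set (lg_E L N))) π)) :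
    IsDedekindDomain (fc_chart O ({lgf_j2E L N} : Set (lg_E L N)) ⧸
        Ideal.span {algebraMap O (fc_chart O ({lgf_j2E L N} : Set (lg_E L N))) π}) ∧
      IsDedekindDomain (fc_chart O ({(lgf_j2E L N)⁻¹} : Set (lg_E L N)) ⧸
        Ideal.span {algebraMap O (fc_chart O ({(lgf_j2E L N)⁻¹} : Set (lg_E L N))) π}) := by
  obtain ⟨-, hT1, hT2⟩ := rcg_leg_prime_of_regAt O N hπ h2 hR1 hR2
  have := rcg_leg_j2E_finite (L := L) N
  exact rrd_dedekind_of_regAt (K0 := L) hπ (rcg_leg_j2E_transcendental N)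
    (lgf_hconst (lg_E L N)) hT1 hT2

/-- **the two `j'`-charts of the Legendre cover over a DVR level `(L, O)`, `L ⊆ Q̄`, are Dedekind
modulo `π`** (`ℓ` odd the residue characteristic, `ℓ ∤ N`, `ζ_N ∈ L`). -/
theorem rcg_leg_dedekind [Algebra ℚ L] [Algebra L (AlgebraicClosure ℚ)]
    [IsScalarTower ℚ L (AlgebraicClosure ℚ)] {π : O} (hπ : Irreducible π) (ℓ : ℕ) [Fact ℓ.Prime]
    (hℓ : ((ℓ : ℕ) : O) ∈ IsLocalRing.maximalIdeal O) (hℓ2 : ℓ ≠ 2) (hℓN : ¬ ℓ ∣ N)
    (ζ : L) (hζ : IsPrimitiveRoot ζ N) :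
    IsDedekindDomain (fc_chart O ({lgf_j2E L N} : Set (lg_E L N)) ⧸
        Ideal.span {algebraMap O (fc_chart O ({lgf_j2E L N} : Set (lg_E L N))) π}) ∧
      IsDedekindDomain (fc_chart O ({(lgf_j2E L N)⁻¹} : Set (lg_E L N)) ⧸
        Ideal.span {algebraMap O (fc_chart O ({(lgf_j2E L N)⁻¹} : Set (lg_E L N))) π}) := by
  have hℓp : ℓ.Prime := Fact.out
  have h2 : IsUnit (2 : O) := by
    have := lg_isUnit_natCast (O := O) hℓ
      ((Nat.coprime_primes Nat.prime_two hℓp).2 (Ne.symm hℓ2))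
    rwa [Nat.cast_ofNat] at this
  exact rcg_leg_dedekind_of_regAt O N hπ h2
    (lg_regAt_lam O N hπ ℓ hℓ hℓ2 hℓN ζ hζ (lgr_ramHyp N (lgh_legendre_K L)))
    (lg_regAt_lam_inv O N hπ ℓ hℓ hℓ2 hℓN ζ hζ (lgr_ramHyp N (lgr_legendre_K_inv L)))

end Leg

end Fermat.Agent.JT3
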