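/-
Node E, producer side, Hesse cover: the instance of `CoverLocHesse.lean` at
`E = hs_E L h3 N`, `μ = hs_muE h3 N`, `j'' = hsf_j3E L h3 N`, over a discrete valuation ring
`O` with fraction field `L` of characteristic zero in which `3` is a unit.

From the regularity of the two standard `μ`-charts (`jt_RegAt`, the conclusion of the model
theorem) the special fibres of the two `j''`-charts of `E` are Dedekind domains: this is the input
`hD` of the norm descent `rcq_dedekind_descent`.
-/
import Mathlib
import Fermat.Agent.JT3.PlaceMap.CoverLocHesse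
import Fermat.Agent.JT3.Inst.HesseFunFieldFacts
import Fermat.Agent.JT3.Inst.HesseVert
import Fermat.Agent.JT3.Model.Connected
import Fermat.Agent.JT3.FCore.FunField
import Fermat.Agent.JT3.FCore.Main

set_option autoImplicit false

noncomputable section

open ModularCurve IntermediateField AlgebraicCurve

namespace Fermat.Agent.JT3

section HesseInst

variable {L : Type*} [Field L] [CharZero L] (h3 : (3 : L) ≠ 0) {O : ValuationSubring L}
  [IsDiscreteValuationRing O] {N : ℕ} [NeZero N]

/-- the two standard `μ`-charts are noetherian. -/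
theorem rch_inst_noetherian :
    IsNoetherianRing (fc_chart O ({hs_muE h3 N} : Set (hs_E L h3 N))) ∧
      IsNoetherianRing (fc_chart O ({(hs_muE h3 N)⁻¹} : Set (hs_E L h3 N))) := by
  have hx : Transcendental L (hs_muE (L := L) h3 N) := hsf_mu_transcendental L h3 N
  have hxi : Transcendental L (hs_muE (L := L) h3 N)⁻¹ := fun h => hx (IsAlgebraic.inv_iff.mp h)
  have := hsf_finite L h3 N
  have : FiniteDimensional L⟮(hs_muE (L := L) h3 N)⁻¹⟯ (hs_E L h3 N) := by
    rw [rt_adjoin_inv]
    infer_instance
  constructor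
  · have := fc_chart_isNoetherianRing (A0 := O) ({hs_muE h3 N} : Finset (hs_E L h3 N))
      (by rw [Finset.coe_singleton]; exact fc_ff_finite (L := L) hx)
    rwa [Finset.coe_singleton] at this
  · have := fc_chart_isNoetherianRing (A0 := O) ({(hs_muE h3 N)⁻¹} : Finset (hs_E L h3 N))
      (by rw [Finset.coe_singleton]; exact fc_ff_finite (L := L) hxi)
    rwa [Finset.coe_singleton] at this

/-- **the special fibres of the two `j''`-charts of the Hesse cover are Dedekind domains**, from
the regularity of the two standard `μ`-charts. -/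
theorem rch_inst_dedekind {π : O} (hπ : Irreducible π) (h3O : IsUnit (3 : O))
    (hr1 : jt_RegAt (fc_chart O ({hs_muE h3 N} : Set (hs_E L h3 N)))
      (algebraMap O (fc_chart O ({hs_muE h3 N} : Set (hs_E L h3 N))) π))
    (hr2 : jt_RegAt (fc_chart O ({(hs_muE h3 N)⁻¹} : Set (hs_E L h3 N)))
      (algebraMap O (fc_chart O ({(hs_muE h3 N)⁻¹} : Set (hs_E L h3 N))) π)) :
    IsDedekindDomain (↥(fc_chart O ({hsf_j3E L h3 N} : Set (hs_E L h3 N))) ⧸
        Ideal.span {algebraMap O ↥(fc_chart O ({hsf_j3E L h3 N} : Set (hs_E L h3 N))) π}) ∧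
      IsDedekindDomain (↥(fc_chart O ({(hsf_j3E L h3 N)⁻¹} : Set (hs_E L h3 N))) ⧸
        Ideal.span {algebraMap O ↥(fc_chart O ({(hsf_j3E L h3 N)⁻¹} : Set (hs_E L h3 N))) π}) := by
  have hx : Transcendental L (hs_muE (L := L) h3 N) := hsf_mu_transcendental L h3 N
  have := hsf_finite L h3 N
  have hconst : ∀ z : hs_E L h3 N, IsAlgebraic L z → z ∈ (algebraMap L (hs_E L h3 N)).range :=
    fun z hz => lgf_hconst (hs_E L h3 N) z hz
  obtain ⟨hp1, hp2, -⟩ := cn_prime_funField (K0 := L) hπ hx hconst
    (fun n hn hπn => (hr1 n hn hπn).2) (fun n hn hπn => (hr2 n hn hπn).2)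
  obtain ⟨hN1, hN2⟩ := rch_inst_noetherian (O := O) (N := N) h3
  have := rch_dedekind_of_regAt _ hp1 hr1
  have := rch_dedekind_of_regAt _ hp2 hr2
  have hπp : Prime π := hπ.prime
  have htr : Transcendental O (hs_muE (L := L) h3 N) := fc_ff_transcendental (L := L) hx
  have hhes := hsv_hesse_E (L := L) h3 N
  exact ⟨rch_T1 _ _ hhes h3O hπp htr, rch_T2 _ _ hhes h3O hπp htr⟩

end HesseInst

end Fermat.Agent.JT3
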