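/-
JT3 / node E (place map), producer side, step (iv) of [E-FIN], modular instance: `RedRegular` for
the charts `D.chart hℓN hA` of Gauss chart data (`rpm_GData`) from a base-level chart whose special
fibre is a Dedekind domain.

* `rpr_mod_red_iota` : the Gauss reduction of a chart function with an `A`-integral q-expansion is
  the coefficientwise reduction.
* `rpr_mod_htr`, `rpr_mod_htr_inv` : `j̃`, `j̃⁻¹` are transcendental over `k`.
* `rpr_mod_hint` : the reduced chart ring is integral over `k[x̃]`.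
* `rpr_mod_hfrac`, `rpr_mod_hfrac_inv` : every element of `F̃_N(k)` is a quotient of reductions of
  chart functions, when the chart contains the generators `j(q^d)` (resp. `j^{-M} j(q^d)`).
* `rpr_mod_redRegular`, `rpr_mod_redRegular_inv` : the assembly with `rpr_redRegular_of_base`.
-/
import Mathlib
import Fermat.Agent.JT3.PlaceMap.ModularGauss
import Fermat.Agent.JT3.PlaceMap.RedRange
import Fermat.Agent.JT3.Export.S28Sep

set_option autoImplicit false
set_option linter.unusedSectionVars false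
set_option linter.style.haveILetI false

namespace Fermat.Agent.JT3

open AlgebraicCurve Polynomial ModularCurve Fermat.Agent.S24

/-- generators of an adjoined field, seen inside it, generate it. -/
theorem rpr_adjoin_preimage_eq_top {k E : Type*} [Field k] [Field E] [Algebra k E] (S : Set E) :
    IntermediateField.adjoin k
      (((↑) : ↥(IntermediateField.adjoin k S) → E) ⁻¹' S) = ⊤ := by
  rw [eq_top_iff]
  rintro ⟨f, hf⟩ -
  induction hf using IntermediateField.adjoin_induction with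
  | mem x hx => exact IntermediateField.subset_adjoin _ _ hx
  | algebraMap r => exact IntermediateField.algebraMap_mem _ r
  | add x y hx' hy' hx hy => exact add_mem hx hy
  | inv x hx' hx => exact inv_mem hx
  | mul x y hx' hy' hx hy => exact mul_mem hx hy

section Mod

variable (A : ValuationSubring Kbar) (N : ℕ) [NeZero N]

set_option synthInstance.maxHeartbeats 400000

noncomputable local instance (priority := 10000) rpr_instAlgSubring (S : Subring (Fbar N)) :
    Algebra S (Fbar N) := rpm_algSub S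

noncomputable local instance (priority := 10000) rpr_instAlgFt :
    Algebra (IsLocalRing.ResidueField A)
      ↥(modularFunctionFieldFullC (IsLocalRing.ResidueField A) N) :=
  rpm_algFt _ N

variable {ℓ : ℕ} [Fact ℓ.Prime]
variable {A N}

/-- the Gauss reduction of a chart function with `A`-integral q-expansion `y` is the
coefficientwise reduction of `y`. -/
theorem rpr_mod_red_iota {x : Fbar N} (D : rpm_GData A N x) (hℓN : ¬ ℓ ∣ N)
    (hA : A.LiesOverPrime ℓ) (b : (D.chart hℓN hA).B) (y : LaurentSeries A)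
    (hy : coeffMap A.subtype y = ((b : Fbar N) : LaurentSeries Kbar)) :
    (((D.chart hℓN hA).red b : ↥(modularFunctionFieldFullC (IsLocalRing.ResidueField A) N)) :
      LaurentSeries (IsLocalRing.ResidueField A)) = coeffMap (IsLocalRing.residue A) y := by
  rw [rpm_GData.chart_red, rpm_gRed_coe]
  have h := gq_res_iota (K := Kbar) y
  rw [← h]
  congr 1
  exact Subtype.ext hy.symm

/-- the q-expansion of `j` is the coefficient extension of `jqModC A`. -/
theorem rpr_mod_lift_j :
    coeffMap A.subtype (jqModC A) = ((br_jBar N : Fbar N) : LaurentSeries Kbar) := by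
  rw [coeffMap_jqModC, coe_br_jBar, rpm_jqK_eq]

/-- the q-expansion of `j⁻¹` is the coefficient extension of `rpm_jinv A`. -/
theorem rpr_mod_lift_jinv :
    coeffMap A.subtype (rpm_jinv A) = (((br_jBar N)⁻¹ : Fbar N) : LaurentSeries Kbar) := by
  rw [rpm_coeffMap_jinv, ← rpm_jqK_eq]
  rfl

/-- transcendence in the reduced function field is transcendence in `k((q))`. -/
theorem rpr_mod_transcendental_iff
    (a : ↥(modularFunctionFieldFullC (IsLocalRing.ResidueField A) N)) :
    Transcendental (IsLocalRing.ResidueField A) a ↔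
      Transcendental (IsLocalRing.ResidueField A)
        (a : LaurentSeries (IsLocalRing.ResidueField A)) := by
  have h := transcendental_algebraMap_iff (R := IsLocalRing.ResidueField A)
    (S := ↥(modularFunctionFieldFullC (IsLocalRing.ResidueField A) N))
    (A := LaurentSeries (IsLocalRing.ResidueField A)) (a := a) Subtype.val_injective
  exact h.symm

/-- **`htr`, chart 1**: the reduction of `j` is transcendental over `k`. -/
theorem rpr_mod_htr (D : rpm_GData A N (br_jBar N)) (hℓN : ¬ ℓ ∣ N) (hA : A.LiesOverPrime ℓ) :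
    Transcendental (IsLocalRing.ResidueField A)
      ((D.chart hℓN hA).red ⟨br_jBar N, D.x_mem⟩) := by
  rw [rpr_mod_transcendental_iff,
    rpr_mod_red_iota D hℓN hA ⟨br_jBar N, D.x_mem⟩ (jqModC A) rpr_mod_lift_j, coeffMap_jqModC]
  exact vx_transcendental_jq

/-- **`htr`, chart 2**: the reduction of `j⁻¹` is transcendental over `k`. -/
theorem rpr_mod_htr_inv (D : rpm_GData A N (br_jBar N)⁻¹) (hℓN : ¬ ℓ ∣ N)
    (hA : A.LiesOverPrime ℓ) :
    Transcendental (IsLocalRing.ResidueField A)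
      ((D.chart hℓN hA).red ⟨(br_jBar N)⁻¹, D.x_mem⟩) := by
  rw [rpr_mod_transcendental_iff,
    rpr_mod_red_iota D hℓN hA ⟨(br_jBar N)⁻¹, D.x_mem⟩ (rpm_jinv A) rpr_mod_lift_jinv,
    rpm_coeffMap_jinv]
  intro h
  exact vx_transcendental_jq (IsAlgebraic.inv_iff.mp h)

/-- **`hint`**: the reduced chart ring is integral over `k[x̃]`. -/
theorem rpr_mod_hint {x : Fbar N} (D : rpm_GData A N x) (hℓN : ¬ ℓ ∣ N)
    (hA : A.LiesOverPrime ℓ) (b : (D.chart hℓN hA).B) :
    IsIntegral (Algebra.adjoin (IsLocalRing.ResidueField A)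
      ({(D.chart hℓN hA).red ⟨x, D.x_mem⟩} :
        Set ↥(modularFunctionFieldFullC (IsLocalRing.ResidueField A) N)))
      ((D.chart hℓN hA).red b) :=
  rpr_red_isIntegral (D.chart hℓN hA) D.x_mem b (D.integral b b.2)

/-- **`hfrac`, chart 1**: if the chart contains the generators `j(q^d)`, `d ∣ N`, every element of
the reduced function field is a quotient of reductions of chart functions. -/
theorem rpr_mod_hfrac (D : rpm_GData A N (br_jBar N)) (hℓN : ¬ ℓ ∣ N) (hA : A.LiesOverPrime ℓ)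
    (hgen : ∀ (d : ℕ) [NeZero d], d ∣ N → ∃ g ∈ D.B,
      ((g : Fbar N) : LaurentSeries Kbar) = qExpand Kbar d (jqModC Kbar))
    (f : ↥(modularFunctionFieldFullC (IsLocalRing.ResidueField A) N)) :
    ∃ b c : (D.chart hℓN hA).B, (D.chart hℓN hA).red c ≠ 0 ∧
      f * (D.chart hℓN hA).red c = (D.chart hℓN hA).red b := by
  have hG : IntermediateField.adjoin (IsLocalRing.ResidueField A)
      (((↑) : ↥(modularFunctionFieldFullC (IsLocalRing.ResidueField A) N) →
        LaurentSeries (IsLocalRing.ResidueField A)) ⁻¹'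
          divisorExpansionsC (IsLocalRing.ResidueField A) N) = ⊤ :=
    rpr_adjoin_preimage_eq_top (divisorExpansionsC (IsLocalRing.ResidueField A) N)
  refine rpr_frac_of_gens (D.chart hℓN hA) _ hG ?_ f
  rintro g ⟨d, hd, hdN, hgd⟩
  obtain ⟨b, hb, hbq⟩ := hgen d hdN
  refine ⟨⟨b, hb⟩, 1, ?_, ?_⟩
  · rw [map_one]; exact one_ne_zero
  · rw [map_one, mul_one]
    apply Subtype.ext
    rw [rpr_mod_red_iota D hℓN hA ⟨b, hb⟩ (qExpand A d (jqModC A))
      (by rw [coeffMap_qExpand, coeffMap_jqModC]; exact hbq.symm),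
      coeffMap_qExpand, coeffMap_jqModC]
    exact hgd

/-- **`hfrac`, chart 2**: the same when the chart contains `j^{-M} j(q^d)` for some `M`. -/
theorem rpr_mod_hfrac_inv (D : rpm_GData A N (br_jBar N)⁻¹) (hℓN : ¬ ℓ ∣ N)
    (hA : A.LiesOverPrime ℓ)
    (hgen : ∀ (d : ℕ) [NeZero d], d ∣ N → ∃ (M : ℕ), ∃ g ∈ D.B,
      ((g : Fbar N) : LaurentSeries Kbar) =
        (jqModC Kbar)⁻¹ ^ M * qExpand Kbar d (jqModC Kbar))
    (f : ↥(modularFunctionFieldFullC (IsLocalRing.ResidueField A) N)) :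
    ∃ b c : (D.chart hℓN hA).B, (D.chart hℓN hA).red c ≠ 0 ∧
      f * (D.chart hℓN hA).red c = (D.chart hℓN hA).red b := by
  have hG : IntermediateField.adjoin (IsLocalRing.ResidueField A)
      (((↑) : ↥(modularFunctionFieldFullC (IsLocalRing.ResidueField A) N) →
        LaurentSeries (IsLocalRing.ResidueField A)) ⁻¹'
          divisorExpansionsC (IsLocalRing.ResidueField A) N) = ⊤ :=
    rpr_adjoin_preimage_eq_top (divisorExpansionsC (IsLocalRing.ResidueField A) N)
  refine rpr_frac_of_gens (D.chart hℓN hA) _ hG ?_ f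
  rintro g ⟨d, hd, hdN, hgd⟩
  obtain ⟨M, b, hb, hbq⟩ := hgen d hdN
  have hcB : (br_jBar N)⁻¹ ^ M ∈ D.B := pow_mem D.x_mem M
  have hc : (((D.chart hℓN hA).red ⟨(br_jBar N)⁻¹ ^ M, hcB⟩ :
      ↥(modularFunctionFieldFullC (IsLocalRing.ResidueField A) N)) :
        LaurentSeries (IsLocalRing.ResidueField A)) =
      (jqModC (IsLocalRing.ResidueField A))⁻¹ ^ M := by
    rw [rpr_mod_red_iota D hℓN hA ⟨(br_jBar N)⁻¹ ^ M, hcB⟩ (rpm_jinv A ^ M)
      (by rw [map_pow, rpr_mod_lift_jinv (N := N)]; rfl), map_pow, rpm_coeffMap_jinv]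
  have hbr : (((D.chart hℓN hA).red ⟨b, hb⟩ :
      ↥(modularFunctionFieldFullC (IsLocalRing.ResidueField A) N)) :
        LaurentSeries (IsLocalRing.ResidueField A)) =
      (jqModC (IsLocalRing.ResidueField A))⁻¹ ^ M *
        qExpand (IsLocalRing.ResidueField A) d (jqModC (IsLocalRing.ResidueField A)) := by
    rw [rpr_mod_red_iota D hℓN hA ⟨b, hb⟩ (rpm_jinv A ^ M * qExpand A d (jqModC A))
      (by rw [map_mul, map_pow, rpm_coeffMap_jinv, coeffMap_qExpand, coeffMap_jqModC]
          exact hbq.symm),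
      map_mul, map_pow, rpm_coeffMap_jinv, coeffMap_qExpand, coeffMap_jqModC]
  refine ⟨⟨b, hb⟩, ⟨(br_jBar N)⁻¹ ^ M, hcB⟩, ?_, ?_⟩
  · intro h0
    have h1 := congrArg (fun t : ↥(modularFunctionFieldFullC (IsLocalRing.ResidueField A) N) =>
      (t : LaurentSeries (IsLocalRing.ResidueField A))) h0
    simp only [hc] at h1
    exact pow_ne_zero M (inv_ne_zero (jqModC_ne_zero_of_nontrivial _)) h1
  · apply Subtype.ext
    change (g : LaurentSeries (IsLocalRing.ResidueField A)) *
      (((D.chart hℓN hA).red ⟨(br_jBar N)⁻¹ ^ M, hcB⟩ :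
        ↥(modularFunctionFieldFullC (IsLocalRing.ResidueField A) N)) :
          LaurentSeries (IsLocalRing.ResidueField A)) = _
    rw [hc, hbr, mul_comm]
    congr 1

/-- **`RedRegular`, chart 1 (`x = j`).**  `R₀` = the base-level chart ring, `β` its base change
into the chart ring, `π₀` the uniformiser. -/
theorem rpr_mod_redRegular (D : rpm_GData A N (br_jBar N)) (hℓN : ¬ ℓ ∣ N)
    (hA : A.LiesOverPrime ℓ) {R₀ : Type*} [CommRing R₀] (π₀ : R₀)
    (hDed : IsDedekindDomain (R₀ ⧸ Ideal.span {π₀}))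
    (β : R₀ →+* (D.chart hℓN hA).B) (hπ : (D.chart hℓN hA).red (β π₀) = 0)
    (hker : ∀ r : R₀, (D.chart hℓN hA).red (β r) = 0 → ∃ r', r = π₀ * r')
    (hsurj : ∀ b : (D.chart hℓN hA).B, ∃ r : R₀,
      (D.chart hℓN hA).red (β r) = (D.chart hℓN hA).red b)
    (hgen : ∀ (d : ℕ) [NeZero d], d ∣ N → ∃ g ∈ D.B,
      ((g : Fbar N) : LaurentSeries Kbar) = qExpand Kbar d (jqModC Kbar)) :
    (D.chart hℓN hA).RedRegular :=
  rpr_redRegular_of_base (D.chart hℓN hA) π₀ hDed β hπ hker hsurj ⟨br_jBar N, D.x_mem⟩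
    (rpr_mod_htr D hℓN hA) (rpr_mod_hint D hℓN hA) (rpr_mod_hfrac D hℓN hA hgen)

/-- **`RedRegular`, chart 2 (`x = j⁻¹`).** -/
theorem rpr_mod_redRegular_inv (D : rpm_GData A N (br_jBar N)⁻¹) (hℓN : ¬ ℓ ∣ N)
    (hA : A.LiesOverPrime ℓ) {R₀ : Type*} [CommRing R₀] (π₀ : R₀)
    (hDed : IsDedekindDomain (R₀ ⧸ Ideal.span {π₀}))
    (β : R₀ →+* (D.chart hℓN hA).B) (hπ : (D.chart hℓN hA).red (β π₀) = 0)
    (hker : ∀ r : R₀, (D.chart hℓN hA).red (β r) = 0 → ∃ r', r = π₀ * r')
    (hsurj : ∀ b : (D.chart hℓN hA).B, ∃ r : R₀,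
      (D.chart hℓN hA).red (β r) = (D.chart hℓN hA).red b)
    (hgen : ∀ (d : ℕ) [NeZero d], d ∣ N → ∃ (M : ℕ), ∃ g ∈ D.B,
      ((g : Fbar N) : LaurentSeries Kbar) =
        (jqModC Kbar)⁻¹ ^ M * qExpand Kbar d (jqModC Kbar)) :
    (D.chart hℓN hA).RedRegular :=
  rpr_redRegular_of_base (D.chart hℓN hA) π₀ hDed β hπ hker hsurj ⟨(br_jBar N)⁻¹, D.x_mem⟩
    (rpr_mod_htr_inv D hℓN hA) (rpr_mod_hint D hℓN hA) (rpr_mod_hfrac_inv D hℓN hA hgen)

/-! ### the same for an arbitrary coordinate `x` with an `A`-integral q-expansion `y` -/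

/-- **`htr`, arbitrary coordinate.** -/
theorem rpr_mod_htr_gen {x : Fbar N} (D : rpm_GData A N x) (hℓN : ¬ ℓ ∣ N)
    (hA : A.LiesOverPrime ℓ) (y : LaurentSeries A)
    (hy : coeffMap A.subtype y = ((x : Fbar N) : LaurentSeries Kbar))
    (htr : Transcendental (IsLocalRing.ResidueField A) (coeffMap (IsLocalRing.residue A) y)) :
    Transcendental (IsLocalRing.ResidueField A) ((D.chart hℓN hA).red ⟨x, D.x_mem⟩) := by
  rw [rpr_mod_transcendental_iff, rpr_mod_red_iota D hℓN hA ⟨x, D.x_mem⟩ y hy]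
  exact htr

/-- **`hfrac`, arbitrary coordinate**: the chart contains `x ^ M * j(q^d)` for some `M`. -/
theorem rpr_mod_hfrac_gen {x : Fbar N} (D : rpm_GData A N x) (hℓN : ¬ ℓ ∣ N)
    (hA : A.LiesOverPrime ℓ) (y : LaurentSeries A)
    (hy : coeffMap A.subtype y = ((x : Fbar N) : LaurentSeries Kbar))
    (hy0 : coeffMap (IsLocalRing.residue A) y ≠ 0)
    (hgen : ∀ (d : ℕ) [NeZero d], d ∣ N → ∃ (M : ℕ), ∃ g ∈ D.B,
      ((g : Fbar N) : LaurentSeries Kbar) =
        ((x : Fbar N) : LaurentSeries Kbar) ^ M * qExpand Kbar d (jqModC Kbar))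
    (f : ↥(modularFunctionFieldFullC (IsLocalRing.ResidueField A) N)) :
    ∃ b c : (D.chart hℓN hA).B, (D.chart hℓN hA).red c ≠ 0 ∧
      f * (D.chart hℓN hA).red c = (D.chart hℓN hA).red b := by
  have hG : IntermediateField.adjoin (IsLocalRing.ResidueField A)
      (((↑) : ↥(modularFunctionFieldFullC (IsLocalRing.ResidueField A) N) →
        LaurentSeries (IsLocalRing.ResidueField A)) ⁻¹'
          divisorExpansionsC (IsLocalRing.ResidueField A) N) = ⊤ :=
    rpr_adjoin_preimage_eq_top (divisorExpansionsC (IsLocalRing.ResidueField A) N)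
  refine rpr_frac_of_gens (D.chart hℓN hA) _ hG ?_ f
  rintro g ⟨d, hd, hdN, hgd⟩
  obtain ⟨M, b, hb, hbq⟩ := hgen d hdN
  have hcB : x ^ M ∈ D.B := pow_mem D.x_mem M
  have hc : (((D.chart hℓN hA).red ⟨x ^ M, hcB⟩ :
      ↥(modularFunctionFieldFullC (IsLocalRing.ResidueField A) N)) :
        LaurentSeries (IsLocalRing.ResidueField A)) =
      coeffMap (IsLocalRing.residue A) y ^ M := by
    rw [rpr_mod_red_iota D hℓN hA ⟨x ^ M, hcB⟩ (y ^ M) (by rw [map_pow, hy]; rfl), map_pow]
  have hbr : (((D.chart hℓN hA).red ⟨b, hb⟩ :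
      ↥(modularFunctionFieldFullC (IsLocalRing.ResidueField A) N)) :
        LaurentSeries (IsLocalRing.ResidueField A)) =
      coeffMap (IsLocalRing.residue A) y ^ M *
        qExpand (IsLocalRing.ResidueField A) d (jqModC (IsLocalRing.ResidueField A)) := by
    rw [rpr_mod_red_iota D hℓN hA ⟨b, hb⟩ (y ^ M * qExpand A d (jqModC A))
      (by rw [map_mul, map_pow, hy, coeffMap_qExpand, coeffMap_jqModC]
          exact hbq.symm),
      map_mul, map_pow, coeffMap_qExpand, coeffMap_jqModC]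
  refine ⟨⟨b, hb⟩, ⟨x ^ M, hcB⟩, ?_, ?_⟩
  · intro h0
    have h1 := congrArg (fun t : ↥(modularFunctionFieldFullC (IsLocalRing.ResidueField A) N) =>
      (t : LaurentSeries (IsLocalRing.ResidueField A))) h0
    simp only [hc] at h1
    exact pow_ne_zero M hy0 h1
  · apply Subtype.ext
    change (g : LaurentSeries (IsLocalRing.ResidueField A)) *
      (((D.chart hℓN hA).red ⟨x ^ M, hcB⟩ :
        ↥(modularFunctionFieldFullC (IsLocalRing.ResidueField A) N)) :
          LaurentSeries (IsLocalRing.ResidueField A)) = _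
    rw [hc, hbr, mul_comm]
    congr 1

/-- **`RedRegular`, arbitrary coordinate.** -/
theorem rpr_mod_redRegular_gen {x : Fbar N} (D : rpm_GData A N x) (hℓN : ¬ ℓ ∣ N)
    (hA : A.LiesOverPrime ℓ) (y : LaurentSeries A)
    (hy : coeffMap A.subtype y = ((x : Fbar N) : LaurentSeries Kbar))
    (htr : Transcendental (IsLocalRing.ResidueField A) (coeffMap (IsLocalRing.residue A) y))
    {R₀ : Type*} [CommRing R₀] (π₀ : R₀)
    (hDed : IsDedekindDomain (R₀ ⧸ Ideal.span {π₀}))
    (β : R₀ →+* (D.chart hℓN hA).B) (hπ : (D.chart hℓN hA).red (β π₀) = 0)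
    (hker : ∀ r : R₀, (D.chart hℓN hA).red (β r) = 0 → ∃ r', r = π₀ * r')
    (hsurj : ∀ b : (D.chart hℓN hA).B, ∃ r : R₀,
      (D.chart hℓN hA).red (β r) = (D.chart hℓN hA).red b)
    (hgen : ∀ (d : ℕ) [NeZero d], d ∣ N → ∃ (M : ℕ), ∃ g ∈ D.B,
      ((g : Fbar N) : LaurentSeries Kbar) =
        ((x : Fbar N) : LaurentSeries Kbar) ^ M * qExpand Kbar d (jqModC Kbar)) :
    (D.chart hℓN hA).RedRegular := by
  have hy0 : coeffMap (IsLocalRing.residue A) y ≠ 0 := by
    intro h0
    rw [h0] at htr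
    exact htr (isAlgebraic_zero)
  exact rpr_redRegular_of_base (D.chart hℓN hA) π₀ hDed β hπ hker hsurj ⟨x, D.x_mem⟩
    (rpr_mod_htr_gen D hℓN hA y hy htr) (rpr_mod_hint D hℓN hA)
    (rpr_mod_hfrac_gen D hℓN hA y hy hy0 hgen)

end Mod

end Fermat.Agent.JT3
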