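/-
JT3 / node E (place map), producer side: the final assembly [E-FIN] (independent second write-up,
prefix `rpy_`).

`L` a field with `L → Q̄`, `A` a valuation subring of `Q̄` above `ℓ ∤ N`, `O₀ = A ∩ L` a discrete
valuation ring with uniformiser `π` and the same residue field as `A`.  From the base-level
packages `rpn_Level0 (lg_F L N) π x₀` of the two charts `x₀ = j, j⁻¹` we build the two Gauss chart
data of `F̄_N` (`rpm_GData`), their base levels (`rp_Base`) and `RedRegular`, hence node E: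
`ReductionInputsModL A N`.
-/
import Mathlib
import Fermat.Agent.JT3.PlaceMap.Level0
import Fermat.Agent.JT3.PlaceMap.Level0Gen
import Fermat.Agent.JT3.PlaceMap.RedRangeMod
import Fermat.Agent.JT3.Bridge.GaussBaseChangeModular

set_option autoImplicit false
set_option linter.unusedSectionVars false
set_option linter.style.haveILetI false
set_option linter.style.longLine false

open AlgebraicCurve Polynomial ModularCurve Fermat.Agent.S24 IsLocalRing

namespace Fermat.Agent.JT3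

section Chart

variable (L : Type*) [Field L] [Algebra L Kbar] (A : ValuationSubring Kbar) (N : ℕ) [NeZero N]

/-- the image of `A ∩ L` in `Q̄`. -/
noncomputable def rpy_O : Subring Kbar := (A.comap (algebraMap L Kbar)).toSubring.map (algebraMap L Kbar)

variable {L A}

theorem rpy_mem_O {o : Kbar} :
    o ∈ rpy_O L A ↔ ∃ o₀ : L, o₀ ∈ A.comap (algebraMap L Kbar) ∧ algebraMap L Kbar o₀ = o :=
  Iff.rfl

theorem rpy_O_le {o : Kbar} (ho : o ∈ rpy_O L A) : o ∈ A := by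
  obtain ⟨o₀, ho₀, rfl⟩ := ho
  exact ho₀

variable (L A) {N}

/-- the generators of the chart ring: the images of the coordinate and of module generators. -/
noncomputable def rpy_gens (x₀ : ↥(lg_F L N)) (G : Finset ↥(lg_F L N)) : Finset (Fbar N) :=
  haveI := Classical.decEq (Fbar N)
  insert (gq_bc_toBar L N x₀) (G.image (gq_bc_toBar L N))

variable {L A}

theorem rpy_mem_gens {x₀ : ↥(lg_F L N)} {G : Finset ↥(lg_F L N)} {g : Fbar N} :
    g ∈ rpy_gens L x₀ G ↔ g = gq_bc_toBar L N x₀ ∨ ∃ g₀ ∈ G, gq_bc_toBar L N g₀ = g := by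
  letI := Classical.decEq (Fbar N)
  rw [rpy_gens, Finset.mem_insert, Finset.mem_image]

/-- the constants of `A ∩ L` inside `F̄_N`, through the base change. -/
theorem rpy_toBar_const (o₀ : ↥(A.comap (algebraMap L Kbar))) :
    gq_bc_toBar L N (algebraMap ↥(A.comap (algebraMap L Kbar)) ↥(lg_F L N) o₀) =
      algebraMap Kbar (Fbar N) (algebraMap L Kbar (o₀ : L)) :=
  gq_bc_toBar_algebraMap L N (o₀ : L)

/-- **`O[gens] = β(chart)`.** -/
theorem rpy_genRing_eq (x₀ : ↥(lg_F L N)) (G : Finset ↥(lg_F L N))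
    (hG : ∀ g ∈ G, g ∈ fc_chart ↥(A.comap (algebraMap L Kbar)) ({x₀} : Set ↥(lg_F L N)))
    (hspan : ∀ b ∈ fc_chart ↥(A.comap (algebraMap L Kbar)) ({x₀} : Set ↥(lg_F L N)),
      b ∈ Submodule.span ↥(Algebra.adjoin ↥(A.comap (algebraMap L Kbar)) ({x₀} : Set ↥(lg_F L N)))
        (G : Set ↥(lg_F L N))) :
    rp_genRing (rpy_O L A) ((rpy_gens L x₀ G : Finset (Fbar N)) : Set (Fbar N)) =
      (fc_chart ↥(A.comap (algebraMap L Kbar)) ({x₀} : Set ↥(lg_F L N))).toSubring.map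
        (gq_bc_toBar L N) := by
  apply le_antisymm
  · apply rp_genRing_le
    · intro g hg
      rcases rpy_mem_gens.1 (Finset.mem_coe.1 hg) with rfl | ⟨g₀, hg₀, rfl⟩
      · exact ⟨x₀, fc_x_mem_chart x₀, rfl⟩
      · exact ⟨g₀, hG g₀ hg₀, rfl⟩
    · rintro o ⟨o₀, ho₀, rfl⟩
      refine ⟨algebraMap ↥(A.comap (algebraMap L Kbar)) ↥(lg_F L N) ⟨o₀, ho₀⟩,
        Subalgebra.algebraMap_mem _ _, ?_⟩
      exact rpy_toBar_const (N := N) ⟨o₀, ho₀⟩
  · rintro _ ⟨b, hb, rfl⟩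
    have hadj : ∀ r ∈ Algebra.adjoin ↥(A.comap (algebraMap L Kbar)) ({x₀} : Set ↥(lg_F L N)),
        gq_bc_toBar L N r ∈
          rp_genRing (rpy_O L A) ((rpy_gens L x₀ G : Finset (Fbar N)) : Set (Fbar N)) := by
      intro r hr
      induction hr using Algebra.adjoin_induction with
      | mem y hy =>
        rw [Set.mem_singleton_iff] at hy
        rw [hy]
        exact rp_gen_mem_genRing _ (Finset.mem_coe.2 (rpy_mem_gens.2 (Or.inl rfl)))
      | algebraMap o₀ =>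
        rw [rpy_toBar_const]
        exact rp_const_mem_genRing _ ⟨(o₀ : L), o₀.2, rfl⟩
      | add y z _ _ hy hz => rw [map_add]; exact add_mem hy hz
      | mul y z _ _ hy hz => rw [map_mul]; exact mul_mem hy hz
    have hsp := hspan b hb
    clear hb
    induction hsp using Submodule.span_induction with
    | mem g hg =>
      exact rp_gen_mem_genRing _ (Finset.mem_coe.2 (rpy_mem_gens.2 (Or.inr ⟨g, hg, rfl⟩)))
    | zero => rw [map_zero]; exact zero_mem _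
    | add y z _ _ hy hz => rw [map_add]; exact add_mem hy hz
    | smul r y _ hy =>
      have : r • y = (r : ↥(lg_F L N)) * y := rfl
      rw [this, map_mul]
      exact mul_mem (hadj r r.2) hy

/-! ### the chart data -/

set_option synthInstance.maxHeartbeats 400000

noncomputable local instance (priority := 10000) rpy_instAlgSubring (S : Subring (Fbar N)) :
    Algebra S (Fbar N) := rpm_algSub S

noncomputable local instance (priority := 10000) rpy_instAlgFt :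
    Algebra (IsLocalRing.ResidueField A)
      ↥(modularFunctionFieldFullC (IsLocalRing.ResidueField A) N) :=
  rpm_algFt _ N

/-- `β` maps `O₀[x₀]` into `A[β x₀]`. -/
theorem rpy_toBar_mem_ring (x₀ : ↥(lg_F L N))
    (r : ↥(lg_F L N))
    (hr : r ∈ Algebra.adjoin ↥(A.comap (algebraMap L Kbar)) ({x₀} : Set ↥(lg_F L N))) :
    gq_bc_toBar L N r ∈ rpm_ring A N (gq_bc_toBar L N x₀) := by
  induction hr using Algebra.adjoin_induction with
  | mem y hy =>
    rw [Set.mem_singleton_iff] at hy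
    rw [hy]
    exact rpm_self_mem_ring A N _
  | algebraMap o₀ =>
    rw [rpy_toBar_const]
    exact rpm_const_mem_ring A N _ ⟨algebraMap L Kbar (o₀ : L), o₀.2⟩
  | add y z _ _ hy hz => rw [map_add]; exact add_mem hy hz
  | mul y z _ _ hy hz => rw [map_mul]; exact mul_mem hy hz

/-- the base change of a chart function is integral over `A[β x₀]`. -/
theorem rpy_toBar_isIntegral (x₀ : ↥(lg_F L N)) {b : ↥(lg_F L N)}
    (hb : b ∈ fc_chart ↥(A.comap (algebraMap L Kbar)) ({x₀} : Set ↥(lg_F L N))) :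
    IsIntegral (rpm_ring A N (gq_bc_toBar L N x₀)) (gq_bc_toBar L N b) := by
  rw [fc_mem_chart] at hb
  let φ : ↥(Algebra.adjoin ↥(A.comap (algebraMap L Kbar)) ({x₀} : Set ↥(lg_F L N))) →+*
      ↥(rpm_ring A N (gq_bc_toBar L N x₀)) :=
    ((gq_bc_toBar L N).comp
      (Algebra.adjoin ↥(A.comap (algebraMap L Kbar)) ({x₀} : Set ↥(lg_F L N))).val.toRingHom).codRestrict
      _ (fun r => rpy_toBar_mem_ring x₀ r r.2)
  exact IsIntegral.map_of_comp_eq φ (gq_bc_toBar L N) (by ext r; rfl) hb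

/-- the base change of `j(q^d)` is the generator `j(q^d)` of `F̄_N`. -/
theorem rpy_toBar_jd {d : ℕ} [NeZero d] (hd : d ∣ N) :
    ((gq_bc_toBar L N (rpn_gen_jd L N hd) : Fbar N) : LaurentSeries Kbar) =
      qExpand Kbar d (jqModC Kbar) := by
  rw [gq_bc_toBar_coe, rpn_gen_jd_coe, coeffMap_qExpand, coeffMap_jqModC]

/-- **`hfrac`** of `rpm_gDataGen`: the generators of `F̄_N` are quotients of elements of
`O[gens]`. -/
theorem rpy_hfrac (x₀ : ↥(lg_F L N)) (hx₀ : x₀ ≠ 0) (G : Finset ↥(lg_F L N))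
    (hG : ∀ g ∈ G, g ∈ fc_chart ↥(A.comap (algebraMap L Kbar)) ({x₀} : Set ↥(lg_F L N)))
    (hspan : ∀ b ∈ fc_chart ↥(A.comap (algebraMap L Kbar)) ({x₀} : Set ↥(lg_F L N)),
      b ∈ Submodule.span ↥(Algebra.adjoin ↥(A.comap (algebraMap L Kbar)) ({x₀} : Set ↥(lg_F L N)))
        (G : Set ↥(lg_F L N)))
    (hgen : ∀ (d : ℕ) [NeZero d] (hd : d ∣ N), ∃ M : ℕ, x₀ ^ M * rpn_gen_jd L N hd ∈
      fc_chart ↥(A.comap (algebraMap L Kbar)) ({x₀} : Set ↥(lg_F L N))) :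
    ∀ g ∈ rpm_gens N, g ∈ Subfield.closure
      (rp_genRing A.toSubring ((rpy_gens L x₀ G : Finset (Fbar N)) : Set (Fbar N)) :
        Set (Fbar N)) := by
  intro g hg
  obtain ⟨d, hd, hdN, hgd⟩ := hg
  haveI := hd
  obtain ⟨M, hM⟩ := hgen d hdN
  have hle : rp_genRing (rpy_O L A) ((rpy_gens L x₀ G : Finset (Fbar N)) : Set (Fbar N)) ≤
      rp_genRing A.toSubring ((rpy_gens L x₀ G : Finset (Fbar N)) : Set (Fbar N)) :=
    rp_genRing_mono (fun o ho => rpy_O_le ho) _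
  have h1 : gq_bc_toBar L N (x₀ ^ M * rpn_gen_jd L N hdN) ∈
      rp_genRing (rpy_O L A) ((rpy_gens L x₀ G : Finset (Fbar N)) : Set (Fbar N)) := by
    rw [rpy_genRing_eq x₀ G hG hspan]
    exact ⟨_, hM, rfl⟩
  have h2 : gq_bc_toBar L N x₀ ∈
      rp_genRing (rpy_O L A) ((rpy_gens L x₀ G : Finset (Fbar N)) : Set (Fbar N)) :=
    rp_gen_mem_genRing _ (Finset.mem_coe.2 (rpy_mem_gens.2 (Or.inl rfl)))
  have hgeq : g = gq_bc_toBar L N (rpn_gen_jd L N hdN) := by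
    apply Subtype.ext
    rw [rpy_toBar_jd, hgd, rpm_barGen_eq]
  have hx0 : gq_bc_toBar L N x₀ ≠ 0 := by
    intro h
    exact hx₀ (gq_bc_toBar_injective L N (by rw [h, map_zero]))
  have hdiv : g = gq_bc_toBar L N (x₀ ^ M * rpn_gen_jd L N hdN) / (gq_bc_toBar L N x₀) ^ M := by
    rw [map_mul, map_pow, hgeq, mul_comm, mul_div_assoc, div_self (pow_ne_zero M hx0), mul_one]
  rw [hdiv]
  exact div_mem (Subfield.subset_closure (hle h1))
    (pow_mem (Subfield.subset_closure (hle h2)) M)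

variable (A) in
/-- **the Gauss chart datum** of the base change of the chart `fc_chart O₀ {x₀}`. -/
noncomputable def rpy_data (x₀ : ↥(lg_F L N)) (hx₀ : x₀ ≠ 0) (G : Finset ↥(lg_F L N))
    (hG : ∀ g ∈ G, g ∈ fc_chart ↥(A.comap (algebraMap L Kbar)) ({x₀} : Set ↥(lg_F L N)))
    (hspan : ∀ b ∈ fc_chart ↥(A.comap (algebraMap L Kbar)) ({x₀} : Set ↥(lg_F L N)),
      b ∈ Submodule.span ↥(Algebra.adjoin ↥(A.comap (algebraMap L Kbar)) ({x₀} : Set ↥(lg_F L N)))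
        (G : Set ↥(lg_F L N)))
    (hgen : ∀ (d : ℕ) [NeZero d] (hd : d ∣ N), ∃ M : ℕ, x₀ ^ M * rpn_gen_jd L N hd ∈
      fc_chart ↥(A.comap (algebraMap L Kbar)) ({x₀} : Set ↥(lg_F L N)))
    (hbdd : gq_bc_toBar L N x₀ ∈ rpm_gInt A N) :
    rpm_GData A N (gq_bc_toBar L N x₀) :=
  rpm_gDataGen A N (gq_bc_toBar L N x₀) ((rpy_gens L x₀ G : Finset (Fbar N)) : Set (Fbar N))
    (by
      intro g hg
      rcases rpy_mem_gens.1 (Finset.mem_coe.1 hg) with rfl | ⟨g₀, hg₀, rfl⟩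
      · exact rpy_toBar_isIntegral x₀ (fc_x_mem_chart x₀)
      · exact rpy_toBar_isIntegral x₀ (hG g₀ hg₀))
    (rp_gen_mem_genRing _ (Finset.mem_coe.2 (rpy_mem_gens.2 (Or.inl rfl))))
    hbdd (rpy_hfrac x₀ hx₀ G hG hspan hgen)

/-! ### the reduction of the base change of a chart function -/

variable {ℓ : ℕ} [Fact ℓ.Prime]

/-- **the Gauss reduction on `β(b₀)`** is the coefficientwise reduction of an `O₀`-integral
q-expansion of `b₀`, pushed to the residue field of `A`. -/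
theorem rpy_red_toBar {x : Fbar N} (D : rpm_GData A N x) (hℓN : ¬ ℓ ∣ N) (hA : A.LiesOverPrime ℓ)
    (b₀ : ↥(lg_F L N)) (hb : gq_bc_toBar L N b₀ ∈ (D.chart hℓN hA).B)
    (w : LaurentSeries ↥(A.comap (algebraMap L Kbar)))
    (hw : coeffMap (algebraMap ↥(A.comap (algebraMap L Kbar)) L) w = (b₀ : LaurentSeries L)) :
    (((D.chart hℓN hA).red ⟨gq_bc_toBar L N b₀, hb⟩ :
      ↥(modularFunctionFieldFullC (IsLocalRing.ResidueField A) N)) :
        LaurentSeries (IsLocalRing.ResidueField A)) =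
      coeffMap (ResidueField.map (gq_bc_comapHom (L := L) A))
        (coeffMap (residue ↥(A.comap (algebraMap L Kbar))) w) := by
  rw [rpr_mod_red_iota D hℓN hA ⟨_, hb⟩ (coeffMap (gq_bc_comapHom (L := L) A) w), gq_bc_red]
  change coeffMap (algebraMap ↥A Kbar) (coeffMap (gq_bc_comapHom (L := L) A) w) =
    coeffMap (algebraMap L Kbar) (b₀ : LaurentSeries L)
  rw [← hw]
  exact (gq_bc_iota (gq_bc_comapHom (L := L) A) (algebraMap L Kbar) (gq_bc_comap_compat A) w).symm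

variable [IsDiscreteValuationRing ↥(A.comap (algebraMap L Kbar))]

/-- **the kernel of the reduction on `β(chart)` is generated by `π`.** -/
theorem rpy_ker {x : Fbar N} (D : rpm_GData A N x) (hℓN : ¬ ℓ ∣ N) (hA : A.LiesOverPrime ℓ)
    {π : ↥(A.comap (algebraMap L Kbar))} {x₀ : ↥(lg_F L N)} (h : rpn_Level0 (lg_F L N) π x₀)
    (b₀ : ↥(lg_F L N))
    (hb₀ : b₀ ∈ fc_chart ↥(A.comap (algebraMap L Kbar)) ({x₀} : Set ↥(lg_F L N)))
    (hb : gq_bc_toBar L N b₀ ∈ (D.chart hℓN hA).B)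
    (hred : (D.chart hℓN hA).red ⟨gq_bc_toBar L N b₀, hb⟩ = 0) :
    ∃ b' ∈ fc_chart ↥(A.comap (algebraMap L Kbar)) ({x₀} : Set ↥(lg_F L N)),
      b₀ = algebraMap ↥(A.comap (algebraMap L Kbar)) ↥(lg_F L N) π * b' := by
  obtain ⟨w, hw⟩ := h.qint b₀ hb₀
  refine h.ker b₀ hb₀ w hw ?_
  have h1 := rpy_red_toBar D hℓN hA b₀ hb w hw
  rw [hred] at h1
  apply gq_bc_residue_injective (gq_bc_comapHom (L := L) A)
  rw [map_zero, ← h1]
  rfl

/-! ### the base level -/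

omit [NeZero N] [Fact ℓ.Prime] [IsDiscreteValuationRing ↥(A.comap (algebraMap L Kbar))] in
/-- `Q̄` is algebraic over every subring. -/
theorem rpy_alg (O : Subring Kbar) (c : Kbar) :
    ∃ p : Polynomial Kbar, p ≠ 0 ∧ (∀ i, p.coeff i ∈ O) ∧ p.eval c = 0 := by
  have _ : Algebra.IsAlgebraic ℚ (AlgebraicClosure ℚ) := AlgebraicClosure.isAlgebraic ℚ
  have hcZ : IsAlgebraic ℤ c := (IsFractionRing.isAlgebraic_iff ℤ ℚ (AlgebraicClosure ℚ)).mpr
    (Algebra.IsAlgebraic.isAlgebraic c)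
  obtain ⟨p, hp0, hp⟩ := hcZ
  refine ⟨p.map (Int.castRingHom Kbar), ?_, ?_, ?_⟩
  · intro h
    apply hp0
    apply Polynomial.map_injective (Int.castRingHom Kbar) Int.cast_injective
    rw [h, Polynomial.map_zero]
  · intro i
    rw [Polynomial.coeff_map]
    exact intCast_mem O _
  · rw [Polynomial.eval_map, ← hp, Polynomial.aeval_def]
    rfl

omit [NeZero N] [Fact ℓ.Prime] in
/-- the image of the uniformiser is a nonunit of `A`. -/
theorem rpy_pi_nonunit {π : ↥(A.comap (algebraMap L Kbar))} (hπ : Irreducible π) :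
    algebraMap L Kbar (π : L) ∈ A.nonunits := by
  rw [ValuationSubring.mem_nonunits_iff_exists_mem_maximalIdeal]
  refine ⟨π.2, ?_⟩
  rw [IsLocalRing.mem_maximalIdeal, mem_nonunits_iff]
  intro hu
  exact hπ.not_isUnit ((isUnit_map_iff (gq_bc_comapHom (L := L) A) π).1 hu)

omit [NeZero N] [Fact ℓ.Prime] in
/-- the structure of the image of the discrete valuation ring `A ∩ L`. -/
theorem rpy_O_str {π : ↥(A.comap (algebraMap L Kbar))} (hπ : Irreducible π) (o : Kbar)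
    (ho : o ∈ rpy_O L A) (ho0 : o ≠ 0) :
    ∃ (n : ℕ) (u : Kbar), u ∈ rpy_O L A ∧ u⁻¹ ∈ rpy_O L A ∧
      o = algebraMap L Kbar (π : L) ^ n * u := by
  obtain ⟨o₀, ho₀, rfl⟩ := ho
  have h0 : (⟨o₀, ho₀⟩ : ↥(A.comap (algebraMap L Kbar))) ≠ 0 := by
    intro h
    apply ho0
    have : o₀ = 0 := congrArg Subtype.val h
    rw [this, map_zero]
  obtain ⟨n, u, hu⟩ := IsDiscreteValuationRing.eq_unit_mul_pow_irreducible h0 hπ
  refine ⟨n, algebraMap L Kbar ((u : ↥(A.comap (algebraMap L Kbar))) : L),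
    ⟨_, (u : ↥(A.comap (algebraMap L Kbar))).2, rfl⟩, ?_, ?_⟩
  · refine ⟨(((u⁻¹ : (↥(A.comap (algebraMap L Kbar)))ˣ) : ↥(A.comap (algebraMap L Kbar))) : L),
      ((u⁻¹ : (↥(A.comap (algebraMap L Kbar)))ˣ) : ↥(A.comap (algebraMap L Kbar))).2, ?_⟩
    rw [← map_inv₀]
    congr 1
    have h1 : ((u : ↥(A.comap (algebraMap L Kbar))) : L) *
        (((u⁻¹ : (↥(A.comap (algebraMap L Kbar)))ˣ) : ↥(A.comap (algebraMap L Kbar))) : L) = 1 := by
      have := congrArg (fun t : ↥(A.comap (algebraMap L Kbar)) => (t : L)) u.mul_inv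
      exact this
    exact eq_inv_of_mul_eq_one_right h1
  · have h1 : o₀ = ((u : ↥(A.comap (algebraMap L Kbar))) : L) * (π : L) ^ n := by
      have := congrArg (fun t : ↥(A.comap (algebraMap L Kbar)) => (t : L)) hu
      exact this
    rw [h1, map_mul, map_pow, mul_comm]

/-- **the base level** of the base-changed chart. -/
noncomputable def rpy_base (hℓN : ¬ ℓ ∣ N) (hA : A.LiesOverPrime ℓ)
    {π : ↥(A.comap (algebraMap L Kbar))} (hπ : Irreducible π)
    (hres : ∀ a : A, ∃ o ∈ rpy_O L A, (a : Kbar) - o ∈ A.nonunits)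
    {x₀ : ↥(lg_F L N)} (hx₀ : x₀ ≠ 0) (h : rpn_Level0 (lg_F L N) π x₀)
    (G : Finset ↥(lg_F L N))
    (hG : ∀ g ∈ G, g ∈ fc_chart ↥(A.comap (algebraMap L Kbar)) ({x₀} : Set ↥(lg_F L N)))
    (hspan : ∀ b ∈ fc_chart ↥(A.comap (algebraMap L Kbar)) ({x₀} : Set ↥(lg_F L N)),
      b ∈ Submodule.span ↥(Algebra.adjoin ↥(A.comap (algebraMap L Kbar)) ({x₀} : Set ↥(lg_F L N)))
        (G : Set ↥(lg_F L N)))
    (hgen : ∀ (d : ℕ) [NeZero d] (hd : d ∣ N), ∃ M : ℕ, x₀ ^ M * rpn_gen_jd L N hd ∈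
      fc_chart ↥(A.comap (algebraMap L Kbar)) ({x₀} : Set ↥(lg_F L N)))
    (hbdd : gq_bc_toBar L N x₀ ∈ rpm_gInt A N) :
    rp_Base ((rpy_data A x₀ hx₀ G hG hspan hgen hbdd).chart hℓN hA) where
  O := rpy_O L A
  O_le := fun _ ho => rpy_O_le ho
  ϖ := algebraMap L Kbar (π : L)
  ϖ_mem := ⟨(π : L), π.2, rfl⟩
  ϖ_ne := by
    intro h0
    apply hπ.ne_zero
    apply Subtype.ext
    exact (map_eq_zero (algebraMap L Kbar)).1 h0
  ϖ_nonunit := rpy_pi_nonunit hπ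
  O_str := fun o ho ho0 => rpy_O_str hπ o ho ho0
  alg := rpy_alg (rpy_O L A)
  res_eq := hres
  gens := rpy_gens L x₀ G
  chart_eq := rfl
  red_ker := by
    intro b hb hbO hred
    rw [rpy_genRing_eq x₀ G hG hspan] at hbO
    obtain ⟨b₀, hb₀, rfl⟩ := hbO
    obtain ⟨b', hb', hbb⟩ := rpy_ker (rpy_data A x₀ hx₀ G hG hspan hgen hbdd) hℓN hA h b₀ hb₀ hb hred
    refine ⟨gq_bc_toBar L N b', ?_, ?_⟩
    · rw [rpy_genRing_eq x₀ G hG hspan]
      exact ⟨b', hb', rfl⟩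
    · change gq_bc_toBar L N b₀ = _
      rw [hbb, map_mul, rpy_toBar_const]

/-- **`RedRegular`** for the base-changed chart. -/
theorem rpy_redRegular (hℓN : ¬ ℓ ∣ N) (hA : A.LiesOverPrime ℓ)
    {π : ↥(A.comap (algebraMap L Kbar))} (hπ : Irreducible π)
    (hres : ∀ a : A, ∃ o ∈ rpy_O L A, (a : Kbar) - o ∈ A.nonunits)
    {x₀ : ↥(lg_F L N)} (hx₀ : x₀ ≠ 0) (h : rpn_Level0 (lg_F L N) π x₀)
    (G : Finset ↥(lg_F L N))
    (hG : ∀ g ∈ G, g ∈ fc_chart ↥(A.comap (algebraMap L Kbar)) ({x₀} : Set ↥(lg_F L N)))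
    (hspan : ∀ b ∈ fc_chart ↥(A.comap (algebraMap L Kbar)) ({x₀} : Set ↥(lg_F L N)),
      b ∈ Submodule.span ↥(Algebra.adjoin ↥(A.comap (algebraMap L Kbar)) ({x₀} : Set ↥(lg_F L N)))
        (G : Set ↥(lg_F L N)))
    (hgen : ∀ (d : ℕ) [NeZero d] (hd : d ∣ N), ∃ M : ℕ, x₀ ^ M * rpn_gen_jd L N hd ∈
      fc_chart ↥(A.comap (algebraMap L Kbar)) ({x₀} : Set ↥(lg_F L N)))
    (hbdd : gq_bc_toBar L N x₀ ∈ rpm_gInt A N)
    (y : LaurentSeries A)
    (hy : coeffMap A.subtype y = ((gq_bc_toBar L N x₀ : Fbar N) : LaurentSeries Kbar))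
    (htr : Transcendental (IsLocalRing.ResidueField A) (coeffMap (IsLocalRing.residue A) y)) :
    ((rpy_data A x₀ hx₀ G hG hspan hgen hbdd).chart hℓN hA).RedRegular := by
  set D := rpy_data A x₀ hx₀ G hG hspan hgen hbdd with hD
  have hOA : rp_genRing (rpy_O L A) ((rpy_gens L x₀ G : Finset (Fbar N)) : Set (Fbar N)) ≤
      (D.chart hℓN hA).B :=
    rp_genRing_mono (fun o ho => rpy_O_le ho) _
  have hmemB : ∀ r : ↥(fc_chart ↥(A.comap (algebraMap L Kbar)) ({x₀} : Set ↥(lg_F L N))),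
      gq_bc_toBar L N (r : ↥(lg_F L N)) ∈ (D.chart hℓN hA).B := by
    intro r
    apply hOA
    rw [rpy_genRing_eq x₀ G hG hspan]
    exact ⟨r, r.2, rfl⟩
  let βB : ↥(fc_chart ↥(A.comap (algebraMap L Kbar)) ({x₀} : Set ↥(lg_F L N))) →+*
      (D.chart hℓN hA).B :=
    ((gq_bc_toBar L N).comp
      (fc_chart ↥(A.comap (algebraMap L Kbar)) ({x₀} : Set ↥(lg_F L N))).val.toRingHom).codRestrict
      _ hmemB
  refine rpr_mod_redRegular_gen D hℓN hA y hy htr
    (algebraMap ↥(A.comap (algebraMap L Kbar))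
      ↥(fc_chart ↥(A.comap (algebraMap L Kbar)) ({x₀} : Set ↥(lg_F L N))) π)
    h.ded βB ?_ ?_ ?_ ?_
  · -- the reduction of the uniformiser vanishes
    have hϖ : algebraMap L Kbar (π : L) ∈ A := π.2
    have e : βB (algebraMap ↥(A.comap (algebraMap L Kbar))
        ↥(fc_chart ↥(A.comap (algebraMap L Kbar)) ({x₀} : Set ↥(lg_F L N))) π) =
        ⟨algebraMap Kbar (Fbar N) ((⟨algebraMap L Kbar (π : L), hϖ⟩ : A) : Kbar),
          (D.chart hℓN hA).const_mem ⟨algebraMap L Kbar (π : L), hϖ⟩⟩ :=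
      Subtype.ext (rpy_toBar_const (N := N) π)
    rw [e, (D.chart hℓN hA).red_const,
      (rpc_res_eq_zero_iff (D.chart hℓN hA) ⟨algebraMap L Kbar (π : L), hϖ⟩).2
        (rpy_pi_nonunit hπ), map_zero]
  · -- kernel
    intro r hr
    obtain ⟨b', hb', hbb⟩ := rpy_ker D hℓN hA h (r : ↥(lg_F L N)) r.2 (hmemB r) hr
    exact ⟨⟨b', hb'⟩, Subtype.ext hbb⟩
  · -- surjectivity
    intro b
    obtain ⟨b', hb'O, hb'B, hred⟩ := rpr_red_surj_genRing (D.chart hℓN hA) (rpy_O L A)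
      (fun o ho => rpy_O_le ho) hres _ rfl b
    rw [rpy_genRing_eq x₀ G hG hspan] at hb'O
    obtain ⟨r, hr, rfl⟩ := hb'O
    exact ⟨⟨r, hr⟩, hred⟩
  · -- generators
    intro d _ hdN
    obtain ⟨M, hM⟩ := hgen d hdN
    refine ⟨M, gq_bc_toBar L N (x₀ ^ M * rpn_gen_jd L N hdN), hmemB ⟨_, hM⟩, ?_⟩
    rw [map_mul, map_pow]
    change ((gq_bc_toBar L N x₀ : Fbar N) : LaurentSeries Kbar) ^ M *
      ((gq_bc_toBar L N (rpn_gen_jd L N hdN) : Fbar N) : LaurentSeries Kbar) = _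
    rw [rpy_toBar_jd]

/-! ### node E -/

omit [IsDiscreteValuationRing ↥(A.comap (algebraMap L Kbar))] in
theorem rpy_toBar_jF : gq_bc_toBar L N (rml_jF L N) = br_jBar N := by
  apply Subtype.ext
  rw [gq_bc_toBar_coe, coe_br_jBar, rpm_jqK_eq]
  change coeffMap (algebraMap L Kbar) (jqModC L) = _
  rw [coeffMap_jqModC]

omit [IsDiscreteValuationRing ↥(A.comap (algebraMap L Kbar))] in
theorem rpy_toBar_jF_inv : gq_bc_toBar L N (rml_jF L N)⁻¹ = (br_jBar N)⁻¹ := by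
  rw [map_inv₀, rpy_toBar_jF]

omit [IsDiscreteValuationRing ↥(A.comap (algebraMap L Kbar))] in
/-- node E from two Gauss chart data with coordinates equal to `j`, `j⁻¹`. -/
theorem rpy_nodeE_aux (hℓN : ¬ ℓ ∣ N) (hA : A.LiesOverPrime ℓ) (x1 x2 : Fbar N)
    (hx1 : x1 = br_jBar N) (hx2 : x2 = (br_jBar N)⁻¹)
    (D1 : rpm_GData A N x1) (D2 : rpm_GData A N x2)
    (Bs1 : rp_Base (D1.chart hℓN hA)) (hR1 : (D1.chart hℓN hA).RedRegular)
    (Bs2 : rp_Base (D2.chart hℓN hA)) (hR2 : (D2.chart hℓN hA).RedRegular) :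
    ReductionInputsModL A N := by
  subst hx1 hx2
  exact rpm_reductionInputsModL_gauss_base A N hℓN hA D1 D2 Bs1 hR1 Bs2 hR2

/-- **Node E from the two base-level packages** at a level `(L, O₀ = A ∩ L)`: `O₀` a discrete
valuation ring with uniformiser `π` and the same residue field as `A`. -/
theorem rpy_nodeE_of_level0 (hℓN : ¬ ℓ ∣ N) (hA : A.LiesOverPrime ℓ)
    {π : ↥(A.comap (algebraMap L Kbar))} (hπ : Irreducible π)
    (hres : ∀ a : A, ∃ o ∈ rpy_O L A, (a : Kbar) - o ∈ A.nonunits)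
    (ρ : ↥(GaloisRep.ratLocalizedAt ℓ) →+* ↥(A.comap (algebraMap L Kbar)))
    (h1 : rpn_Level0 (lg_F L N) π (rml_jF L N))
    (h2 : rpn_Level0 (lg_F L N) π (rml_jF L N)⁻¹) :
    ReductionInputsModL A N := by
  obtain ⟨G1, hG1, hspan1⟩ := h1.fin
  obtain ⟨G2, hG2, hspan2⟩ := h2.fin
  have hx1 : (rml_jF L N) ≠ 0 := rpn_gen_jF_ne_zero
  have hx2 : (rml_jF L N)⁻¹ ≠ 0 := inv_ne_zero hx1
  have hgen1 : ∀ (d : ℕ) [NeZero d] (hd : d ∣ N), ∃ M : ℕ,
      (rml_jF L N) ^ M * rpn_gen_jd L N hd ∈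
        fc_chart ↥(A.comap (algebraMap L Kbar)) ({rml_jF L N} : Set ↥(lg_F L N)) := by
    intro d _ hd
    refine ⟨0, ?_⟩
    rw [pow_zero, one_mul]
    exact rpn_gen_mem_of_not_dvd _ ρ hℓN hd
  have hgen2 : ∀ (d : ℕ) [NeZero d] (hd : d ∣ N), ∃ M : ℕ,
      (rml_jF L N)⁻¹ ^ M * rpn_gen_jd L N hd ∈
        fc_chart ↥(A.comap (algebraMap L Kbar)) ({(rml_jF L N)⁻¹} : Set ↥(lg_F L N)) :=
    fun d _ hd => rpn_gen_mem_inv_of_not_dvd _ ρ hℓN hd
  have hbdd1 : gq_bc_toBar L N (rml_jF L N) ∈ rpm_gInt A N := by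
    rw [rpy_toBar_jF]; exact rpm_j_bdd A N
  have hbdd2 : gq_bc_toBar L N (rml_jF L N)⁻¹ ∈ rpm_gInt A N := by
    rw [rpy_toBar_jF_inv]; exact rpm_jinv_bdd A N
  refine rpy_nodeE_aux hℓN hA _ _ rpy_toBar_jF rpy_toBar_jF_inv
    (rpy_data A _ hx1 G1 hG1 hspan1 hgen1 hbdd1) (rpy_data A _ hx2 G2 hG2 hspan2 hgen2 hbdd2)
    (rpy_base hℓN hA hπ hres hx1 h1 G1 hG1 hspan1 hgen1 hbdd1) ?_
    (rpy_base hℓN hA hπ hres hx2 h2 G2 hG2 hspan2 hgen2 hbdd2) ?_
  · refine rpy_redRegular hℓN hA hπ hres hx1 h1 G1 hG1 hspan1 hgen1 hbdd1 (jqModC A) ?_ ?_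
    · rw [rpy_toBar_jF]; exact rpr_mod_lift_j
    · rw [coeffMap_jqModC]; exact vx_transcendental_jq
  · refine rpy_redRegular hℓN hA hπ hres hx2 h2 G2 hG2 hspan2 hgen2 hbdd2 (rpm_jinv A) ?_ ?_
    · rw [rpy_toBar_jF_inv]; exact rpr_mod_lift_jinv
    · rw [rpm_coeffMap_jinv]
      intro halg
      exact vx_transcendental_jq (IsAlgebraic.inv_iff.mp halg)

end Chart

end Fermat.Agent.JT3
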