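/-
JT3 / node E, producer side, leaf [E-hens] (helper10 #1435): inside an algebraically closed
valued field `(Kb, A)` every subring `O₁ ≤ A` with `O₁ ∩ 𝔪_A = ϖ O₁` whose residue field extension
`k_A / k_{O₁}` is algebraic is contained in a subring `O ≤ A` with `O ∩ 𝔪_A = ϖ O` which is local,
has the same residue field as `A`, and is henselian inside `A` ("strict henselisation inside `A`").

Proof: Zorn on the family of subrings `O₁ ≤ O ≤ A` with `O ∩ 𝔪_A = ϖ O`.

Owner: helper17.  Prefix `rph_`.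
-/
import Mathlib

set_option autoImplicit false

namespace Fermat.Agent.JT3

open Polynomial

section Basic

variable {Kb : Type*} [Field Kb] (A : ValuationSubring Kb)

/-- a unit of `A` has valuation one. -/
theorem rph_val_eq_one {x : Kb} (hx : x ∈ A) (hx' : x ∉ A.nonunits) : A.valuation x = 1 := by
  rw [ValuationSubring.mem_nonunits_iff] at hx'
  exact le_antisymm ((A.valuation_le_one_iff x).mpr hx) (not_lt.mp hx')

theorem rph_ne_zero_of_val_eq_one {x : Kb} (hx : A.valuation x = 1) : x ≠ 0 := by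
  rintro rfl
  rw [map_zero] at hx
  exact zero_ne_one hx

/-- The family of subrings `O₁ ≤ O ≤ A` with `O ∩ 𝔪_A = ϖ O`. -/
def rph_Fam (O₁ : Subring Kb) (ϖ : Kb) : Set (Subring Kb) :=
  {O | O₁ ≤ O ∧ O ≤ A.toSubring ∧ ∀ o ∈ O, o ∈ A.nonunits → ∃ o' ∈ O, o = ϖ * o'}

/-- Zorn: the family has a maximal element above `O₁`. -/
theorem rph_exists_maximal (O₁ : Subring Kb) (hO₁ : O₁ ≤ A.toSubring) (ϖ : Kb)
    (hI : ∀ o ∈ O₁, o ∈ A.nonunits → ∃ o' ∈ O₁, o = ϖ * o') :
    ∃ O, O₁ ≤ O ∧ Maximal (· ∈ rph_Fam A O₁ ϖ) O := by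
  refine zorn_le_nonempty₀ (rph_Fam A O₁ ϖ) ?_ O₁ ⟨le_rfl, hO₁, hI⟩
  intro c hc hchain y hy
  refine ⟨sSup c, ⟨?_, ?_, ?_⟩, fun z hz => le_sSup hz⟩
  · exact (hc hy).1.trans (le_sSup hy)
  · exact sSup_le fun z hz => (hc hz).2.1
  · intro o ho hon
    obtain ⟨s, hs, hos⟩ := (Subring.mem_sSup_of_directedOn ⟨y, hy⟩ hchain.directedOn).mp ho
    obtain ⟨o', ho', h⟩ := (hc hs).2.2 o hos hon
    exact ⟨o', le_sSup hs ho', h⟩

variable {A}

/-- An extension of a maximal member that is still in the family is equal to it. -/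
theorem rph_le_of_mem_fam {O₁ : Subring Kb} {ϖ : Kb} {O : Subring Kb}
    (hmax : Maximal (· ∈ rph_Fam A O₁ ϖ) O) {O' : Subring Kb}
    (h1 : O ≤ O') (h2 : O' ≤ A.toSubring)
    (h3 : ∀ x ∈ O', x ∈ A.nonunits → ∃ y ∈ O', x = ϖ * y) : O' ≤ O :=
  hmax.le_of_ge ⟨hmax.prop.1.trans h1, h2, h3⟩ h1

variable (A)

/-- The localisation of a subring `R` of `Kb` at the elements of valuation one. -/
def rph_loc (R : Subring Kb) : Subring Kb where
  carrier := {x | ∃ a ∈ R, ∃ u ∈ R, A.valuation u = 1 ∧ x = a / u}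
  mul_mem' := by
    rintro _ _ ⟨a, ha, u, hu, hu1, rfl⟩ ⟨b, hb, v, hv, hv1, rfl⟩
    exact ⟨a * b, R.mul_mem ha hb, u * v, R.mul_mem hu hv, by rw [map_mul, hu1, hv1, one_mul],
      by rw [div_mul_div_comm]⟩
  one_mem' := ⟨1, R.one_mem, 1, R.one_mem, map_one _, by rw [div_one]⟩
  add_mem' := by
    rintro _ _ ⟨a, ha, u, hu, hu1, rfl⟩ ⟨b, hb, v, hv, hv1, rfl⟩
    have hu0 : u ≠ 0 := rph_ne_zero_of_val_eq_one A hu1
    have hv0 : v ≠ 0 := rph_ne_zero_of_val_eq_one A hv1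
    exact ⟨a * v + u * b, R.add_mem (R.mul_mem ha hv) (R.mul_mem hu hb), u * v, R.mul_mem hu hv,
      by rw [map_mul, hu1, hv1, one_mul], by rw [div_add_div _ _ hu0 hv0]⟩
  zero_mem' := ⟨0, R.zero_mem, 1, R.one_mem, map_one _, by rw [div_one]⟩
  neg_mem' := by
    rintro _ ⟨a, ha, u, hu, hu1, rfl⟩
    exact ⟨-a, R.neg_mem ha, u, hu, hu1, by rw [neg_div]⟩

variable {A}

theorem rph_mem_loc {R : Subring Kb} {x : Kb} :
    x ∈ rph_loc A R ↔ ∃ a ∈ R, ∃ u ∈ R, A.valuation u = 1 ∧ x = a / u := Iff.rfl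

theorem rph_le_loc (R : Subring Kb) : R ≤ rph_loc A R := fun x hx =>
  ⟨x, hx, 1, R.one_mem, map_one _, by rw [div_one]⟩

theorem rph_loc_le {R : Subring Kb} (hR : R ≤ A.toSubring) : rph_loc A R ≤ A.toSubring := by
  rintro _ ⟨a, ha, u, hu, hu1, rfl⟩
  show a / u ∈ A
  rw [← A.valuation_le_one_iff, map_div₀, hu1, div_one]
  exact (A.valuation_le_one_iff a).mpr (hR ha)

theorem rph_inv_mem_loc {R : Subring Kb} {u : Kb} (hu : u ∈ R) (hu1 : A.valuation u = 1) :
    u⁻¹ ∈ rph_loc A R :=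
  ⟨1, R.one_mem, u, hu, hu1, by rw [one_div]⟩

/-- the condition `(I2)` passes from numerators to the localisation. -/
theorem rph_loc_I2 {R : Subring Kb} {ϖ : Kb}
    (h : ∀ a ∈ R, a ∈ A.nonunits → ∃ y ∈ rph_loc A R, a = ϖ * y) :
    ∀ x ∈ rph_loc A R, x ∈ A.nonunits → ∃ y ∈ rph_loc A R, x = ϖ * y := by
  rintro _ ⟨a, ha, u, hu, hu1, rfl⟩ hx
  have ha' : a ∈ A.nonunits := by
    rw [ValuationSubring.mem_nonunits_iff] at hx ⊢
    rwa [map_div₀, hu1, div_one] at hx
  obtain ⟨y, hy, rfl⟩ := h a ha ha'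
  exact ⟨y * u⁻¹, (rph_loc A R).mul_mem hy (rph_inv_mem_loc hu hu1), by rw [div_eq_mul_inv, mul_assoc]⟩

/-- Step (i): a maximal member of the family is local. -/
theorem rph_maximal_inv_mem {O₁ : Subring Kb} {ϖ : Kb} {O : Subring Kb}
    (hmax : Maximal (· ∈ rph_Fam A O₁ ϖ) O) {u : Kb} (hu : u ∈ O) (hu' : u ∉ A.nonunits) :
    u⁻¹ ∈ O := by
  have hOA : O ≤ A.toSubring := hmax.prop.2.1
  have hle : rph_loc A O ≤ O := by
    refine rph_le_of_mem_fam hmax (rph_le_loc O) (rph_loc_le hOA) (rph_loc_I2 ?_)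
    intro a ha ha'
    obtain ⟨y, hy, rfl⟩ := hmax.prop.2.2 a ha ha'
    exact ⟨y, rph_le_loc O hy, rfl⟩
  exact hle (rph_inv_mem_loc hu (rph_val_eq_one A (hOA hu) hu'))

end Basic

section Eval

variable {Kb : Type*} [Field Kb] {A : ValuationSubring Kb} {O : Subring Kb}

/-- the inclusion `O → A` as a ring hom. -/
def rph_incl (hOA : O ≤ A.toSubring) : ↥O →+* ↥A where
  toFun o := ⟨(o : Kb), hOA o.2⟩
  map_one' := rfl
  map_mul' _ _ := rfl
  map_zero' := rfl
  map_add' _ _ := rfl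

@[simp] theorem rph_incl_coe (hOA : O ≤ A.toSubring) (o : ↥O) : ((rph_incl hOA o : ↥A) : Kb) = o :=
  rfl

/-- the residue map of `A` restricted to `O`. -/
noncomputable def rph_rho (hOA : O ≤ A.toSubring) : ↥O →+* IsLocalRing.ResidueField ↥A :=
  (IsLocalRing.residue ↥A).comp (rph_incl hOA)

theorem rph_subtype_comp_incl (hOA : O ≤ A.toSubring) :
    (A.subtype : ↥A →+* Kb).comp (rph_incl hOA) = O.subtype := rfl

/-- evaluation at a point of `A` of a polynomial over `O`, computed in `A`. -/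
theorem rph_coe_eval₂ (hOA : O ≤ A.toSubring) {x : Kb} (hx : x ∈ A) (g : Polynomial ↥O) :
    ((g.eval₂ (rph_incl hOA) ⟨x, hx⟩ : ↥A) : Kb) = g.eval₂ O.subtype x := by
  have h := Polynomial.hom_eval₂ g (rph_incl hOA) (A.subtype : ↥A →+* Kb) ⟨x, hx⟩
  rw [rph_subtype_comp_incl] at h
  exact h

theorem rph_eval₂_mem (hOA : O ≤ A.toSubring) {x : Kb} (hx : x ∈ A) (g : Polynomial ↥O) :
    g.eval₂ O.subtype x ∈ A := by
  rw [← rph_coe_eval₂ hOA hx g]
  exact Subtype.property _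

theorem rph_residue_eval₂ (hOA : O ≤ A.toSubring) {x : Kb} (hx : x ∈ A) (g : Polynomial ↥O) :
    IsLocalRing.residue ↥A (g.eval₂ (rph_incl hOA) ⟨x, hx⟩) =
      (g.map (rph_rho hOA)).eval (IsLocalRing.residue ↥A ⟨x, hx⟩) := by
  rw [Polynomial.hom_eval₂, Polynomial.eval_map]
  rfl

theorem rph_mem_nonunits_iff_residue {y : Kb} (hy : y ∈ A) :
    y ∈ A.nonunits ↔ IsLocalRing.residue ↥A ⟨y, hy⟩ = 0 := by
  rw [IsLocalRing.residue_eq_zero_iff, ValuationSubring.mem_nonunits_iff_exists_mem_maximalIdeal]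
  exact ⟨fun ⟨_, h⟩ => h, fun h => ⟨hy, h⟩⟩

/-- `g(x) ∈ 𝔪_A` iff the reduction of `g` vanishes at the residue class of `x`. -/
theorem rph_eval₂_mem_nonunits_iff (hOA : O ≤ A.toSubring) {x : Kb} (hx : x ∈ A)
    (g : Polynomial ↥O) :
    g.eval₂ O.subtype x ∈ A.nonunits ↔
      (g.map (rph_rho hOA)).eval (IsLocalRing.residue ↥A ⟨x, hx⟩) = 0 := by
  rw [rph_mem_nonunits_iff_residue (rph_eval₂_mem hOA hx g), ← rph_residue_eval₂ hOA hx g]
  have : (⟨g.eval₂ O.subtype x, rph_eval₂_mem hOA hx g⟩ : ↥A) = g.eval₂ (rph_incl hOA) ⟨x, hx⟩ :=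
    Subtype.ext (rph_coe_eval₂ hOA hx g).symm
  rw [this]

theorem rph_rho_eq_zero_iff (hOA : O ≤ A.toSubring) (o : ↥O) :
    rph_rho hOA o = 0 ↔ (o : Kb) ∈ A.nonunits := by
  rw [rph_mem_nonunits_iff_residue (hOA o.2)]
  rfl

/-- congruent points have the same residue class. -/
theorem rph_residue_eq_of_sub_mem {a b : Kb} (ha : a ∈ A) (hb : b ∈ A) (h : a - b ∈ A.nonunits) :
    IsLocalRing.residue ↥A ⟨a, ha⟩ = IsLocalRing.residue ↥A ⟨b, hb⟩ := by
  rw [← sub_eq_zero, ← map_sub]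
  exact (rph_mem_nonunits_iff_residue (A.sub_mem ha hb)).mp h

end Eval

section Residue

variable {Kb : Type*} [Field Kb] {A : ValuationSubring Kb} {O₁ : Subring Kb} {ϖ : Kb}
  {O : Subring Kb}

/-- roots in `Kb` of monic polynomials over `O ≤ A` lie in `A`. -/
theorem rph_root_mem (hOA : O ≤ A.toSubring) {f : Polynomial ↥O} (hf : f.Monic) {α : Kb}
    (hα : f.eval₂ O.subtype α = 0) : α ∈ A := by
  have hint : IsIntegral ↥A α := ⟨f.map (rph_incl hOA), hf.map _, by
    rw [Polynomial.eval₂_map]; exact hα⟩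
  obtain ⟨y, hy⟩ := IsIntegrallyClosed.algebraMap_eq_of_integral hint
  rw [← hy]
  exact y.2

/-- a monic polynomial over `O` with `f(a) ∈ 𝔪_A` has a root in `A` congruent to `a`. -/
theorem rph_exists_root_near [IsAlgClosed Kb] (hOA : O ≤ A.toSubring) {f : Polynomial ↥O}
    (hf : f.Monic) {a : Kb} (ha : a ∈ A) (hfa : f.eval₂ O.subtype a ∈ A.nonunits) :
    ∃ α : Kb, f.eval₂ O.subtype α = 0 ∧ α ∈ A ∧ a - α ∈ A.nonunits := by
  have hfK : (f.map O.subtype).Monic := hf.map _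
  have hsplit : (f.map O.subtype).Splits := IsAlgClosed.splits _
  have heval := hsplit.eval_eq_prod_roots_of_monic hfK a
  rw [Polynomial.eval_map] at heval
  by_contra hcon
  push Not at hcon
  have h1 : ∀ α ∈ (f.map O.subtype).roots, A.valuation (a - α) = 1 := by
    intro α hα
    have hα0 : f.eval₂ O.subtype α = 0 := by
      have := (Polynomial.mem_roots hfK.ne_zero).mp hα
      rwa [Polynomial.IsRoot.def, Polynomial.eval_map] at this
    have hαA := rph_root_mem hOA hf hα0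
    exact rph_val_eq_one A (A.sub_mem ha hαA) (hcon α hα0 hαA)
  have h2 : A.valuation (f.eval₂ O.subtype a) = 1 := by
    rw [heval, map_multiset_prod, Multiset.map_map]
    apply Multiset.prod_eq_one
    intro x hx
    obtain ⟨α, hα, rfl⟩ := Multiset.mem_map.mp hx
    exact h1 α hα
  rw [ValuationSubring.mem_nonunits_iff, h2] at hfa
  exact lt_irrefl _ hfa

/-- normalising a polynomial whose reduction has degree `d` with unit leading coefficient. -/
theorem rph_exists_monic_of_reduction {R k : Type*} [CommRing R] [Field k] (ρ : R →+* k)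
    (r : Polynomial R) (hne : r.map ρ ≠ 0) (u : R) (hu : u * r.coeff (r.map ρ).natDegree = 1) :
    ∃ h : Polynomial R, h.Monic ∧ h.natDegree = (r.map ρ).natDegree ∧
      h.map ρ = C (ρ u) * r.map ρ := by
  classical
  set d := (r.map ρ).natDegree with hd
  set S : Polynomial R := ∑ i ∈ Finset.range d, C (u * r.coeff i) * X ^ i with hS
  have hScoeff : ∀ m, S.coeff m = if m < d then u * r.coeff m else 0 := by
    intro m
    rw [hS, Polynomial.finsetSum_coeff]
    simp only [Polynomial.coeff_C_mul_X_pow]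
    rw [Finset.sum_ite_eq (Finset.range d) m fun i => u * r.coeff i]
    simp only [Finset.mem_range]
  have hdeg : S.degree < d := by
    rw [Polynomial.degree_lt_iff_coeff_zero]
    intro m hm
    rw [hScoeff m, if_neg (not_lt.mpr hm)]
  have hXd : (X ^ d : Polynomial R).degree = d := by
    have : Nontrivial R := by
      by_contra hnt
      rw [not_nontrivial_iff_subsingleton] at hnt
      exact hne (by
        ext m
        rw [Polynomial.coeff_map, Subsingleton.elim (r.coeff m) 0, map_zero, Polynomial.coeff_zero])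
    exact Polynomial.degree_X_pow d
  refine ⟨X ^ d + S, Polynomial.monic_X_pow_add hdeg, ?_, ?_⟩
  · rw [Polynomial.natDegree_add_eq_left_of_degree_lt (by rw [hXd]; exact hdeg)]
    have : Nontrivial R := by
      by_contra hnt
      rw [not_nontrivial_iff_subsingleton] at hnt
      exact hne (by
        ext m
        rw [Polynomial.coeff_map, Subsingleton.elim (r.coeff m) 0, map_zero, Polynomial.coeff_zero])
    exact Polynomial.natDegree_X_pow d
  · ext m
    rw [Polynomial.coeff_map, Polynomial.coeff_add, Polynomial.coeff_X_pow, hScoeff m,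
      Polynomial.coeff_C_mul, Polynomial.coeff_map]
    rcases lt_trichotomy m d with hm | hm | hm
    · rw [if_neg hm.ne, if_pos hm, zero_add, map_mul]
    · rw [if_pos hm, if_neg (by omega), add_zero, map_one, ← map_mul, hm, hu, map_one]
    · rw [if_neg hm.ne', if_neg (by omega), add_zero, map_zero]
      have : (r.map ρ).coeff m = 0 := Polynomial.coeff_eq_zero_of_natDegree_lt hm
      rw [Polynomial.coeff_map] at this
      rw [this, mul_zero]

/-- Step (ii): a maximal member of the family has the same residue field as `A`. -/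
theorem rph_maximal_residue [IsAlgClosed Kb] (hmax : Maximal (· ∈ rph_Fam A O₁ ϖ) O)
    (halg : ∀ a ∈ A, ∃ p : Polynomial ↥O, p.Monic ∧ p.eval₂ O.subtype a ∈ A.nonunits)
    {a : Kb} (ha : a ∈ A) : ∃ o ∈ O, a - o ∈ A.nonunits := by
  classical
  have hOA : O ≤ A.toSubring := hmax.prop.2.1
  have hex : ∃ n : ℕ, ∃ f : Polynomial ↥O, f.Monic ∧ f.natDegree = n ∧
      (f.map (rph_rho hOA)).eval (IsLocalRing.residue ↥A ⟨a, ha⟩) = 0 := by
    obtain ⟨p, hp, hpa⟩ := halg a ha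
    exact ⟨p.natDegree, p, hp, rfl, (rph_eval₂_mem_nonunits_iff hOA ha p).mp hpa⟩
  obtain ⟨f, hf, hfn, hfa⟩ := Nat.find_spec hex
  have hmin : ∀ h : Polynomial ↥O, h.Monic →
      (h.map (rph_rho hOA)).eval (IsLocalRing.residue ↥A ⟨a, ha⟩) = 0 →
        Nat.find hex ≤ h.natDegree :=
    fun h hh hha => Nat.find_min' hex ⟨h, hh, rfl, hha⟩
  have hf1 : f ≠ 1 := by
    rintro rfl
    rw [Polynomial.map_one, Polynomial.eval_one] at hfa
    exact one_ne_zero hfa
  obtain ⟨α, hα0, hαA, hαa⟩ :=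
    rph_exists_root_near hOA hf ha ((rph_eval₂_mem_nonunits_iff hOA ha f).mpr hfa)
  have hāα : IsLocalRing.residue ↥A ⟨α, hαA⟩ = IsLocalRing.residue ↥A ⟨a, ha⟩ :=
    (rph_residue_eq_of_sub_mem ha hαA hαa).symm
  -- polynomials of degree `< n` vanishing at `ā` reduce to `0`
  have hkey : ∀ r : Polynomial ↥O, r.natDegree < Nat.find hex →
      (r.map (rph_rho hOA)).eval (IsLocalRing.residue ↥A ⟨a, ha⟩) = 0 →
        r.map (rph_rho hOA) = 0 := by
    intro r hr hra
    by_contra hne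
    have hd : (r.map (rph_rho hOA)).natDegree ≤ r.natDegree := Polynomial.natDegree_map_le
    have hlc : rph_rho hOA (r.coeff (r.map (rph_rho hOA)).natDegree) ≠ 0 := by
      rw [← Polynomial.coeff_map]
      exact Polynomial.leadingCoeff_ne_zero.mpr hne
    have hunit : ((r.coeff (r.map (rph_rho hOA)).natDegree : ↥O) : Kb) ∉ A.nonunits :=
      fun h => hlc ((rph_rho_eq_zero_iff hOA _).mpr h)
    have hinv : ((r.coeff (r.map (rph_rho hOA)).natDegree : ↥O) : Kb)⁻¹ ∈ O :=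
      rph_maximal_inv_mem hmax (r.coeff _).2 hunit
    have hne0 : ((r.coeff (r.map (rph_rho hOA)).natDegree : ↥O) : Kb) ≠ 0 := by
      intro h0
      apply hunit
      rw [h0]
      exact A.nonunits.zero_mem
    obtain ⟨h, hmonic, hnat, hmap⟩ := rph_exists_monic_of_reduction (rph_rho hOA) r hne
      ⟨_, hinv⟩ (Subtype.ext (inv_mul_cancel₀ hne0))
    have h3 : Nat.find hex ≤ h.natDegree :=
      hmin h hmonic (by rw [hmap, Polynomial.eval_mul, hra, mul_zero])
    omega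
  -- the subring `O[α]`
  have hO'le : (Polynomial.eval₂RingHom O.subtype α).range ≤ O := by
    refine rph_le_of_mem_fam hmax ?_ ?_ ?_
    · intro o ho
      exact ⟨C ⟨o, ho⟩, by rw [Polynomial.coe_eval₂RingHom, Polynomial.eval₂_C]; rfl⟩
    · rintro _ ⟨g, rfl⟩
      exact rph_eval₂_mem hOA hαA g
    · rintro _ ⟨g, rfl⟩ hx
      have hx' : g.eval₂ O.subtype α ∈ A.nonunits := hx
      have hr : (g %ₘ f).eval₂ O.subtype α = g.eval₂ O.subtype α :=
        Polynomial.eval₂_modByMonic_eq_self_of_root hα0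
      have hrn : (g %ₘ f).natDegree < Nat.find hex :=
        hfn ▸ Polynomial.natDegree_modByMonic_lt g hf hf1
      have hra : ((g %ₘ f).map (rph_rho hOA)).eval (IsLocalRing.residue ↥A ⟨a, ha⟩) = 0 := by
        rw [← hāα]
        exact (rph_eval₂_mem_nonunits_iff hOA hαA (g %ₘ f)).mp (hr ▸ hx')
      have hr0 := hkey (g %ₘ f) hrn hra
      have hc : ∀ i, ∃ c ∈ O, (((g %ₘ f).coeff i : ↥O) : Kb) = ϖ * c := by
        intro i
        have h0 : rph_rho hOA ((g %ₘ f).coeff i) = 0 := by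
          rw [← Polynomial.coeff_map, hr0, Polynomial.coeff_zero]
        exact hmax.prop.2.2 _ ((g %ₘ f).coeff i).2 ((rph_rho_eq_zero_iff hOA _).mp h0)
      show ∃ y ∈ (Polynomial.eval₂RingHom O.subtype α).range,
        (Polynomial.eval₂RingHom O.subtype α) g = ϖ * y
      rw [Polynomial.coe_eval₂RingHom, ← hr, Polynomial.eval₂_eq_sum_range]
      refine Finset.sum_induction _
        (fun x => ∃ y ∈ (Polynomial.eval₂RingHom O.subtype α).range, x = ϖ * y) ?_ ?_ ?_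
      · rintro _ _ ⟨y, hy, rfl⟩ ⟨z, hz, rfl⟩
        exact ⟨y + z, Subring.add_mem _ hy hz, by ring⟩
      · exact ⟨0, Subring.zero_mem _, by ring⟩
      · intro i _
        obtain ⟨c, hcO, hci⟩ := hc i
        refine ⟨c * α ^ i, ⟨C ⟨c, hcO⟩ * X ^ i, ?_⟩, ?_⟩
        · rw [Polynomial.coe_eval₂RingHom, Polynomial.eval₂_mul, Polynomial.eval₂_C,
            Polynomial.eval₂_X_pow]
          rfl
        · rw [Subring.coe_subtype, hci]
          ring
  exact ⟨α, hO'le ⟨X, by rw [Polynomial.coe_eval₂RingHom, Polynomial.eval₂_X]⟩, hαa⟩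

end Residue

section Hensel

variable {Kb : Type*} [Field Kb] {A : ValuationSubring Kb} {O₁ : Subring Kb} {ϖ : Kb}
  {O : Subring Kb}

/-- Taylor expansion to first order at a point `o` of `O`, evaluated at `α`. -/
theorem rph_taylor (o : ↥O) (α : Kb) (g : Polynomial ↥O) :
    ∃ g₂ : Polynomial ↥O, g - C (g.eval o) = (X - C o) * g₂ ∧
      g.eval₂ O.subtype α = ((g.eval o : ↥O) : Kb) + (α - o) * g₂.eval₂ O.subtype α := by
  obtain ⟨g₂, hg₂⟩ := Polynomial.X_sub_C_dvd_sub_C_eval (a := o) (p := g)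
  refine ⟨g₂, hg₂, ?_⟩
  have h := congrArg (Polynomial.eval₂ O.subtype α) hg₂
  rw [Polynomial.eval₂_sub, Polynomial.eval₂_mul, Polynomial.eval₂_sub, Polynomial.eval₂_C,
    Polynomial.eval₂_C, Polynomial.eval₂_X, Subring.coe_subtype] at h
  linear_combination h

/-- Step (iii): a maximal member with full residue field is henselian inside `A`. -/
theorem rph_maximal_hensel (hmax : Maximal (· ∈ rph_Fam A O₁ ϖ) O)
    (hres : ∀ a ∈ A, ∃ o ∈ O, a - o ∈ A.nonunits)
    (p : Polynomial ↥O) {α : Kb} (hαA : α ∈ A) (hp : p.eval₂ O.subtype α = 0)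
    (hp' : p.derivative.eval₂ O.subtype α ∉ A.nonunits) : α ∈ O := by
  have hOA : O ≤ A.toSubring := hmax.prop.2.1
  obtain ⟨o, ho, hαo⟩ := hres α hαA
  have hαo' : A.valuation (α - o) < 1 := (ValuationSubring.mem_nonunits_iff (A := A)).mp hαo
  have hle1 : ∀ g : Polynomial ↥O, A.valuation (g.eval₂ O.subtype α) ≤ 1 := fun g =>
    (A.valuation_le_one_iff _).mpr (rph_eval₂_mem hOA hαA g)
  have hsmall : ∀ g : Polynomial ↥O, A.valuation ((α - o) * g.eval₂ O.subtype α) < 1 := by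
    intro g
    rw [map_mul]
    exact mul_lt_one_of_nonneg_of_lt_one_left zero_le hαo' (hle1 g)
  -- the polynomial `p`
  obtain ⟨p₂, hp₂, hp₂'⟩ := rph_taylor (⟨o, ho⟩ : ↥O) α p
  rw [hp] at hp₂'
  -- `p₂(α)` is a unit of `A`
  have hder : p.derivative.eval₂ O.subtype α =
      p₂.eval₂ O.subtype α + (α - o) * p₂.derivative.eval₂ O.subtype α := by
    have h1 : p = C (p.eval (⟨o, ho⟩ : ↥O)) + (X - C (⟨o, ho⟩ : ↥O)) * p₂ := by
      rw [← hp₂]; ring
    have h2 : p.derivative = p₂ + (X - C (⟨o, ho⟩ : ↥O)) * p₂.derivative := by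
      conv_lhs => rw [h1]
      rw [Polynomial.derivative_add, Polynomial.derivative_C, zero_add, Polynomial.derivative_mul,
        Polynomial.derivative_sub, Polynomial.derivative_X, Polynomial.derivative_C, sub_zero,
        one_mul]
    conv_lhs => rw [h2]
    rw [Polynomial.eval₂_add, Polynomial.eval₂_mul, Polynomial.eval₂_sub, Polynomial.eval₂_X,
      Polynomial.eval₂_C, Subring.coe_subtype]
  have hp₂unit : A.valuation (p₂.eval₂ O.subtype α) = 1 := by
    refine le_antisymm (hle1 p₂) (not_lt.mp fun hlt => hp' ?_)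
    rw [ValuationSubring.mem_nonunits_iff, hder]
    exact Valuation.map_add_lt _ hlt (hsmall _)
  have hp₂ne : p₂.eval₂ O.subtype α ≠ 0 := rph_ne_zero_of_val_eq_one A hp₂unit
  -- `p(o) ∈ ϖ O`
  have hpo : ((p.eval (⟨o, ho⟩ : ↥O) : ↥O) : Kb) = -((α - o) * p₂.eval₂ O.subtype α) := by
    linear_combination -hp₂'
  obtain ⟨cp, hcp, hcpe⟩ := hmax.prop.2.2 _ (p.eval (⟨o, ho⟩ : ↥O)).2 (by
    rw [ValuationSubring.mem_nonunits_iff, hpo, Valuation.map_neg]
    exact hsmall p₂)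
  have hαo_eq : α - o = ϖ * (-(cp / p₂.eval₂ O.subtype α)) := by
    have : (α - o) * p₂.eval₂ O.subtype α = -(ϖ * cp) := by rw [← hcpe, hpo, neg_neg]
    field_simp
    linear_combination this
  -- the ring `O[α]` localised at the elements of valuation one
  have hRA : (Polynomial.eval₂RingHom O.subtype α).range ≤ A.toSubring := by
    rintro _ ⟨g, rfl⟩
    exact rph_eval₂_mem hOA hαA g
  have hOR : O ≤ (Polynomial.eval₂RingHom O.subtype α).range := by
    intro c hc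
    exact ⟨C ⟨c, hc⟩, by rw [Polynomial.coe_eval₂RingHom, Polynomial.eval₂_C]; rfl⟩
  have hle : rph_loc A (Polynomial.eval₂RingHom O.subtype α).range ≤ O := by
    refine rph_le_of_mem_fam hmax (hOR.trans (rph_le_loc _)) (rph_loc_le hRA) (rph_loc_I2 ?_)
    rintro _ ⟨g, rfl⟩ hg
    have hg' : A.valuation (g.eval₂ O.subtype α) < 1 :=
      (ValuationSubring.mem_nonunits_iff (A := A)).mp hg
    obtain ⟨g₂, -, hg₂'⟩ := rph_taylor (⟨o, ho⟩ : ↥O) α g
    have hgo : ((g.eval (⟨o, ho⟩ : ↥O) : ↥O) : Kb) =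
        g.eval₂ O.subtype α - (α - o) * g₂.eval₂ O.subtype α := by
      rw [hg₂']; ring
    obtain ⟨cg, hcg, hcge⟩ := hmax.prop.2.2 _ (g.eval (⟨o, ho⟩ : ↥O)).2 (by
      rw [ValuationSubring.mem_nonunits_iff, hgo]
      exact Valuation.map_sub_lt _ hg' (hsmall g₂))
    refine ⟨cg - cp * (g₂.eval₂ O.subtype α / p₂.eval₂ O.subtype α), ?_, ?_⟩
    · refine Subring.sub_mem _ (rph_le_loc _ (hOR hcg)) (Subring.mul_mem _ (rph_le_loc _ (hOR hcp)) ?_)
      exact ⟨_, ⟨g₂, rfl⟩, _, ⟨p₂, rfl⟩, hp₂unit, rfl⟩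
    · show g.eval₂ O.subtype α = _
      rw [hg₂', hcge, hαo_eq]
      field_simp
      ring
  exact hle (rph_le_loc _ ⟨X, by rw [Polynomial.coe_eval₂RingHom, Polynomial.eval₂_X]⟩)

end Hensel

/-- **[E-hens]**: the "strict henselisation inside `A`" of a subring `O₁ ≤ A` with
`O₁ ∩ 𝔪_A = ϖ O₁` and algebraic residue field extension. -/
theorem rph_exists_hens {Kb : Type*} [Field Kb] [IsAlgClosed Kb] (A : ValuationSubring Kb)
    (O₁ : Subring Kb) (hO₁ : O₁ ≤ A.toSubring) (ϖ : Kb) (_hϖ : ϖ ∈ O₁)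
    (hI : ∀ o ∈ O₁, o ∈ A.nonunits → ∃ o' ∈ O₁, o = ϖ * o')
    (halg : ∀ a ∈ A, ∃ p : Polynomial O₁, p.Monic ∧ p.eval₂ O₁.subtype a ∈ A.nonunits) :
    ∃ O : Subring Kb, O₁ ≤ O ∧ O ≤ A.toSubring ∧
      (∀ o ∈ O, o ∈ A.nonunits → ∃ o' ∈ O, o = ϖ * o') ∧
      (∀ o ∈ O, o ∉ A.nonunits → o⁻¹ ∈ O) ∧
      (∀ a ∈ A, ∃ o ∈ O, a - o ∈ A.nonunits) ∧
      (∀ (p : Polynomial O) (α : Kb), α ∈ A → p.eval₂ O.subtype α = 0 →
        p.derivative.eval₂ O.subtype α ∉ A.nonunits → α ∈ O) := by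
  obtain ⟨O, hO₁O, hmax⟩ := rph_exists_maximal A O₁ hO₁ ϖ hI
  have halg' : ∀ a ∈ A, ∃ p : Polynomial ↥O, p.Monic ∧ p.eval₂ O.subtype a ∈ A.nonunits := by
    intro a ha
    obtain ⟨p, hp, hpa⟩ := halg a ha
    refine ⟨p.map (Subring.inclusion hO₁O), hp.map _, ?_⟩
    rw [Polynomial.eval₂_map]
    exact hpa
  have hres : ∀ a ∈ A, ∃ o ∈ O, a - o ∈ A.nonunits :=
    fun a ha => rph_maximal_residue hmax halg' ha
  exact ⟨O, hO₁O, hmax.prop.2.1, hmax.prop.2.2,
    fun o ho hon => rph_maximal_inv_mem hmax ho hon, hres,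
    fun p α hα hp hp' => rph_maximal_hensel hmax hres p hα hp hp'⟩

end Fermat.Agent.JT3
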