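/-
JT3 / node E (place map), producer side: the base level `O₀` of a valuation ring `A` over a
prime `ℓ` in an algebraic closure of `ℚ`, obtained from the strict henselisation
(`PlaceMap/Hens.lean`, `rph_exists_hens`) of `ℤ_(ℓ)` inside `A`:

* `rphi_exists_base` : a subring `O ⊆ A` which is a discrete valuation ring with uniformiser `ℓ`
  (`rpu_DVRData A O ℓ`), over whose fraction field `Kb` is algebraic, with the same residue field
  as `A`, henselian inside `A`, containing every root of unity of order prime to `ℓ`;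
* `rphi_exists_base_qbar` : the same for `A : ValuationSubring (AlgebraicClosure ℚ)`;
* `rphi_ebf_main` : the intermediate-field form (`K₀ := Frac O`, `A ∩ K₀ = O`).
Prefix `rphi_`.
-/
import Fermat.Agent.JT3.PlaceMap.Hens
import Fermat.Agent.JT3.PlaceMap.LevelDVR

set_option autoImplicit false

namespace Fermat.Agent.JT3

open Polynomial

section Gen

variable {Kb : Type*} [Field Kb] (A : ValuationSubring Kb) {ℓ : ℕ}

theorem rphi_add_mem_nonunits {x y : Kb} (hx : x ∈ A.nonunits) (hy : y ∈ A.nonunits) :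
    x + y ∈ A.nonunits := by
  rw [ValuationSubring.mem_nonunits_iff] at hx hy ⊢
  exact Valuation.map_add_lt _ hx hy

/-- an integer lying in `𝔪_A` is divisible by `ℓ`. -/
theorem rphi_dvd_of_mem_nonunits (hℓ : ℓ.Prime) (hA : (ℓ : Kb) ∈ A.nonunits) {n : ℤ}
    (hn : (n : Kb) ∈ A.nonunits) : (ℓ : ℤ) ∣ n := by
  by_contra hnd
  have hcop : IsCoprime (ℓ : ℤ) n :=
    (Nat.prime_iff_prime_int.mp hℓ).coprime_iff_not_dvd.mpr hnd
  obtain ⟨u, v, huv⟩ := hcop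
  have h1 : (1 : Kb) ∈ A.nonunits := by
    have h2 : (1 : Kb) = (ℓ : Kb) * (u : Kb) + (n : Kb) * (v : Kb) := by
      have := congrArg (Int.cast : ℤ → Kb) huv
      push_cast at this
      rw [← this]; ring
    rw [h2]
    exact rphi_add_mem_nonunits A (rp_mul_mem_nonunits A hA (intCast_mem A u))
      (rp_mul_mem_nonunits A hn (intCast_mem A v))
  exact rp_one_notMem_nonunits A h1

theorem rphi_intCast_mem_nonunits_iff (hℓ : ℓ.Prime) (hA : (ℓ : Kb) ∈ A.nonunits) (n : ℤ) :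
    (n : Kb) ∈ A.nonunits ↔ (ℓ : ℤ) ∣ n := by
  refine ⟨rphi_dvd_of_mem_nonunits A hℓ hA, ?_⟩
  rintro ⟨m, rfl⟩
  push_cast
  exact rp_mul_mem_nonunits A hA (intCast_mem A m)

/-- the prime subring of `Kb` localised at `A`: a copy of `ℤ_(ℓ)` -/
def rphi_O1 : Subring Kb := rph_loc A ⊥

theorem rphi_O1_le : rphi_O1 A ≤ A.toSubring :=
  rph_loc_le (fun x hx => by
    obtain ⟨n, rfl⟩ := Subring.mem_bot.mp hx
    exact intCast_mem A n)

theorem rphi_intCast_mem_O1 (n : ℤ) : (n : Kb) ∈ rphi_O1 A :=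
  rph_le_loc _ (Subring.mem_bot.mpr ⟨n, rfl⟩)

theorem rphi_natCast_mem_O1 (n : ℕ) : (n : Kb) ∈ rphi_O1 A := by
  have := rphi_intCast_mem_O1 A (n : ℤ)
  rwa [Int.cast_natCast] at this

/-- `(I2)` for `ℤ_(ℓ)`. -/
theorem rphi_O1_I2 (hℓ : ℓ.Prime) (hA : (ℓ : Kb) ∈ A.nonunits) :
    ∀ o ∈ rphi_O1 A, o ∈ A.nonunits → ∃ o' ∈ rphi_O1 A, o = (ℓ : Kb) * o' := by
  refine rph_loc_I2 ?_
  intro a ha ha'
  obtain ⟨n, rfl⟩ := Subring.mem_bot.mp ha
  obtain ⟨m, rfl⟩ := rphi_dvd_of_mem_nonunits A hℓ hA ha'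
  exact ⟨(m : Kb), rphi_intCast_mem_O1 A m, by push_cast; ring⟩

end Gen

section Halg

variable {Kb : Type*} [Field Kb] [CharZero Kb] (A : ValuationSubring Kb) {ℓ : ℕ}

omit [CharZero Kb] in
theorem rphi_zero_mem_nonunits : (0 : Kb) ∈ A.nonunits := by
  rw [ValuationSubring.mem_nonunits_iff, map_zero]
  exact zero_lt_one

/-- an element algebraic over `ℤ` is a root of a primitive integer polynomial. -/
theorem rphi_exists_primitive {x : Kb} (hx : ∃ P : Polynomial ℤ, P ≠ 0 ∧ aeval x P = 0) :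
    ∃ P : Polynomial ℤ, P.IsPrimitive ∧ P ≠ 0 ∧ aeval x P = 0 := by
  obtain ⟨P, hP0, hPx⟩ := hx
  refine ⟨P.primPart, P.isPrimitive_primPart, P.primPart_ne_zero, ?_⟩
  have h := P.eq_C_content_mul_primPart
  have hc : P.content ≠ 0 := by rwa [Ne, Polynomial.content_eq_zero_iff]
  rw [h, map_mul, aeval_C] at hPx
  rcases mul_eq_zero.mp hPx with h0 | h0
  · exfalso
    rw [eq_intCast, Int.cast_eq_zero] at h0
    exact hc h0
  · exact h0

/-- **`halg` for `ℤ_(ℓ)`**: every element of `A` algebraic over `ℤ` is, modulo `𝔪_A`, a root of a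
monic polynomial over `ℤ_(ℓ)`. -/
theorem rphi_halg (hℓ : ℓ.Prime) (hA : (ℓ : Kb) ∈ A.nonunits) {a : Kb} (ha : a ∈ A)
    (hx : ∃ P : Polynomial ℤ, P ≠ 0 ∧ aeval a P = 0) :
    ∃ p : Polynomial ↥(rphi_O1 A), p.Monic ∧ p.eval₂ (rphi_O1 A).subtype a ∈ A.nonunits := by
  obtain ⟨P, hprim, hP0, hPa⟩ := rphi_exists_primitive hx
  have hO := rphi_O1_le A
  set r : Polynomial ↥(rphi_O1 A) := P.map (Int.castRingHom _) with hr
  have hcoeffKb : ∀ i, ((r.coeff i : ↥(rphi_O1 A)) : Kb) = ((P.coeff i : ℤ) : Kb) := by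
    intro i
    rw [hr, Polynomial.coeff_map, eq_intCast]
    rfl
  have hcoef : ∀ i, rph_rho hO (r.coeff i) = 0 ↔ (ℓ : ℤ) ∣ P.coeff i := by
    intro i
    rw [rph_rho_eq_zero_iff, hcoeffKb]
    exact rphi_intCast_mem_nonunits_iff A hℓ hA _
  have hne : r.map (rph_rho hO) ≠ 0 := by
    intro h0
    have hdvd : (C (ℓ : ℤ)) ∣ P := by
      rw [Polynomial.C_dvd_iff_dvd_coeff]
      intro i
      have := congrArg (fun q => q.coeff i) h0
      simp only [Polynomial.coeff_map, Polynomial.coeff_zero] at this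
      exact (hcoef i).mp this
    exact (Nat.prime_iff_prime_int.mp hℓ).not_isUnit (hprim _ hdvd)
  set d := (r.map (rph_rho hO)).natDegree with hd
  have hlead : rph_rho hO (r.coeff d) ≠ 0 := by
    have := Polynomial.leadingCoeff_ne_zero.mpr hne
    rwa [Polynomial.leadingCoeff, Polynomial.coeff_map] at this
  have hcdu : ((P.coeff d : ℤ) : Kb) ∉ A.nonunits := by
    intro h
    apply hlead
    rw [rph_rho_eq_zero_iff, hcoeffKb]
    exact h
  have hval : A.valuation ((P.coeff d : ℤ) : Kb) = 1 := rph_val_eq_one A (intCast_mem A _) hcdu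
  have hinv : ((P.coeff d : ℤ) : Kb)⁻¹ ∈ rphi_O1 A :=
    rph_inv_mem_loc (Subring.mem_bot.mpr ⟨_, rfl⟩) hval
  obtain ⟨h, hmon, -, hmap⟩ := rph_exists_monic_of_reduction (rph_rho hO) r hne ⟨_, hinv⟩ (by
    apply Subtype.ext
    rw [Subring.coe_mul, hcoeffKb, Subring.coe_one]
    exact inv_mul_cancel₀ (rph_ne_zero_of_val_eq_one A hval))
  refine ⟨h, hmon, ?_⟩
  rw [rph_eval₂_mem_nonunits_iff hO ha, hmap, Polynomial.eval_mul, Polynomial.eval_C]
  have hra : r.eval₂ (rphi_O1 A).subtype a = 0 := by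
    rw [hr, Polynomial.eval₂_map]
    have : (rphi_O1 A).subtype.comp (Int.castRingHom ↥(rphi_O1 A)) = algebraMap ℤ Kb :=
      RingHom.ext_int _ _
    rw [this, ← Polynomial.aeval_def]
    exact hPa
  have h0 := (rph_eval₂_mem_nonunits_iff hO ha r).mp (by rw [hra]; exact rphi_zero_mem_nonunits A)
  rw [h0, mul_zero]

end Halg

section Main

variable {Kb : Type*} [Field Kb] [CharZero Kb] (A : ValuationSubring Kb) {ℓ : ℕ}

omit [CharZero Kb] in
theorem rphi_aeval_mem {o : Kb} (ho : o ∈ A) (R : Polynomial ℤ) : aeval o R ∈ A := by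
  rw [Polynomial.aeval_eq_sum_range]
  refine sum_mem (fun i _ => ?_)
  rw [zsmul_eq_mul]
  exact A.mul_mem _ _ (intCast_mem A _) (A.pow_mem ho i)

omit [CharZero Kb] in
/-- a nonzero element of `A` algebraic over `ℤ` divides a nonzero integer in `A`. -/
theorem rphi_exists_int_multiple {o : Kb} (ho : o ∈ A) (ho0 : o ≠ 0)
    (hx : ∃ P : Polynomial ℤ, P ≠ 0 ∧ aeval o P = 0) :
    ∃ c : ℤ, c ≠ 0 ∧ ∃ t ∈ A, (c : Kb) = o * t := by
  obtain ⟨P, hP0, hPo⟩ := hx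
  obtain ⟨Q, hPQ, hQ⟩ := Polynomial.exists_eq_pow_rootMultiplicity_mul_and_not_dvd P hP0 0
  rw [C_0, sub_zero] at hPQ hQ
  have hQo : aeval o Q = 0 := by
    rw [hPQ, map_mul, map_pow, aeval_X] at hPo
    exact (mul_eq_zero.mp hPo).resolve_left (pow_ne_zero _ ho0)
  have hc0 : Q.coeff 0 ≠ 0 := fun h => hQ (Polynomial.X_dvd_iff.mpr h)
  refine ⟨Q.coeff 0, hc0, -aeval o Q.divX, A.neg_mem _ (rphi_aeval_mem A ho _), ?_⟩
  have h := congrArg (aeval o) (Polynomial.divX_mul_X_add Q)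
  rw [map_add, map_mul, aeval_X, aeval_C, hQo, eq_intCast] at h
  linear_combination h

/-- **`O_str`**: a local subring `O ⊆ A` with `O ∩ 𝔪_A = ℓ O`, inside a field algebraic over `ℚ`,
is a discrete valuation ring with uniformiser `ℓ`. -/
theorem rphi_ostr (hℓ : ℓ.Prime) (hA : (ℓ : Kb) ∈ A.nonunits) (O : Subring Kb)
    (hOA : O ≤ A.toSubring)
    (hI : ∀ o ∈ O, o ∈ A.nonunits → ∃ o' ∈ O, o = (ℓ : Kb) * o')
    (hloc : ∀ o ∈ O, o ∉ A.nonunits → o⁻¹ ∈ O)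
    (halgZ : ∀ x : Kb, ∃ P : Polynomial ℤ, P ≠ 0 ∧ aeval x P = 0) :
    ∀ o ∈ O, o ≠ 0 → ∃ (n : ℕ) (u : Kb), u ∈ O ∧ u⁻¹ ∈ O ∧ o = (ℓ : Kb) ^ n * u := by
  have key : ∀ (m : ℕ) (c : ℤ), c.natAbs = m → c ≠ 0 → ∀ o ∈ O,
      (∃ t ∈ A, (c : Kb) = o * t) →
      ∃ (n : ℕ) (u : Kb), u ∈ O ∧ u⁻¹ ∈ O ∧ o = (ℓ : Kb) ^ n * u := by
    intro m
    induction m using Nat.strong_induction_on with
    | _ m ih =>
      rintro c hcm hc0 o ho ⟨t, ht, hct⟩
      by_cases hon : o ∈ A.nonunits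
      · obtain ⟨o', ho', rfl⟩ := hI o ho hon
        have hcn : (c : Kb) ∈ A.nonunits := by
          rw [hct]; exact rp_mul_mem_nonunits A hon ht
        obtain ⟨c', rfl⟩ := rphi_dvd_of_mem_nonunits A hℓ hA hcn
        have hℓ0 : (ℓ : Kb) ≠ 0 := Nat.cast_ne_zero.mpr hℓ.ne_zero
        have hc'0 : c' ≠ 0 := by rintro rfl; exact hc0 (mul_zero _)
        have hc' : (c' : Kb) = o' * t := by
          have : (ℓ : Kb) * (c' : Kb) = (ℓ : Kb) * (o' * t) := by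
            rw [← mul_assoc, ← hct]; push_cast; ring
          exact mul_left_cancel₀ hℓ0 this
        have hlt : c'.natAbs < m := by
          rw [← hcm, Int.natAbs_mul, Int.natAbs_natCast]
          have h1 : 0 < c'.natAbs := Int.natAbs_pos.mpr hc'0
          have h2 := hℓ.two_le
          nlinarith
        obtain ⟨n, u, hu, hui, hou⟩ := ih _ hlt c' rfl hc'0 o' ho' ⟨t, ht, hc'⟩
        exact ⟨n + 1, u, hu, hui, by rw [hou, pow_succ]; ring⟩
      · exact ⟨0, o, ho, hloc o ho hon, by rw [pow_zero, one_mul]⟩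
  intro o ho ho0
  obtain ⟨c, hc0, t, ht, hct⟩ := rphi_exists_int_multiple A (hOA ho) ho0 (halgZ o)
  exact key _ c rfl hc0 o ho ⟨t, ht, hct⟩

/-- `Kb` is algebraic over (the fraction field of) any subring. -/
theorem rphi_alg (O : Subring Kb)
    (halgZ : ∀ x : Kb, ∃ P : Polynomial ℤ, P ≠ 0 ∧ aeval x P = 0) :
    ∀ c : Kb, ∃ p : Polynomial Kb, p ≠ 0 ∧ (∀ i, p.coeff i ∈ O) ∧ p.eval c = 0 := by
  intro c
  obtain ⟨P, hP0, hPc⟩ := halgZ c
  refine ⟨P.map (algebraMap ℤ Kb), ?_, ?_, ?_⟩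
  · rwa [Ne, Polynomial.map_eq_zero_iff (RingHom.injective_int (algebraMap ℤ Kb))]
  · intro i
    rw [Polynomial.coeff_map, eq_intCast]
    exact intCast_mem O _
  · rw [Polynomial.eval_map, ← Polynomial.aeval_def]
    exact hPc

omit [CharZero Kb] in
/-- a henselian subring of `A` contains the roots of unity of order prime to `ℓ`. -/
theorem rphi_root_of_unity_mem (hℓ : ℓ.Prime) (hA : (ℓ : Kb) ∈ A.nonunits) (O : Subring Kb)
    (hOA : O ≤ A.toSubring)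
    (hH : ∀ (p : Polynomial ↥O) (α : Kb), α ∈ A → p.eval₂ O.subtype α = 0 →
      p.derivative.eval₂ O.subtype α ∉ A.nonunits → α ∈ O)
    (m : ℕ) (hℓm : ¬ ℓ ∣ m) (ζ : Kb) (hζ : ζ ^ m = 1) : ζ ∈ O := by
  have hm : m ≠ 0 := by rintro rfl; exact hℓm (dvd_zero _)
  have hroot : (X ^ m - C 1 : Polynomial ↥O).eval₂ O.subtype ζ = 0 := by
    rw [Polynomial.eval₂_sub, Polynomial.eval₂_pow, Polynomial.eval₂_X, Polynomial.eval₂_C,
      map_one, hζ, sub_self]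
  have hζA : ζ ∈ A := rph_root_mem hOA (Polynomial.monic_X_pow_sub_C (1 : ↥O) hm) hroot
  refine hH (X ^ m - C 1) ζ hζA hroot ?_
  rw [Polynomial.derivative_sub, Polynomial.derivative_X_pow, Polynomial.derivative_C, sub_zero,
    Polynomial.eval₂_mul, Polynomial.eval₂_pow, Polynomial.eval₂_X, Polynomial.eval₂_C,
    map_natCast]
  intro hmem
  have h1 := rp_mul_mem_nonunits A hmem hζA
  rw [mul_assoc, pow_sub_one_mul hm, hζ, mul_one] at h1
  have h2 : ((m : ℤ) : Kb) ∈ A.nonunits := by rwa [Int.cast_natCast]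
  have h3 := rphi_dvd_of_mem_nonunits A hℓ hA h2
  exact hℓm (by exact_mod_cast h3)

/-- **The base level.**  In an algebraically closed field `Kb` algebraic over `ℚ`, a valuation
ring `A` over the prime `ℓ` contains a discrete valuation ring `O` with uniformiser `ℓ`, with the
same residue field as `A`, henselian inside `A` (so that it contains all roots of unity of order
prime to `ℓ`), and `Kb` is algebraic over its fraction field. -/
theorem rphi_exists_base [IsAlgClosed Kb]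
    (halgZ : ∀ x : Kb, ∃ P : Polynomial ℤ, P ≠ 0 ∧ aeval x P = 0)
    (hℓ : ℓ.Prime) (hA : (ℓ : Kb) ∈ A.nonunits) :
    ∃ O : Subring Kb, rpu_DVRData A O (ℓ : Kb) ∧
      (∀ c : Kb, ∃ p : Polynomial Kb, p ≠ 0 ∧ (∀ i, p.coeff i ∈ O) ∧ p.eval c = 0) ∧
      (∀ a : A, ∃ o ∈ O, (a : Kb) - o ∈ A.nonunits) ∧
      (∀ (p : Polynomial ↥O) (α : Kb), α ∈ A → p.eval₂ O.subtype α = 0 →
        p.derivative.eval₂ O.subtype α ∉ A.nonunits → α ∈ O) ∧
      (∀ m : ℕ, ¬ ℓ ∣ m → ∀ ζ : Kb, ζ ^ m = 1 → ζ ∈ O) ∧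
      (∀ o ∈ O, o ∉ A.nonunits → o⁻¹ ∈ O) := by
  obtain ⟨O, hO1, hOA, hI, hloc, hres, hH⟩ := rph_exists_hens A (rphi_O1 A) (rphi_O1_le A)
    (ℓ : Kb) (rphi_natCast_mem_O1 A ℓ) (rphi_O1_I2 A hℓ hA)
    (fun a ha => rphi_halg A hℓ hA ha (halgZ a))
  exact ⟨O, ⟨fun o ho => hOA ho, hO1 (rphi_natCast_mem_O1 A ℓ), Nat.cast_ne_zero.mpr hℓ.ne_zero,
    hA, rphi_ostr A hℓ hA O hOA hI hloc halgZ⟩, rphi_alg O halgZ, fun a => hres a a.2, hH,
    fun m hm ζ hζ => rphi_root_of_unity_mem A hℓ hA O hOA hH m hm ζ hζ, hloc⟩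

end Main

section Qbar

theorem rphi_halgZ_qbar :
    ∀ x : AlgebraicClosure ℚ, ∃ P : Polynomial ℤ, P ≠ 0 ∧ aeval x P = 0 := fun x => by
  have _ : Algebra.IsAlgebraic ℚ (AlgebraicClosure ℚ) := AlgebraicClosure.isAlgebraic ℚ
  exact (IsFractionRing.isAlgebraic_iff ℤ ℚ (AlgebraicClosure ℚ)).mpr
    (Algebra.IsAlgebraic.isAlgebraic x)

/-- the base level of a valuation ring of `ℚ̄` over `ℓ`. -/
theorem rphi_exists_base_qbar (A : ValuationSubring (AlgebraicClosure ℚ)) (ℓ : ℕ)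
    [hℓ : Fact ℓ.Prime] (hA : A.LiesOverPrime ℓ) :
    ∃ O : Subring (AlgebraicClosure ℚ), rpu_DVRData A O (ℓ : AlgebraicClosure ℚ) ∧
      (∀ c : AlgebraicClosure ℚ, ∃ p : Polynomial (AlgebraicClosure ℚ),
        p ≠ 0 ∧ (∀ i, p.coeff i ∈ O) ∧ p.eval c = 0) ∧
      (∀ a : A, ∃ o ∈ O, (a : AlgebraicClosure ℚ) - o ∈ A.nonunits) ∧
      (∀ (p : Polynomial ↥O) (α : AlgebraicClosure ℚ), α ∈ A → p.eval₂ O.subtype α = 0 →
        p.derivative.eval₂ O.subtype α ∉ A.nonunits → α ∈ O) ∧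
      (∀ m : ℕ, ¬ ℓ ∣ m → ∀ ζ : AlgebraicClosure ℚ, ζ ^ m = 1 → ζ ∈ O) ∧
      (∀ o ∈ O, o ∉ A.nonunits → o⁻¹ ∈ O) :=
  rphi_exists_base A rphi_halgZ_qbar hℓ.out hA

/-- the intermediate-field form of the base level: `K₀ := Frac O`, `A ∩ K₀ = O` is a discrete
valuation ring with uniformiser `ℓ` and the same residue field as `A`, and `K₀` contains the roots
of unity of order prime to `ℓ`. -/
theorem rphi_ebf_main_ext (A : ValuationSubring (AlgebraicClosure ℚ)) (ℓ : ℕ) [Fact ℓ.Prime]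
    (hA : A.LiesOverPrime ℓ) :
    ∃ K₀ : IntermediateField ℚ (AlgebraicClosure ℚ),
      IsDiscreteValuationRing ↥(A.comap (algebraMap ↥K₀ (AlgebraicClosure ℚ))) ∧
      (∀ a : A, ∃ (o : AlgebraicClosure ℚ) (h : o ∈ A), o ∈ K₀ ∧
        IsLocalRing.residue A ⟨o, h⟩ = IsLocalRing.residue A a) ∧
      (∀ m : ℕ, ¬ ℓ ∣ m → ∀ ζ : AlgebraicClosure ℚ, ζ ^ m = 1 → ζ ∈ K₀) ∧
      (∀ x : AlgebraicClosure ℚ, x ∈ K₀ → x ∈ A.nonunits →
        ∃ y : AlgebraicClosure ℚ, y ∈ K₀ ∧ y ∈ A ∧ x = (ℓ : AlgebraicClosure ℚ) * y) ∧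
      (∀ (p : Polynomial ↥K₀) (α : AlgebraicClosure ℚ), (∀ i, ((p.coeff i : ↥K₀) :
        AlgebraicClosure ℚ) ∈ A) → α ∈ A → Polynomial.aeval α p = 0 →
        Polynomial.aeval α p.derivative ∉ A.nonunits → α ∈ K₀) := by
  obtain ⟨O, hD, -, hres, hH, hζ, hloc⟩ := rphi_exists_base_qbar A ℓ hA
  let K₀ : IntermediateField ℚ (AlgebraicClosure ℚ) :=
    (Subfield.closure (O : Set (AlgebraicClosure ℚ))).toIntermediateField (fun x => by
      rw [eq_ratCast]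
      exact SubfieldClass.ratCast_mem _ x)
  have hOK : ∀ o ∈ O, o ∈ K₀ := fun o ho => Subfield.subset_closure ho
  have hKO : ∀ x : AlgebraicClosure ℚ, x ∈ K₀ → x ∈ A → x ∈ O := fun x hx hxA =>
    hD.mem_of_mem_closure hx hxA
  refine ⟨K₀, ?_, ?_, ?_, ?_, ?_⟩
  · refine hD.isDVR_of_image ((algebraMap ↥K₀ (AlgebraicClosure ℚ)).comp
      (A.comap (algebraMap ↥K₀ (AlgebraicClosure ℚ))).subtype) ?_ ?_
    · intro x y hxy
      apply Subtype.ext
      exact (algebraMap ↥K₀ (AlgebraicClosure ℚ)).injective hxy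
    · intro x
      constructor
      · intro hx
        exact ⟨⟨⟨x, hOK x hx⟩, hD.O_le x hx⟩, rfl⟩
      · rintro ⟨r, rfl⟩
        exact hKO _ (r : ↥K₀).2 r.2
  · intro a
    obtain ⟨o, ho, hao⟩ := hres a
    refine ⟨o, hD.O_le o ho, hOK o ho, ?_⟩
    exact (rph_residue_eq_of_sub_mem a.2 (hD.O_le o ho) hao).symm
  · intro m hm ζ hζm
    exact hOK ζ (hζ m hm ζ hζm)
  · intro x hx hxn
    have hxA : x ∈ A := (ValuationSubring.mem_nonunits_iff_exists_mem_maximalIdeal.mp hxn).1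
    have hxO := hKO x hx hxA
    have hx0 : x ≠ 0 ∨ x = 0 := (em (x = 0)).symm
    rcases hx0 with hx0 | rfl
    · obtain ⟨n, u, hu, hui, hxu⟩ := hD.O_str x hxO hx0
      rcases Nat.eq_zero_or_pos n with rfl | hn
      · exfalso
        rw [pow_zero, one_mul] at hxu
        have h1 := rp_mul_mem_nonunits A hxn (hD.O_le _ hui)
        rw [hxu, mul_inv_cancel₀] at h1
        · exact rp_one_notMem_nonunits A h1
        · rintro rfl
          exact hx0 hxu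
      · obtain ⟨n', rfl⟩ : ∃ n', n = n' + 1 := ⟨n - 1, by omega⟩
        have hy : (ℓ : AlgebraicClosure ℚ) ^ n' * u ∈ O :=
          O.mul_mem (O.pow_mem hD.ϖ_mem _) hu
        exact ⟨_, hOK _ hy, hD.O_le _ hy, by rw [hxu, pow_succ]; ring⟩
    · exact ⟨0, K₀.zero_mem, A.zero_mem, by rw [mul_zero]⟩
  · intro p α hp hαA hroot hder
    -- the coefficients of `p` lie in `O`
    have hpO : ∀ i, ((p.coeff i : ↥K₀) : AlgebraicClosure ℚ) ∈ O := fun i =>
      hKO _ (p.coeff i).2 (hp i)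
    have hlift : p.map (algebraMap ↥K₀ (AlgebraicClosure ℚ)) ∈ Polynomial.lifts O.subtype := by
      rw [Polynomial.lifts_iff_coeff_lifts]
      intro i
      rw [Polynomial.coeff_map]
      exact ⟨⟨_, hpO i⟩, rfl⟩
    obtain ⟨q, hq⟩ := (Polynomial.mem_lifts _).1 hlift
    refine hOK α (hH q α hαA ?_ ?_)
    · rw [← Polynomial.eval_map, hq, Polynomial.eval_map, ← Polynomial.aeval_def]
      exact hroot
    · rw [← Polynomial.eval_map, ← Polynomial.derivative_map, hq, Polynomial.derivative_map,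
        Polynomial.eval_map, ← Polynomial.aeval_def]
      exact hder

/-- helper14's `ebf_main` (#1446 (6)) verbatim. -/
theorem rphi_ebf_main (A : ValuationSubring (AlgebraicClosure ℚ)) (ℓ : ℕ) [Fact ℓ.Prime]
    (hA : A.LiesOverPrime ℓ) :
    ∃ K₀ : IntermediateField ℚ (AlgebraicClosure ℚ),
      IsDiscreteValuationRing ↥(A.comap (algebraMap ↥K₀ (AlgebraicClosure ℚ))) ∧
      (∀ a : A, ∃ (o : AlgebraicClosure ℚ) (h : o ∈ A), o ∈ K₀ ∧
        IsLocalRing.residue A ⟨o, h⟩ = IsLocalRing.residue A a) ∧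
      (∀ m : ℕ, ¬ ℓ ∣ m → ∀ ζ : AlgebraicClosure ℚ, ζ ^ m = 1 → ζ ∈ K₀) := by
  obtain ⟨K₀, h1, h2, h3, -, -⟩ := rphi_ebf_main_ext A ℓ hA
  exact ⟨K₀, h1, h2, h3⟩

end Qbar

end Fermat.Agent.JT3
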