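/-
JT3 / node E, producer side: the Hesse instance of the Galois descent [E-GAL] (B) and the complete
Hesse chain (prefix `rpw_hesi_`).

(Verbatim copy, with the prefix renamed, of helper27's `PlaceMap/CoverGaloisHesInst.lean` of
commit 44f79b4: that path was later replaced by a different file with the same name, so
`PlaceMap/Wire.lean` consumes this private copy and does not depend on that path.)

`L` a field of characteristic zero, `O ⊆ L` a discrete valuation ring with `3 ∈ O^×`, a primitive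
cube root of unity in `O` and algebraically closed residue field.  `F2 := hs_F3 L N = φ₃(F_N)`,
`E := hs_E L h3 N = φ₃(F_N)(μ)`, `j₃ = j(q³)`.

* `rpw_hesi_dedekind1/2`: `rcq_hes_dedekind` (helper11) at `(F2, E, μ, j₃)`;
* `rpw_hesi_dedekind_of_regAt`: regularity of the two `μ`-charts of `E` along `π = 0`
  ⟹ the two `j`-charts of `lg_F L N` are Dedekind modulo `π`
  (`rrd_dedekind_of_regAt` ⟹ `rch_T1/T2` ⟹ `rcq_hes_dedekind` ⟹ `rct_hes_dedekind_j/_jinv`).
-/
import Mathlib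
import Fermat.Agent.JT3.PlaceMap.CoverGaloisHes
import Fermat.Agent.JT3.PlaceMap.CoverLocHesse
import Fermat.Agent.JT3.PlaceMap.CoverTransport
import Fermat.Agent.JT3.PlaceMap.RegDedekind
import Fermat.Agent.JT3.Inst.HesseReg
import Fermat.Agent.JT3.Inst.HesseTowerFinite
import Fermat.Agent.JT3.Inst.HesseFunFieldFacts
import Fermat.Agent.S24.Hurwitz.FunctionField

set_option autoImplicit false
set_option linter.unusedSectionVars false
set_option linter.style.haveILetI false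

noncomputable section

open ModularCurve IntermediateField AlgebraicCurve IsLocalRing

namespace Fermat.Agent.JT3

section Instances

variable {L : Type*} [Field L] (h3 : (3 : L) ≠ 0) (O : ValuationSubring L) (N : ℕ) [NeZero N]

/-- shortcut instance. -/
instance rpw_hesi_algOF3 : Algebra ↥O ↥(hs_F3 L N) := Algebra.ofSubsemiring O

instance rpw_hesi_tower_O_L_F3 : IsScalarTower ↥O L ↥(hs_F3 L N) :=
  IsScalarTower.of_algebraMap_eq (fun _ => rfl)

attribute [local instance] hsh_algF3E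

instance rpw_hesi_tower_L_F3_E : IsScalarTower L (hs_F3 L N) (hs_E L h3 N) :=
  lgh_isScalarTower_base (hs_F3_le_E L h3 N)

instance rpw_hesi_tower_O_F3_E : IsScalarTower ↥O (hs_F3 L N) (hs_E L h3 N) :=
  IsScalarTower.of_algebraMap_eq (fun _ => rfl)

theorem rpw_hesi_algebraMap_j :
    algebraMap (hs_F3 L N) (hs_E L h3 N) (rml_jF3 L N) = hsf_j3E L h3 N := rfl

/-- `E = φ₃(F_N)(μ)`. -/
theorem rpw_hesi_hgen :
    IntermediateField.adjoin (hs_F3 L N) {(hs_muE h3 N : hs_E L h3 N)} = ⊤ := by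
  rw [eq_top_iff]
  rintro z -
  set M : IntermediateField (hs_F3 L N) (hs_E L h3 N) :=
    IntermediateField.adjoin (hs_F3 L N) {(hs_muE h3 N : hs_E L h3 N)} with hM
  let M' : IntermediateField L (LaurentSeries L) := (M.restrictScalars L).map (hs_E L h3 N).val
  have h1 : hs_F3 L N ≤ M' := by
    intro x hx
    refine ⟨⟨x, hs_F3_le_E L h3 N hx⟩, ?_, rfl⟩
    show (⟨x, hs_F3_le_E L h3 N hx⟩ : hs_E L h3 N) ∈ M
    exact M.algebraMap_mem ⟨x, hx⟩
  have h2 : hs_K L h3 ≤ M' := by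
    rw [hs_K, IntermediateField.adjoin_le_iff]
    rintro _ rfl
    refine ⟨hs_muE h3 N, ?_, rfl⟩
    show (hs_muE h3 N : hs_E L h3 N) ∈ M
    exact IntermediateField.mem_adjoin_simple_self _ _
  have h3' : hs_E L h3 N ≤ M' := sup_le h1 h2
  obtain ⟨w, hw, hwz⟩ := h3' z.2
  have : w = z := Subtype.ext hwz
  rw [← this]
  exact hw

/-- the Hesse relation in `E` over `φ₃(F_N)`. -/
theorem rpw_hesi_hhes [CharZero L] :
    cv_hesN (hs_muE h3 N : hs_E L h3 N)
      = algebraMap (hs_F3 L N) (hs_E L h3 N) (rml_jF3 L N) * cv_hesD (hs_muE h3 N) := by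
  unfold cv_hesN cv_hesD
  exact hsf_hesseE L h3 N

variable [CharZero L]

/-- `j₃ = j(q³)` is transcendental over `L`. -/
theorem rpw_hesi_j3_transcendental : Transcendental L (hs_j3 L) := by
  refine lgf_transcendental_of_coeff (n := -3) (by norm_num) ?_
  have h := qExpand_coeff_mul (R := L) (N := 3) (jqModC L) (-1)
  have h2 : ((3 : ℕ) : ℤ) * (-1) = -3 := by norm_num
  rw [h2] at h
  rw [hs_j3, h, coeff_jqModC_neg_one]
  exact one_ne_zero

theorem rpw_hesi_j_transcendental : Transcendental L (rml_jF3 L N) := fun h =>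
  rpw_hesi_j3_transcendental (IntermediateField.isAlgebraic_iff.1 h)

/-- `φ₃(F_N)` is finite over `L(j₃)`. -/
theorem rpw_hesi_finite_F3 : FiniteDimensional L⟮rml_jF3 L N⟯ (hs_F3 L N) := by
  refine lgf_finite_of_gens (hs_F3 L N) _ ((jcr_finite_gens (k := L) N).image _)
    (hsf_tower_F3_eq_adjoin L N) (rml_jF3 L N) ?_
  rintro y ⟨_, ⟨d, hd, hdN, rfl⟩, hy⟩
  haveI := hd
  obtain ⟨ℓ, hℓN, hℓ⟩ := Nat.exists_infinite_primes (N + 1)
  haveI : Fact ℓ.Prime := ⟨hℓ⟩
  have hℓd : ¬ ℓ ∣ d := fun h => by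
    have := Nat.le_of_dvd (Nat.pos_of_ne_zero (NeZero.ne N)) (h.trans hdN)
    omega
  let ρ : ↥(GaloisRep.ratLocalizedAt ℓ) →+* L :=
    (algebraMap ℚ L).comp (GaloisRep.ratLocalizedAt ℓ).subtype
  obtain ⟨Φ, hm, h0⟩ := hsf_modEq_twist L d ℓ hℓd ρ
  refine (lgf_isIntegral_of_modEq (hs_F3 L N).val ρ L⟮rml_jF3 L N⟯
    (x := rml_jF3 L N) (y := y) (mem_adjoin_simple_self L _) Φ hm ?_).isAlgebraic
  have hy' : (hs_F3 L N).val y = hs_phi L (qExpand L d (jqModC L)) := hy.symm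
  rw [hy']
  exact h0

theorem rpw_hesi_finite_F3_inv : FiniteDimensional L⟮(rml_jF3 L N)⁻¹⟯ (hs_F3 L N) :=
  haveI := rpw_hesi_finite_F3 (L := L) N
  Fermat.Agent.S24.hw_finiteDimensional_adjoin (rml_jF3 L N)
    (fun h => rpw_hesi_j_transcendental N (IsAlgebraic.inv_iff.1 h))

end Instances

section Dedekind

variable {L : Type*} [Field L] [CharZero L] (h3 : (3 : L) ≠ 0) (O : ValuationSubring L)
  [IsDiscreteValuationRing O] (N : ℕ) [NeZero N] {π : O} (hπ : Irreducible π)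

attribute [local instance] hsh_algF3E

include hπ in
/-- **[E-GAL] (B) at the Hesse instance, chart `j₃ ≠ ∞`.** -/
theorem rpw_hesi_dedekind1 [IsAlgClosed (ResidueField O)] (h3O : IsUnit (3 : O)) (w : O)
    (hw : IsPrimitiveRoot w 3)
    (hD : IsDedekindDomain (fc_chart O ({hsf_j3E L h3 N} : Set (hs_E L h3 N)) ⧸
      Ideal.span {algebraMap O (fc_chart O ({hsf_j3E L h3 N} : Set (hs_E L h3 N))) π})) :
    IsDedekindDomain (fc_chart O ({rml_jF3 L N} : Set (hs_F3 L N)) ⧸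
      Ideal.span {algebraMap O (fc_chart O ({rml_jF3 L N} : Set (hs_F3 L N))) π}) := by
  haveI := rpw_hesi_finite_F3 (L := L) N
  exact rcq_hes_dedekind hπ (hs_muE h3 N) (rml_jF3 L N) (rpw_hesi_hhes h3 N)
    (rpw_hesi_hgen h3 N) (hsf_mu_transcendental L h3 N) w hw h3O (rml_jF3 L N) (Or.inl rfl) hD

include hπ in
/-- **[E-GAL] (B) at the Hesse instance, chart `j₃ ≠ 0`.** -/
theorem rpw_hesi_dedekind2 [IsAlgClosed (ResidueField O)] (h3O : IsUnit (3 : O)) (w : O)
    (hw : IsPrimitiveRoot w 3)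
    (hD : IsDedekindDomain (fc_chart O ({(hsf_j3E L h3 N)⁻¹} : Set (hs_E L h3 N)) ⧸
      Ideal.span {algebraMap O (fc_chart O ({(hsf_j3E L h3 N)⁻¹} : Set (hs_E L h3 N))) π})) :
    IsDedekindDomain (fc_chart O ({(rml_jF3 L N)⁻¹} : Set (hs_F3 L N)) ⧸
      Ideal.span {algebraMap O (fc_chart O ({(rml_jF3 L N)⁻¹} : Set (hs_F3 L N))) π}) := by
  haveI := rpw_hesi_finite_F3_inv (L := L) N
  have hmap : algebraMap (hs_F3 L N) (hs_E L h3 N) (rml_jF3 L N)⁻¹ = (hsf_j3E L h3 N)⁻¹ := by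
    rw [map_inv₀, rpw_hesi_algebraMap_j]
  refine rcq_hes_dedekind hπ (hs_muE h3 N) (rml_jF3 L N) (rpw_hesi_hhes h3 N)
    (rpw_hesi_hgen h3 N) (hsf_mu_transcendental L h3 N) w hw h3O (rml_jF3 L N)⁻¹ (Or.inr rfl) ?_
  rw [hmap]
  exact hD

include hπ in
/-- **The Hesse chain**: regularity of the two `μ`-charts of `E = φ₃(F_N)(μ)` along `π = 0`
⟹ the two `j`-charts of `lg_F L N` are Dedekind domains modulo `π`. -/
theorem rpw_hesi_dedekind_of_regAt [IsAlgClosed (ResidueField O)] (h3O : IsUnit (3 : O)) (w : O)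
    (hw : IsPrimitiveRoot w 3)
    (hr3 : jt_RegAt (fc_chart O ({hs_muE h3 N} : Set (hs_E L h3 N)))
      (algebraMap O (fc_chart O ({hs_muE h3 N} : Set (hs_E L h3 N))) π))
    (hr4 : jt_RegAt (fc_chart O ({(hs_muE h3 N)⁻¹} : Set (hs_E L h3 N)))
      (algebraMap O (fc_chart O ({(hs_muE h3 N)⁻¹} : Set (hs_E L h3 N))) π)) :
    IsDedekindDomain (fc_chart O ({rml_jF L N} : Set ↥(lg_F L N)) ⧸
        Ideal.span {algebraMap O (fc_chart O ({rml_jF L N} : Set ↥(lg_F L N))) π}) ∧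
      IsDedekindDomain (fc_chart O ({(rml_jF L N)⁻¹} : Set ↥(lg_F L N)) ⧸
        Ideal.span {algebraMap O (fc_chart O ({(rml_jF L N)⁻¹} : Set ↥(lg_F L N))) π}) := by
  have hx : Transcendental L (hs_muE h3 N : hs_E L h3 N) := hsf_mu_transcendental L h3 N
  haveI := hsf_finite L h3 N
  have hconst : ∀ z : hs_E L h3 N, IsAlgebraic L z → z ∈ (algebraMap L (hs_E L h3 N)).range :=
    fun z hz => lgf_hconst (hs_E L h3 N) z hz
  obtain ⟨hd1, hd2⟩ := rrd_dedekind_of_regAt (K0 := L) hπ hx hconst hr3 hr4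
  have hπp : Prime π := hπ.prime
  have htrO : Transcendental O (hs_muE h3 N : hs_E L h3 N) :=
    fc_ff_transcendental (L := L) hx
  have hhes : cv_hesN (hs_muE h3 N : hs_E L h3 N)
      = hsf_j3E L h3 N * cv_hesD (hs_muE h3 N) := rpw_hesi_hhes h3 N
  have hT1 := @rch_T1 _ _ _ _ _ (hs_muE h3 N) (hsf_j3E L h3 N) hhes h3O π hπp htrO hd1
  have hT2 := @rch_T2 _ _ _ _ _ (hs_muE h3 N) (hsf_j3E L h3 N) hhes h3O π hπp htrO hd2
  exact ⟨rct_hes_dedekind_j L O N π (rpw_hesi_dedekind1 h3 O N hπ h3O w hw hT1),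
    rct_hes_dedekind_jinv L O N π (rpw_hesi_dedekind2 h3 O N hπ h3O w hw hT2)⟩

end Dedekind

end Fermat.Agent.JT3
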